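import Fermat.Agent.S16.Plan
import Fermat.Agent.S23

/-!
# S16/EvZero: `ev P = 0` iff `P` kills `S₂(Γ₀(p))`  (S23 + `latticeRestrictHom_bijective`)
-/

set_option autoImplicit false

noncomputable section

namespace Fermat.Agent.S16

open ModularCurve CuspForm CongruenceSubgroup

/-- `ev P = 0` iff `P` kills `S₂(Γ₀(p))`. -/
theorem evZero (p : ℕ) [NeZero p] : EvZeroStmt p := by
  intro P
  have hbij := latticeRestrictHom_bijective p ∅ (Fermat.Agent.S23.result p)
  constructor
  · intro h
    have h1 : latticeRestrictHom p ∅ (heckeEvalForms p 2 P) = latticeRestrictHom p ∅ 0 := by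
      rw [map_zero]; exact h
    have h2 := hbij.1 h1
    rw [h2]; rfl
  · intro h
    have h2 : heckeEvalForms p 2 P = 0 := Subtype.ext h
    change latticeRestrictHom p ∅ (heckeEvalForms p 2 P) = 0
    rw [h2, map_zero]

end Fermat.Agent.S16
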