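import Mathlib
import Fermat.Prelude.Def_CuspForm_HeckeLocal
import Fermat.Prelude.Def_CuspForm_HeckeEvalForms
import Fermat.Prelude.Def_HeckeGalois_EichlerShimura
import Fermat.Prelude.Def_ModularCurve_ModularUnit

/-!
# S16 (Mazur's Eisenstein index `#𝕋/I = (p-1)/gcd(p-1,12)`): shared definitions and contracts

This file contains ONLY definitions: the shared vocabulary of the S16 packages and, for every
package, its contract as a `Prop` (`def ... : Prop`).  A package proves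
`theorem <name> ... : <Contract>`; a package that USES another one takes the contract as a
hypothesis (so it can be written and landed before the other package exists).

Mathematics (board #682, #716): with `ev p : HeckeAlg → 𝕋` (the map of the frozen statement) and
`chiE p : HeckeAlg → ℤ` (`T_ℓ ↦ 1 + ℓ`, `U_p ↦ 1`), and `n = eisensteinNumerator p`:

* `UpperBound p` : `∃ P, ev P = 0 ∧ chiE P = n`   (`#𝕋/I ∣ n`)
* `LowerBound p` : `∀ P, ev P = 0 → n ∣ chiE P`   (`n ∣ #𝕋/I`)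

Upper bound = trace principle (`PairAPI`) + level-one Sturm (`SturmLow`), through `ClaimU`.
-/

set_option autoImplicit false

noncomputable section

namespace Fermat.Agent.S16

open ModularCurve CuspForm UpperHalfPlane CongruenceSubgroup ModularFormClass
open scoped MatrixGroups ModularForm

/-! ## 0. The two bounds -/

/-- The evaluation map of the frozen statement S16. -/
def ev (p : ℕ) [NeZero p] : HeckeAlg →+* ↥(heckeLatticeAlgebra p ∅) :=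
  (latticeRestrictHom p ∅).toRingHom.comp (heckeEvalForms p 2)

/-- The Eisenstein character `T_ℓ ↦ 1 + ℓ` (`ℓ ≠ p`), `U_p ↦ 1`. -/
def chiE (p : ℕ) : HeckeAlg →+* ℤ := (MvPolynomial.aeval (eisensteinSystem p)).toRingHom

/-- (UB): some Hecke polynomial killing `S₂(Γ₀(p))` has Eisenstein eigenvalue `n`. -/
def UpperBound (p : ℕ) [NeZero p] : Prop :=
  ∃ P : HeckeAlg, ev p P = 0 ∧ chiE p P = (eisensteinNumerator p : ℤ)

/-- (LB): every Hecke polynomial killing `S₂(Γ₀(p))` has Eisenstein eigenvalue divisible by `n`. -/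
def LowerBound (p : ℕ) [NeZero p] : Prop :=
  ∀ P : HeckeAlg, ev p P = 0 → (eisensteinNumerator p : ℤ) ∣ chiE p P

/-- The frozen statement, as a `Prop`. -/
def Goal (p : ℕ) [NeZero p] : Prop :=
  Nat.card (↥(heckeLatticeAlgebra p ∅) ⧸
      Ideal.map ((latticeRestrictHom p ∅).toRingHom.comp (heckeEvalForms p 2))
        (eisensteinIdeal p)) = eisensteinNumerator p

/-- Contract of `S16/Reduce`: pure algebra, `𝕋/I ≅ ℤ/χ(ker ev)`. -/
def ReduceStmt (p : ℕ) [NeZero p] : Prop := UpperBound p → LowerBound p → Goal p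

/-- Contract of `S16/Reduce` (second half): `ev P = 0` iff `P` kills `S₂(Γ₀(p))`
(`latticeRestrictHom_bijective` + S23). -/
def EvZeroStmt (p : ℕ) [NeZero p] : Prop :=
  ∀ P : HeckeAlg, ev p P = 0 ↔
    ((heckeEvalForms p 2 P : heckeAlgebra p 2 ∅) : Module.End ℂ (CuspForm (Gamma0 p) 2)) = 0

/-! ## 1. q-series operators, pairs `(F, F♭)` and the trace principle -/

/-- `U_p` on q-series: `a_n ↦ a_{pn}`. -/
def psU (p : ℕ) (A : PowerSeries ℂ) : PowerSeries ℂ :=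
  PowerSeries.mk fun n => PowerSeries.coeff (p * n) A

/-- `V_p` on q-series: `q ↦ q^p`. -/
def psV (p : ℕ) (A : PowerSeries ℂ) : PowerSeries ℂ :=
  PowerSeries.mk fun n => if p ∣ n then PowerSeries.coeff (n / p) A else 0

/-- The point `-1/(p z)` of the upper half plane. -/
def frickePt (p : ℕ) [NeZero p] (z : ℍ) : ℍ :=
  ⟨-1 / ((p : ℂ) * z), by
    have hp : (0 : ℝ) < p := Nat.cast_pos.mpr (NeZero.pos p)
    have hz := z.im_pos
    have hne : (p : ℂ) * (z : ℂ) ≠ 0 :=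
      mul_ne_zero (Nat.cast_ne_zero.mpr (NeZero.ne p)) z.ne_zero
    rw [Complex.div_im]
    have h1 : ((p : ℂ) * (z : ℂ)).im = p * z.im := by simp
    have hn : 0 < Complex.normSq ((p : ℂ) * (z : ℂ)) := Complex.normSq_pos.mpr hne
    simp only [Complex.neg_im, Complex.one_im, neg_zero, zero_mul, zero_div, Complex.neg_re,
      Complex.one_re, h1]
    have h2 : 0 < (p : ℝ) * z.im / Complex.normSq ((p : ℂ) * (z : ℂ)) := by positivity
    have e : (0 : ℝ) - -1 * ((p : ℝ) * z.im) / Complex.normSq ((p : ℂ) * (z : ℂ)) =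
        (p : ℝ) * z.im / Complex.normSq ((p : ℂ) * (z : ℂ)) := by ring
    rw [e]; exact h2⟩

@[simp] theorem coe_frickePt (p : ℕ) [NeZero p] (z : ℍ) :
    ((frickePt p z : ℍ) : ℂ) = -1 / ((p : ℂ) * z) := rfl

/-- `IsPair p k A B`: `A`, `B` are the q-expansions at `∞` of some `F ∈ M_k(Γ₀(p))` and of
`F♭(z) = (p z)^(-k) F(-1/(p z))` (which is again in `M_k(Γ₀(p))`). -/
def IsPair (p : ℕ) [NeZero p] (k : ℤ) (A B : PowerSeries ℂ) : Prop :=
  ∃ F F' : ModularForm (Gamma0 p) k,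
    (∀ z : ℍ, F' z = ((p : ℂ) * z) ^ (-k) * F (frickePt p z)) ∧
      qExpansion 1 F = A ∧ qExpansion 1 F' = B

/-- Contract of `S16/TracePair`: the calculus of pairs and THE TRACE PRINCIPLE
`F + p U_p(F♭) ∈ M_k(SL₂(ℤ))` (`Tr F = F + ∑_j F|S T^j`). -/
structure PairAPI (p : ℕ) [NeZero p] : Prop where
  add : ∀ {k : ℤ} {A B A' B' : PowerSeries ℂ}, IsPair p k A B → IsPair p k A' B' →
    IsPair p k (A + A') (B + B')
  smul : ∀ {k : ℤ} {A B : PowerSeries ℂ} (c : ℂ), IsPair p k A B → IsPair p k (c • A) (c • B)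
  mul : ∀ {k k' : ℤ} {A B A' B' : PowerSeries ℂ}, IsPair p k A B → IsPair p k' A' B' →
    IsPair p (k + k') (A * A') (B * B')
  /-- a level-one form `X`: `X♭ = X(p z)`. -/
  levelOne : ∀ {w : ℤ} (X : ModularForm 𝒮ℒ w),
    IsPair p w (qExpansion 1 X) (psV p (qExpansion 1 X))
  /-- `X(p z)` for level-one `X`: `(X(p·))♭ = p^(-w) X`. -/
  levelOneV : ∀ {w : ℤ} (X : ModularForm 𝒮ℒ w),
    IsPair p w (psV p (qExpansion 1 X)) (((p : ℂ) ^ (-w)) • qExpansion 1 X)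
  /-- the trace principle. -/
  trace : ∀ {k : ℤ} {A B : PowerSeries ℂ}, IsPair p k A B →
    ∃ X : ModularForm 𝒮ℒ k, qExpansion 1 X = A + (p : ℂ) • psU p B
  /-- weight two: `G♭ = -U_p G / p`. -/
  weightTwo : ∀ G : ModularForm (Gamma0 p) 2,
    IsPair p 2 (qExpansion 1 G) ((-(p : ℂ)⁻¹) • psU p (qExpansion 1 G))

/-! ## 2. `ℓ`-integrality, level-one Sturm, the trace–Sturm lemma -/

/-- `x ∈ ℤ_(ℓ)` (a rational number with denominator prime to `ℓ`). -/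
def IsLInt (ℓ : ℕ) (x : ℂ) : Prop := ∃ (a : ℤ) (d : ℕ), ¬ ℓ ∣ d ∧ (d : ℂ) * x = (a : ℂ)

/-- `x ∈ ℓ^a ℤ_(ℓ)`. -/
def IsLDiv (ℓ a : ℕ) (x : ℂ) : Prop := ∃ t : ℂ, IsLInt ℓ t ∧ x = (ℓ : ℂ) ^ a * t

/-- The q-series `A` has coefficients in `ℤ_(ℓ)`. -/
def SInt (ℓ : ℕ) (A : PowerSeries ℂ) : Prop := ∀ n, IsLInt ℓ (PowerSeries.coeff n A)

/-- `A ≡ B mod ℓ^a ℤ_(ℓ)[[q]]`. -/
def SCong (ℓ a : ℕ) (A B : PowerSeries ℂ) : Prop :=
  ∀ n, IsLDiv ℓ a (PowerSeries.coeff n A - PowerSeries.coeff n B)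

/-- Contract of `Lib/LevelOneLow` (St): every coefficient of a level-one form of weight `k` lies
in the additive group generated by its coefficients `a_n`, `12 n ≤ k`. -/
def SturmLow : Prop :=
  ∀ (M : AddSubgroup ℂ) (k : ℤ) (g : ModularForm 𝒮ℒ k),
    (∀ n : ℕ, 12 * (n : ℤ) ≤ k → (qExpansion 1 g).coeff n ∈ M) →
      ∀ n : ℕ, (qExpansion 1 g).coeff n ∈ M

/-- Contract of `S16/TraceSturm` (TS): if `F ∈ M_k(Γ₀(p))` has `F ≡ A₀(q)`, `F♭ ≡ A₀(q^p)` mod `ℓ`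
(`ℓ ≠ p`, `A₀ ∈ ℤ_(ℓ)[[q]]`) and the coefficients `a_n(A₀)`, `12 n ≤ k`, vanish mod `ℓ`, then
`A₀ ≡ 0 mod ℓ`.   [`Tr(F^(ℓ^w))/ℓ^w ≡ unit · A₀^(ℓ^w)`, `w = v_ℓ(p+1)`, then (St).] -/
def TraceSturmStmt (p : ℕ) [NeZero p] : Prop :=
  ∀ (ℓ : ℕ), ℓ.Prime → ℓ ≠ p → ∀ (k : ℕ) (A B A₀ : PowerSeries ℂ), IsPair p (k : ℤ) A B →
    SInt ℓ A₀ → SCong ℓ 1 A A₀ → SCong ℓ 1 B (psV p A₀) →
    (∀ n : ℕ, 12 * n ≤ k → IsLDiv ℓ 1 (PowerSeries.coeff n A₀)) →
      ∀ n : ℕ, IsLDiv ℓ 1 (PowerSeries.coeff n A₀)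

/-! ## 3. Claim U -/

/-- `NoCongOne p ℓ a`: no `G ∈ M₂(Γ₀(p))` with integral q-expansion has `ℓ ∤ a₀(G)` and
`a_n(G) ≡ 0 mod ℓ^a` for all `n ≥ 1`. -/
def NoCongOne (p ℓ a : ℕ) : Prop :=
  ∀ (G : ModularForm (Gamma0 p) 2) (c : ℕ → ℤ),
    (∀ n, (qExpansion 1 G).coeff n = (c n : ℂ)) →
      (∀ n, 1 ≤ n → ((ℓ : ℤ) ^ a) ∣ c n) → (ℓ : ℤ) ∣ c 0

/-- Contract of `S16/ClaimU` (summary of the cases (A)–(E)). -/
def NoCongOneMain (p : ℕ) : Prop :=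
  ∀ ℓ : ℕ, ℓ.Prime → NoCongOne p ℓ (padicValNat ℓ (24 / Nat.gcd (p - 1) 12) + 1)

/-- CLAIM U: a form `G ∈ M₂(Γ₀(p))` with `a₀ = (p-1)/24` and `a_n ∈ m ℤ` (`n ≥ 1`) has `m ∣ n_p`. -/
def ClaimU (p : ℕ) : Prop :=
  ∀ (G : ModularForm (Gamma0 p) 2) (m : ℕ) (c : ℕ → ℤ),
    (qExpansion 1 G).coeff 0 = ((p : ℂ) - 1) / 24 →
    (∀ n, 1 ≤ n → (qExpansion 1 G).coeff n = (m : ℂ) * (c n : ℂ)) →
      m ∣ eisensteinNumerator p

/-! ## 4. Eisenstein series and duality -/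

/-- `σ'(k)`: the sum of the divisors of `k` prime to `p`. -/
def sigmaP (p k : ℕ) : ℕ := ∑ d ∈ k.divisors with ¬ p ∣ d, d

/-- Contract of `Lib/EisTwo` (bundled): `E = (p-1)/24 + ∑ σ'(n) qⁿ ∈ M₂(Γ₀(p))`. -/
def EisFormStmt (p : ℕ) : Prop :=
  ∃ E : ModularForm (Gamma0 p) 2,
    (qExpansion 1 E).coeff 0 = ((p : ℂ) - 1) / 24 ∧
      ∀ n, 1 ≤ n → (qExpansion 1 E).coeff n = (sigmaP p n : ℂ)

/-- Contract of `S16/CoeffPoly`: the Hecke polynomial `t_k` with `a₁(t_k f) = a_k(f)`; its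
Eisenstein eigenvalue is `σ'(k)`. -/
def CoeffPolyStmt (p : ℕ) [NeZero p] : Prop :=
  ∀ k : ℕ, 1 ≤ k → ∃ t : HeckeAlg, chiE p t = (sigmaP p k : ℤ) ∧
    ∀ f : CuspForm (Gamma0 p) 2,
      qCoeff ((heckeEvalForms p 2 t : heckeAlgebra p 2 ∅).1 f) 1 = qCoeff f k

/-- Contract of `S16/Duality`: every `ℤ`-linear functional on `𝕋` is `t ↦ a₁(t f)` for an
integral cusp form `f` (the pairing `𝕋 × L → ℤ` is perfect on the `L`-side). -/
def DualityStmt (p : ℕ) [NeZero p] : Prop :=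
  ∀ ψ : ↥(heckeLatticeAlgebra p ∅) →ₗ[ℤ] ℤ,
    ∃ f : ↥(intLattice p 2), ∀ t : ↥(heckeLatticeAlgebra p ∅),
      qCoeff (((t : Module.End ℤ ↥(intLattice p 2)) f : ↥(intLattice p 2)) :
        CuspForm (Gamma0 p) 2) 1 = ((ψ t : ℤ) : ℂ)

/-- Contract of the theta route (`S16/ThetaLower`): a weight-2 form `1 + 2 q ℤ[[q]]` of level `p`. -/
def ThetaFormStmt (p : ℕ) : Prop :=
  ∃ F : ModularForm (Gamma0 p) 2, (qExpansion 1 F).coeff 0 = 1 ∧
    ∀ n, 1 ≤ n → ∃ m : ℤ, (qExpansion 1 F).coeff n = 2 * (m : ℂ)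

end Fermat.Agent.S16
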