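import Fermat.Agent.S16.Plan
import Fermat.Agent.Lib.EisTwo
import Fermat.Prelude.Thm_ModularFormClass_qCoeff_heckeT
import Fermat.Prelude.Thm_ModularFormClass_qCoeff_heckeU

/-!
# S16, package U11: the Eisenstein series `E = (p-1)/24 + ∑ σ'(n) qⁿ` of level `Γ₀(p)`

The bundled contract `EisFormStmt p` of `S16/Plan`, and the Hecke eigen-relations
`T_ℓ E = (1 + ℓ) E`, `U_p E = E`.
-/

set_option autoImplicit false

namespace Fermat.Agent.S16

open UpperHalfPlane CongruenceSubgroup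
open scoped MatrixGroups ModularForm
open Fermat.Agent.S23 (IsMF G0)
open Fermat.Agent.Lib.EisTwo (eisP sigmaPrime)

namespace EisForm

/-! ### Divisor sums -/

/-- The divisors of `n` divisible by `ℓ` are the `ℓ`-multiples of the divisors of `n / ℓ`. -/
theorem sum_divisors_filter_dvd_gen {M : Type*} [AddCommMonoid M] (ℓ n : ℕ) (hℓ : ℓ ≠ 0)
    (hdn : ℓ ∣ n) (hn : n ≠ 0) (g : ℕ → M) :
    ∑ d ∈ n.divisors.filter (fun d => ℓ ∣ d), g d = ∑ e ∈ (n / ℓ).divisors, g (ℓ * e) := by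
  obtain ⟨m, rfl⟩ := hdn
  have hm : m ≠ 0 := fun h => hn (by rw [h, mul_zero])
  rw [Nat.mul_div_cancel_left m (Nat.pos_of_ne_zero hℓ)]
  refine Finset.sum_nbij' (fun e => e / ℓ) (fun e => ℓ * e) ?_ ?_ ?_ ?_ ?_
  · intro e he
    rw [Finset.mem_filter, Nat.mem_divisors] at he
    obtain ⟨⟨he1, _⟩, ⟨t, rfl⟩⟩ := he
    rw [Nat.mul_div_cancel_left t (Nat.pos_of_ne_zero hℓ), Nat.mem_divisors]
    exact ⟨(Nat.mul_dvd_mul_iff_left (Nat.pos_of_ne_zero hℓ)).mp he1, hm⟩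
  · intro e he
    rw [Nat.mem_divisors] at he
    rw [Finset.mem_filter, Nat.mem_divisors]
    exact ⟨⟨Nat.mul_dvd_mul_left ℓ he.1, hn⟩, dvd_mul_right ℓ e⟩
  · intro e he
    rw [Finset.mem_filter] at he
    exact Nat.mul_div_cancel' he.2
  · intro e _
    exact Nat.mul_div_cancel_left e (Nat.pos_of_ne_zero hℓ)
  · intro e he
    rw [Finset.mem_filter] at he
    rw [Nat.mul_div_cancel' he.2]

/-- Divisor sums over `ℓ n`, `ℓ` prime. -/
theorem sum_divisors_prime_mul {M : Type*} [AddCommMonoid M] (ℓ n : ℕ) (hℓ : ℓ.Prime)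
    (hn : n ≠ 0) (g : ℕ → M) :
    ∑ d ∈ (ℓ * n).divisors, g d + ∑ d ∈ n.divisors.filter (fun d => ℓ ∣ d), g d =
      ∑ d ∈ n.divisors, g d + ∑ e ∈ n.divisors, g (ℓ * e) := by
  have hℓn : ℓ * n ≠ 0 := mul_ne_zero hℓ.ne_zero hn
  have ha : (ℓ * n).divisors.filter (fun d => d ∣ n) = n.divisors := by
    ext d
    simp only [Finset.mem_filter, Nat.mem_divisors]
    exact ⟨fun h => ⟨h.2, hn⟩, fun h => ⟨⟨dvd_mul_of_dvd_right h.1 ℓ, hℓn⟩, h.1⟩⟩
  have hb : ∑ e ∈ n.divisors.filter (fun e => ℓ * e ∣ n), g (ℓ * e) =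
      ∑ d ∈ n.divisors.filter (fun d => ℓ ∣ d), g d := by
    refine Finset.sum_nbij' (fun e => ℓ * e) (fun d => d / ℓ) ?_ ?_ ?_ ?_ ?_
    · intro e he
      rw [Finset.mem_filter, Nat.mem_divisors] at he
      rw [Finset.mem_filter, Nat.mem_divisors]
      exact ⟨⟨he.2, hn⟩, dvd_mul_right ℓ e⟩
    · intro d hd
      rw [Finset.mem_filter, Nat.mem_divisors] at hd
      obtain ⟨⟨hd1, _⟩, ⟨t, rfl⟩⟩ := hd
      rw [Nat.mul_div_cancel_left t hℓ.pos, Finset.mem_filter, Nat.mem_divisors]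
      exact ⟨⟨dvd_trans (dvd_mul_left t ℓ) hd1, hn⟩, hd1⟩
    · intro e _
      exact Nat.mul_div_cancel_left e hℓ.pos
    · intro d hd
      rw [Finset.mem_filter] at hd
      exact Nat.mul_div_cancel' hd.2
    · intro e _
      rfl
  have hc : ∑ e ∈ n.divisors.filter (fun e => ¬ ℓ * e ∣ n), g (ℓ * e) =
      ∑ d ∈ (ℓ * n).divisors.filter (fun d => ¬ d ∣ n), g d := by
    refine Finset.sum_nbij' (fun e => ℓ * e) (fun d => d / ℓ) ?_ ?_ ?_ ?_ ?_
    · intro e he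
      rw [Finset.mem_filter, Nat.mem_divisors] at he
      rw [Finset.mem_filter, Nat.mem_divisors]
      exact ⟨⟨Nat.mul_dvd_mul_left ℓ he.1.1, hℓn⟩, he.2⟩
    · intro d hd
      rw [Finset.mem_filter, Nat.mem_divisors] at hd
      obtain ⟨⟨hd1, _⟩, hd2⟩ := hd
      have hℓd : ℓ ∣ d := by
        by_contra h
        have hcop : Nat.Coprime d ℓ := ((Nat.Prime.coprime_iff_not_dvd hℓ).mpr h).symm
        exact hd2 (hcop.dvd_of_dvd_mul_left hd1)
      obtain ⟨t, rfl⟩ := hℓd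
      rw [Nat.mul_div_cancel_left t hℓ.pos, Finset.mem_filter, Nat.mem_divisors]
      exact ⟨⟨(Nat.mul_dvd_mul_iff_left hℓ.pos).mp hd1, hn⟩, hd2⟩
    · intro e _
      exact Nat.mul_div_cancel_left e hℓ.pos
    · intro d hd
      rw [Finset.mem_filter, Nat.mem_divisors] at hd
      obtain ⟨⟨hd1, _⟩, hd2⟩ := hd
      have hℓd : ℓ ∣ d := by
        by_contra h
        have hcop : Nat.Coprime d ℓ := ((Nat.Prime.coprime_iff_not_dvd hℓ).mpr h).symm
        exact hd2 (hcop.dvd_of_dvd_mul_left hd1)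
      exact Nat.mul_div_cancel' hℓd
    · intro e _
      rfl
  rw [← Finset.sum_filter_add_sum_filter_not (ℓ * n).divisors (fun d => d ∣ n) g, ha,
    ← Finset.sum_filter_add_sum_filter_not n.divisors (fun e => ℓ * e ∣ n) (fun e => g (ℓ * e)),
    hb, hc]
  abel

/-- `g d = d` if `p ∤ d`, and `0` otherwise. -/
def gP (p d : ℕ) : ℕ := if ¬ p ∣ d then d else 0

theorem sigmaP_eq_sum (p m : ℕ) : sigmaP p m = ∑ d ∈ m.divisors, gP p d := by
  rw [sigmaP, Finset.sum_filter]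
  rfl

theorem gP_mul (p ℓ e : ℕ) (hp : p.Prime) (hℓ : ℓ.Prime) (hℓp : ℓ ≠ p) :
    gP p (ℓ * e) = ℓ * gP p e := by
  have h : p ∣ ℓ * e ↔ p ∣ e := by
    rw [Nat.Prime.dvd_mul hp]
    constructor
    · rintro (h | h)
      · exact absurd ((Nat.prime_dvd_prime_iff_eq hp hℓ).mp h).symm hℓp
      · exact h
    · exact fun h => Or.inr h
  simp only [gP, h]
  split_ifs <;> simp

/-- The Hecke relation for `σ'` at a prime `ℓ ≠ p`. -/
theorem sigmaP_prime_mul (p ℓ n : ℕ) (hp : p.Prime) (hℓ : ℓ.Prime) (hℓp : ℓ ≠ p)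
    (hn : n ≠ 0) :
    sigmaP p (ℓ * n) + (if ℓ ∣ n then ℓ * sigmaP p (n / ℓ) else 0) =
      sigmaP p n + ℓ * sigmaP p n := by
  have h := sum_divisors_prime_mul ℓ n hℓ hn (gP p)
  have h1 : ∑ e ∈ n.divisors, gP p (ℓ * e) = ℓ * sigmaP p n := by
    rw [sigmaP_eq_sum, Finset.mul_sum]
    exact Finset.sum_congr rfl (fun e _ => gP_mul p ℓ e hp hℓ hℓp)
  have h2 : ∑ d ∈ n.divisors.filter (fun d => ℓ ∣ d), gP p d =
      if ℓ ∣ n then ℓ * sigmaP p (n / ℓ) else 0 := by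
    by_cases hdn : ℓ ∣ n
    · rw [if_pos hdn, sum_divisors_filter_dvd_gen ℓ n hℓ.ne_zero hdn hn, sigmaP_eq_sum,
        Finset.mul_sum]
      exact Finset.sum_congr rfl (fun e _ => gP_mul p ℓ e hp hℓ hℓp)
    · rw [if_neg hdn]
      refine Finset.sum_eq_zero (fun e he => ?_)
      rw [Finset.mem_filter, Nat.mem_divisors] at he
      exact absurd (dvd_trans he.2 he.1.1) hdn
  rw [h1, h2, ← sigmaP_eq_sum, ← sigmaP_eq_sum] at h
  exact h

/-- `σ'(n p) = σ'(n)`. -/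
theorem sigmaP_mul_self (p n : ℕ) (hp : p.Prime) (hn : n ≠ 0) :
    sigmaP p (n * p) = sigmaP p n := by
  have hnp : n * p ≠ 0 := mul_ne_zero hn hp.ne_zero
  simp only [sigmaP]
  refine Finset.sum_congr ?_ (fun _ _ => rfl)
  ext d
  simp only [Finset.mem_filter, Nat.mem_divisors]
  constructor
  · rintro ⟨⟨h1, _⟩, h2⟩
    have hcop : Nat.Coprime d p := ((Nat.Prime.coprime_iff_not_dvd hp).mpr h2).symm
    exact ⟨⟨hcop.dvd_of_dvd_mul_right h1, hn⟩, h2⟩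
  · rintro ⟨⟨h1, _⟩, h2⟩
    exact ⟨⟨dvd_mul_of_dvd_left h1 p, hnp⟩, h2⟩

/-- Modular forms on `Γ₀(N)` with the same `q`-expansion are equal. -/
theorem ext_of_coeff {N : ℕ} {k : ℤ} (F G : ModularForm (Gamma0 N) k)
    (h : ∀ n, (qExpansion 1 F).coeff n = (qExpansion 1 G).coeff n) : F = G := by
  have hF : Fermat.Agent.S23.Nice (⇑F) := (Fermat.Agent.S23.IsMF.coe F).niceG0
  have hG : Fermat.Agent.S23.Nice (⇑G) := (Fermat.Agent.S23.IsMF.coe G).niceG0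
  exact DFunLike.coe_injective (hF.eq_of_qExp_eq hG (PowerSeries.ext h))

end EisForm

open EisForm

/-- The bundled Eisenstein series of level `p`, with its underlying function. -/
theorem exists_eisForm (p : ℕ) [NeZero p] :
    ∃ E : ModularForm (Gamma0 p) 2, (⇑E = eisP p) ∧
      (qExpansion 1 E).coeff 0 = ((p : ℂ) - 1) / 24 ∧
      ∀ n, 1 ≤ n → (qExpansion 1 E).coeff n = (sigmaP p n : ℂ) := by
  obtain ⟨E, hE⟩ := Fermat.Agent.Lib.EisTwo.isMF_eisP p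
  refine ⟨E, hE, ?_, fun n hn => ?_⟩
  · rw [hE]
    exact Fermat.Agent.Lib.EisTwo.qExpansion_eisP_coeff_zero p
  · rw [hE]
    exact Fermat.Agent.Lib.EisTwo.qExpansion_eisP_coeff p n (by omega)

/-- **Contract U11** of `S16/Plan`. -/
theorem eisForm (p : ℕ) [NeZero p] : EisFormStmt p := by
  obtain ⟨E, _, h0, h1⟩ := exists_eisForm p
  exact ⟨E, h0, h1⟩

/-- `T_ℓ E = (1 + ℓ) E` for every form with the `q`-expansion of the Eisenstein series. -/
theorem heckeT_eis (p : ℕ) [Fact p.Prime] (E : ModularForm (Gamma0 p) 2)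
    (h0 : (qExpansion 1 E).coeff 0 = ((p : ℂ) - 1) / 24)
    (h1 : ∀ n, 1 ≤ n → (qExpansion 1 E).coeff n = (sigmaP p n : ℂ))
    (ℓ : ℕ) (hℓ : ℓ.Prime) (hℓp : ¬ ℓ ∣ p) :
    ModularForm.heckeTLin 2 hℓ hℓp E = ((1 : ℂ) + ℓ) • E := by
  have hp : p.Prime := Fact.out
  have hne : ℓ ≠ p := fun h => hℓp (h ▸ dvd_rfl)
  apply ext_of_coeff
  intro n
  have hT : (qExpansion 1 (ModularForm.heckeT 2 ℓ ⇑E)).coeff n =
      ModularForm.coeffHeckeT 2 ℓ (fun m => (qExpansion 1 ⇑E).coeff m) n :=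
    ModularFormClass.qCoeff_heckeT E (CongruenceSubgroup.one_mem_strictPeriods_Gamma0 p)
      hℓ.ne_zero n
  have hS : qExpansion 1 (⇑(((1 : ℂ) + ℓ) • E)) = ((1 : ℂ) + ℓ) • qExpansion 1 ⇑E :=
    ModularForm.qExpansion_smul one_pos (CongruenceSubgroup.one_mem_strictPeriods_Gamma0 p) _ E
  rw [ModularForm.coe_heckeTLin_apply, hT, hS, ModularForm.coeffHeckeT_apply,
    PowerSeries.coeff_smul, smul_eq_mul]
  have hz : ((ℓ : ℂ)) ^ ((2 : ℤ) - 1) = (ℓ : ℂ) := by norm_num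
  rw [hz]
  rcases Nat.eq_zero_or_pos n with rfl | hn
  · simp only [zero_mul, dvd_zero, if_true, Nat.zero_div, h0]
    ring
  · have hn0 : n ≠ 0 := hn.ne'
    have hnℓ : 1 ≤ n * ℓ := Nat.mul_pos hn hℓ.pos
    have key := sigmaP_prime_mul p ℓ n hp hℓ hne hn0
    rw [h1 (n * ℓ) hnℓ, h1 n hn]
    by_cases hdvd : ℓ ∣ n
    · have hq : 1 ≤ n / ℓ := Nat.div_pos (Nat.le_of_dvd hn hdvd) hℓ.pos
      rw [if_pos hdvd] at key ⊢
      rw [h1 (n / ℓ) hq, mul_comm n ℓ]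
      have key' : ((sigmaP p (ℓ * n) + ℓ * sigmaP p (n / ℓ) : ℕ) : ℂ) =
          ((sigmaP p n + ℓ * sigmaP p n : ℕ) : ℂ) := by rw [key]
      push_cast at key'
      linear_combination key'
    · rw [if_neg hdvd] at key ⊢
      rw [mul_comm n ℓ]
      have key' : ((sigmaP p (ℓ * n) + 0 : ℕ) : ℂ) =
          ((sigmaP p n + ℓ * sigmaP p n : ℕ) : ℂ) := by rw [key]
      push_cast at key'
      linear_combination key'

/-- `U_p E = E` for every form with the `q`-expansion of the Eisenstein series. -/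
theorem heckeU_eis (p : ℕ) [Fact p.Prime] (E : ModularForm (Gamma0 p) 2)
    (h1 : ∀ n, 1 ≤ n → (qExpansion 1 E).coeff n = (sigmaP p n : ℂ)) :
    ModularForm.heckeULin 2 (dvd_refl p) E = E := by
  have hp : p.Prime := Fact.out
  apply ext_of_coeff
  intro n
  have hU : (qExpansion 1 (ModularForm.heckeU 2 p ⇑E)).coeff n =
      ModularForm.coeffHeckeU p (fun m => (qExpansion 1 ⇑E).coeff m) n :=
    ModularFormClass.qCoeff_heckeU E (CongruenceSubgroup.one_mem_strictPeriods_Gamma0 p)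
      hp.ne_zero n
  rw [ModularForm.coe_heckeULin_apply, hU, ModularForm.coeffHeckeU_apply]
  rcases Nat.eq_zero_or_pos n with rfl | hn
  · simp
  · rw [h1 (n * p) (Nat.mul_pos hn hp.pos), h1 n hn, sigmaP_mul_self p n hp hn.ne']

/-- The Eisenstein series with all its properties, in one statement. -/
theorem exists_eisForm_hecke (p : ℕ) [Fact p.Prime] :
    ∃ E : ModularForm (Gamma0 p) 2, (⇑E = eisP p) ∧
      (qExpansion 1 E).coeff 0 = ((p : ℂ) - 1) / 24 ∧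
      (∀ n, 1 ≤ n → (qExpansion 1 E).coeff n = (sigmaP p n : ℂ)) ∧
      (∀ (ℓ : ℕ) (hℓ : ℓ.Prime) (hℓp : ¬ ℓ ∣ p),
        ModularForm.heckeTLin 2 hℓ hℓp E = ((1 : ℂ) + ℓ) • E) ∧
      ModularForm.heckeULin 2 (dvd_refl p) E = E := by
  obtain ⟨E, hE, h0, h1⟩ := exists_eisForm p
  exact ⟨E, hE, h0, h1, fun ℓ hℓ hℓp => heckeT_eis p E h0 h1 ℓ hℓ hℓp, heckeU_eis p E h1⟩

end Fermat.Agent.S16
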