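import Fermat.Agent.S16.Plan

/-!
# S16/Reduce: the frozen statement from the two bounds (pure algebra)

`𝕋/I ≅ ℤ/χ(ker ev)`: with `ev : HeckeAlg → 𝕋` surjective and `χ = chiE p : HeckeAlg → ℤ`,
`(UB)` and `(LB)` say `χ(ker ev) = nℤ`.
-/

set_option autoImplicit false

noncomputable section

namespace Fermat.Agent.S16

open ModularCurve CuspForm CongruenceSubgroup

theorem heckeEvalForms_surjective (N : ℕ) [NeZero N] (k : ℤ) :
    Function.Surjective (heckeEvalForms N k) := by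
  intro t
  obtain ⟨t, ht⟩ := t
  have key : ∀ x ∈ heckeAlgebra N k ∅, ∀ hx : x ∈ heckeAlgebra N k ∅,
      ∃ P : HeckeAlg, heckeEvalForms N k P = ⟨x, hx⟩ := by
    intro x hx
    refine Algebra.adjoin_induction (p := fun x hx => ∀ hx' : x ∈ heckeAlgebra N k ∅,
      ∃ P : HeckeAlg, heckeEvalForms N k P = ⟨x, hx'⟩) ?_ ?_ ?_ ?_ hx
    · rintro x (⟨ℓ, hℓ, hℓN, -, rfl⟩ | ⟨q, hqN, hq, -, rfl⟩) hx'
      · refine ⟨heckeGen ⟨ℓ, hℓ⟩, ?_⟩
        rw [heckeEvalForms_heckeGen_of_not_dvd (ℓ := ⟨ℓ, hℓ⟩) hℓN]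
        rfl
      · refine ⟨heckeGen ⟨q, hq⟩, ?_⟩
        rw [heckeEvalForms_heckeGen_of_dvd (q := ⟨q, hq⟩) hqN]
        rfl
    · intro r hx'
      refine ⟨MvPolynomial.C r, ?_⟩
      rw [heckeEvalForms_C]
      rfl
    · intro x y hx hy ihx ihy hxy
      obtain ⟨P, hP⟩ := ihx hx
      obtain ⟨Q, hQ⟩ := ihy hy
      exact ⟨P + Q, by rw [map_add, hP, hQ]; rfl⟩
    · intro x y hx hy ihx ihy hxy
      obtain ⟨P, hP⟩ := ihx hx
      obtain ⟨Q, hQ⟩ := ihy hy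
      exact ⟨P * Q, by rw [map_mul, hP, hQ]; rfl⟩
  exact key t ht ht

theorem ev_surjective (p : ℕ) [NeZero p] : Function.Surjective (ev p) := by
  intro t
  obtain ⟨s, rfl⟩ := latticeRestrictHom_surjective p ∅ t
  obtain ⟨P, rfl⟩ := heckeEvalForms_surjective p 2 s
  exact ⟨P, rfl⟩

theorem chiE_C (p : ℕ) (a : ℤ) : chiE p (MvPolynomial.C a) = a := by
  simp [chiE]

theorem mem_eisensteinIdeal_iff (p : ℕ) (P : HeckeAlg) :
    P ∈ eisensteinIdeal p ↔ chiE p P = 0 := by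
  rw [eisensteinIdeal, mem_eigenIdeal_iff]
  rfl

theorem sub_C_chiE_mem (p : ℕ) (P : HeckeAlg) :
    P - MvPolynomial.C (chiE p P) ∈ eisensteinIdeal p := by
  rw [mem_eisensteinIdeal_iff, map_sub, chiE_C, sub_self]

theorem eisensteinIdeal_eq_ker (p : ℕ) : eisensteinIdeal p = RingHom.ker (chiE p) := by
  ext P
  rw [mem_eisensteinIdeal_iff, RingHom.mem_ker]

/-- Pure algebra: if `ev : R → T` is onto and `χ : R → ℤ`, and `χ(ker ev) = nℤ`, then
`T / ev(ker χ)T ≅ ℤ/n`. -/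
theorem card_quot_of_bounds {R T : Type*} [CommRing R] [CommRing T] (e : R →+* T)
    (he : Function.Surjective e) (χ : R →+* ℤ) (n : ℕ)
    (hU : ∃ P : R, e P = 0 ∧ χ P = (n : ℤ))
    (hL : ∀ P : R, e P = 0 → (n : ℤ) ∣ χ P) :
    Nat.card (T ⧸ Ideal.map e (RingHom.ker χ)) = n := by
  set I : Ideal T := Ideal.map e (RingHom.ker χ) with hI
  have hImem : ∀ t : T, t ∈ I ↔ ∃ Q : R, χ Q = 0 ∧ e Q = t := by
    intro t
    rw [hI, Ideal.mem_map_iff_of_surjective e he]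
    constructor
    · rintro ⟨Q, hQ, rfl⟩
      exact ⟨Q, RingHom.mem_ker.mp hQ, rfl⟩
    · rintro ⟨Q, hQ, rfl⟩
      exact ⟨Q, RingHom.mem_ker.mpr hQ, rfl⟩
  let ψ : ℤ →+* T ⧸ I := Int.castRingHom (T ⧸ I)
  have hψ : ∀ a : ℤ, ψ a = Ideal.Quotient.mk I ((a : ℤ) : T) := by
    intro a
    simp [ψ]
  have hsurj : Function.Surjective ψ := by
    intro x
    obtain ⟨t, rfl⟩ := Ideal.Quotient.mk_surjective x
    obtain ⟨P, rfl⟩ := he t
    refine ⟨χ P, ?_⟩
    rw [hψ]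
    symm
    rw [Ideal.Quotient.eq, hImem]
    refine ⟨P - ((χ P : ℤ) : R), ?_, ?_⟩
    · rw [map_sub, map_intCast]; simp
    · rw [map_sub, map_intCast]
  have hker : RingHom.ker ψ = Ideal.span {(n : ℤ)} := by
    ext a
    rw [RingHom.mem_ker, Ideal.mem_span_singleton, hψ, Ideal.Quotient.eq_zero_iff_mem, hImem]
    constructor
    · rintro ⟨Q, hQ0, hQ⟩
      have h1 : e (((a : ℤ) : R) - Q) = 0 := by rw [map_sub, map_intCast, hQ, sub_self]
      have h2 := hL _ h1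
      rw [map_sub, map_intCast, hQ0, sub_zero] at h2
      simpa using h2
    · rintro ⟨b, rfl⟩
      obtain ⟨P₀, hP₀, hχ⟩ := hU
      refine ⟨((b : ℤ) : R) * (((n : ℤ) : R) - P₀), ?_, ?_⟩
      · rw [map_mul, map_sub, map_intCast, map_intCast, hχ]; simp
      · rw [map_mul, map_sub, map_intCast, map_intCast, hP₀, sub_zero]
        push_cast
        ring
  have e1 : (ℤ ⧸ RingHom.ker ψ) ≃+* (T ⧸ I) := RingHom.quotientKerEquivOfSurjective hsurj
  rw [← Nat.card_congr e1.toEquiv, hker,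
    Nat.card_congr (Int.quotientSpanNatEquivZMod n).toEquiv, Nat.card_zmod]

/-- `S16/Reduce`: the frozen statement follows from the two bounds. -/
theorem reduce (p : ℕ) [NeZero p] : ReduceStmt p := by
  intro hU hL
  have h := card_quot_of_bounds (ev p) (ev_surjective p) (chiE p) (eisensteinNumerator p) hU hL
  rw [← eisensteinIdeal_eq_ker] at h
  exact h

end Fermat.Agent.S16
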