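import Mathlib
import Fermat.Agent.Lib.DeltaInt
import Fermat.Agent.Lib.LevelOneSturm
import Fermat.Agent.S16.Plan

/-!
# S16, upper bound: the trace–Sturm lemma (TS) and the three resonant cases

Everything here is in HYPOTHESIS FORM with respect to the trace principle at level `p`:
`PairAPI p P` packages the properties of a predicate `P k A B` ("`A`, `B` are the
`q`-expansions of some `F ∈ M_k(Γ₀(p))` and of `F♭(z) = (p z)^(-k) F(-1/(p z))`") which are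
needed:  closure under `+`, scalars and products, level one forms (`X♭ = X(p·)`), the weight
two law `G♭ = -U_p G / p` and the trace principle (`F + p U_p F♭` is a level one form).

Main results (for such a `P`):

* `ts_core` : the trace–Sturm lemma (TS);
* `noCong_large` : `ℓ ≥ 5`, `ℓ ≠ p`, `ℓ ∣ p + 1`: no `G ≡ unit mod ℓ` in `M₂(Γ₀(p))`;
* `noCong_three` : `9 ∣ p + 1`: no `G ≡ unit mod 9`;
* `noCong_two` : `8 ∣ p + 1`: no `G ≡ unit mod 8`.
-/

set_option autoImplicit false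

namespace Fermat.Agent.S16.TSCases

open UpperHalfPlane ModularForm MatrixGroups
open Fermat.Agent.Lib.DeltaInt

local notation "ι" => PowerSeries.map (Int.castRingHom ℂ)

/-! ### Integer power series -/

theorem natCast_eq_C (m : ℕ) : ((m : ℕ) : PowerSeries ℤ) = PowerSeries.C (m : ℤ) := by simp

theorem intCast_eq_C (m : ℤ) : ((m : ℤ) : PowerSeries ℤ) = PowerSeries.C (m : ℤ) := by simp

theorem natCast_dvd_iff (m : ℕ) (A : PowerSeries ℤ) :
    (m : PowerSeries ℤ) ∣ A ↔ ∀ n, (m : ℤ) ∣ A.coeff n := by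
  constructor
  · rintro ⟨B, rfl⟩ n
    rw [natCast_eq_C, PowerSeries.coeff_C_mul]
    exact dvd_mul_right _ _
  · intro h
    refine ⟨PowerSeries.mk fun n => A.coeff n / m, ?_⟩
    ext n
    rw [natCast_eq_C, PowerSeries.coeff_C_mul, PowerSeries.coeff_mk, Int.mul_ediv_cancel' (h n)]

/-- `U_p` on integral power series. -/
noncomputable def UZ (p : ℕ) (A : PowerSeries ℤ) : PowerSeries ℤ :=
  PowerSeries.mk fun n => A.coeff (p * n)

@[simp]
theorem coeff_UZ (p : ℕ) (A : PowerSeries ℤ) (n : ℕ) : (UZ p A).coeff n = A.coeff (p * n) := by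
  simp [UZ]

theorem UZ_add (p : ℕ) (A B : PowerSeries ℤ) : UZ p (A + B) = UZ p A + UZ p B := by
  ext n; simp

theorem UZ_sub (p : ℕ) (A B : PowerSeries ℤ) : UZ p (A - B) = UZ p A - UZ p B := by
  ext n; simp

theorem UZ_neg (p : ℕ) (A : PowerSeries ℤ) : UZ p (-A) = -UZ p A := by
  ext n; simp

theorem UZ_intCast_mul (p : ℕ) (z : ℤ) (A : PowerSeries ℤ) :
    UZ p ((z : PowerSeries ℤ) * A) = (z : PowerSeries ℤ) * UZ p A := by
  ext n
  rw [coeff_UZ, intCast_eq_C, PowerSeries.coeff_C_mul, PowerSeries.coeff_C_mul, coeff_UZ]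

theorem UZ_intCast {p : ℕ} (hp : p ≠ 0) (z : ℤ) : UZ p (z : PowerSeries ℤ) = z := by
  ext n
  rw [coeff_UZ, intCast_eq_C, PowerSeries.coeff_C, PowerSeries.coeff_C]
  by_cases hn : n = 0
  · simp [hn]
  · simp [hn, hp]

theorem UZ_expand (p : ℕ) (hp : p ≠ 0) (A : PowerSeries ℤ) :
    UZ p (PowerSeries.expand p hp A) = A := by
  ext n; simp

theorem natCast_dvd_UZ (m p : ℕ) {A : PowerSeries ℤ} (h : (m : PowerSeries ℤ) ∣ A) :
    (m : PowerSeries ℤ) ∣ UZ p A := by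
  rw [natCast_dvd_iff] at h ⊢
  intro n
  rw [coeff_UZ]
  exact h _

theorem map_intCast_mul (z : ℤ) (Q : PowerSeries ℤ) :
    ι ((z : PowerSeries ℤ) * Q) = (z : ℂ) • ι Q := by
  ext n
  rw [PowerSeries.coeff_map, intCast_eq_C, PowerSeries.coeff_C_mul, PowerSeries.coeff_smul,
    PowerSeries.coeff_map]
  simp

/-! ### The interface to the trace principle -/

/-- The properties of the "pair" predicate used below (see the module docstring). -/
structure PairAPI (p : ℕ) (P : ℤ → PowerSeries ℂ → PowerSeries ℂ → Prop) : Prop where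
  add : ∀ {k : ℤ} {A B A' B' : PowerSeries ℂ}, P k A B → P k A' B' → P k (A + A') (B + B')
  smul : ∀ {k : ℤ} {A B : PowerSeries ℂ} (c : ℂ), P k A B → P k (c • A) (c • B)
  mul : ∀ {k k' : ℤ} {A B A' B' : PowerSeries ℂ}, P k A B → P k' A' B' →
    P (k + k') (A * A') (B * B')
  levelOne : ∀ {w : ℤ} (X : ModularForm 𝒮ℒ w), ∃ B : PowerSeries ℂ, P w (qExpansion 1 X) B ∧
    ∀ n, B.coeff n = if p ∣ n then (qExpansion 1 X).coeff (n / p) else 0
  trace : ∀ {k : ℤ} {A B : PowerSeries ℂ}, P k A B → ∃ X : ModularForm 𝒮ℒ k,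
    ∀ n, (qExpansion 1 X).coeff n = A.coeff n + (p : ℂ) * B.coeff (p * n)
  weight_two : ∀ G : ModularForm (CongruenceSubgroup.Gamma0 p) 2, ∃ B : PowerSeries ℂ,
    P 2 (qExpansion 1 G) B ∧ ∀ n, B.coeff n = -(p : ℂ)⁻¹ * (qExpansion 1 G).coeff (p * n)

section API

variable {p : ℕ} {P : ℤ → PowerSeries ℂ → PowerSeries ℂ → Prop}

theorem PairAPI.pow (api : PairAPI p P) {k : ℤ} {A B : PowerSeries ℂ} (h : P k A B) :
    ∀ n : ℕ, 0 < n → P ((n : ℤ) * k) (A ^ n) (B ^ n) := by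
  intro n hn
  induction n, hn using Nat.le_induction with
  | base => simpa using h
  | succ n hn ih =>
    have h1 := api.mul ih h
    have hw : ((n : ℤ) * k + k) = ((n + 1 : ℕ) : ℤ) * k := by push_cast; ring
    rw [hw, ← pow_succ, ← pow_succ] at h1
    exact h1

theorem PairAPI.addZ (api : PairAPI p P) {k : ℤ} {A B A' B' : PowerSeries ℤ}
    (h : P k (ι A) (ι B)) (h' : P k (ι A') (ι B')) : P k (ι (A + A')) (ι (B + B')) := by
  rw [map_add, map_add]; exact api.add h h'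

theorem PairAPI.smulZ (api : PairAPI p P) {k : ℤ} {A B : PowerSeries ℤ} (z : ℤ)
    (h : P k (ι A) (ι B)) :
    P k (ι ((z : PowerSeries ℤ) * A)) (ι ((z : PowerSeries ℤ) * B)) := by
  rw [map_intCast_mul, map_intCast_mul]; exact api.smul _ h

theorem PairAPI.subZ (api : PairAPI p P) {k : ℤ} {A B A' B' : PowerSeries ℤ}
    (h : P k (ι A) (ι B)) (h' : P k (ι A') (ι B')) : P k (ι (A - A')) (ι (B - B')) := by
  have h1 := api.addZ h (api.smulZ (-1) h')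
  have e1 : A + ((-1 : ℤ) : PowerSeries ℤ) * A' = A - A' := by push_cast; ring
  have e2 : B + ((-1 : ℤ) : PowerSeries ℤ) * B' = B - B' := by push_cast; ring
  rwa [e1, e2] at h1

theorem PairAPI.mulZ (api : PairAPI p P) {k k' : ℤ} {A B A' B' : PowerSeries ℤ}
    (h : P k (ι A) (ι B)) (h' : P k' (ι A') (ι B')) :
    P (k + k') (ι (A * A')) (ι (B * B')) := by
  rw [map_mul, map_mul]; exact api.mul h h'

theorem PairAPI.divZ (api : PairAPI p P) {k : ℤ} {A B : PowerSeries ℤ} (d : ℤ) (hd : d ≠ 0)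
    (h : P k (ι ((d : PowerSeries ℤ) * A)) (ι ((d : PowerSeries ℤ) * B))) :
    P k (ι A) (ι B) := by
  rw [map_intCast_mul, map_intCast_mul] at h
  have h1 := api.smul ((d : ℂ)⁻¹) h
  have hd' : (d : ℂ) ≠ 0 := by exact_mod_cast hd
  rwa [smul_smul, smul_smul, inv_mul_cancel₀ hd', one_smul, one_smul] at h1

theorem PairAPI.levelOneZ (api : PairAPI p P) (hp : p ≠ 0) {w : ℤ} (X : ModularForm 𝒮ℒ w)
    (Q : PowerSeries ℤ) (hQ : qExpansion 1 X = ι Q) :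
    P w (ι Q) (ι (PowerSeries.expand p hp Q)) := by
  obtain ⟨B, hB, hBc⟩ := api.levelOne X
  have hBe : B = ι (PowerSeries.expand p hp Q) := by
    ext n
    rw [hBc n, hQ, PowerSeries.coeff_map, PowerSeries.coeff_map, PowerSeries.coeff_expand]
    split_ifs <;> simp
  rw [← hBe, ← hQ]; exact hB

theorem PairAPI.weight_twoZ (api : PairAPI p P) (hp : p ≠ 0)
    (G : ModularForm (CongruenceSubgroup.Gamma0 p) 2) (C : PowerSeries ℤ)
    (hC : qExpansion 1 G = ι C) :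
    P 2 (ι (((p : ℤ) : PowerSeries ℤ) * C)) (ι (-UZ p C)) := by
  obtain ⟨B, hB, hBc⟩ := api.weight_two G
  have h1 := api.smul (p : ℂ) hB
  have hp' : (p : ℂ) ≠ 0 := by exact_mod_cast hp
  have hA : (p : ℂ) • qExpansion 1 G = ι (((p : ℤ) : PowerSeries ℤ) * C) := by
    rw [hC, map_intCast_mul]; simp
  have hB' : (p : ℂ) • B = ι (-UZ p C) := by
    ext n
    rw [PowerSeries.coeff_smul, hBc n, hC, PowerSeries.coeff_map, PowerSeries.coeff_map,
      map_neg, coeff_UZ, smul_eq_mul]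
    simp only [eq_intCast, Int.cast_neg]
    field_simp
  rwa [hA, hB'] at h1

end API


/-! ### The trace–Sturm lemma -/

theorem mem_zmultiples_natCast_iff (L : ℕ) (z : ℤ) :
    ((z : ℂ) ∈ AddSubgroup.zmultiples ((L : ℕ) : ℂ)) ↔ (L : ℤ) ∣ z := by
  rw [AddSubgroup.mem_zmultiples_iff]
  constructor
  · rintro ⟨k, hk⟩
    refine ⟨k, ?_⟩
    have : ((k * L : ℤ) : ℂ) = (z : ℂ) := by rw [← hk]; simp
    have h2 : (k * L : ℤ) = z := by exact_mod_cast this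
    rw [← h2]; ring
  · rintro ⟨k, rfl⟩
    exact ⟨k, by simp [mul_comm]⟩

/-- The low coefficients of a power of a series whose low coefficients vanish mod `ℓ`. -/
theorem dvd_coeff_pow_of_low {ℓ : ℕ} (hℓ : ℓ.Prime) (F : PowerSeries ℤ) (m : ℕ)
    (hlow : ∀ j < m, (ℓ : ℤ) ∣ F.coeff j) (N n : ℕ) (hn : n < m * N) :
    (ℓ : ℤ) ∣ (F ^ N).coeff n := by
  have : Fact ℓ.Prime := Fact.mk hℓ
  set Fb : PowerSeries (ZMod ℓ) := PowerSeries.map (Int.castRingHom (ZMod ℓ)) F with hFb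
  have h1 : (PowerSeries.X : PowerSeries (ZMod ℓ)) ^ m ∣ Fb := by
    rw [PowerSeries.X_pow_dvd_iff]
    intro j hj
    rw [hFb, PowerSeries.coeff_map]
    exact (ZMod.intCast_zmod_eq_zero_iff_dvd _ _).mpr (hlow j hj)
  have h2 : (PowerSeries.X : PowerSeries (ZMod ℓ)) ^ (m * N) ∣ Fb ^ N := by
    rw [pow_mul]; exact pow_dvd_pow_of_dvd h1 N
  have h3 := (PowerSeries.X_pow_dvd_iff.mp h2) n hn
  rw [hFb, ← map_pow, PowerSeries.coeff_map] at h3
  exact (ZMod.intCast_zmod_eq_zero_iff_dvd _ _).mp h3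

/-- If all coefficients of a power of `F` vanish mod `ℓ`, so do those of `F`. -/
theorem dvd_coeff_of_dvd_coeff_pow {ℓ : ℕ} (hℓ : ℓ.Prime) (F : PowerSeries ℤ) (N : ℕ)
    (h : ∀ n, (ℓ : ℤ) ∣ (F ^ N).coeff n) (j : ℕ) : (ℓ : ℤ) ∣ F.coeff j := by
  have : Fact ℓ.Prime := Fact.mk hℓ
  set Fb : PowerSeries (ZMod ℓ) := PowerSeries.map (Int.castRingHom (ZMod ℓ)) F with hFb
  have h1 : Fb ^ N = 0 := by
    ext n
    rw [hFb, ← map_pow, PowerSeries.coeff_map]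
    simpa using (ZMod.intCast_zmod_eq_zero_iff_dvd _ _).mpr (h n)
  have hN0 : N ≠ 0 := by
    rintro rfl
    have h3 : (ℓ : ℤ) ∣ 1 := by
      have := h 0
      simpa using this
    have h4 : ℓ ∣ 1 := by exact_mod_cast h3
    exact hℓ.one_lt.ne' (Nat.dvd_one.mp h4)
  have h2 : Fb = 0 := (pow_eq_zero_iff hN0).mp h1
  have h3 : Fb.coeff j = 0 := by rw [h2]; simp
  rw [hFb, PowerSeries.coeff_map] at h3
  exact (ZMod.intCast_zmod_eq_zero_iff_dvd _ _).mp h3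

/-- **The trace–Sturm lemma (TS).** Let `(A, B)` be an integral pair of weight `k` at level
`p`, congruent mod `ℓ` to `(F, F(q^p))`, and let `ℓ^b ∥ p + 1`. If the coefficients `F_j`,
`j < m`, vanish mod `ℓ`, where `k < 12 m`, then `F ≡ 0 mod ℓ`. -/
theorem ts_core {p : ℕ} (hp : p.Prime) {P : ℤ → PowerSeries ℂ → PowerSeries ℂ → Prop}
    (api : PairAPI p P) {ℓ : ℕ} (hℓ : ℓ.Prime) (k : ℤ) (m : ℕ) (hm : k < 12 * m) (b u : ℕ)
    (hpb : p + 1 = ℓ ^ b * u) (hu : ¬ ℓ ∣ u) (A B F : PowerSeries ℤ)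
    (hP : P k (ι A) (ι B)) (hA : (ℓ : PowerSeries ℤ) ∣ A - F)
    (hB : (ℓ : PowerSeries ℤ) ∣ B - PowerSeries.expand p hp.ne_zero F)
    (hlow : ∀ j < m, (ℓ : ℤ) ∣ F.coeff j) : ∀ j, (ℓ : ℤ) ∣ F.coeff j := by
  obtain ⟨N, hN⟩ : ∃ N : ℕ, N = ℓ ^ b := ⟨_, rfl⟩
  have hNpos : 0 < N := by rw [hN]; exact pow_pos hℓ.pos b
  -- power congruences
  have hA' : ((ℓ ^ (b + 1) : ℕ) : PowerSeries ℤ) ∣ A ^ N - F ^ N := by
    have h := dvd_sub_pow_of_dvd_sub hA b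
    rw [Nat.cast_pow, hN]; exact h
  have hB' : ((ℓ ^ (b + 1) : ℕ) : PowerSeries ℤ) ∣
      B ^ N - PowerSeries.expand p hp.ne_zero (F ^ N) := by
    have h := dvd_sub_pow_of_dvd_sub hB b
    rw [Nat.cast_pow, map_pow, hN]; exact h
  -- the pair of the `N`-th powers and its trace
  have hPN : P ((N : ℤ) * k) (ι A ^ N) (ι B ^ N) := api.pow hP N hNpos
  obtain ⟨X, hX⟩ := api.trace hPN
  set T : PowerSeries ℤ := A ^ N + ((p : ℤ) : PowerSeries ℤ) * UZ p (B ^ N) with hT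
  have hXT : ∀ n, (qExpansion 1 X).coeff n = ((T.coeff n : ℤ) : ℂ) := by
    intro n
    rw [hX n, hT, ← map_pow, ← map_pow, PowerSeries.coeff_map, PowerSeries.coeff_map, map_add,
      intCast_eq_C, PowerSeries.coeff_C_mul, coeff_UZ]
    simp
  -- `T ≡ (p + 1) F^N` mod `ℓ^(b+1)`
  have hTcong : ((ℓ ^ (b + 1) : ℕ) : PowerSeries ℤ) ∣
      T - (((p + 1 : ℕ) : ℤ) : PowerSeries ℤ) * F ^ N := by
    have h1 : T - (((p + 1 : ℕ) : ℤ) : PowerSeries ℤ) * F ^ N =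
        (A ^ N - F ^ N) + ((p : ℤ) : PowerSeries ℤ) *
          UZ p (B ^ N - PowerSeries.expand p hp.ne_zero (F ^ N)) := by
      rw [UZ_sub, UZ_expand, hT]; push_cast; ring
    rw [h1]
    exact dvd_add hA' (Dvd.dvd.mul_left (natCast_dvd_UZ _ _ hB') _)
  rw [natCast_dvd_iff] at hTcong
  have hTc : ∀ n, ((ℓ ^ (b + 1) : ℕ) : ℤ) ∣ T.coeff n - ((p + 1 : ℕ) : ℤ) * (F ^ N).coeff n := by
    intro n
    have h := hTcong n
    rwa [map_sub, intCast_eq_C, PowerSeries.coeff_C_mul] at h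
  -- Sturm
  have hall : ∀ n, (qExpansion 1 X).coeff n ∈
      AddSubgroup.zmultiples (((ℓ ^ (b + 1) : ℕ) : ℕ) : ℂ) := by
    refine Fermat.Agent.Lib.LevelOneSturm.coeff_mem_of_le _ _ X fun n hn => ?_
    rw [hXT n, mem_zmultiples_natCast_iff]
    have hnlt : n < m * N := by
      have h1 : 12 * (n : ℤ) < 12 * ((m * N : ℕ) : ℤ) := by
        have h2 : (N : ℤ) * k < (N : ℤ) * (12 * m) :=
          mul_lt_mul_of_pos_left hm (by exact_mod_cast hNpos)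
        push_cast
        nlinarith
      have h3 : (n : ℤ) < ((m * N : ℕ) : ℤ) := by linarith
      exact_mod_cast h3
    have hF := dvd_coeff_pow_of_low hℓ F m hlow N n hnlt
    have h1 : ((ℓ ^ (b + 1) : ℕ) : ℤ) ∣ ((p + 1 : ℕ) : ℤ) * (F ^ N).coeff n := by
      obtain ⟨s, hs⟩ := hF
      rw [hpb, hs]
      exact ⟨u * s, by push_cast; ring⟩
    have h2 := dvd_add (hTc n) h1
    rwa [sub_add_cancel] at h2
  -- conclusion
  have hFN : ∀ n, (ℓ : ℤ) ∣ (F ^ N).coeff n := by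
    intro n
    have h1 := hall n
    rw [hXT n, mem_zmultiples_natCast_iff] at h1
    have h2 : ((ℓ ^ (b + 1) : ℕ) : ℤ) ∣ ((p + 1 : ℕ) : ℤ) * (F ^ N).coeff n := by
      have h3 := dvd_sub h1 (hTc n)
      rwa [sub_sub_cancel] at h3
    rw [hpb] at h2
    have h4 : ((ℓ : ℤ) ^ b) * (ℓ : ℤ) ∣ ((ℓ : ℤ) ^ b) * ((u : ℤ) * (F ^ N).coeff n) := by
      have e1 : ((ℓ ^ (b + 1) : ℕ) : ℤ) = ((ℓ : ℤ) ^ b) * (ℓ : ℤ) := by push_cast; ring
      have e2 : ((ℓ ^ b * u : ℕ) : ℤ) * (F ^ N).coeff n =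
          ((ℓ : ℤ) ^ b) * ((u : ℤ) * (F ^ N).coeff n) := by push_cast; ring
      rwa [e1, e2] at h2
    have hℓ0 : ((ℓ : ℤ) ^ b) ≠ 0 := pow_ne_zero _ (by exact_mod_cast hℓ.ne_zero)
    have h5 : (ℓ : ℤ) ∣ (u : ℤ) * (F ^ N).coeff n := (mul_dvd_mul_iff_left hℓ0).mp h4
    have hprime : Prime (ℓ : ℤ) := Nat.prime_iff_prime_int.mp hℓ
    rcases hprime.dvd_or_dvd h5 with h6 | h6
    · exact absurd (by exact_mod_cast h6) hu
    · exact h6
  exact dvd_coeff_of_dvd_coeff_pow hℓ F N hFN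


/-! ### Common set-up for the three applications -/

/-- `E₄ = 1 + 240 Σ σ₃(n) qⁿ` over `ℤ`. -/
noncomputable def e4Z : PowerSeries ℤ := 1 + 240 * sigmaSeries 3

/-- `E₆ = 1 - 504 Σ σ₅(n) qⁿ` over `ℤ`. -/
noncomputable def e6Z : PowerSeries ℤ := 1 - 504 * sigmaSeries 5

theorem coeff_zero_sigmaSeries (j : ℕ) : (sigmaSeries j).coeff 0 = 0 := by
  rw [coeff_sigmaSeries]; simp

theorem coeff_ofNat_mul (a : ℤ) (f : PowerSeries ℤ) (n : ℕ) :
    ((a : PowerSeries ℤ) * f).coeff n = a * f.coeff n := coeff_intCast_mul a f n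

theorem coeff_e4Z (n : ℕ) (hn : n ≠ 0) :
    e4Z.coeff n = 240 * ((ArithmeticFunction.sigma 3 n : ℕ) : ℤ) := by
  have h240 : (240 : PowerSeries ℤ) = ((240 : ℤ) : PowerSeries ℤ) := by norm_num
  rw [e4Z, map_add, h240, coeff_intCast_mul, PowerSeries.coeff_one, if_neg hn,
    coeff_sigmaSeries, zero_add]

theorem coeff_e6Z (n : ℕ) (hn : n ≠ 0) :
    e6Z.coeff n = -504 * ((ArithmeticFunction.sigma 5 n : ℕ) : ℤ) := by
  have h504 : (504 : PowerSeries ℤ) = ((504 : ℤ) : PowerSeries ℤ) := by norm_num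
  rw [e6Z, map_sub, h504, coeff_intCast_mul, PowerSeries.coeff_one, if_neg hn,
    coeff_sigmaSeries, zero_sub, neg_mul]

theorem coeff_zero_e4Z : e4Z.coeff 0 = 1 := by
  have h240 : (240 : PowerSeries ℤ) = ((240 : ℤ) : PowerSeries ℤ) := by norm_num
  rw [e4Z, map_add, h240, coeff_intCast_mul, coeff_zero_sigmaSeries]; simp

theorem coeff_zero_e6Z : e6Z.coeff 0 = 1 := by
  have h504 : (504 : PowerSeries ℤ) = ((504 : ℤ) : PowerSeries ℤ) := by norm_num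
  rw [e6Z, map_sub, h504, coeff_intCast_mul, coeff_zero_sigmaSeries]; simp

section Apps

variable {p : ℕ} {P : ℤ → PowerSeries ℂ → PowerSeries ℂ → Prop}

theorem PairAPI.e4 (api : PairAPI p P) (hp : p ≠ 0) :
    P 4 (ι e4Z) (ι (PowerSeries.expand p hp e4Z)) :=
  api.levelOneZ hp E₄ e4Z qExpansion_E₄

theorem PairAPI.e6 (api : PairAPI p P) (hp : p ≠ 0) :
    P 6 (ι e6Z) (ι (PowerSeries.expand p hp e6Z)) :=
  api.levelOneZ hp E₆ e6Z qExpansion_E₆

/-- The integral `q`-expansion of a form with integral coefficients. -/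
theorem qExpansion_eq_map_mk (G : ModularForm (CongruenceSubgroup.Gamma0 p) 2) (c : ℕ → ℤ)
    (hc : ∀ n, (qExpansion 1 G).coeff n = (c n : ℂ)) :
    qExpansion 1 G = ι (PowerSeries.mk c) := by
  ext n
  rw [hc n, PowerSeries.coeff_map, PowerSeries.coeff_mk]
  simp

/-- The factorisation `p + 1 = ℓ^b u` with `ℓ ∤ u`. -/
theorem exists_pow_mul (p ℓ : ℕ) (hℓ : ℓ.Prime) :
    ∃ b u : ℕ, p + 1 = ℓ ^ b * u ∧ ¬ ℓ ∣ u := by
  obtain ⟨b, u, hu, h⟩ := Nat.exists_eq_pow_mul_and_not_dvd (Nat.succ_ne_zero p) ℓ hℓ.ne_one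
  exact ⟨b, u, h, hu⟩

/-- **Case `ℓ ≥ 5`, `ℓ ≠ p`, `ℓ ∣ p + 1`.** No `G ∈ M₂(Γ₀(p))` with integral `q`-expansion
is congruent to a unit constant mod `ℓ`.  (`Ψ = p G E₄ + x E₆ ≡ x (E₆ - E₄)`.) -/
theorem noCong_large (hp : p.Prime) (api : PairAPI p P) {ℓ : ℕ} (hℓ : ℓ.Prime) (h5 : 5 ≤ ℓ)
    (hres : ℓ ∣ p + 1) (G : ModularForm (CongruenceSubgroup.Gamma0 p) 2) (c : ℕ → ℤ)
    (hc : ∀ n, (qExpansion 1 G).coeff n = (c n : ℂ))
    (hdiv : ∀ n, 1 ≤ n → (ℓ : ℤ) ∣ c n) : (ℓ : ℤ) ∣ c 0 := by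
  by_contra hx
  set C : PowerSeries ℤ := PowerSeries.mk c with hC
  have hGC := qExpansion_eq_map_mk G c hc
  set x : ℤ := c 0 with hx0
  obtain ⟨b, u, hpb, hu⟩ := exists_pow_mul p ℓ hℓ
  set E := PowerSeries.expand (R := ℤ) p hp.ne_zero with hE
  -- the pair
  set A : PowerSeries ℤ := ((p : ℤ) : PowerSeries ℤ) * C * e4Z + (x : PowerSeries ℤ) * e6Z
    with hA
  set B : PowerSeries ℤ := -UZ p C * E e4Z + (x : PowerSeries ℤ) * E e6Z with hB
  set F : PowerSeries ℤ := (x : PowerSeries ℤ) * (e6Z - e4Z) with hF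
  have hPAB : P 6 (ι A) (ι B) := by
    have h1 := api.mulZ (api.weight_twoZ hp.ne_zero G C hGC) (api.e4 hp.ne_zero)
    have h2 := api.smulZ x (api.e6 hp.ne_zero)
    have h3 : (2 : ℤ) + 4 = 6 := by norm_num
    rw [h3] at h1
    exact api.addZ h1 h2
  -- congruences
  have hcongA : (ℓ : PowerSeries ℤ) ∣ A - F := by
    have h1 : A - F = (((p : ℤ) : PowerSeries ℤ) * C + (x : PowerSeries ℤ)) * e4Z := by
      rw [hA, hF]; ring
    rw [h1]
    refine Dvd.dvd.mul_right ?_ _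
    rw [natCast_dvd_iff]
    intro n
    rw [map_add, coeff_intCast_mul, hC, PowerSeries.coeff_mk, intCast_eq_C, PowerSeries.coeff_C]
    by_cases hn : n = 0
    · subst hn
      rw [if_pos rfl]
      have h2 : (p : ℤ) * c 0 + x = ((p + 1 : ℕ) : ℤ) * x := by rw [hx0]; push_cast; ring
      rw [h2]
      exact Dvd.dvd.mul_right (by exact_mod_cast hres) _
    · rw [if_neg hn, add_zero]
      exact Dvd.dvd.mul_left (hdiv n (Nat.pos_of_ne_zero hn)) _
  have hcongB : (ℓ : PowerSeries ℤ) ∣ B - E F := by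
    have h1 : B - E F = ((x : PowerSeries ℤ) - UZ p C) * E e4Z := by
      rw [hB, hF, map_mul, map_sub, map_intCast]; ring
    rw [h1]
    refine Dvd.dvd.mul_right ?_ _
    rw [natCast_dvd_iff]
    intro n
    rw [map_sub, coeff_UZ, hC, PowerSeries.coeff_mk, intCast_eq_C, PowerSeries.coeff_C]
    by_cases hn : n = 0
    · subst hn
      simp [hx0]
    · rw [if_neg hn, zero_sub]
      exact (dvd_neg).mpr (hdiv _ (Nat.mul_pos hp.pos (Nat.pos_of_ne_zero hn)))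
  -- the trace–Sturm lemma
  have hlow : ∀ j < 1, (ℓ : ℤ) ∣ F.coeff j := by
    intro j hj
    obtain rfl : j = 0 := by omega
    rw [hF, coeff_intCast_mul, map_sub, coeff_zero_e4Z, coeff_zero_e6Z]
    simp
  have hall := ts_core hp api hℓ 6 1 (by norm_num) b u hpb hu A B F hPAB hcongA hcongB hlow
  have hprime : Prime (ℓ : ℤ) := Nat.prime_iff_prime_int.mp hℓ
  have h1 := hall 1
  have h2 := hall 2
  rw [hF, coeff_intCast_mul, map_sub, coeff_e4Z 1 one_ne_zero, coeff_e6Z 1 one_ne_zero] at h1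
  rw [hF, coeff_intCast_mul, map_sub, coeff_e4Z 2 two_ne_zero, coeff_e6Z 2 two_ne_zero] at h2
  have hs31 : ArithmeticFunction.sigma 3 1 = 1 := by decide
  have hs51 : ArithmeticFunction.sigma 5 1 = 1 := by decide
  have hs32 : ArithmeticFunction.sigma 3 2 = 9 := by decide
  have hs52 : ArithmeticFunction.sigma 5 2 = 33 := by decide
  rw [hs31, hs51] at h1
  rw [hs32, hs52] at h2
  have h1' : (ℓ : ℤ) ∣ 744 := by
    rcases hprime.dvd_or_dvd h1 with h | h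
    · exact absurd h hx
    · have : (-504 * ((1 : ℕ) : ℤ) - 240 * ((1 : ℕ) : ℤ)) = -744 := by norm_num
      rw [this] at h
      exact (dvd_neg).mp h
  have h2' : (ℓ : ℤ) ∣ 18792 := by
    rcases hprime.dvd_or_dvd h2 with h | h
    · exact absurd h hx
    · have : (-504 * ((33 : ℕ) : ℤ) - 240 * ((9 : ℕ) : ℤ)) = -18792 := by norm_num
      rw [this] at h
      exact (dvd_neg).mp h
  have h3 : (ℓ : ℤ) ∣ 24 := by
    have : (24 : ℤ) = 18792 - 25 * 744 - 168 := by norm_num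
    have h4 : (ℓ : ℤ) ∣ 18792 - 25 * 744 := dvd_sub h2' (Dvd.dvd.mul_left h1' _)
    have h5 : (18792 - 25 * 744 : ℤ) = 192 := by norm_num
    rw [h5] at h4
    -- gcd(744, 192) = 24
    have h6 : (ℓ : ℤ) ∣ 744 - 3 * 192 := dvd_sub h1' (Dvd.dvd.mul_left h4 _)
    have h7 : (744 - 3 * 192 : ℤ) = 168 := by norm_num
    rw [h7] at h6
    have h8 : (ℓ : ℤ) ∣ 192 - 168 := dvd_sub h4 h6
    have h9 : (192 - 168 : ℤ) = 24 := by norm_num
    rwa [h9] at h8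
  have h4 : ℓ ∣ 24 := by exact_mod_cast h3
  have h5 : ℓ ≤ 24 := Nat.le_of_dvd (by norm_num) h4
  interval_cases ℓ <;> simp_all (config := {decide := true})


/-- Splitting `C = x + d g` when `d ∣ c n` for `n ≥ 1`. -/
theorem exists_split (c : ℕ → ℤ) (d : ℤ) (hdiv : ∀ n, 1 ≤ n → d ∣ c n) :
    ∃ g : PowerSeries ℤ, PowerSeries.mk c = ((c 0 : ℤ) : PowerSeries ℤ) + (d : PowerSeries ℤ) * g := by
  refine ⟨PowerSeries.mk fun n => if n = 0 then 0 else c n / d, ?_⟩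
  ext n
  rw [map_add, coeff_intCast_mul, PowerSeries.coeff_mk, PowerSeries.coeff_mk, intCast_eq_C,
    PowerSeries.coeff_C]
  by_cases hn : n = 0
  · subst hn; simp
  · rw [if_neg hn, if_neg hn, zero_add, Int.mul_ediv_cancel' (hdiv n (Nat.pos_of_ne_zero hn))]

/-- **Case `ℓ = 3`, `9 ∣ p + 1`.** No `G ∈ M₂(Γ₀(p))` with integral `q`-expansion is
congruent to a unit constant mod `9`.  (`ψ = (x² E₄ - (p G)²)/3 ≡ 80 x² Σ σ₃(n) qⁿ`.) -/
theorem noCong_three (hp : p.Prime) (api : PairAPI p P) (h9 : 9 ∣ p + 1)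
    (G : ModularForm (CongruenceSubgroup.Gamma0 p) 2) (c : ℕ → ℤ)
    (hc : ∀ n, (qExpansion 1 G).coeff n = (c n : ℂ))
    (hdiv : ∀ n, 1 ≤ n → (9 : ℤ) ∣ c n) : (3 : ℤ) ∣ c 0 := by
  by_contra hx
  set C : PowerSeries ℤ := PowerSeries.mk c with hC
  have hGC := qExpansion_eq_map_mk G c hc
  obtain ⟨g, hg⟩ := exists_split c 9 hdiv
  rw [← hC] at hg
  set x : ℤ := c 0 with hx0
  obtain ⟨b, u, hpb, hu⟩ := exists_pow_mul p 3 Nat.prime_three
  set E := PowerSeries.expand (R := ℤ) p hp.ne_zero with hE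
  obtain ⟨t, ht⟩ := h9
  -- `p² = 1 + 9 v`
  set pz : PowerSeries ℤ := ((p : ℤ) : PowerSeries ℤ) with hpz
  set v : ℤ := 9 * (t : ℤ) ^ 2 - 2 * t with hv
  have hp2 : pz ^ 2 = 1 + 9 * ((v : ℤ) : PowerSeries ℤ) := by
    have h1 : (p : ℤ) = 9 * t - 1 := by
      have : ((p + 1 : ℕ) : ℤ) = ((9 * t : ℕ) : ℤ) := by rw [ht]
      push_cast at this
      linarith
    have h2 : (p : ℤ) ^ 2 = 1 + 9 * v := by rw [h1, hv]; ring
    have h3 : (((p : ℤ) ^ 2 : ℤ) : PowerSeries ℤ) = ((1 + 9 * v : ℤ) : PowerSeries ℤ) := by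
      rw [h2]
    rw [Int.cast_pow, Int.cast_add, Int.cast_one, Int.cast_mul, Int.cast_ofNat] at h3
    exact h3
  set s3 : PowerSeries ℤ := sigmaSeries 3 with hs3
  have hUC : UZ p C = (x : PowerSeries ℤ) + ((9 : ℤ) : PowerSeries ℤ) * UZ p g := by
    rw [hg, UZ_add, UZ_intCast hp.ne_zero, UZ_intCast_mul]
  set h : PowerSeries ℤ := UZ p g with hh
  -- the pair
  set A : PowerSeries ℤ := -3 * (v : PowerSeries ℤ) * (x : PowerSeries ℤ) ^ 2
      + 80 * (x : PowerSeries ℤ) ^ 2 * s3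
      - 3 * pz ^ 2 * (2 * (x : PowerSeries ℤ) * g + 9 * g ^ 2) with hA
  set B : PowerSeries ℤ := 80 * (x : PowerSeries ℤ) ^ 2 * E s3
      - 3 * (2 * (x : PowerSeries ℤ) * h + 9 * h ^ 2) with hB
  set F : PowerSeries ℤ := 80 * (x : PowerSeries ℤ) ^ 2 * s3 with hF
  have hA3 : ((3 : ℤ) : PowerSeries ℤ) * A =
      ((x ^ 2 : ℤ) : PowerSeries ℤ) * e4Z - (pz * C) * (pz * C) := by
    rw [hA, hg, e4Z, ← hs3]
    push_cast
    linear_combination ((x : PowerSeries ℤ) ^ 2) * hp2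
  have hEe4 : E e4Z = 1 + 240 * E s3 := by
    rw [e4Z, map_add, map_one, map_mul, ← hs3, map_ofNat]
  have hB3 : ((3 : ℤ) : PowerSeries ℤ) * B =
      ((x ^ 2 : ℤ) : PowerSeries ℤ) * E e4Z - (-UZ p C) * (-UZ p C) := by
    rw [hB, hUC, hEe4]
    push_cast
    ring
  have hPAB : P 4 (ι A) (ι B) := by
    have hY := api.weight_twoZ hp.ne_zero G C hGC
    have h1 := api.mulZ hY hY
    have h3 : (2 : ℤ) + 2 = 4 := by norm_num
    rw [h3] at h1
    have h2 := api.subZ (api.smulZ (x ^ 2) (api.e4 hp.ne_zero)) h1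
    rw [← hA3, ← hB3] at h2
    exact api.divZ 3 (by norm_num) h2
  -- congruences
  have hcongA : ((3 : ℕ) : PowerSeries ℤ) ∣ A - F := by
    refine ⟨-(v : PowerSeries ℤ) * (x : PowerSeries ℤ) ^ 2
      - pz ^ 2 * (2 * (x : PowerSeries ℤ) * g + 9 * g ^ 2), ?_⟩
    rw [hA, hF]; push_cast; ring
  have hcongB : ((3 : ℕ) : PowerSeries ℤ) ∣ B - E F := by
    refine ⟨-(2 * (x : PowerSeries ℤ) * h + 9 * h ^ 2), ?_⟩
    have hEF : E F = 80 * (x : PowerSeries ℤ) ^ 2 * E s3 := by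
      rw [hF, map_mul, map_mul, map_pow, map_intCast, map_ofNat]
    rw [hEF, hB]; push_cast; ring
  have hlow : ∀ j < 1, ((3 : ℕ) : ℤ) ∣ F.coeff j := by
    intro j hj
    obtain rfl : j = 0 := by omega
    have h80 : (80 : PowerSeries ℤ) * (x : PowerSeries ℤ) ^ 2 = ((80 * x ^ 2 : ℤ) : PowerSeries ℤ) := by
      push_cast; ring
    rw [hF, h80, coeff_intCast_mul, hs3, coeff_zero_sigmaSeries]
    simp
  have hall := ts_core hp api Nat.prime_three 4 1 (by norm_num) b u hpb hu A B F hPAB hcongA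
    hcongB hlow
  have h1 := hall 1
  have h80 : (80 : PowerSeries ℤ) * (x : PowerSeries ℤ) ^ 2 = ((80 * x ^ 2 : ℤ) : PowerSeries ℤ) := by
    push_cast; ring
  rw [hF, h80, coeff_intCast_mul, hs3, coeff_sigmaSeries] at h1
  have hs31 : ArithmeticFunction.sigma 3 1 = 1 := by decide
  rw [hs31] at h1
  have hprime : Prime (3 : ℤ) := Int.prime_three
  have h2 : (3 : ℤ) ∣ 80 * x ^ 2 := by
    have : (80 * x ^ 2 : ℤ) * ((1 : ℕ) : ℤ) = 80 * x ^ 2 := by simp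
    rw [this] at h1
    exact_mod_cast h1
  rcases hprime.dvd_or_dvd h2 with h3 | h3
  · norm_num at h3
  · exact hx (hprime.dvd_of_dvd_pow h3)

/-- The formal core of the `2`-adic case: with `Y = x + 8 g`, `e₄ = 1 + 16 u`, `e₆ = 1 + 8 w`,
`e₄³ - e₆² = 1728 D`, `x` odd and `u ≡ w mod 2`, the weight `8` expression
`4 x² (x² e₄² + e₄ Y² - 2 x Y e₆) + (x² e₄ - Y²)²` is `256 Ξ` with `Ξ ≡ D mod 2`. -/
theorem two_core {R : Type*} [CommRing R] (x g u w D e4inv : R) (hx : (2 : R) ∣ x - 1)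
    (hinv : (1 + 16 * u) * e4inv = 1)
    (hD : (1728 : R) * D = (1 + 16 * u) ^ 3 - (1 + 8 * w) ^ 2) (huw : (2 : R) ∣ u + w) :
    ∃ Ξ : R, 256 * Ξ = 4 * x ^ 2 * (x ^ 2 * ((1 + 16 * u) * (1 + 16 * u))
          + (1 + 16 * u) * ((x + 8 * g) * (x + 8 * g))
          + (-2 * x) * ((x + 8 * g) * (1 + 8 * w)))
        + (x ^ 2 * (1 + 16 * u) - (x + 8 * g) * (x + 8 * g))
          * (x ^ 2 * (1 + 16 * u) - (x + 8 * g) * (x + 8 * g)) ∧
      (2 : R) ∣ Ξ - D := by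
  refine ⟨x ^ 2 * (e4inv * ((g + 2 * x * u + 16 * g * u - x * w) ^ 2 + 27 * x ^ 2 * D))
    + (x ^ 2 * u - x * g - 4 * g ^ 2) ^ 2, ?_, ?_⟩
  · linear_combination (4 * x ^ 2 * (x ^ 2 * ((1 + 16 * u) * (1 + 16 * u))
          + (1 + 16 * u) * ((x + 8 * g) * (x + 8 * g))
          + (-2 * x) * ((x + 8 * g) * (1 + 8 * w)))) * hinv + (4 * x ^ 4 * e4inv) * hD
  · obtain ⟨a, ha⟩ := hx
    obtain ⟨b', hb⟩ := huw
    obtain rfl : x = 1 + 2 * a := by linear_combination ha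
    obtain rfl : w = 2 * b' - u := by linear_combination hb
    refine ⟨2 * ((1 + 2 * a) ^ 2 * (2 * u - b') + 8 * (1 + 2 * a) * g * u - 2 * g ^ 2) ^ 2
      - (1 + 2 * a) * (g + 2 * (1 + 2 * a) * u + 16 * g * u - (1 + 2 * a) * (2 * b' - u))
        * ((1 + 2 * a) ^ 2 * u - (1 + 2 * a) * g - 4 * g ^ 2)
      + (13 + 27 * a * ((1 + 2 * a) + 1) * ((1 + 2 * a) ^ 2 + 1)) * D
      - 8 * u * e4inv * (1 + 2 * a) ^ 2
        * ((g + 2 * (1 + 2 * a) * u + 16 * g * u - (1 + 2 * a) * (2 * b' - u)) ^ 2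
          + 27 * (1 + 2 * a) ^ 2 * D), ?_⟩
    linear_combination ((1 + 2 * a) ^ 2
        * ((g + 2 * (1 + 2 * a) * u + 16 * g * u - (1 + 2 * a) * (2 * b' - u)) ^ 2
          + 27 * (1 + 2 * a) ^ 2 * D)) * hinv


theorem PairAPI.mulZ' (api : PairAPI p P) {k k' k'' : ℤ} (hk : k + k' = k'')
    {A B A' B' : PowerSeries ℤ} (h : P k (ι A) (ι B)) (h' : P k' (ι A') (ι B')) :
    P k'' (ι (A * A')) (ι (B * B')) := hk ▸ api.mulZ h h'

/-- `σ₃ ≡ σ₅ mod 2`, in the form needed below. -/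
theorem two_dvd_sigma_comb :
    ((2 : ℕ) : PowerSeries ℤ) ∣
      ((15 : ℤ) : PowerSeries ℤ) * sigmaSeries 3 + ((-63 : ℤ) : PowerSeries ℤ) * sigmaSeries 5 := by
  rw [natCast_dvd_iff]
  intro n
  rw [map_add, coeff_intCast_mul, coeff_intCast_mul, coeff_sigmaSeries, coeff_sigmaSeries]
  obtain ⟨r, hr⟩ := twelve_dvd_sigma n
  refine ⟨18 * r - 42 * ((ArithmeticFunction.sigma 5 n : ℕ) : ℤ), ?_⟩
  push_cast
  linear_combination 3 * hr

/-- **Case `ℓ = 2`, `8 ∣ p + 1`.** No `G ∈ M₂(Γ₀(p))` with integral `q`-expansion is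
congruent to a unit constant mod `8`.  (`Ξ = x² χ + ψ₄² ≡ Δ mod 2`, weight `8`.) -/
theorem noCong_two (hp : p.Prime) (api : PairAPI p P) (h8 : 8 ∣ p + 1)
    (G : ModularForm (CongruenceSubgroup.Gamma0 p) 2) (c : ℕ → ℤ)
    (hc : ∀ n, (qExpansion 1 G).coeff n = (c n : ℂ))
    (hdiv : ∀ n, 1 ≤ n → (8 : ℤ) ∣ c n) : (2 : ℤ) ∣ c 0 := by
  by_contra hx
  set C : PowerSeries ℤ := PowerSeries.mk c with hC
  have hGC := qExpansion_eq_map_mk G c hc
  obtain ⟨g, hg⟩ := exists_split c 8 hdiv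
  rw [← hC] at hg
  obtain ⟨b, u, hpb, hu⟩ := exists_pow_mul p 2 Nat.prime_two
  set E := PowerSeries.expand (R := ℤ) p hp.ne_zero with hE
  obtain ⟨t, ht⟩ := h8
  obtain ⟨pz, hpz⟩ : ∃ pz : PowerSeries ℤ, pz = ((p : ℤ) : PowerSeries ℤ) := ⟨_, rfl⟩
  have hpt : pz = 8 * ((t : ℤ) : PowerSeries ℤ) - 1 := by
    rw [hpz]
    have h1 : (p : ℤ) = 8 * t - 1 := by
      have : ((p + 1 : ℕ) : ℤ) = ((8 * t : ℕ) : ℤ) := by rw [ht]
      push_cast at this
      linarith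
    have h3 : (((p : ℤ)) : PowerSeries ℤ) = ((8 * t - 1 : ℤ) : PowerSeries ℤ) := by rw [h1]
    rw [Int.cast_sub, Int.cast_mul, Int.cast_ofNat, Int.cast_one] at h3
    exact h3
  -- `x₀ = -c₀` is odd
  obtain ⟨x0, hx0⟩ : ∃ x0 : ℤ, x0 = -c 0 := ⟨_, rfl⟩
  have hc0 : ((c 0 : ℤ) : PowerSeries ℤ) = -(x0 : PowerSeries ℤ) := by
    rw [hx0]; push_cast; ring
  rw [hc0] at hg
  have hx0odd : (2 : PowerSeries ℤ) ∣ (x0 : PowerSeries ℤ) - 1 := by
    obtain ⟨a, ha⟩ : ∃ a : ℤ, x0 - 1 = 2 * a := by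
      have h2 : ¬ (2 : ℤ) ∣ c 0 := hx
      exact ⟨(x0 - 1) / 2, by omega⟩
    refine ⟨((a : ℤ) : PowerSeries ℤ), ?_⟩
    have h3 : (((x0 - 1 : ℤ)) : PowerSeries ℤ) = ((2 * a : ℤ) : PowerSeries ℤ) := by rw [ha]
    rw [Int.cast_sub, Int.cast_one, Int.cast_mul, Int.cast_ofNat] at h3
    exact h3
  -- the two weight-two series `Y = x₀ + 8 g₁`, `Y' = x₀ + 8 g₂`
  obtain ⟨g1, hg1⟩ : ∃ g1 : PowerSeries ℤ,
      g1 = -((t : ℤ) : PowerSeries ℤ) * (x0 : PowerSeries ℤ) + pz * g := ⟨_, rfl⟩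
  obtain ⟨g2, hg2⟩ : ∃ g2 : PowerSeries ℤ, g2 = -UZ p g := ⟨_, rfl⟩
  have hY1 : pz * C = (x0 : PowerSeries ℤ) + 8 * g1 := by
    rw [hg, hg1, hpt]; push_cast; ring
  have hY2 : -UZ p C = (x0 : PowerSeries ℤ) + 8 * g2 := by
    rw [hg, hg2, UZ_add, UZ_neg, UZ_intCast hp.ne_zero, UZ_intCast_mul]; push_cast; ring
  -- level one data
  obtain ⟨u1, hu1⟩ : ∃ u1 : PowerSeries ℤ,
      u1 = ((15 : ℤ) : PowerSeries ℤ) * sigmaSeries 3 := ⟨_, rfl⟩
  obtain ⟨w1, hw1⟩ : ∃ w1 : PowerSeries ℤ,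
      w1 = ((-63 : ℤ) : PowerSeries ℤ) * sigmaSeries 5 := ⟨_, rfl⟩
  have he4 : e4Z = 1 + 16 * u1 := by rw [e4Z, hu1]; push_cast; ring
  have he6 : e6Z = 1 + 8 * w1 := by rw [e6Z, hw1]; push_cast; ring
  have hEe4 : E e4Z = 1 + 16 * E u1 := by rw [he4, map_add, map_one, map_mul, map_ofNat]
  have hEe6 : E e6Z = 1 + 8 * E w1 := by rw [he6, map_add, map_one, map_mul, map_ofNat]
  obtain ⟨e4inv, he4inv⟩ : ∃ e : PowerSeries ℤ, e4Z * e = 1 := by
    have hunit : IsUnit e4Z := by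
      rw [PowerSeries.isUnit_iff_constantCoeff, ← PowerSeries.coeff_zero_eq_constantCoeff_apply,
        coeff_zero_e4Z]
      exact isUnit_one
    exact hunit.exists_right_inv
  have hinv1 : (1 + 16 * u1) * e4inv = 1 := by rw [← he4]; exact he4inv
  have hD1 : (1728 : PowerSeries ℤ) * DeltaZ = (1 + 16 * u1) ^ 3 - (1 + 8 * w1) ^ 2 := by
    rw [← he4, ← he6]; exact mul_DeltaZ
  have huw1 : (2 : PowerSeries ℤ) ∣ u1 + w1 := by
    have := two_dvd_sigma_comb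
    rwa [Nat.cast_ofNat, ← hu1, ← hw1] at this
  have hinv2 : (1 + 16 * E u1) * E e4inv = 1 := by
    simpa only [map_mul, map_ofNat, map_add, map_one] using congrArg E hinv1
  have hD2 : (1728 : PowerSeries ℤ) * E DeltaZ = (1 + 16 * E u1) ^ 3 - (1 + 8 * E w1) ^ 2 := by
    simpa only [map_mul, map_ofNat, map_sub, map_pow, map_add, map_one] using congrArg E hD1
  have huw2 : (2 : PowerSeries ℤ) ∣ E u1 + E w1 := by
    have := map_dvd E huw1
    rwa [map_ofNat, map_add] at this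
  obtain ⟨Ξ1, hΞ1, hΞ1D⟩ := two_core (x0 : PowerSeries ℤ) g1 u1 w1 DeltaZ e4inv hx0odd hinv1 hD1
    huw1
  obtain ⟨Ξ2, hΞ2, hΞ2D⟩ := two_core (x0 : PowerSeries ℤ) g2 (E u1) (E w1) (E DeltaZ) (E e4inv)
    hx0odd hinv2 hD2 huw2
  -- the pair of weight 8
  have hPAB : P 8 (ι Ξ1) (ι Ξ2) := by
    have hY := api.weight_twoZ hp.ne_zero G C hGC
    rw [← hpz] at hY
    have h4 := api.e4 hp.ne_zero
    have h6 := api.e6 hp.ne_zero
    have hYY := api.mulZ' (by norm_num : (2 : ℤ) + 2 = 4) hY hY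
    have h44 := api.mulZ' (by norm_num : (4 : ℤ) + 4 = 8) h4 h4
    have h4YY := api.mulZ' (by norm_num : (4 : ℤ) + 4 = 8) h4 hYY
    have hY6 := api.mulZ' (by norm_num : (2 : ℤ) + 6 = 8) hY h6
    have hN := api.addZ (api.addZ (api.smulZ (x0 ^ 2) h44) h4YY) (api.smulZ (-2 * x0) hY6)
    have hd := api.subZ (api.smulZ (x0 ^ 2) h4) hYY
    have hdd := api.mulZ' (by norm_num : (4 : ℤ) + 4 = 8) hd hd
    have htot := api.addZ (api.smulZ (4 * x0 ^ 2) hN) hdd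
    have hQ1 : ((4 * x0 ^ 2 : ℤ) : PowerSeries ℤ) *
          (((x0 ^ 2 : ℤ) : PowerSeries ℤ) * (e4Z * e4Z) + e4Z * (pz * C * (pz * C))
            + ((-2 * x0 : ℤ) : PowerSeries ℤ) * (pz * C * e6Z))
        + (((x0 ^ 2 : ℤ) : PowerSeries ℤ) * e4Z - pz * C * (pz * C))
          * (((x0 ^ 2 : ℤ) : PowerSeries ℤ) * e4Z - pz * C * (pz * C))
        = ((256 : ℤ) : PowerSeries ℤ) * Ξ1 := by
      rw [hY1, he4, he6]
      push_cast
      linear_combination (-1 : PowerSeries ℤ) * hΞ1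
    have hQ2 : ((4 * x0 ^ 2 : ℤ) : PowerSeries ℤ) *
          (((x0 ^ 2 : ℤ) : PowerSeries ℤ) * (E e4Z * E e4Z) + E e4Z * (-UZ p C * -UZ p C)
            + ((-2 * x0 : ℤ) : PowerSeries ℤ) * (-UZ p C * E e6Z))
        + (((x0 ^ 2 : ℤ) : PowerSeries ℤ) * E e4Z - -UZ p C * -UZ p C)
          * (((x0 ^ 2 : ℤ) : PowerSeries ℤ) * E e4Z - -UZ p C * -UZ p C)
        = ((256 : ℤ) : PowerSeries ℤ) * Ξ2 := by
      rw [hY2, hEe4, hEe6]
      push_cast
      linear_combination (-1 : PowerSeries ℤ) * hΞ2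
    rw [hQ1, hQ2] at htot
    exact api.divZ 256 (by norm_num) htot
  -- the trace–Sturm lemma
  have hcongA : ((2 : ℕ) : PowerSeries ℤ) ∣ Ξ1 - DeltaZ := by rw [Nat.cast_ofNat]; exact hΞ1D
  have hcongB : ((2 : ℕ) : PowerSeries ℤ) ∣ Ξ2 - E DeltaZ := by rw [Nat.cast_ofNat]; exact hΞ2D
  have hlow : ∀ j < 1, ((2 : ℕ) : ℤ) ∣ DeltaZ.coeff j := by
    intro j hj
    obtain rfl : j = 0 := by omega
    rw [DeltaZ_coeff_zero]
    exact dvd_zero _
  have hall := ts_core hp api Nat.prime_two 8 1 (by norm_num) b u hpb hu Ξ1 Ξ2 DeltaZ hPAB hcongA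
    hcongB hlow
  have h1 := hall 1
  rw [DeltaZ_coeff_one] at h1
  norm_num at h1

end Apps


/-! ### The cases (A), (B), (C'') with the signatures of `S16/Plan` and `S16/ClaimU` -/

section Plan

open Fermat.Agent.S16

/-- The interface used in this file, from the contract `PairAPI p` of `S16/Plan`. -/
theorem pairAPI_of_plan (p : ℕ) [NeZero p] (hT : Fermat.Agent.S16.PairAPI p) :
    PairAPI p (IsPair p) where
  add := hT.add
  smul := hT.smul
  mul := hT.mul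
  levelOne := fun X => ⟨psV p (qExpansion 1 X), hT.levelOne X, fun n => by
    rw [psV, PowerSeries.coeff_mk]⟩
  trace := fun h => by
    obtain ⟨X, hX⟩ := hT.trace h
    refine ⟨X, fun n => ?_⟩
    rw [hX, map_add, PowerSeries.coeff_smul, psU, PowerSeries.coeff_mk, smul_eq_mul]
  weight_two := fun G => ⟨_, hT.weightTwo G, fun n => by
    rw [PowerSeries.coeff_smul, psU, PowerSeries.coeff_mk, smul_eq_mul]⟩

/-- (A) the `2`-adic resonance. -/
theorem noCongOne_two_res (p : ℕ) [hp : Fact p.Prime] (hT : Fermat.Agent.S16.PairAPI p)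
    (h : p % 8 = 7) : NoCongOne p 2 3 := by
  intro G c hc hdiv
  have h8 : 8 ∣ p + 1 := by omega
  have := noCong_two hp.out (pairAPI_of_plan p hT) h8 G c hc (fun n hn => by
    have := hdiv n hn
    norm_num at this
    exact this)
  exact_mod_cast this

/-- (B) the `3`-adic resonance. -/
theorem noCongOne_three_res (p : ℕ) [hp : Fact p.Prime] (hT : Fermat.Agent.S16.PairAPI p)
    (h : p % 9 = 8) : NoCongOne p 3 2 := by
  intro G c hc hdiv
  have h9 : 9 ∣ p + 1 := by omega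
  have := noCong_three hp.out (pairAPI_of_plan p hT) h9 G c hc (fun n hn => by
    have := hdiv n hn
    norm_num at this
    exact this)
  exact_mod_cast this

/-- (C'') `ℓ ≥ 5`, `ℓ ≠ p`, `ℓ ∣ p + 1`. -/
theorem noCongOne_large (p : ℕ) [hp : Fact p.Prime] (hT : Fermat.Agent.S16.PairAPI p) (l : ℕ)
    (hl : l.Prime) (h5 : 5 ≤ l) (_hlp : l ≠ p) (hdvd : l ∣ p + 1) : NoCongOne p l 1 := by
  intro G c hc hdiv
  exact noCong_large hp.out (pairAPI_of_plan p hT) hl h5 hdvd G c hc (fun n hn => by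
    have := hdiv n hn
    rwa [pow_one] at this)

end Plan

end Fermat.Agent.S16.TSCases
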