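import Mathlib
import Fermat.Agent.S16.Plan
import Fermat.Agent.S23.Defs

/-!
# S16: the Fricke involution at level `p` and the calculus of pairs `(F, F♭)`

`F♭(z) = (p z)^(-k) F(-1/(p z))` is again a modular form of level `Γ₀(p)` (`exists_flat`), and
`IsPair` is closed under sums, scalar multiples and products; `(F♭)♭ = (-1)^k p^(-k) F`
(`isPair_symm`).  All statements hold for every `p` with `[NeZero p]`.
-/

set_option autoImplicit false

noncomputable section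

namespace Fermat.Agent.S16.PairFricke

open ModularCurve CuspForm UpperHalfPlane CongruenceSubgroup ModularFormClass
open scoped MatrixGroups ModularForm Pointwise

open Fermat.Agent.S23 (G0 IsMF Nice)

/-- The Fricke matrix `[0, -1; p, 0]`. -/
def frickeW (p : ℕ) [NeZero p] : GL (Fin 2) ℝ :=
  Matrix.GeneralLinearGroup.mkOfDetNeZero !![0, -1; (p : ℝ), 0] (by
    simp [Matrix.det_fin_two, NeZero.ne p])

section W

variable (p : ℕ) [NeZero p]

lemma frickeW_val : (frickeW p).val = !![0, -1; (p : ℝ), 0] := rfl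

lemma frickeW_det : (frickeW p).det.val = (p : ℝ) := by
  simp [frickeW, Matrix.det_fin_two]

lemma frickeW_det_pos : 0 < (frickeW p).det.val := by
  rw [frickeW_det]; exact Nat.cast_pos.mpr (NeZero.pos p)

lemma denom_frickeW (z : ℂ) : denom (frickeW p) z = (p : ℂ) * z := by
  simp [denom, frickeW]

lemma num_frickeW (z : ℂ) : num (frickeW p) z = -1 := by
  simp [num, frickeW]

lemma frickeW_smul (z : ℍ) : frickeW p • z = frickePt p z := by
  apply UpperHalfPlane.ext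
  rw [coe_smul_of_det_pos (frickeW_det_pos p), num_frickeW, denom_frickeW, coe_frickePt]

lemma sigma_frickeW (x : ℂ) : σ (frickeW p) x = x := by
  have h := frickeW_det_pos p
  simp only [Matrix.GeneralLinearGroup.val_det_apply] at h
  simp [σ, h]

lemma slash_frickeW (k : ℤ) (f : ℍ → ℂ) (z : ℍ) :
    (f ∣[k] frickeW p) z = f (frickePt p z) * (p : ℂ) ^ (k - 1) * ((p : ℂ) * z) ^ (-k) := by
  rw [ModularForm.slash_apply, sigma_frickeW, frickeW_smul, denom_frickeW, frickeW_det,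
    abs_of_pos (Nat.cast_pos.mpr (NeZero.pos p))]
  simp

/-- `W_p` normalises `Γ₀(p)`: explicit form. -/
lemma frickeW_mul_mapGL {γ : SL(2, ℤ)} (hγ : γ ∈ Gamma0 p) :
    ∃ γ' ∈ Gamma0 p, frickeW p * Matrix.SpecialLinearGroup.mapGL ℝ γ =
      Matrix.SpecialLinearGroup.mapGL ℝ γ' * frickeW p := by
  rw [Gamma0_mem, ZMod.intCast_zmod_eq_zero_iff_dvd] at hγ
  obtain ⟨c', hc'⟩ := hγ
  have hdet : γ 0 0 * γ 1 1 - γ 0 1 * γ 1 0 = 1 := by
    have := γ.det_coe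
    rwa [Matrix.det_fin_two] at this
  have hd' : (!![γ 1 1, -c'; -(p : ℤ) * γ 0 1, γ 0 0] : Matrix (Fin 2) (Fin 2) ℤ).det = 1 := by
    rw [Matrix.det_fin_two_of]
    rw [hc'] at hdet
    linear_combination hdet
  let γ' : SL(2, ℤ) := ⟨!![γ 1 1, -c'; -(p : ℤ) * γ 0 1, γ 0 0], hd'⟩
  refine ⟨γ', ?_, ?_⟩
  · rw [Gamma0_mem, ZMod.intCast_zmod_eq_zero_iff_dvd]
    exact ⟨-γ 0 1, by simp [γ']⟩
  · have hc'' : ((γ 1 0 : ℤ) : ℝ) = (p : ℝ) * (c' : ℝ) := by
      exact_mod_cast congrArg (Int.cast : ℤ → ℝ) hc'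
    apply Units.ext
    rw [Units.val_mul, Units.val_mul, Matrix.SpecialLinearGroup.mapGL_coe_matrix,
      Matrix.SpecialLinearGroup.mapGL_coe_matrix]
    have hW : (frickeW p).val = !![0, -1; (p : ℝ), 0] := rfl
    have e1 : ((Matrix.SpecialLinearGroup.map (algebraMap ℤ ℝ) γ : SL(2, ℝ)) :
        Matrix (Fin 2) (Fin 2) ℝ) =
        !![(γ 0 0 : ℝ), (γ 0 1 : ℝ); (γ 1 0 : ℝ), (γ 1 1 : ℝ)] := by
      ext i j; fin_cases i <;> fin_cases j <;> rfl
    have e2 : ((Matrix.SpecialLinearGroup.map (algebraMap ℤ ℝ) γ' : SL(2, ℝ)) :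
        Matrix (Fin 2) (Fin 2) ℝ) =
        !![(γ 1 1 : ℝ), ((-c' : ℤ) : ℝ); ((-(p : ℤ) * γ 0 1 : ℤ) : ℝ), (γ 0 0 : ℝ)] := by
      ext i j; fin_cases i <;> fin_cases j <;> rfl
    rw [hW, e1, e2, Matrix.mul_fin_two, Matrix.mul_fin_two, hc'']
    push_cast
    congr 1
    ring_nf

lemma G0_le_conj_frickeW :
    G0 p ≤ (ConjAct.toConjAct (frickeW p)⁻¹ • G0 p : Subgroup (GL (Fin 2) ℝ)) := by
  rintro _ ⟨γ, hγ, rfl⟩
  rw [Subgroup.mem_pointwise_smul_iff_inv_smul_mem, ← map_inv, inv_inv, ConjAct.smul_def,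
    ConjAct.ofConjAct_toConjAct]
  obtain ⟨γ', hγ', h⟩ := frickeW_mul_mapGL p hγ
  rw [h, mul_assoc, mul_inv_cancel, mul_one]
  exact ⟨γ', hγ', rfl⟩

/-- The Fricke image `F♭(z) = (p z)^(-k) F(-1/(p z))` of a form of level `Γ₀(p)` is a form of
level `Γ₀(p)`. -/
theorem exists_flat {k : ℤ} (F : ModularForm (Gamma0 p) k) :
    ∃ F' : ModularForm (Gamma0 p) k,
      ∀ z : ℍ, F' z = ((p : ℂ) * z) ^ (-k) * F (frickePt p z) := by
  have h1 : IsMF (G0 p) k (⇑F ∣[k] frickeW p) :=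
    (IsMF.coe (ModularForm.translate F (frickeW p))).mono (G0_le_conj_frickeW p)
  have h2 : IsMF (G0 p) k (((p : ℂ) ^ (1 - k)) • (⇑F ∣[k] frickeW p)) := h1.smul _
  obtain ⟨F', hF'⟩ := h2
  refine ⟨F', fun z => ?_⟩
  have hp : (p : ℂ) ≠ 0 := Nat.cast_ne_zero.mpr (NeZero.ne p)
  rw [hF', Pi.smul_apply, smul_eq_mul, slash_frickeW]
  have : (p : ℂ) ^ (1 - k) * (p : ℂ) ^ (k - 1) = 1 := by
    rw [← zpow_add₀ hp]; simp
  linear_combination (F (frickePt p z) * ((p : ℂ) * z) ^ (-k)) * this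

lemma frickePt_frickePt (z : ℍ) : frickePt p (frickePt p z) = z := by
  apply UpperHalfPlane.ext
  have hp : (p : ℂ) ≠ 0 := Nat.cast_ne_zero.mpr (NeZero.ne p)
  have hz : (z : ℂ) ≠ 0 := z.ne_zero
  rw [coe_frickePt, coe_frickePt]
  field_simp

lemma natCast_mul_frickePt (z : ℍ) : (p : ℂ) * (frickePt p z : ℂ) = -1 / (z : ℂ) := by
  have hp : (p : ℂ) ≠ 0 := Nat.cast_ne_zero.mpr (NeZero.ne p)
  have hz : (z : ℂ) ≠ 0 := z.ne_zero
  rw [coe_frickePt]
  field_simp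

omit [NeZero p] in
lemma nice_coe {k : ℤ} (F : ModularForm (Gamma0 p) k) : Nice (⇑F) :=
  (IsMF.coe (Γ := G0 p) F).niceG0

end W

/-! ## The calculus of pairs -/

section Pair

variable {p : ℕ} [NeZero p]

theorem isPair_add {k : ℤ} {A B A' B' : PowerSeries ℂ} (h : IsPair p k A B)
    (h' : IsPair p k A' B') : IsPair p k (A + A') (B + B') := by
  obtain ⟨F, F', hF, rfl, rfl⟩ := h
  obtain ⟨G, G', hG, rfl, rfl⟩ := h'
  refine ⟨F + G, F' + G', fun z => ?_, ?_, ?_⟩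
  · rw [add_apply, add_apply, hF z, hG z, mul_add]
  · exact (nice_coe p F).qExp_add (nice_coe p G)
  · exact (nice_coe p F').qExp_add (nice_coe p G')

theorem isPair_smul {k : ℤ} {A B : PowerSeries ℂ} (c : ℂ) (h : IsPair p k A B) :
    IsPair p k (c • A) (c • B) := by
  obtain ⟨F, F', hF, rfl, rfl⟩ := h
  refine ⟨c • F, c • F', fun z => ?_, ?_, ?_⟩
  · rw [smul_apply, smul_apply, hF z, smul_eq_mul, smul_eq_mul]
    ring
  · exact (nice_coe p F).qExp_smul c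
  · exact (nice_coe p F').qExp_smul c

theorem isPair_mul {k k' : ℤ} {A B A' B' : PowerSeries ℂ} (h : IsPair p k A B)
    (h' : IsPair p k' A' B') : IsPair p (k + k') (A * A') (B * B') := by
  obtain ⟨F, F', hF, rfl, rfl⟩ := h
  obtain ⟨G, G', hG, rfl, rfl⟩ := h'
  have hp : (p : ℂ) ≠ 0 := Nat.cast_ne_zero.mpr (NeZero.ne p)
  refine ⟨F.mul G, F'.mul G', fun z => ?_, ?_, ?_⟩
  · have hne : (p : ℂ) * (z : ℂ) ≠ 0 := mul_ne_zero hp z.ne_zero
    rw [ModularForm.coe_mul, ModularForm.coe_mul, Pi.mul_apply, Pi.mul_apply, hF z, hG z,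
      neg_add, zpow_add₀ hne]
    ring
  · rw [ModularForm.coe_mul]; exact (nice_coe p F).qExp_mul (nice_coe p G)
  · rw [ModularForm.coe_mul]; exact (nice_coe p F').qExp_mul (nice_coe p G')

/-- `(F♭)♭ = (-1)^k p^(-k) F`. -/
theorem isPair_symm {k : ℤ} {A B : PowerSeries ℂ} (h : IsPair p k A B) :
    IsPair p k B (((-1 : ℂ) ^ k * (p : ℂ) ^ (-k)) • A) := by
  obtain ⟨F, F', hF, rfl, rfl⟩ := h
  have hp : (p : ℂ) ≠ 0 := Nat.cast_ne_zero.mpr (NeZero.ne p)
  refine ⟨F', ((-1 : ℂ) ^ k * (p : ℂ) ^ (-k)) • F, fun z => ?_, rfl, ?_⟩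
  · have hz : (z : ℂ) ≠ 0 := z.ne_zero
    rw [smul_apply, smul_eq_mul, hF (frickePt p z), frickePt_frickePt,
      natCast_mul_frickePt, ← mul_assoc, ← mul_zpow]
    congr 1
    have e : (p : ℂ) * (z : ℂ) * (-1 / (z : ℂ)) = -1 * (p : ℂ) := by field_simp
    rw [e, mul_zpow]
    congr 1
    rw [zpow_neg, ← inv_zpow]
    norm_num
  · exact (nice_coe p F).qExp_smul _

/-- Every form of level `Γ₀(p)` is the first member of a pair. -/
theorem isPair_of_form {k : ℤ} (F : ModularForm (Gamma0 p) k) :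
    ∃ B : PowerSeries ℂ, IsPair p k (qExpansion 1 F) B := by
  obtain ⟨F', hF'⟩ := exists_flat p F
  exact ⟨qExpansion 1 F', F, F', hF', rfl, rfl⟩

/-- The second member of a pair is determined by the first. -/
theorem isPair_eq_flat {k : ℤ} {A B B' : PowerSeries ℂ} (h : IsPair p k A B)
    (h' : IsPair p k A B') : B = B' := by
  obtain ⟨F, F', hF, rfl, rfl⟩ := h
  obtain ⟨G, G', hG, hGA, rfl⟩ := h'
  have hFG : (⇑G : ℍ → ℂ) = ⇑F := (nice_coe p G).eq_of_qExp_eq (nice_coe p F) hGA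
  have : (⇑F' : ℍ → ℂ) = ⇑G' := by
    funext z
    rw [hF z, hG z, hFG]
  rw [this]

/-- The first member of a pair is determined by the second. -/
theorem isPair_eq_of_flat_eq {k : ℤ} {A A' B : PowerSeries ℂ} (h : IsPair p k A B)
    (h' : IsPair p k A' B) : A = A' := by
  have hp : (p : ℂ) ≠ 0 := Nat.cast_ne_zero.mpr (NeZero.ne p)
  have h1 := isPair_eq_flat (isPair_symm h) (isPair_symm h')
  have hc : ((-1 : ℂ) ^ k * (p : ℂ) ^ (-k)) ≠ 0 :=
    mul_ne_zero (zpow_ne_zero _ (by norm_num)) (zpow_ne_zero _ hp)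
  have h2 := congrArg (fun X => ((-1 : ℂ) ^ k * (p : ℂ) ^ (-k))⁻¹ • X) h1
  simp only [smul_smul, inv_mul_cancel₀ hc, one_smul] at h2
  exact h2

end Pair

end Fermat.Agent.S16.PairFricke
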