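import Mathlib
import Fermat.Agent.S16.Plan
import Fermat.Agent.S16.PairFricke
import Fermat.Agent.S23.Defs
import Fermat.Agent.Lib.CuspLaurent

/-!
# S16: level-one forms as pairs

For a level-one form `X` of weight `w`: `X♭ = X(p z)` (q-expansion `psV p`), and
`(X(p ·))♭ = p^(-w) X`.  These are the fields `levelOne` and `levelOneV` of `PairAPI`.
-/

set_option autoImplicit false

noncomputable section

namespace Fermat.Agent.S16.PairLevelOne

open ModularCurve CuspForm UpperHalfPlane CongruenceSubgroup ModularFormClass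
open scoped MatrixGroups ModularForm

open Fermat.Agent.S23 (G0 IsMF Nice)
open Fermat.Agent.S16.PairFricke

local notation "𝕢" => Function.Periodic.qParam

variable (p : ℕ) [NeZero p]

/-- The point `p z`. -/
def scalePt (z : ℍ) : ℍ :=
  ⟨(p : ℂ) * z, by
    have hp : (0 : ℝ) < p := Nat.cast_pos.mpr (NeZero.pos p)
    have : ((p : ℂ) * (z : ℂ)).im = p * z.im := by simp
    rw [this]
    exact mul_pos hp z.im_pos⟩

lemma coe_scalePt (z : ℍ) : ((scalePt p z : ℍ) : ℂ) = (p : ℂ) * z := rfl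

lemma frickePt_eq_S_smul (z : ℍ) : frickePt p z = ModularGroup.S • scalePt p z := by
  apply UpperHalfPlane.ext
  rw [UpperHalfPlane.modular_S_smul, coe_frickePt]
  simp only [coe_scalePt]
  rw [inv_neg, neg_div, one_div]

/-- `X(-1/(p z)) = (p z)^w X(p z)` for a level-one form `X`. -/
lemma levelOne_apply_frickePt {w : ℤ} (X : ModularForm 𝒮ℒ w) (z : ℍ) :
    X (frickePt p z) = ((p : ℂ) * z) ^ w * X (scalePt p z) := by
  have hS : (Matrix.SpecialLinearGroup.mapGL ℝ ModularGroup.S : GL (Fin 2) ℝ) ∈ 𝒮ℒ :=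
    ⟨ModularGroup.S, rfl⟩
  have h := SlashInvariantForm.slash_action_eqn'' X hS (scalePt p z)
  have h2 : (Matrix.SpecialLinearGroup.mapGL ℝ ModularGroup.S : GL (Fin 2) ℝ) • scalePt p z =
      frickePt p z := by
    rw [frickePt_eq_S_smul]; rfl
  rw [h2] at h
  rw [h]
  congr 2
  have : denom (Matrix.SpecialLinearGroup.mapGL ℝ ModularGroup.S : GL (Fin 2) ℝ)
      (scalePt p z) = ((scalePt p z : ℍ) : ℂ) := ModularGroup.denom_S (scalePt p z)
  rw [this, coe_scalePt]

lemma qParam_scalePt (z : ℍ) : 𝕢 1 ((scalePt p z : ℍ) : ℂ) = 𝕢 1 (z : ℂ) ^ p := by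
  rw [coe_scalePt]
  simp only [Function.Periodic.qParam]
  rw [← Complex.exp_nat_mul]
  congr 1
  push_cast
  ring

/-- Reindexing a series in `t ^ (p n)` as a series in `t ^ m`. -/
lemma hasSum_dilate' {f : ℕ → ℂ} {s : ℂ} (t : ℂ)
    (h : HasSum (fun n => f n • (t ^ p) ^ n) s) :
    HasSum (fun m => (if p ∣ m then f (m / p) else 0) • t ^ m) s := by
  have hp : 0 < p := NeZero.pos p
  have hinj : Function.Injective (fun n : ℕ => p * n) := mul_right_injective₀ hp.ne'
  refine (hinj.hasSum_iff ?_).mp ?_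
  · intro j hj
    have : ¬ p ∣ j := by
      rintro ⟨n, rfl⟩
      exact hj ⟨n, rfl⟩
    simp [this]
  · convert h using 1
    funext n
    simp [Nat.mul_div_cancel_left _ hp, pow_mul]

/-- The field `levelOne` of `PairAPI`: `X♭ = X(p z)`. -/
theorem isPair_levelOne {w : ℤ} (X : ModularForm 𝒮ℒ w) :
    IsPair p w (qExpansion 1 X) (psV p (qExpansion 1 X)) := by
  obtain ⟨F, hF⟩ := (IsMF.coe X).toG0 p
  obtain ⟨F', hF'⟩ := exists_flat p F
  have hp : (p : ℂ) ≠ 0 := Nat.cast_ne_zero.mpr (NeZero.ne p)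
  have hval : ∀ z : ℍ, F' z = X (scalePt p z) := by
    intro z
    have hne : (p : ℂ) * (z : ℂ) ≠ 0 := mul_ne_zero hp z.ne_zero
    rw [hF' z, hF, levelOne_apply_frickePt, ← mul_assoc, ← zpow_add₀ hne]
    simp
  refine ⟨F, F', hF', by rw [hF], ?_⟩
  have hXn : Nice (⇑X) := (IsMF.coe X).niceSL
  have hF'n : Nice (⇑F') := nice_coe p F'
  ext m
  have hsum : ∀ τ : ℍ, HasSum (fun m : ℕ =>
      (if p ∣ m then (qExpansion 1 X).coeff (m / p) else 0) • 𝕢 (1 : ℝ) τ ^ m) (F' τ) := by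
    intro τ
    rw [hval τ]
    have h1 := hXn.hasSum (scalePt p τ)
    rw [qParam_scalePt] at h1
    exact hasSum_dilate' p (f := fun n => (qExpansion 1 X).coeff n) (𝕢 1 (τ : ℂ)) h1
  have key := Fermat.Agent.Lib.CuspLaurent.qExpansion_coeff_unique' (f := ⇑F')
    (c := fun m : ℕ => if p ∣ m then (qExpansion 1 X).coeff (m / p) else 0) one_pos
    hF'n.analyticAt hsum m
  rw [← key, psV, PowerSeries.coeff_mk]

/-- Level-one forms of odd weight vanish. -/
lemma levelOne_eq_zero_of_odd {w : ℤ} (hw : Odd w) (X : ModularForm 𝒮ℒ w) : X = 0 := by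
  refine ModularForm.eq_zero_of_neg_one_mem ?_ hw X
  refine ⟨-1, ?_⟩
  apply Units.ext
  rw [Matrix.SpecialLinearGroup.mapGL_coe_matrix]
  ext i j
  fin_cases i <;> fin_cases j <;> simp

/-- The field `levelOneV` of `PairAPI`: `(X(p ·))♭ = p^(-w) X`. -/
theorem isPair_levelOneV {w : ℤ} (X : ModularForm 𝒮ℒ w) :
    IsPair p w (psV p (qExpansion 1 X)) (((p : ℂ) ^ (-w)) • qExpansion 1 X) := by
  have h := isPair_symm (isPair_levelOne p X)
  rcases Int.even_or_odd w with hw | hw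
  · rwa [hw.neg_one_zpow, one_mul] at h
  · have hX : qExpansion 1 (⇑X) = 0 := by
      rw [levelOne_eq_zero_of_odd hw X]
      exact qExpansion_zero 1
    rw [hX, smul_zero] at h ⊢
    exact h

end Fermat.Agent.S16.PairLevelOne
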