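import Fermat.Agent.S20.WeightTwo

set_option autoImplicit false

/-!
# S16, package (P3) of the trace principle: the trace to level one

* `exists_trace_Q` : for `F ∈ M_k(Γ₀(N))` the sum of all conjugates `∑_{q ∈ SL₂(ℤ)/Γ₀(N)} F ∣[k] g_q⁻¹`
  is (the function of) a modular form of weight `k` and level one.
* `exists_trace_levelOne` : at prime level `p` the cosets are `{1} ∪ {(S T^j)⁻¹ : j < p}`, so the
  trace is `F + ∑_{j < p} F ∣[k] (S T^j)`.
-/

open UpperHalfPlane Filter ModularForm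
open scoped MatrixGroups ModularForm Manifold Topology

namespace Fermat.Agent.S16

open Fermat.Agent.S23 Fermat.Agent.S20

namespace TraceCosets

section general

variable {N : ℕ} [NeZero N] {k : ℤ}

/-- The sum of all conjugates of a modular form for `Γ₀(N)` is a modular form of level one. -/
theorem isMF_sum_vec (F : ModularForm (G0 N) k) :
    IsMF 𝒮ℒ k (fun z => ∑ q : Q N, vec k (F : ℍ → ℂ) z q) := by
  have hinv : SlInv N k (F : ℍ → ℂ) := slInv_of_isMF (IsMF.coe F)
  set tr : ℍ → ℂ := fun z => ∑ q : Q N, vec k (F : ℍ → ℂ) z q with htr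
  have h1 : ∀ γ : SL(2, ℤ), tr ∣[k] γ = tr := by
    intro γ
    funext w
    rw [ModularForm.SL_slash_apply]
    simp only [htr]
    have : ∀ q : Q N, vec k (F : ℍ → ℂ) (γ • w) q =
        denom γ w ^ k * vec k (F : ℍ → ℂ) w (γ⁻¹ • q) := fun q => vec_smul hinv γ w q
    simp only [this]
    have hperm : ∑ q : Q N, vec k (F : ℍ → ℂ) w (γ⁻¹ • q) = ∑ q : Q N, vec k (F : ℍ → ℂ) w q :=
      Equiv.sum_comp (MulAction.toPerm γ⁻¹) (fun q => vec k (F : ℍ → ℂ) w q)
    rw [← Finset.mul_sum, hperm, mul_comm, ← mul_assoc, ← zpow_add₀ (denom_ne_zero _ _)]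
    simp
  have h2 : MDiff tr := by
    have : tr = ∑ q : Q N, fun z => vec k (F : ℍ → ℂ) z q := by
      funext w
      simp [htr]
    rw [this]
    exact MDifferentiable.sum fun q _ => mdiff_vec (ModularFormClass.holo F) q
  have h3 : IsBoundedAtImInfty tr := by
    have : Tendsto tr atImInfty
        (𝓝 (∑ q : Q N, valueAtInfty (fun z => vec k (F : ℍ → ℂ) z q))) :=
      tendsto_finsetSum _ fun q _ => tendsto_vec (IsMF.coe F) q
    exact this.isBigO_one ℝ
  exact isMF_SL_of h1 h2 h3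

end general

section prime

variable (p : ℕ) [Fact p.Prime]

lemma ST_mul_apply_one_zero (j : ℤ) (g : SL(2, ℤ)) :
    ((ModularGroup.S * ModularGroup.T ^ j * g : SL(2, ℤ)) : Matrix (Fin 2) (Fin 2) ℤ) 1 0 =
      g 0 0 + j * g 1 0 := by
  simp [Matrix.SpecialLinearGroup.coe_mul, ModularGroup.coe_S, ModularGroup.coe_T_zpow,
    Matrix.mul_apply, Fin.sum_univ_two]

lemma ST_mul_ST_inv_apply_one_zero (i j : ℤ) :
    ((ModularGroup.S * ModularGroup.T ^ i * (ModularGroup.S * ModularGroup.T ^ j)⁻¹ : SL(2, ℤ)) :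
      Matrix (Fin 2) (Fin 2) ℤ) 1 0 = j - i := by
  simp [Matrix.SpecialLinearGroup.coe_mul, ModularGroup.coe_S, ModularGroup.coe_T_zpow,
    Matrix.mul_apply, Fin.sum_univ_two, Matrix.SpecialLinearGroup.coe_inv, Matrix.adjugate_fin_two]
  ring

/-- The coset representatives `1`, `(S T^j)⁻¹` (`j < p`) of `SL₂(ℤ) ⧸ Γ₀(p)`. -/
noncomputable def rep : Option (Fin p) → Q p
  | none => (QuotientGroup.mk 1 : Q p)
  | some j => (QuotientGroup.mk (ModularGroup.S * ModularGroup.T ^ ((j : ℕ) : ℤ))⁻¹ : Q p)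

lemma rep_injective : Function.Injective (rep p) := by
  have hp : p.Prime := Fact.out
  have hnone : ∀ j : Fin p, rep p none ≠ rep p (some j) := by
    intro j h
    simp only [rep] at h
    rw [QuotientGroup.eq, inv_one, one_mul, inv_mem_iff, CongruenceSubgroup.Gamma0_mem] at h
    have h1 := ST_mul_apply_one_zero ((j : ℕ) : ℤ) 1
    rw [mul_one] at h1
    rw [h1] at h
    simp at h
  intro a b hab
  cases a with
  | none =>
    cases b with
    | none => rfl
    | some j => exact absurd hab (hnone j)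
  | some i =>
    cases b with
    | none => exact absurd hab.symm (hnone i)
    | some j =>
      simp only [rep] at hab
      rw [QuotientGroup.eq, inv_inv, CongruenceSubgroup.Gamma0_mem,
        ST_mul_ST_inv_apply_one_zero] at hab
      have h2 : ((j : ℕ) : ZMod p) = ((i : ℕ) : ZMod p) := by
        have : (((j : ℕ) : ℤ) - ((i : ℕ) : ℤ) : ZMod p) = 0 := by exact_mod_cast hab
        push_cast at this
        exact sub_eq_zero.mp this
      rw [ZMod.natCast_eq_natCast_iff'] at h2
      rw [Nat.mod_eq_of_lt j.isLt, Nat.mod_eq_of_lt i.isLt] at h2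
      exact congrArg some (Fin.ext h2.symm)

lemma rep_surjective : Function.Surjective (rep p) := by
  have hp : p.Prime := Fact.out
  intro q
  obtain ⟨g, rfl⟩ := QuotientGroup.mk_surjective q
  by_cases hc : ((g 1 0 : ℤ) : ZMod p) = 0
  · refine ⟨none, ?_⟩
    simp only [rep]
    rw [QuotientGroup.eq, inv_one, one_mul, CongruenceSubgroup.Gamma0_mem]
    exact hc
  · set t : ZMod p := -((g 0 0 : ℤ) : ZMod p) / ((g 1 0 : ℤ) : ZMod p) with ht
    refine ⟨some ⟨t.val, ZMod.val_lt t⟩, ?_⟩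
    simp only [rep]
    rw [QuotientGroup.eq, inv_inv, CongruenceSubgroup.Gamma0_mem, ST_mul_apply_one_zero]
    push_cast
    rw [ZMod.natCast_zmod_val, ht]
    field_simp
    ring

lemma rep_bijective : Function.Bijective (rep p) := ⟨rep_injective p, rep_surjective p⟩

/-- A sum over `SL₂(ℤ) ⧸ Γ₀(p)` is the sum over the representatives `1`, `(S T^j)⁻¹`. -/
lemma sum_Q_prime {M : Type*} [AddCommMonoid M] (v : Q p → M) :
    ∑ q : Q p, v q = v (QuotientGroup.mk 1 : Q p) +
      ∑ j ∈ Finset.range p,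
        v (QuotientGroup.mk (ModularGroup.S * ModularGroup.T ^ ((j : ℕ) : ℤ))⁻¹ : Q p) := by
  rw [← Fintype.sum_bijective (rep p) (rep_bijective p) (fun o => v (rep p o)) v (fun _ => rfl),
    Fintype.sum_option]
  simp only [rep]
  rw [Fin.sum_univ_eq_sum_range
    (fun j => v (QuotientGroup.mk (ModularGroup.S * ModularGroup.T ^ ((j : ℕ) : ℤ))⁻¹ : Q p)) p]

end prime

end TraceCosets

/-- **Trace to level one**, general level: the sum of all conjugates of `F ∈ M_k(Γ₀(N))` over the
coset space `Q N = SL₂(ℤ) ⧸ Γ₀(N)` is a modular form of level one. -/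
theorem exists_trace_Q (N : ℕ) [NeZero N] {k : ℤ}
    (F : ModularForm (CongruenceSubgroup.Gamma0 N) k) :
    ∃ X : ModularForm 𝒮ℒ k, ∀ z : ℍ, X z = ∑ q : Q N, vec k (⇑F) z q := by
  obtain ⟨X, hX⟩ := TraceCosets.isMF_sum_vec (N := N) (k := k) F
  exact ⟨X, fun z => congrFun hX z⟩

/-- **Trace to level one**, prime level: `F + ∑_{j < p} F ∣[k] (S T^j)` is a modular form of
level one. -/
theorem exists_trace_levelOne (p : ℕ) [Fact p.Prime] {k : ℤ}
    (F : ModularForm (CongruenceSubgroup.Gamma0 p) k) :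
    ∃ X : ModularForm 𝒮ℒ k, ∀ z : ℍ,
      X z = F z + ∑ j ∈ Finset.range p,
        (⇑F ∣[k] (ModularGroup.S * ModularGroup.T ^ (j : ℤ))) z := by
  obtain ⟨X, hX⟩ := exists_trace_Q p F
  have hinv : SlInv p k (F : ℍ → ℂ) := slInv_of_isMF (IsMF.coe F)
  refine ⟨X, fun z => ?_⟩
  rw [hX, TraceCosets.sum_Q_prime, vec_one hinv]
  congr 1
  refine Finset.sum_congr rfl fun j _ => ?_
  rw [vec_mk hinv, inv_inv]

end Fermat.Agent.S16
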