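import Fermat.Agent.S16.Plan
import Fermat.Agent.S16.TraceCosets

set_option autoImplicit false

/-!
# S16, package (P4) of the trace principle: the `q`-expansion of the trace

For `F ∈ M_k(Γ₀(p))` and `F♭(z) = (p z)^(-k) F(-1/(p z))` one has
`(F ∣[k] S T^j)(z) = F♭((z + j)/p)`, so the trace `F + ∑_{j<p} F ∣[k] S T^j` (a level one form by
`exists_trace_levelOne`) has `q`-expansion `A + p U_p B` (`A`, `B` the `q`-expansions of `F`, `F♭`):
expand `F♭` at the points `(z + j)/p`, sum over `j` with the root of unity filter, reindex, and use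
the uniqueness of `q`-expansion coefficients.

* `TraceQExp.hasSum_shift` : `∑_{j<p} f((τ+j)/p) = ∑_m p b_{pm} q^m` if `f = ∑ b_n q^n`.
* `qExpansion_trace`, `isPair_trace` (= the field `trace` of `PairAPI`).
-/

open UpperHalfPlane Filter ModularForm ModularFormClass CongruenceSubgroup
open scoped MatrixGroups ModularForm Manifold Topology Real

namespace Fermat.Agent.S16

namespace TraceQExp

/-- The point `(z + j)/p` of the upper half plane. -/
noncomputable def shiftPt (p : ℕ) [NeZero p] (j : ℕ) (z : ℍ) : ℍ :=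
  ⟨((z : ℂ) + j) / p, by
    have hp : (0 : ℝ) < p := Nat.cast_pos.mpr (NeZero.pos p)
    have : (((z : ℂ) + j) / p).im = z.im / p := by
      have h1 : (((z : ℂ) + j) / p) = ((z : ℂ) + j) / ((p : ℝ) : ℂ) := by push_cast; rfl
      rw [h1, Complex.div_ofReal_im]
      simp
    rw [this]
    exact div_pos z.im_pos hp⟩

@[simp] lemma coe_shiftPt (p : ℕ) [NeZero p] (j : ℕ) (z : ℍ) :
    ((shiftPt p j z : ℍ) : ℂ) = ((z : ℂ) + j) / p := rfl

/-- Root of unity filter. -/
lemma sum_exp_filter (p : ℕ) [NeZero p] (n : ℕ) :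
    ∑ j ∈ Finset.range p, Complex.exp (2 * π * Complex.I * (n * j / p)) =
      if p ∣ n then (p : ℂ) else 0 := by
  have hp0 : (p : ℂ) ≠ 0 := Nat.cast_ne_zero.mpr (NeZero.ne p)
  set ζ : ℂ := Complex.exp (2 * π * Complex.I * (n / p)) with hζ
  have hterm : ∀ j : ℕ, Complex.exp (2 * π * Complex.I * (n * j / p)) = ζ ^ j := by
    intro j
    rw [hζ, ← Complex.exp_nat_mul]
    congr 1
    ring
  simp only [hterm]
  have hζp : ζ ^ p = 1 := by
    rw [hζ, ← Complex.exp_nat_mul]
    have : (p : ℂ) * (2 * π * Complex.I * (n / p)) = n * (2 * π * Complex.I) := by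
      field_simp
    rw [this, Complex.exp_nat_mul_two_pi_mul_I]
  have hζ1 : ζ = 1 ↔ p ∣ n := by
    rw [hζ, Complex.exp_eq_one_iff]
    constructor
    · rintro ⟨m, hm⟩
      have h2 : (n : ℂ) = m * p := by
        have h3 : (2 * π * Complex.I) ≠ 0 := Complex.two_pi_I_ne_zero
        field_simp at hm
        linear_combination hm
      have h4 : (n : ℤ) = m * p := by exact_mod_cast h2
      exact Int.natCast_dvd_natCast.mp ⟨m, by rw [h4]; ring⟩
    · rintro ⟨m, rfl⟩
      refine ⟨m, ?_⟩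
      push_cast
      field_simp
  split_ifs with hdvd
  · rw [hζ1.mpr hdvd]
    simp
  · have hne : ζ ≠ 1 := fun h => hdvd (hζ1.mp h)
    have := mul_neg_geom_sum ζ p
    rw [hζp, sub_self] at this
    rcases mul_eq_zero.mp this with h | h
    · exact absurd (sub_eq_zero.mp h).symm hne
    · exact h

/-- The `q`-expansion of `z ↦ ∑_{j<p} f((z+j)/p)`: if `f = ∑ bₙ qⁿ` then the sum is
`∑ p b_{pm} q^m`. -/
theorem hasSum_shift (p : ℕ) [NeZero p] (f : ℍ → ℂ) (b : ℕ → ℂ)
    (hf : ∀ τ : ℍ, HasSum (fun n : ℕ => b n * Function.Periodic.qParam 1 τ ^ n) (f τ)) (τ : ℍ) :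
    HasSum (fun m : ℕ => ((p : ℂ) * b (p * m)) * Function.Periodic.qParam 1 τ ^ m)
      (∑ j ∈ Finset.range p, f (shiftPt p j τ)) := by
  have hp0 : (p : ℂ) ≠ 0 := Nat.cast_ne_zero.mpr (NeZero.ne p)
  have h1 : HasSum (fun n : ℕ => ∑ j ∈ Finset.range p,
      b n * Function.Periodic.qParam 1 (shiftPt p j τ) ^ n)
      (∑ j ∈ Finset.range p, f (shiftPt p j τ)) :=
    hasSum_sum fun j _ => hf (shiftPt p j τ)
  set g : ℕ → ℂ := fun n => ∑ j ∈ Finset.range p,
      b n * Function.Periodic.qParam 1 (shiftPt p j τ) ^ n with hg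
  have hq : ∀ (j n : ℕ), Function.Periodic.qParam 1 (shiftPt p j τ) ^ n =
      Complex.exp (2 * π * Complex.I * (n * (τ : ℂ) / p)) *
        Complex.exp (2 * π * Complex.I * (n * j / p)) := by
    intro j n
    rw [Function.Periodic.qParam, ← Complex.exp_nat_mul, ← Complex.exp_add, coe_shiftPt]
    congr 1
    push_cast
    field_simp
  have hgn : ∀ n : ℕ, g n = if p ∣ n then
      (p : ℂ) * b n * Complex.exp (2 * π * Complex.I * (n * (τ : ℂ) / p)) else 0 := by
    intro n
    simp only [hg, hq]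
    rw [← Finset.mul_sum, ← Finset.mul_sum, sum_exp_filter]
    split_ifs <;> ring
  have hinj : Function.Injective (fun m : ℕ => p * m) := fun a c h =>
    Nat.eq_of_mul_eq_mul_left (NeZero.pos p) h
  have hzero : ∀ n ∉ Set.range (fun m : ℕ => p * m), g n = 0 := by
    intro n hn
    rw [hgn, if_neg]
    rintro ⟨m, rfl⟩
    exact hn ⟨m, rfl⟩
  have h2 := (hinj.hasSum_iff hzero).mpr h1
  convert h2 using 1
  funext m
  simp only [Function.comp_apply, hgn, dvd_mul_right, if_true]
  rw [Function.Periodic.qParam, ← Complex.exp_nat_mul]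
  congr 2
  push_cast
  field_simp

end TraceQExp

open TraceQExp in
/-- The `q`-expansion of the trace `X = F + ∑_{j<p} F ∣[k] (S T^j)`: it is `A + p U_p B` where
`A`, `B` are the `q`-expansions of `F` and of `F♭(z) = (p z)^(-k) F(-1/(p z))`. -/
theorem qExpansion_trace (p : ℕ) [Fact p.Prime] {k : ℤ} (F F' : ModularForm (Gamma0 p) k)
    (h : ∀ z : ℍ, F' z = ((p : ℂ) * z) ^ (-k) * F (frickePt p z)) (X : ModularForm 𝒮ℒ k)
    (hX : ∀ z : ℍ, X z = F z + ∑ j ∈ Finset.range p,
      (⇑F ∣[k] (ModularGroup.S * ModularGroup.T ^ (j : ℤ))) z) :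
    qExpansion 1 X = qExpansion 1 F + (p : ℂ) • psU p (qExpansion 1 F') := by
  have hp0 : (p : ℂ) ≠ 0 := Nat.cast_ne_zero.mpr (Fact.out : p.Prime).ne_zero
  have hslash : ∀ (j : ℕ) (z : ℍ),
      (⇑F ∣[k] (ModularGroup.S * ModularGroup.T ^ (j : ℤ))) z = F' (shiftPt p j z) := by
    intro j z
    rw [ModularForm.SL_slash_apply, h]
    have h1 : (ModularGroup.S * ModularGroup.T ^ (j : ℤ)) • z = frickePt p (shiftPt p j z) := by
      rw [mul_smul, modular_T_zpow_smul, modular_S_smul]
      ext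
      simp only [coe_frickePt, coe_shiftPt, UpperHalfPlane.coe_vadd]
      rw [mul_div_cancel₀ _ hp0]
      push_cast
      rw [neg_div, one_div, ← inv_neg, add_comm]
    have h2 : ∀ γ : SL(2, ℤ), γ = ModularGroup.S * ModularGroup.T ^ (j : ℤ) →
        denom γ z = (z : ℂ) + j := by
      rintro γ rfl
      rw [ModularGroup.denom_apply, Matrix.SpecialLinearGroup.coe_mul, ModularGroup.coe_S,
        ModularGroup.coe_T_zpow]
      simp [Matrix.mul_apply, Fin.sum_univ_two]
    rw [h1, h2 _ rfl, mul_comm]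
    congr 2
    simp only [coe_shiftPt]
    rw [mul_div_cancel₀ _ hp0]
  have hsum : ∀ τ : ℍ, HasSum (fun m : ℕ => ((qExpansion 1 F).coeff m +
      (p : ℂ) * (qExpansion 1 F').coeff (p * m)) • Function.Periodic.qParam 1 τ ^ m) (X τ) := by
    intro τ
    rw [hX]
    have hA := ModularForm.hasSum_qExpansion (f := F) one_pos (one_mem_strictPeriods_Gamma0 p) τ
    have hB := hasSum_shift p F' (fun n => (qExpansion 1 F').coeff n)
      (fun τ => ModularForm.hasSum_qExpansion (f := F') one_pos (one_mem_strictPeriods_Gamma0 p) τ) τ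
    simp only [hslash]
    convert hA.add hB using 1
    funext m
    simp only [smul_eq_mul]
    ring
  ext m
  rw [← ModularFormClass.qExpansion_coeff_unique one_pos one_mem_strictPeriods_SL hsum m]
  simp [psU]

/-- **The trace principle** (field `trace` of `PairAPI`): if `A`, `B` are the `q`-expansions of
`F ∈ M_k(Γ₀(p))` and `F♭`, then `A + p U_p B` is the `q`-expansion of a level one form of
weight `k`. -/
theorem isPair_trace (p : ℕ) [Fact p.Prime] {k : ℤ} {A B : PowerSeries ℂ} (h : IsPair p k A B) :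
    ∃ X : ModularForm 𝒮ℒ k, qExpansion 1 X = A + (p : ℂ) • psU p B := by
  obtain ⟨F, F', hFF', rfl, rfl⟩ := h
  obtain ⟨X, hX⟩ := exists_trace_levelOne p F
  exact ⟨X, qExpansion_trace p F F' hFF' X hX⟩

end Fermat.Agent.S16
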