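import Fermat.Agent.S16.Plan

/-!
# S16, trace pairs: the field `weightTwo` of `PairAPI` from the other ingredients

`G♭ = -U_p G / p` for `G ∈ M₂(Γ₀(p))`: apply the trace principle to the pair
`(G♭, (G♭)♭) = (G♭, p⁻² G)`; the trace is a level one form of weight two, hence zero.

Everything is in hypothesis form (existence of `♭`, the symmetry `(F♭)♭ = (-1)^k p^(-k) F`, the
trace principle), so that the file only needs `S16/Plan`.
-/

set_option autoImplicit false

noncomputable section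

namespace Fermat.Agent.S16.WeightTwoOf

open ModularCurve CuspForm UpperHalfPlane CongruenceSubgroup ModularFormClass
open scoped MatrixGroups ModularForm

open Fermat.Agent.S16

theorem psU_smul (p : ℕ) (c : ℂ) (A : PowerSeries ℂ) : psU p (c • A) = c • psU p A := by
  ext n
  simp [psU]

/-- A level one form of weight two has zero `q`-expansion. -/
theorem qExpansion_levelOne_weight_two (X : ModularForm 𝒮ℒ 2) : qExpansion 1 X = 0 := by
  rw [rank_zero_iff_forall_zero.mp ModularForm.levelOne_weight_two_rank_zero X,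
    FunLike.coe_zero, qExpansion_zero]

/-- The `weightTwo` field of `PairAPI`, from existence of `♭`, its symmetry and the trace
principle (all in weight two). -/
theorem weightTwo_of (p : ℕ) [Fact p.Prime]
    (hflat : ∀ G : ModularForm (Gamma0 p) 2, ∃ B, IsPair p 2 (qExpansion 1 G) B)
    (hsymm : ∀ {A B : PowerSeries ℂ}, IsPair p 2 A B →
      IsPair p 2 B (((p : ℂ) ^ (-2 : ℤ)) • A))
    (htrace : ∀ {A B : PowerSeries ℂ}, IsPair p 2 A B →
      ∃ X : ModularForm 𝒮ℒ 2, qExpansion 1 X = A + (p : ℂ) • psU p B) :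
    ∀ G : ModularForm (Gamma0 p) 2,
      IsPair p 2 (qExpansion 1 G) ((-(p : ℂ)⁻¹) • psU p (qExpansion 1 G)) := by
  intro G
  have hp : p.Prime := Fact.out
  have hp0 : (p : ℂ) ≠ 0 := Nat.cast_ne_zero.mpr hp.ne_zero
  obtain ⟨B, hB⟩ := hflat G
  obtain ⟨X, hX⟩ := htrace (hsymm hB)
  rw [qExpansion_levelOne_weight_two X, psU_smul] at hX
  have hBeq : B = (-(p : ℂ)⁻¹) • psU p (qExpansion 1 G) := by
    have h1 : B = -((p : ℂ) • (((p : ℂ) ^ (-2 : ℤ)) •
        psU p (qExpansion 1 G))) := eq_neg_of_add_eq_zero_left hX.symm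
    have h2 : (p : ℂ) ^ (-2 : ℤ) = ((p : ℂ) ^ 2)⁻¹ := by
      rw [zpow_neg]; norm_cast
    have h4 : -((p : ℂ) * (p : ℂ) ^ (-2 : ℤ)) = -(p : ℂ)⁻¹ := by
      rw [h2]
      field_simp
    rw [h1, smul_smul, ← _root_.neg_smul, h4]
  rw [← hBeq]
  exact hB

/-- Variant with the symmetry in the form `(F♭)♭ = (-1)^k p^(-k) F`. -/
theorem weightTwo_of' (p : ℕ) [Fact p.Prime]
    (hflat : ∀ G : ModularForm (Gamma0 p) 2, ∃ B, IsPair p 2 (qExpansion 1 G) B)
    (hsymm : ∀ {A B : PowerSeries ℂ}, IsPair p 2 A B →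
      IsPair p 2 B (((-1 : ℂ) ^ (2 : ℤ) * (p : ℂ) ^ (-(2 : ℤ))) • A))
    (htrace : ∀ {A B : PowerSeries ℂ}, IsPair p 2 A B →
      ∃ X : ModularForm 𝒮ℒ 2, qExpansion 1 X = A + (p : ℂ) • psU p B) :
    ∀ G : ModularForm (Gamma0 p) 2,
      IsPair p 2 (qExpansion 1 G) ((-(p : ℂ)⁻¹) • psU p (qExpansion 1 G)) := by
  refine weightTwo_of p hflat (fun {A B} h => ?_) htrace
  have h3 : ((-1 : ℂ) ^ (2 : ℤ) * (p : ℂ) ^ (-(2 : ℤ))) = (p : ℂ) ^ (-2 : ℤ) := by
    norm_num
  have := hsymm h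
  rwa [h3] at this

end Fermat.Agent.S16.WeightTwoOf
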