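import Fermat.Agent.S16.Plan
import Fermat.Agent.S16.PairFricke
import Fermat.Agent.S16.PairLevelOne
import Fermat.Agent.S16.TraceQExp
import Fermat.Agent.S16.WeightTwoOf

/-!
# S16/TracePair: the contract `PairAPI p` (calculus of pairs `(F, F♭)` + trace principle)

Assembly of the leaves:
* `S16/PairFricke` (helper46): `isPair_add`, `isPair_smul`, `isPair_mul`, `isPair_symm`,
  `isPair_of_form`;
* `S16/TraceCosets` + `S16/TraceQExp` (helper20): `isPair_trace`;
* `S16/WeightTwoOf` (helper42): `weightTwo_of'`;
* `S16/PairLevelOne` (helper46): `isPair_levelOne`, `isPair_levelOneV`.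

Main result: `pairAPI (p) [Fact p.Prime] : PairAPI p`.
-/

set_option autoImplicit false

namespace Fermat.Agent.S16

open ModularCurve CuspForm UpperHalfPlane CongruenceSubgroup ModularFormClass
open scoped MatrixGroups ModularForm

/-- The field `weightTwo` of `PairAPI`: `G♭ = -U_p G / p`. -/
theorem isPair_weightTwo (p : ℕ) [Fact p.Prime] (G : ModularForm (Gamma0 p) 2) :
    IsPair p 2 (qExpansion 1 G) ((-(p : ℂ)⁻¹) • psU p (qExpansion 1 G)) :=
  WeightTwoOf.weightTwo_of' p (fun G => PairFricke.isPair_of_form (p := p) G)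
    (fun h => PairFricke.isPair_symm h) (fun h => isPair_trace p h) G

/-- `PairAPI p` from the two level-one fields. -/
theorem pairAPI_of_levelOne (p : ℕ) [Fact p.Prime]
    (hL : ∀ {w : ℤ} (X : ModularForm 𝒮ℒ w),
      IsPair p w (qExpansion 1 X) (psV p (qExpansion 1 X)))
    (hLV : ∀ {w : ℤ} (X : ModularForm 𝒮ℒ w),
      IsPair p w (psV p (qExpansion 1 X)) (((p : ℂ) ^ (-w)) • qExpansion 1 X)) :
    PairAPI p where
  add := PairFricke.isPair_add
  smul := PairFricke.isPair_smul
  mul := PairFricke.isPair_mul
  levelOne := hL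
  levelOneV := hLV
  trace := fun h => isPair_trace p h
  weightTwo := isPair_weightTwo p

/-- **The trace principle at prime level `p`: the contract `PairAPI p`.** -/
theorem pairAPI (p : ℕ) [Fact p.Prime] : PairAPI p :=
  pairAPI_of_levelOne p (fun X => PairLevelOne.isPair_levelOne p X)
    (fun X => PairLevelOne.isPair_levelOneV p X)

end Fermat.Agent.S16
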