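import Mathlib
import Fermat.Agent.S16.Plan

/-!
# S16, package [ClaimU] (U10 of the roster; helper58)

Pure arithmetic assembly of the upper-bound cases (A)–(E) of the S16 plan:

* `noCongOneMain_of` : the prime-by-prime statement `NoCongOneMain p`, i.e.
  `NoCongOne p ℓ (v_ℓ(24 / gcd(p-1,12)) + 1)` for every prime `ℓ`, from the case statements
  (A)–(E), which are taken as hypotheses in exactly the shape in which the packages
  `UTwoRes`, `UThreeRes`, `ULarge`, `UAtP`, `UDelta` export them;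
* `claimU_of_main` : `NoCongOneMain p → ClaimU p`;
* `claimU_of_cases` : the composition.
-/

set_option autoImplicit false

noncomputable section

namespace Fermat.Agent.S16

open ModularCurve UpperHalfPlane CongruenceSubgroup ModularFormClass
open scoped MatrixGroups ModularForm

/-- Computing a `padicValNat` from two divisibility facts. -/
theorem claimU_padicValNat_eq {ℓ : ℕ} [Fact ℓ.Prime] {n k : ℕ} (h1 : ℓ ^ k ∣ n)
    (h2 : ¬ ℓ ^ (k + 1) ∣ n) : padicValNat ℓ n = k := by
  have hn : n ≠ 0 := by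
    rintro rfl
    exact h2 (dvd_zero _)
  have a := (padicValNat_dvd_iff_le (p := ℓ) hn).mp h1
  have b : ¬ (k + 1 ≤ padicValNat ℓ n) := fun h =>
    h2 ((padicValNat_dvd_iff_le (p := ℓ) hn).mpr h)
  omega

/-- The prime-by-prime statement, from the case statements (A)–(E). -/
theorem noCongOneMain_of (p : ℕ) [hp : Fact p.Prime]
    (hA : p % 8 = 7 → NoCongOne p 2 3) (hB : p % 9 = 8 → NoCongOne p 3 2)
    (hC : ∀ l : ℕ, l.Prime → 5 ≤ l → l ≠ p → l ∣ p + 1 → NoCongOne p l 1)
    (hD : NoCongOne p p (if p = 2 then 4 else if p = 3 then 2 else 1))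
    (hE : ∀ l : ℕ, l.Prime → l ≠ p → ∀ a : ℕ, ¬ l ^ a ∣ p + 1 → NoCongOne p l a) :
    NoCongOneMain p := by
  intro ℓ hℓpr
  have hℓ : Fact ℓ.Prime := ⟨hℓpr⟩
  have hp2 : 2 ≤ p := hp.out.two_le
  have h2 : 2 ∣ Nat.gcd (p - 1) 12 ↔ 2 ∣ p - 1 := by
    rw [Nat.dvd_gcd_iff]; simp
  have h3 : 3 ∣ Nat.gcd (p - 1) 12 ↔ 3 ∣ p - 1 := by
    rw [Nat.dvd_gcd_iff]; simp
  have h4 : 4 ∣ Nat.gcd (p - 1) 12 ↔ 4 ∣ p - 1 := by
    rw [Nat.dvd_gcd_iff]; simp
  have hν12 : Nat.gcd (p - 1) 12 ∣ 12 := Nat.gcd_dvd_right _ _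
  generalize Nat.gcd (p - 1) 12 = ν at h2 h3 h4 hν12 ⊢
  have hνle : ν ≤ 12 := Nat.le_of_dvd (by norm_num) hν12
  rcases lt_or_ge ℓ 5 with hlt | hge
  · have hℓ2 := hℓpr.two_le
    have hcases : ℓ = 2 ∨ ℓ = 3 := by
      have h4' : ℓ ≠ 4 := by
        rintro rfl
        exact absurd hℓpr (by decide)
      omega
    rcases hcases with rfl | rfl
    · -- ℓ = 2
      by_cases hp2' : p = 2
      · subst hp2'
        have hν : ν = 1 := by
          have : ¬ 2 ∣ ν := fun h => by have := h2.mp h; omega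
          have : ¬ 3 ∣ ν := fun h => by have := h3.mp h; omega
          interval_cases ν <;> omega
        subst hν
        have hv : padicValNat 2 (24 / 1) = 3 :=
          claimU_padicValNat_eq (by decide) (by decide)
        rw [hv]
        simpa using hD
      · have hodd : p % 2 = 1 := by
          rcases hp.out.eq_two_or_odd with h | h
          · exact absurd h hp2'
          · exact h
        by_cases hp4 : p % 4 = 1
        · have h4ν : 4 ∣ ν := h4.mpr (by omega)
          have hv : padicValNat 2 (24 / ν) = 1 := by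
            interval_cases ν <;>
              first | omega | exact claimU_padicValNat_eq (by decide) (by decide)
          rw [hv]
          exact hE 2 Nat.prime_two (Ne.symm hp2') 2 (by omega)
        · have h2ν : 2 ∣ ν := h2.mpr (by omega)
          have h4ν : ¬ 4 ∣ ν := fun h => by have := h4.mp h; omega
          have hv : padicValNat 2 (24 / ν) = 2 := by
            interval_cases ν <;>
              first | omega | exact claimU_padicValNat_eq (by decide) (by decide)
          rw [hv]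
          by_cases hp8 : p % 8 = 7
          · exact hA hp8
          · exact hE 2 Nat.prime_two (Ne.symm hp2') 3 (by omega)
    · -- ℓ = 3
      by_cases hp3 : p = 3
      · subst hp3
        have hν : ν = 2 := by
          have : 2 ∣ ν := h2.mpr (by norm_num)
          have : ¬ 3 ∣ ν := fun h => by have := h3.mp h; omega
          have : ¬ 4 ∣ ν := fun h => by have := h4.mp h; omega
          interval_cases ν <;> omega
        subst hν
        have hv : padicValNat 3 (24 / 2) = 1 :=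
          claimU_padicValNat_eq (by decide) (by decide)
        rw [hv]
        simpa using hD
      · have hmod : p % 3 ≠ 0 := by
          intro h
          have h3p : 3 ∣ p := Nat.dvd_of_mod_eq_zero h
          exact hp3 ((Nat.prime_dvd_prime_iff_eq Nat.prime_three hp.out).mp h3p).symm
        by_cases hp1 : p % 3 = 1
        · have h3ν : 3 ∣ ν := h3.mpr (by omega)
          have hv : padicValNat 3 (24 / ν) = 0 := by
            interval_cases ν <;>
              first | omega | exact claimU_padicValNat_eq (by decide) (by decide)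
          rw [hv]
          exact hE 3 Nat.prime_three (Ne.symm hp3) 1 (by omega)
        · have h3ν : ¬ 3 ∣ ν := fun h => by have := h3.mp h; omega
          have hv : padicValNat 3 (24 / ν) = 1 := by
            interval_cases ν <;>
              first | omega | exact claimU_padicValNat_eq (by decide) (by decide)
          rw [hv]
          by_cases hp9 : p % 9 = 8
          · exact hB hp9
          · exact hE 3 Nat.prime_three (Ne.symm hp3) 2 (by omega)
  · -- ℓ ≥ 5 : the exponent is 1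
    have hval : padicValNat ℓ (24 / ν) = 0 := by
      apply padicValNat.eq_zero_of_not_dvd
      intro hdvd
      have h24 : ℓ ∣ 2 ^ 3 * 3 := hdvd.trans (Nat.div_dvd_of_dvd (hν12.trans (by norm_num)))
      rcases (Nat.Prime.dvd_mul hℓpr).mp h24 with h | h
      · have := Nat.le_of_dvd (by norm_num) (hℓpr.dvd_of_dvd_pow h)
        omega
      · have := Nat.le_of_dvd (by norm_num) h
        omega
    rw [hval]
    by_cases hpe : ℓ = p
    · subst hpe
      have h2' : ℓ ≠ 2 := by omega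
      have h3' : ℓ ≠ 3 := by omega
      simpa [h2', h3'] using hD
    · by_cases hdvd : ℓ ∣ p + 1
      · exact hC ℓ hℓpr hge hpe hdvd
      · exact hE ℓ hℓpr hpe 1 (by simpa using hdvd)

/-- CLAIM U, from the prime-by-prime statement. -/
theorem claimU_of_main (p : ℕ) [hp : Fact p.Prime] (hmain : NoCongOneMain p) : ClaimU p := by
  intro G m c h0 hc
  rw [Nat.dvd_iff_prime_pow_dvd_dvd]
  intro ℓ k hℓ hk
  have : Fact ℓ.Prime := ⟨hℓ⟩
  by_contra hnot
  have hp2 : 2 ≤ p := hp.out.two_le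
  have hp1 : p - 1 ≠ 0 := by omega
  have hνdvd : Nat.gcd (p - 1) 12 ∣ p - 1 := Nat.gcd_dvd_left _ _
  have hν12 : Nat.gcd (p - 1) 12 ∣ 12 := Nat.gcd_dvd_right _ _
  have hmain' := hmain ℓ hℓ
  have hN : eisensteinNumerator p = (p - 1) / Nat.gcd (p - 1) 12 := rfl
  rw [hN] at hnot
  generalize Nat.gcd (p - 1) 12 = ν at hνdvd hν12 hmain' hnot
  have hν24 : ν ∣ 24 := hν12.trans (by norm_num)
  have hν0 : ν ≠ 0 := by
    rintro rfl
    simp at hν12
  have hN0 : (p - 1) / ν ≠ 0 :=
    (Nat.div_pos (Nat.le_of_dvd (by omega) hνdvd) (Nat.pos_of_ne_zero hν0)).ne'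
  -- valuations
  have hvN : padicValNat ℓ ((p - 1) / ν) = padicValNat ℓ (p - 1) - padicValNat ℓ ν :=
    padicValNat.div_of_dvd hνdvd
  have hve : padicValNat ℓ (24 / ν) = padicValNat ℓ 24 - padicValNat ℓ ν :=
    padicValNat.div_of_dvd hν24
  have hνs : padicValNat ℓ ν ≤ padicValNat ℓ (p - 1) :=
    (padicValNat_dvd_iff_le hp1).mp (pow_padicValNat_dvd.trans hνdvd)
  have hν24' : padicValNat ℓ ν ≤ padicValNat ℓ 24 :=
    (padicValNat_dvd_iff_le (by norm_num)).mp (pow_padicValNat_dvd.trans hν24)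
  have hk' : ¬ k ≤ padicValNat ℓ ((p - 1) / ν) := fun h =>
    hnot ((padicValNat_dvd_iff_le hN0).mpr h)
  generalize padicValNat ℓ (24 / ν) = e at hve hmain'
  generalize hs : padicValNat ℓ (p - 1) = s at hvN hνs
  have hkey : s + e + 1 ≤ padicValNat ℓ 24 + k := by omega
  have hdiv : ℓ ^ (s + e + 1) ∣ 24 * m := by
    calc ℓ ^ (s + e + 1) ∣ ℓ ^ (padicValNat ℓ 24 + k) := pow_dvd_pow _ hkey
      _ = ℓ ^ padicValNat ℓ 24 * ℓ ^ k := pow_add _ _ _
      _ ∣ 24 * m := mul_dvd_mul pow_padicValNat_dvd hk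
  obtain ⟨w, hw⟩ := hdiv
  obtain ⟨u, hu⟩ : ℓ ^ s ∣ p - 1 := hs ▸ pow_padicValNat_dvd
  have hu' : ¬ ℓ ∣ u := by
    rintro ⟨u', rfl⟩
    have : ℓ ^ (s + 1) ∣ p - 1 := ⟨u', by rw [hu, pow_succ]; ring⟩
    have := (padicValNat_dvd_iff_le hp1).mp this
    omega
  have hℓ0 : (ℓ : ℂ) ≠ 0 := Nat.cast_ne_zero.mpr hℓ.ne_zero
  have hℓs : (ℓ : ℂ) ^ s ≠ 0 := pow_ne_zero _ hℓ0
  -- the rescaled form
  have h1 : (1 : ℝ) ∈
      ((Gamma0 p : Subgroup SL(2, ℤ)) : Subgroup (GL (Fin 2) ℝ)).strictPeriods := by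
    rw [CongruenceSubgroup.strictPeriods_Gamma0]
    exact AddSubgroup.mem_zmultiples 1
  have hG₁ : ∀ n, (qExpansion 1
      (((24 / (ℓ : ℂ) ^ s) • G : ModularForm (Gamma0 p) 2) : ℍ → ℂ)).coeff n =
      (24 / (ℓ : ℂ) ^ s) * (qExpansion 1 G).coeff n := by
    intro n
    rw [FunLike.coe_smul, ModularForm.qExpansion_smul one_pos h1,
      PowerSeries.coeff_smul, smul_eq_mul]
  have hpC : (p : ℂ) - 1 = (ℓ : ℂ) ^ s * (u : ℂ) := by
    have : ((p - 1 : ℕ) : ℂ) = (ℓ : ℂ) ^ s * (u : ℂ) := by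
      rw [hu]; push_cast; ring
    rw [← this, Nat.cast_sub (by omega)]
    simp
  have hmC : (24 : ℂ) * (m : ℂ) = (ℓ : ℂ) ^ s * ((ℓ : ℂ) ^ (e + 1) * (w : ℂ)) := by
    have : ((24 * m : ℕ) : ℂ) = (ℓ : ℂ) ^ s * ((ℓ : ℂ) ^ (e + 1) * (w : ℂ)) := by
      rw [hw]; push_cast; ring
    rw [← this]; push_cast; ring
  have key := hmain' ((24 / (ℓ : ℂ) ^ s) • G)
    (fun n => if n = 0 then (u : ℤ) else ((ℓ : ℤ) ^ (e + 1) * (w : ℤ)) * c n) ?_ ?_
  · have : (ℓ : ℤ) ∣ (u : ℤ) := by simpa using key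
    exact hu' (Int.natCast_dvd_natCast.mp this)
  · intro n
    rw [hG₁]
    by_cases hn : n = 0
    · subst hn
      rw [h0, hpC, if_pos rfl]
      push_cast
      field_simp
    · rw [if_neg hn, hc n (Nat.one_le_iff_ne_zero.mpr hn)]
      push_cast
      field_simp
      linear_combination (c n : ℂ) * hmC
  · intro n hn
    have hn0 : n ≠ 0 := by omega
    simp only [if_neg hn0]
    exact Dvd.dvd.mul_right (Dvd.intro _ rfl) _

/-- CLAIM U from the case statements (A)–(E). -/
theorem claimU_of_cases (p : ℕ) [Fact p.Prime]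
    (hA : p % 8 = 7 → NoCongOne p 2 3) (hB : p % 9 = 8 → NoCongOne p 3 2)
    (hC : ∀ l : ℕ, l.Prime → 5 ≤ l → l ≠ p → l ∣ p + 1 → NoCongOne p l 1)
    (hD : NoCongOne p p (if p = 2 then 4 else if p = 3 then 2 else 1))
    (hE : ∀ l : ℕ, l.Prime → l ≠ p → ∀ a : ℕ, ¬ l ^ a ∣ p + 1 → NoCongOne p l a) :
    ClaimU p :=
  claimU_of_main p (noCongOneMain_of p hA hB hC hD hE)

end Fermat.Agent.S16
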