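import Mathlib
import Fermat.Agent.S16.Plan
import Fermat.Agent.Lib.CoeffLattice

/-!
# S16 package U12: the Hecke polynomials `t_k`

`coeffPoly p : CoeffPolyStmt p`: for every `k ≥ 1` there is `t_k ∈ ℤ[T_ℓ, U_p]` with
`a₁(t_k f) = a_k(f)` for all cusp forms `f` of weight `2` and level `Γ₀(p)`, and whose
Eisenstein eigenvalue is `σ'(k)` (the sum of the divisors of `k` prime to `p`).
-/

set_option autoImplicit false

noncomputable section

namespace Fermat.Agent.S16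

open ModularCurve CuspForm UpperHalfPlane CongruenceSubgroup ModularFormClass
open scoped MatrixGroups ModularForm

namespace CoeffPolyAux

/-! ### Arithmetic of `σ'` -/

theorem sigmaP_mul_self {p : ℕ} (hp : p.Prime) {m : ℕ} (hm : m ≠ 0) :
    sigmaP p (m * p) = sigmaP p m := by
  unfold sigmaP
  apply Finset.sum_congr _ (fun _ _ => rfl)
  ext d
  simp only [Finset.mem_filter, Nat.mem_divisors]
  constructor
  · rintro ⟨⟨hd, -⟩, hpd⟩
    refine ⟨⟨?_, hm⟩, hpd⟩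
    have hcop : Nat.Coprime d p := ((Nat.Prime.coprime_iff_not_dvd hp).mpr hpd).symm
    exact hcop.dvd_of_dvd_mul_right hd
  · rintro ⟨⟨hd, -⟩, hpd⟩
    exact ⟨⟨Dvd.dvd.mul_right hd p, Nat.mul_ne_zero hm hp.ne_zero⟩, hpd⟩

theorem sigmaP_mul_prime {p ℓ : ℕ} (hp : p.Prime) (hℓ : ℓ.Prime) (hℓp : ¬ ℓ ∣ p) {m : ℕ}
    (hm : m ≠ 0) :
    sigmaP p (m * ℓ) + (if ℓ ∣ m then ℓ * sigmaP p (m / ℓ) else 0) = (1 + ℓ) * sigmaP p m := by
  have hpℓ : ¬ p ∣ ℓ := fun h => hℓp ((Nat.prime_dvd_prime_iff_eq hp hℓ).mp h ▸ dvd_rfl)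
  unfold sigmaP
  -- split the divisors of `m ℓ` according to divisibility of `m`
  rw [← Finset.sum_filter_add_sum_filter_not ((m * ℓ).divisors.filter fun d => ¬ p ∣ d)
    (fun d => d ∣ m)]
  have h1 : ((m * ℓ).divisors.filter fun d => ¬ p ∣ d).filter (fun d => d ∣ m) =
      m.divisors.filter fun d => ¬ p ∣ d := by
    ext d
    simp only [Finset.mem_filter, Nat.mem_divisors]
    constructor
    · rintro ⟨⟨-, hpd⟩, hd⟩
      exact ⟨⟨hd, hm⟩, hpd⟩
    · rintro ⟨⟨hd, -⟩, hpd⟩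
      exact ⟨⟨⟨Dvd.dvd.mul_right hd ℓ, Nat.mul_ne_zero hm hℓ.ne_zero⟩, hpd⟩, hd⟩
  have h2 : ∑ d ∈ ((m * ℓ).divisors.filter fun d => ¬ p ∣ d).filter (fun d => ¬ d ∣ m), d =
      ∑ e ∈ (m.divisors.filter fun d => ¬ p ∣ d).filter (fun e => ¬ ℓ * e ∣ m), ℓ * e := by
    refine Finset.sum_nbij' (fun d => d / ℓ) (fun e => ℓ * e) ?_ ?_ ?_ ?_ ?_
    · intro d hd
      simp only [Finset.mem_filter, Nat.mem_divisors] at hd ⊢
      obtain ⟨⟨⟨hd, -⟩, hpd⟩, hdm⟩ := hd
      have hℓd : ℓ ∣ d := by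
        by_contra hnd
        have hcop : Nat.Coprime d ℓ := ((Nat.Prime.coprime_iff_not_dvd hℓ).mpr hnd).symm
        exact hdm (hcop.dvd_of_dvd_mul_right hd)
      obtain ⟨e, rfl⟩ := hℓd
      rw [Nat.mul_div_cancel_left _ hℓ.pos]
      refine ⟨⟨⟨?_, hm⟩, fun hpe => hpd (Dvd.dvd.mul_left hpe ℓ)⟩, hdm⟩
      rw [mul_comm m ℓ] at hd
      exact Nat.dvd_of_mul_dvd_mul_left hℓ.pos hd
    · intro e he
      simp only [Finset.mem_filter, Nat.mem_divisors] at he ⊢
      obtain ⟨⟨⟨he, -⟩, hpe⟩, hem⟩ := he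
      refine ⟨⟨⟨?_, Nat.mul_ne_zero hm hℓ.ne_zero⟩, ?_⟩, hem⟩
      · rw [mul_comm m ℓ]
        exact Nat.mul_dvd_mul_left ℓ he
      · intro h
        rcases (Nat.Prime.dvd_mul hp).mp h with h | h
        · exact hpℓ h
        · exact hpe h
    · intro d hd
      simp only [Finset.mem_filter, Nat.mem_divisors] at hd
      obtain ⟨⟨⟨hd, -⟩, hpd⟩, hdm⟩ := hd
      have hℓd : ℓ ∣ d := by
        by_contra hnd
        have hcop : Nat.Coprime d ℓ := ((Nat.Prime.coprime_iff_not_dvd hℓ).mpr hnd).symm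
        exact hdm (hcop.dvd_of_dvd_mul_right hd)
      exact Nat.mul_div_cancel' hℓd
    · intro e _
      exact Nat.mul_div_cancel_left _ hℓ.pos
    · intro d hd
      simp only [Finset.mem_filter, Nat.mem_divisors] at hd
      obtain ⟨⟨⟨hd, -⟩, hpd⟩, hdm⟩ := hd
      have hℓd : ℓ ∣ d := by
        by_contra hnd
        have hcop : Nat.Coprime d ℓ := ((Nat.Prime.coprime_iff_not_dvd hℓ).mpr hnd).symm
        exact hdm (hcop.dvd_of_dvd_mul_right hd)
      exact (Nat.mul_div_cancel' hℓd).symm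
  have h3 : ∑ e ∈ (m.divisors.filter fun d => ¬ p ∣ d).filter (fun e => ℓ * e ∣ m), ℓ * e =
      if ℓ ∣ m then ℓ * ∑ d ∈ (m / ℓ).divisors with ¬ p ∣ d, d else 0 := by
    split_ifs with hℓm
    · rw [Finset.mul_sum]
      apply Finset.sum_congr _ (fun _ _ => rfl)
      ext e
      simp only [Finset.mem_filter, Nat.mem_divisors]
      have hmℓ : m / ℓ ≠ 0 := by
        obtain ⟨c, rfl⟩ := hℓm
        rw [Nat.mul_div_cancel_left _ hℓ.pos]
        rintro rfl
        exact hm (by simp)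
      constructor
      · rintro ⟨⟨-, hpe⟩, hem⟩
        exact ⟨⟨(Nat.dvd_div_iff_mul_dvd hℓm).mpr hem, hmℓ⟩, hpe⟩
      · rintro ⟨⟨he, -⟩, hpe⟩
        have hem : ℓ * e ∣ m := (Nat.dvd_div_iff_mul_dvd hℓm).mp he
        exact ⟨⟨⟨dvd_trans (Dvd.intro_left ℓ rfl) hem, hm⟩, hpe⟩, hem⟩
    · apply Finset.sum_eq_zero
      intro e he
      simp only [Finset.mem_filter, Nat.mem_divisors] at he
      exact absurd (dvd_trans (Dvd.intro e rfl) he.2) hℓm
  have key := Finset.sum_filter_add_sum_filter_not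
    (m.divisors.filter fun d => ¬ p ∣ d) (fun e => ℓ * e ∣ m) (fun e => ℓ * e)
  rw [h1, h2, ← h3, add_assoc]
  have hkey : (∑ e ∈ (m.divisors.filter fun d => ¬ p ∣ d).filter (fun e => ¬ ℓ * e ∣ m), ℓ * e) +
      (∑ e ∈ (m.divisors.filter fun d => ¬ p ∣ d).filter (fun e => ℓ * e ∣ m), ℓ * e) =
      ℓ * ∑ d ∈ m.divisors with ¬ p ∣ d, d := by
    rw [add_comm, key, Finset.mul_sum]
  rw [hkey]
  ring

/-! ### The coefficient functionals -/

theorem qCoeff_eq (p : ℕ) (f : CuspForm (Gamma0 p) 2) (n : ℕ) :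
    qCoeff f n = Fermat.Agent.Lib.CoeffLattice.coeffLin p 2 n f := rfl

end CoeffPolyAux

open CoeffPolyAux Fermat.Agent.Lib.CoeffLattice

/-- **Package U12.** The Hecke polynomials `t_k`. -/
theorem coeffPoly (p : ℕ) [Fact p.Prime] : CoeffPolyStmt p := by
  have hp : p.Prime := Fact.out
  intro k
  induction k using Nat.strong_induction_on with
  | _ k ih =>
    intro hk
    rcases Nat.eq_or_lt_of_le hk with hk1 | hk1
    · -- `k = 1`
      subst hk1
      refine ⟨1, ?_, fun f => ?_⟩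
      · have h1 : ¬ p ∣ 1 := fun h => hp.one_lt.ne' (Nat.dvd_one.mp h)
        simp [sigmaP, Finset.filter_singleton, h1]
      · rw [map_one]; rfl
    · -- `k ≥ 2`: split off the least prime factor
      have hk2 : k ≠ 1 := by omega
      set ℓ := k.minFac with hℓdef
      have hℓ : ℓ.Prime := Nat.minFac_prime hk2
      obtain ⟨m, hm⟩ : ℓ ∣ k := Nat.minFac_dvd k
      have hm0 : m ≠ 0 := by rintro rfl; omega
      have hm1 : 1 ≤ m := Nat.pos_of_ne_zero hm0
      have hmk : m < k := by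
        rw [hm]
        exact lt_mul_of_one_lt_left (Nat.pos_of_ne_zero hm0) hℓ.one_lt
      have hkm : k = m * ℓ := by rw [hm, mul_comm]
      obtain ⟨tm, htm, htmf⟩ := ih m hmk hm1
      by_cases hℓp : ℓ ∣ p
      · -- `ℓ = p`: `t_k = t_m U_p`
        refine ⟨tm * heckeGen ⟨ℓ, hℓ⟩, ?_, fun f => ?_⟩
        · have hℓeq : ℓ = p := (Nat.prime_dvd_prime_iff_eq hℓ hp).mp hℓp
          have hX : chiE p (heckeGen ⟨ℓ, hℓ⟩) = 1 := by
            show (MvPolynomial.aeval (eisensteinSystem p)) (MvPolynomial.X _) = 1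
            rw [MvPolynomial.aeval_X]
            exact eisensteinSystem_of_dvd hℓp
          rw [map_mul, htm, hX, mul_one, hkm, hℓeq, sigmaP_mul_self hp hm0]
        · rw [map_mul, heckeEvalForms_heckeGen_of_dvd (q := ⟨ℓ, hℓ⟩) hℓp]
          show qCoeff (((heckeEvalForms p 2 tm : heckeAlgebra p 2 ∅).1)
            (heckeULin 2 hℓp f)) 1 = qCoeff f k
          rw [htmf, qCoeff_eq, qCoeff_eq, coeffLin_heckeU p 2 hℓ hℓp, hkm]
      · -- `ℓ ≠ p`: `t_k = t_m T_ℓ - ℓ t_{m/ℓ}`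
        have hT : chiE p (heckeGen ⟨ℓ, hℓ⟩) = 1 + (ℓ : ℤ) := by
          show (MvPolynomial.aeval (eisensteinSystem p)) (MvPolynomial.X _) = _
          rw [MvPolynomial.aeval_X]
          exact eisensteinSystem_of_not_dvd hℓp
        have hσ := sigmaP_mul_prime hp hℓ hℓp hm0
        by_cases hℓm : ℓ ∣ m
        · have hmℓ1 : 1 ≤ m / ℓ := Nat.div_pos (Nat.le_of_dvd hm1 hℓm) hℓ.pos
          have hmℓk : m / ℓ < k := lt_of_le_of_lt (Nat.div_le_self m ℓ) hmk
          obtain ⟨tm', htm', htmf'⟩ := ih (m / ℓ) hmℓk hmℓ1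
          refine ⟨tm * heckeGen ⟨ℓ, hℓ⟩ - (ℓ : ℤ) • tm', ?_, fun f => ?_⟩
          · rw [map_sub, map_mul, map_zsmul, htm, htm', hT, hkm]
            rw [if_pos hℓm] at hσ
            have hσ' : ((sigmaP p (m * ℓ) : ℕ) : ℤ) + (ℓ : ℤ) * (sigmaP p (m / ℓ) : ℤ) =
                (1 + (ℓ : ℤ)) * (sigmaP p m : ℤ) := by exact_mod_cast hσ
            rw [smul_eq_mul]
            linarith
          · rw [map_sub, map_mul, map_zsmul,
              heckeEvalForms_heckeGen_of_not_dvd (ℓ := ⟨ℓ, hℓ⟩) hℓp]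
            show qCoeff (⇑((((heckeEvalForms p 2 tm : heckeAlgebra p 2 ∅).1)
              (heckeTLin 2 hℓ hℓp f) - (ℓ : ℤ) • ((heckeEvalForms p 2 tm' : heckeAlgebra p 2 ∅).1 f) :
                CuspForm (Gamma0 p) 2))) 1 = qCoeff f k
            have hsub : ∀ g h : CuspForm (Gamma0 p) 2, qCoeff (⇑(g - (ℓ : ℤ) • h)) 1 =
                qCoeff g 1 - (ℓ : ℂ) * qCoeff h 1 := by
              intro g h
              rw [qCoeff_eq, qCoeff_eq, qCoeff_eq, map_sub]
              have : ((ℓ : ℤ) • h : CuspForm (Gamma0 p) 2) = ((ℓ : ℂ)) • h := by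
                rw [← Int.cast_smul_eq_zsmul ℂ]; simp
              rw [this, map_smul, smul_eq_mul]
            rw [hsub, htmf, htmf', qCoeff_eq, qCoeff_eq, qCoeff_eq,
              coeffLin_heckeT p 2 hℓ hℓp, if_pos hℓm, hkm]
            have h21 : ((2 : ℤ) - 1) = 1 := by norm_num
            rw [h21, zpow_one]
            ring
        · refine ⟨tm * heckeGen ⟨ℓ, hℓ⟩, ?_, fun f => ?_⟩
          · rw [map_mul, htm, hT, hkm]
            rw [if_neg hℓm, add_zero] at hσ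
            have hσ' : ((sigmaP p (m * ℓ) : ℕ) : ℤ) = (1 + (ℓ : ℤ)) * (sigmaP p m : ℤ) := by
              exact_mod_cast hσ
            rw [hσ']; ring
          · rw [map_mul, heckeEvalForms_heckeGen_of_not_dvd (ℓ := ⟨ℓ, hℓ⟩) hℓp]
            show qCoeff (((heckeEvalForms p 2 tm : heckeAlgebra p 2 ∅).1)
              (heckeTLin 2 hℓ hℓp f)) 1 = qCoeff f k
            rw [htmf, qCoeff_eq, qCoeff_eq, coeffLin_heckeT p 2 hℓ hℓp, if_neg hℓm, add_zero, hkm]

end Fermat.Agent.S16
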