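import Mathlib
import Fermat.Prelude.Def_CuspForm_HeckeLocal
import Fermat.Prelude.Def_CuspForm_HeckeEvalForms
import Fermat.Prelude.Def_HeckeGalois_EichlerShimura
import Fermat.Agent.Lib.EigenNormalize
import Fermat.Agent.Lib.IntLatticeCongr

/-!
# S16, package `Duality` (helper83)

* `exists_coeffPoly` : the Hecke polynomial `t_k` with `a₁(t_k f) = a_k(f)` and Eisenstein
  eigenvalue `σ'(k)` (sum of the divisors of `k` prime to `p`);
* `exists_form_of_functional` : every `ℤ`-linear functional on the integral Hecke algebra `𝕋` is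
  `t ↦ a₁(t f)` for an integral cusp form `f`.
-/

set_option autoImplicit false

noncomputable section

namespace Fermat.Agent.S16.Duality

open ModularCurve CuspForm CongruenceSubgroup ModularFormClass
open Fermat.Agent.Lib.EigenNormalize Fermat.Agent.Lib.IntLatticeCongr

/-! ## The arithmetic function `σ'` -/

/-- Sum of the divisors of `k` prime to `p`. -/
def sigmaAway (p k : ℕ) : ℕ := ∑ d ∈ k.divisors with ¬ p ∣ d, d

theorem sigmaAway_one (p : ℕ) (hp : 1 < p) : sigmaAway p 1 = 1 := by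
  unfold sigmaAway
  rw [Nat.divisors_one, Finset.sum_filter, Finset.sum_singleton]
  have : ¬ p ∣ 1 := by
    intro h
    have := Nat.le_of_dvd one_pos h
    omega
  simp [this]

theorem sigmaAway_self_mul (p : ℕ) (hp : p.Prime) (n : ℕ) (hn : n ≠ 0) :
    sigmaAway p (p * n) = sigmaAway p n := by
  unfold sigmaAway
  congr 1
  ext d
  simp only [Finset.mem_filter, Nat.mem_divisors]
  constructor
  · rintro ⟨⟨h1, _⟩, h2⟩
    have hcop : Nat.Coprime d p := ((Nat.Prime.coprime_iff_not_dvd hp).mpr h2).symm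
    exact ⟨⟨hcop.dvd_of_dvd_mul_left h1, hn⟩, h2⟩
  · rintro ⟨⟨h1, _⟩, h2⟩
    exact ⟨⟨Dvd.dvd.mul_left h1 p, mul_ne_zero hp.ne_zero hn⟩, h2⟩

/-- The weight function: `d` if `p ∤ d`, else `0`. -/
def awayWt (p d : ℕ) : ℕ := if p ∣ d then 0 else d

theorem sigmaAway_eq_sum (p k : ℕ) : sigmaAway p k = ∑ d ∈ k.divisors, awayWt p d := by
  unfold sigmaAway awayWt
  rw [Finset.sum_filter]
  refine Finset.sum_congr rfl fun d _ => ?_
  by_cases h : p ∣ d <;> simp [h]

theorem awayWt_mul (p ℓ : ℕ) (hp : p.Prime) (hℓ : ℓ.Prime) (hne : ℓ ≠ p) (d : ℕ) :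
    awayWt p (ℓ * d) = ℓ * awayWt p d := by
  unfold awayWt
  have hpl : ¬ p ∣ ℓ := fun h => hne ((Nat.prime_dvd_prime_iff_eq hp hℓ).mp h).symm
  by_cases h : p ∣ d
  · have : p ∣ ℓ * d := Dvd.dvd.mul_left h ℓ
    simp [h, this]
  · have : ¬ p ∣ ℓ * d := fun h' => (hp.dvd_mul.mp h').elim hpl h
    simp [h, this]

/-- The Hecke recursion for `σ'` at a prime `ℓ ≠ p`. -/
theorem sigmaAway_mul_prime (p ℓ : ℕ) (hp : p.Prime) (hℓ : ℓ.Prime) (hne : ℓ ≠ p) (n : ℕ)
    (hn : n ≠ 0) :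
    sigmaAway p (ℓ * n) + ℓ * (if ℓ ∣ n then sigmaAway p (n / ℓ) else 0) =
      (1 + ℓ) * sigmaAway p n := by
  classical
  have hℓ0 : ℓ ≠ 0 := hℓ.ne_zero
  -- split the divisors of `ℓ n` according to whether they divide `n`
  have h1 : (ℓ * n).divisors.filter (fun d => d ∣ n) = n.divisors := by
    ext d
    simp only [Finset.mem_filter, Nat.mem_divisors]
    constructor
    · rintro ⟨_, h⟩
      exact ⟨h, hn⟩
    · rintro ⟨h, _⟩
      exact ⟨⟨Dvd.dvd.mul_left h ℓ, mul_ne_zero hℓ0 hn⟩, h⟩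
  have h2 : (ℓ * n).divisors.filter (fun d => ¬ d ∣ n) =
      (n.divisors.filter (fun d => ¬ ℓ * d ∣ n)).image (fun d => ℓ * d) := by
    ext d
    simp only [Finset.mem_filter, Nat.mem_divisors, Finset.mem_image]
    constructor
    · rintro ⟨⟨h, _⟩, h'⟩
      have hℓd : ℓ ∣ d := by
        by_contra hnd
        have hcop : Nat.Coprime d ℓ := ((Nat.Prime.coprime_iff_not_dvd hℓ).mpr hnd).symm
        exact h' (hcop.dvd_of_dvd_mul_left h)
      obtain ⟨d', rfl⟩ := hℓd
      exact ⟨d', ⟨⟨(Nat.mul_dvd_mul_iff_left hℓ.pos).mp h, hn⟩, h'⟩, rfl⟩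
    · rintro ⟨d', ⟨⟨h, _⟩, h'⟩, rfl⟩
      exact ⟨⟨Nat.mul_dvd_mul_left ℓ h, mul_ne_zero hℓ0 hn⟩, h'⟩
  have h3 : n.divisors.filter (fun d => ℓ * d ∣ n) =
      if ℓ ∣ n then (n / ℓ).divisors else ∅ := by
    split_ifs with hdiv
    · obtain ⟨m, rfl⟩ := hdiv
      have hm : m ≠ 0 := fun h => hn (by rw [h, mul_zero])
      rw [Nat.mul_div_cancel_left m hℓ.pos]
      ext d
      simp only [Finset.mem_filter, Nat.mem_divisors]
      constructor
      · rintro ⟨_, h⟩
        exact ⟨(Nat.mul_dvd_mul_iff_left hℓ.pos).mp h, hm⟩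
      · rintro ⟨h, _⟩
        exact ⟨⟨Dvd.dvd.mul_left h ℓ, hn⟩, Nat.mul_dvd_mul_left ℓ h⟩
    · ext d
      simp only [Finset.mem_filter, Nat.mem_divisors, Finset.notMem_empty, iff_false, not_and]
      rintro _ h
      exact hdiv (dvd_of_mul_right_dvd h)
  have hsplit : sigmaAway p (ℓ * n) =
      sigmaAway p n + ℓ * ∑ d ∈ n.divisors.filter (fun d => ¬ ℓ * d ∣ n), awayWt p d := by
    rw [sigmaAway_eq_sum, sigmaAway_eq_sum,
      ← Finset.sum_filter_add_sum_filter_not (ℓ * n).divisors (fun d => d ∣ n), h1, h2,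
      Finset.sum_image (fun a _ b _ h => Nat.eq_of_mul_eq_mul_left hℓ.pos h), Finset.mul_sum]
    congr 1
    exact Finset.sum_congr rfl fun d _ => awayWt_mul p ℓ hp hℓ hne d
  have hB : (∑ d ∈ n.divisors.filter (fun d => ℓ * d ∣ n), awayWt p d) =
      if ℓ ∣ n then sigmaAway p (n / ℓ) else 0 := by
    rw [h3]
    split_ifs
    · rw [sigmaAway_eq_sum]
    · simp
  have hA : (∑ d ∈ n.divisors.filter (fun d => ℓ * d ∣ n), awayWt p d) +
      ∑ d ∈ n.divisors.filter (fun d => ¬ ℓ * d ∣ n), awayWt p d = sigmaAway p n := by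
    rw [sigmaAway_eq_sum, Finset.sum_filter_add_sum_filter_not]
  rw [hsplit, ← hB, ← hA]
  ring

/-! ## Hecke polynomials acting on cusp forms -/

section Act

variable (p : ℕ) [Fact p.Prime]

/-- The action of a Hecke polynomial on `S₂(Γ₀(p))`. -/
def act (t : HeckeAlg) : Module.End ℂ (CuspForm (Gamma0 p) 2) :=
  ((heckeEvalForms p 2 t : heckeAlgebra p 2 ∅) : Module.End ℂ (CuspForm (Gamma0 p) 2))

theorem act_mul (s t : HeckeAlg) (f : CuspForm (Gamma0 p) 2) :
    act p (s * t) f = act p s (act p t f) := by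
  unfold act
  rw [map_mul]
  rfl

theorem act_add (s t : HeckeAlg) (f : CuspForm (Gamma0 p) 2) :
    act p (s + t) f = act p s f + act p t f := by
  unfold act
  rw [map_add]
  rfl

theorem act_sub (s t : HeckeAlg) (f : CuspForm (Gamma0 p) 2) :
    act p (s - t) f = act p s f - act p t f := by
  unfold act
  rw [map_sub]
  rfl

theorem act_one (f : CuspForm (Gamma0 p) 2) : act p 1 f = f := by
  unfold act
  rw [map_one]
  rfl

theorem act_C (a : ℤ) (f : CuspForm (Gamma0 p) 2) :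
    act p (MvPolynomial.C a) f = a • f := by
  unfold act
  rw [heckeEvalForms_C]
  simp

theorem act_X_of_ne (ℓ : Nat.Primes) (h : ¬ (ℓ : ℕ) ∣ p) (f : CuspForm (Gamma0 p) 2) :
    act p (MvPolynomial.X ℓ) f = heckeTLin 2 ℓ.2 h f := by
  unfold act
  have := heckeEvalForms_heckeGen_of_not_dvd (N := p) (k := 2) h
  rw [heckeGen] at this
  rw [this]
  rfl

theorem act_X_of_dvd (ℓ : Nat.Primes) (h : (ℓ : ℕ) ∣ p) (f : CuspForm (Gamma0 p) 2) :
    act p (MvPolynomial.X ℓ) f = heckeULin 2 h f := by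
  unfold act
  have := heckeEvalForms_heckeGen_of_dvd (N := p) (k := 2) h
  rw [heckeGen] at this
  rw [this]
  rfl

/-- The Eisenstein character. -/
def chi (p : ℕ) : HeckeAlg →+* ℤ := (MvPolynomial.aeval (eisensteinSystem p)).toRingHom

omit [Fact p.Prime] in
theorem chi_apply (t : HeckeAlg) : chi p t = MvPolynomial.aeval (eisensteinSystem p) t := rfl

omit [Fact p.Prime] in
theorem chi_X_of_not_dvd (ℓ : Nat.Primes) (h : ¬ (ℓ : ℕ) ∣ p) :
    chi p (MvPolynomial.X ℓ) = 1 + (ℓ : ℕ) := by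
  rw [chi_apply, MvPolynomial.aeval_X, eisensteinSystem_of_not_dvd h]

omit [Fact p.Prime] in
theorem chi_X_of_dvd (ℓ : Nat.Primes) (h : (ℓ : ℕ) ∣ p) :
    chi p (MvPolynomial.X ℓ) = 1 := by
  rw [chi_apply, MvPolynomial.aeval_X, eisensteinSystem_of_dvd h]

omit [Fact p.Prime] in
theorem chi_C (a : ℤ) : chi p (MvPolynomial.C a) = a := by
  rw [chi_apply, MvPolynomial.aeval_C]
  rfl

/-- The polynomial `t_k` with `a₁(t_k f) = a_k(f)`; its Eisenstein eigenvalue is `σ'(k)`. -/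
theorem exists_coeffPoly' (k : ℕ) (hk : 1 ≤ k) :
    ∃ t : HeckeAlg, chi p t = (sigmaAway p k : ℤ) ∧
      ∀ f : CuspForm (Gamma0 p) 2, qCoeff (act p t f) 1 = qCoeff f k := by
  have hp : p.Prime := Fact.out
  induction k using Nat.strong_induction_on with
  | _ k ih =>
    rcases Nat.eq_or_lt_of_le hk with h1 | h1
    · subst h1
      refine ⟨1, ?_, fun f => ?_⟩
      · rw [map_one, sigmaAway_one p hp.one_lt]
        rfl
      · rw [act_one]
    · -- `k = ℓ * k'` with `ℓ` prime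
      have hk1 : k ≠ 1 := by omega
      set ℓ := k.minFac with hℓdef
      have hℓ : ℓ.Prime := Nat.minFac_prime hk1
      obtain ⟨k', hk'⟩ : ℓ ∣ k := Nat.minFac_dvd k
      have hk'pos : 1 ≤ k' := by
        rcases Nat.eq_zero_or_pos k' with h | h
        · rw [h, mul_zero] at hk'
          omega
        · exact h
      have hk'lt : k' < k := by
        rw [hk']
        exact lt_mul_of_one_lt_left hk'pos hℓ.one_lt
      obtain ⟨t1, ht1, ht1'⟩ := ih k' hk'lt hk'pos
      by_cases hℓp : ℓ ∣ p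
      · -- `ℓ = p`
        have hℓeq : ℓ = p := (Nat.prime_dvd_prime_iff_eq hℓ hp).mp hℓp
        refine ⟨t1 * MvPolynomial.X ⟨ℓ, hℓ⟩, ?_, fun f => ?_⟩
        · rw [map_mul, ht1, chi_X_of_dvd p ⟨ℓ, hℓ⟩ hℓp, mul_one, hk', hℓeq,
            sigmaAway_self_mul p hp k' (by omega)]
        · rw [act_mul, ht1', act_X_of_dvd p ⟨ℓ, hℓ⟩ hℓp, qCoeff_heckeULin _ hℓ hℓp, hk']
      · have hne : ℓ ≠ p := fun h => hℓp (h ▸ dvd_rfl)
        have hrec := sigmaAway_mul_prime p ℓ hp hℓ hne k' (by omega)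
        by_cases hdiv : ℓ ∣ k'
        · have hk2pos : 1 ≤ k' / ℓ := Nat.div_pos (Nat.le_of_dvd hk'pos hdiv) hℓ.pos
          have hk2lt : k' / ℓ < k := lt_of_le_of_lt (Nat.div_le_self _ _) hk'lt
          obtain ⟨t2, ht2, ht2'⟩ := ih (k' / ℓ) hk2lt hk2pos
          refine ⟨t1 * MvPolynomial.X ⟨ℓ, hℓ⟩ - MvPolynomial.C (ℓ : ℤ) * t2, ?_, fun f => ?_⟩
          · rw [map_sub, map_mul, map_mul, ht1, ht2, chi_X_of_not_dvd p ⟨ℓ, hℓ⟩ hℓp, chi_C, hk']
            rw [if_pos hdiv] at hrec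
            have hrec' : (sigmaAway p (ℓ * k') : ℤ) + ℓ * sigmaAway p (k' / ℓ) =
                (1 + ℓ) * sigmaAway p k' := by exact_mod_cast hrec
            linarith
          · rw [act_sub, qCoeff_sub, act_mul, act_mul, ht1', act_C, qCoeff_zsmul, ht2',
              act_X_of_ne p ⟨ℓ, hℓ⟩ hℓp, qCoeff_heckeTLin _ hℓ hℓp, if_pos hdiv, hk']
            push_cast
            ring
        · refine ⟨t1 * MvPolynomial.X ⟨ℓ, hℓ⟩, ?_, fun f => ?_⟩
          · rw [map_mul, ht1, chi_X_of_not_dvd p ⟨ℓ, hℓ⟩ hℓp, hk']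
            rw [if_neg hdiv] at hrec
            have hrec' : (sigmaAway p (ℓ * k') : ℤ) = (1 + ℓ) * sigmaAway p k' := by
              have := hrec
              simp only [mul_zero, add_zero] at this
              exact_mod_cast this
            rw [hrec']
            push_cast
            ring
          · rw [act_mul, ht1', act_X_of_ne p ⟨ℓ, hℓ⟩ hℓp, qCoeff_heckeTLin _ hℓ hℓp,
              if_neg hdiv, hk']
            ring

end Act

/-! ## The pairing `𝕋 × L → ℤ` -/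

section Pairing

variable (p : ℕ) [Fact p.Prime]

/-- The `n`-th `q`-coefficient as a `ℤ`-linear functional on the integral lattice. -/
def coeffZ (N n : ℕ) : ↥(intLattice N 2) →ₗ[ℤ] ℤ where
  toFun f := Classical.choose ((mem_intLattice_iff f.1).mp f.2 n)
  map_add' f g := by
    apply Int.cast_injective (α := ℂ)
    rw [Int.cast_add, ← Classical.choose_spec ((mem_intLattice_iff (f + g).1).mp (f + g).2 n),
      ← Classical.choose_spec ((mem_intLattice_iff f.1).mp f.2 n),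
      ← Classical.choose_spec ((mem_intLattice_iff g.1).mp g.2 n)]
    exact qCoeff_add f.1 g.1 n
  map_smul' c f := by
    apply Int.cast_injective (α := ℂ)
    rw [RingHom.id_apply, smul_eq_mul, Int.cast_mul,
      ← Classical.choose_spec ((mem_intLattice_iff (c • f).1).mp (c • f).2 n),
      ← Classical.choose_spec ((mem_intLattice_iff f.1).mp f.2 n)]
    exact qCoeff_zsmul c f.1 n

theorem coeffZ_spec (N n : ℕ) (f : ↥(intLattice N 2)) :
    ((coeffZ N n f : ℤ) : ℂ) = qCoeff (f : CuspForm (Gamma0 N) 2) n :=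
  (Classical.choose_spec ((mem_intLattice_iff f.1).mp f.2 n)).symm

/-- The map `HeckeAlg → 𝕋` of the frozen statement. -/
def evL : HeckeAlg →+* ↥(heckeLatticeAlgebra p ∅) :=
  (latticeRestrictHom p ∅).toRingHom.comp (heckeEvalForms p 2)

theorem evL_apply (t : HeckeAlg) (f : ↥(intLattice p 2)) :
    (((evL p t : ↥(heckeLatticeAlgebra p ∅)) : Module.End ℤ ↥(intLattice p 2)) f :
      CuspForm (Gamma0 p) 2) = act p t (f : CuspForm (Gamma0 p) 2) := rfl

/-- `a_k(f) = a₁(t_k f)` on the lattice. -/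
theorem exists_coeffPoly_lattice (k : ℕ) (hk : 1 ≤ k) :
    ∃ t : HeckeAlg, chi p t = (sigmaAway p k : ℤ) ∧
      ∀ f : ↥(intLattice p 2),
        coeffZ p 1 ((evL p t : Module.End ℤ ↥(intLattice p 2)) f) = coeffZ p k f := by
  obtain ⟨t, ht, ht'⟩ := exists_coeffPoly' p k hk
  refine ⟨t, ht, fun f => ?_⟩
  apply Int.cast_injective (α := ℂ)
  rw [coeffZ_spec, coeffZ_spec, evL_apply, ht']

/-- The pairing `(f, t) ↦ a₁(t f)`. -/
def pairL : ↥(intLattice p 2) →ₗ[ℤ] (↥(heckeLatticeAlgebra p ∅) →ₗ[ℤ] ℤ) :=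
  LinearMap.mk₂ ℤ
    (fun f t => coeffZ p 1 ((t : Module.End ℤ ↥(intLattice p 2)) f))
    (fun f g t => by rw [map_add, map_add])
    (fun c f t => by rw [map_smul, map_smul])
    (fun f s t => by
      show coeffZ p 1 (((s + t : ↥(heckeLatticeAlgebra p ∅)) : Module.End ℤ ↥(intLattice p 2)) f) = _
      rw [Subalgebra.coe_add, LinearMap.add_apply, map_add])
    (fun c f t => by
      show coeffZ p 1 (((c • t : ↥(heckeLatticeAlgebra p ∅)) : Module.End ℤ ↥(intLattice p 2)) f) = _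
      rw [Subalgebra.coe_smul, LinearMap.smul_apply, map_smul])

theorem pairL_apply (f : ↥(intLattice p 2)) (t : ↥(heckeLatticeAlgebra p ∅)) :
    pairL p f t = coeffZ p 1 ((t : Module.End ℤ ↥(intLattice p 2)) f) := rfl

omit [Fact p.Prime] in
theorem eq_zero_of_coeffZ (f : ↥(intLattice p 2)) (h : ∀ k, 1 ≤ k → coeffZ p k f = 0) :
    f = 0 := by
  apply Subtype.ext
  apply eq_zero_of_qCoeff_eq_zero
  intro n
  rcases Nat.eq_zero_or_pos n with h0 | h0
  · rw [h0]
    exact Fermat.Agent.Lib.EigenNormalize.qCoeff_zero _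
  · rw [← coeffZ_spec, h n h0, Int.cast_zero]

theorem pairL_injective : Function.Injective (pairL p) := by
  rw [injective_iff_map_eq_zero]
  intro f hf
  apply eq_zero_of_coeffZ
  intro k hk
  obtain ⟨t, -, ht⟩ := exists_coeffPoly_lattice p k hk
  rw [← ht f, ← pairL_apply, hf, LinearMap.zero_apply]

theorem pairL_flip_injective : Function.Injective (pairL p).flip := by
  rw [injective_iff_map_eq_zero]
  intro t ht
  have key : ∀ f : ↥(intLattice p 2), (t : Module.End ℤ ↥(intLattice p 2)) f = 0 := by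
    intro f
    apply pairL_injective p
    rw [map_zero]
    ext t'
    rw [LinearMap.zero_apply, pairL_apply]
    have h1 : (t' : Module.End ℤ ↥(intLattice p 2)) ((t : Module.End ℤ ↥(intLattice p 2)) f) =
        (t : Module.End ℤ ↥(intLattice p 2)) ((t' : Module.End ℤ ↥(intLattice p 2)) f) := by
      have hc : t' * t = t * t' := mul_comm t' t
      have hc' := congrArg (fun s : ↥(heckeLatticeAlgebra p ∅) =>
        (s : Module.End ℤ ↥(intLattice p 2)) f) hc
      simpa using hc'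
    rw [h1, ← pairL_apply]
    have := LinearMap.congr_fun ht ((t' : Module.End ℤ ↥(intLattice p 2)) f)
    simpa using this
  apply Subtype.ext
  ext f
  rw [key f]
  rfl

theorem finrank_lattice_eq :
    Module.finrank ℤ ↥(intLattice p 2) = Module.finrank ℤ ↥(heckeLatticeAlgebra p ∅) := by
  have := intLattice.moduleFinite p
  have := intLattice.moduleFree p
  apply le_antisymm
  · have h := LinearMap.finrank_le_finrank_of_injective (pairL_injective p)
    rwa [Module.finrank_linearMap_self] at h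
  · have h := LinearMap.finrank_le_finrank_of_injective (pairL_flip_injective p)
    rwa [Module.finrank_linearMap_self] at h

/-- The range of the pairing map has finite index. -/
theorem exists_nsmul_mem_range (ψ : ↥(heckeLatticeAlgebra p ∅) →ₗ[ℤ] ℤ) :
    ∃ M : ℕ, 0 < M ∧ ∃ f : ↥(intLattice p 2), pairL p f = M • ψ := by
  have := intLattice.moduleFinite p
  have := intLattice.moduleFree p
  have hrank : Module.finrank ℤ (LinearMap.range (pairL p)) =
      Module.finrank ℤ (↥(heckeLatticeAlgebra p ∅) →ₗ[ℤ] ℤ) := by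
    rw [LinearMap.finrank_range_of_inj (pairL_injective p), Module.finrank_linearMap_self,
      finrank_lattice_eq]
  have hfin : Finite ((↥(heckeLatticeAlgebra p ∅) →ₗ[ℤ] ℤ) ⧸ LinearMap.range (pairL p)) :=
    Submodule.finiteQuotientOfFreeOfRankEq _ hrank
  have hfi : (LinearMap.range (pairL p)).toAddSubgroup.FiniteIndex :=
    @AddSubgroup.finiteIndex_of_finite_quotient _ _ _ hfin
  refine ⟨(LinearMap.range (pairL p)).toAddSubgroup.index,
    Nat.pos_of_ne_zero hfi.index_ne_zero, ?_⟩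
  obtain ⟨f, hf⟩ := AddSubgroup.nsmul_index_mem (LinearMap.range (pairL p)).toAddSubgroup ψ
  exact ⟨f, hf⟩

theorem coeff_dvd_of_pair (ψ : ↥(heckeLatticeAlgebra p ∅) →ₗ[ℤ] ℤ) (M : ℕ)
    (f : ↥(intLattice p 2)) (hf : pairL p f = M • ψ) (n : ℕ) :
    ∃ m : ℤ, qCoeff (f : CuspForm (Gamma0 p) 2) n = ((M : ℤ) : ℂ) * m := by
  rcases Nat.eq_zero_or_pos n with h0 | h0
  · refine ⟨0, ?_⟩
    rw [h0, Int.cast_zero, mul_zero]
    exact Fermat.Agent.Lib.EigenNormalize.qCoeff_zero _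
  · obtain ⟨t, -, ht⟩ := exists_coeffPoly_lattice p n h0
    refine ⟨ψ (evL p t), ?_⟩
    have h1 : coeffZ p n f = pairL p f (evL p t) := (ht f).symm
    have h2 : pairL p f (evL p t) = (M : ℤ) * ψ (evL p t) := by
      rw [hf, LinearMap.smul_apply, nsmul_eq_mul]
    rw [← coeffZ_spec, h1, h2, Int.cast_mul]

/-- Saturation: the lattice is saturated for the pairing. -/
theorem exists_of_nsmul (ψ : ↥(heckeLatticeAlgebra p ∅) →ₗ[ℤ] ℤ) (M : ℕ) (hM : 0 < M)
    (f : ↥(intLattice p 2)) (hf : pairL p f = M • ψ) :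
    ∃ g : ↥(intLattice p 2), pairL p g = ψ := by
  have hM0 : (M : ℤ) ≠ 0 := by exact_mod_cast hM.ne'
  obtain ⟨g, hg, hfg⟩ := exists_zsmul_of_dvd_qCoeff (N := p) (p := (M : ℤ)) hM0
    (f : CuspForm (Gamma0 p) 2) (coeff_dvd_of_pair p ψ M f hf)
  refine ⟨⟨g, hg⟩, ?_⟩
  have hfg' : f = (M : ℤ) • (⟨g, hg⟩ : ↥(intLattice p 2)) := Subtype.ext hfg
  ext t
  have h3 : pairL p f t = (M : ℤ) * pairL p ⟨g, hg⟩ t := by
    have h5 := (pairL p).map_smul (M : ℤ) (⟨g, hg⟩ : ↥(intLattice p 2))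
    rw [hfg', h5]
    rfl
  have h4 : pairL p f t = (M : ℤ) * ψ t := by
    rw [hf, LinearMap.smul_apply, nsmul_eq_mul]
  exact mul_left_cancel₀ hM0 (h3.symm.trans h4)

/-- DUALITY: the pairing map `L → Hom(𝕋, ℤ)` is surjective. -/
theorem pairL_surjective : Function.Surjective (pairL p) := by
  intro ψ
  obtain ⟨M, hM, f, hf⟩ := exists_nsmul_mem_range p ψ
  exact exists_of_nsmul p ψ M hM f hf

end Pairing

/-! ## Exports (shapes of `S16/Plan.lean`, with `chiE`, `sigmaP` unfolded) -/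

section Exports

variable (p : ℕ) [Fact p.Prime]

/-- The polynomial `t_k` with `a₁(t_k f) = a_k(f)`; its Eisenstein eigenvalue is `σ'(k)`. -/
theorem exists_coeffPoly (k : ℕ) (hk : 1 ≤ k) :
    ∃ t : HeckeAlg,
      (MvPolynomial.aeval (eisensteinSystem p)).toRingHom t =
          ((∑ d ∈ k.divisors with ¬ p ∣ d, d : ℕ) : ℤ) ∧
        ∀ f : CuspForm (Gamma0 p) 2,
          qCoeff ((heckeEvalForms p 2 t : heckeAlgebra p 2 ∅).1 f) 1 = qCoeff f k :=
  exists_coeffPoly' p k hk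

/-- DUALITY: every `ℤ`-linear functional on `𝕋` is `t ↦ a₁(t f)` for an integral cusp form `f`
(`𝕋 × L → ℤ` is perfect: both injections + saturation of `L`). -/
theorem exists_form_of_functional (ψ : ↥(heckeLatticeAlgebra p ∅) →ₗ[ℤ] ℤ) :
    ∃ f : ↥(intLattice p 2), ∀ t : ↥(heckeLatticeAlgebra p ∅),
      qCoeff (((t : Module.End ℤ ↥(intLattice p 2)) f : ↥(intLattice p 2)) :
        CuspForm (Gamma0 p) 2) 1 = ((ψ t : ℤ) : ℂ) := by
  obtain ⟨f, hf⟩ := pairL_surjective p ψ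
  refine ⟨f, fun t => ?_⟩
  rw [← coeffZ_spec, ← pairL_apply, hf]

/-- Coefficient form of the duality: for a functional `ψ` on `𝕋` the form `f` satisfies
`a_k(f) = ψ(ev t_k)` for the coefficient polynomials. -/
theorem qCoeff_eq_of_functional (ψ : ↥(heckeLatticeAlgebra p ∅) →ₗ[ℤ] ℤ)
    (f : ↥(intLattice p 2))
    (hf : ∀ t : ↥(heckeLatticeAlgebra p ∅),
      qCoeff (((t : Module.End ℤ ↥(intLattice p 2)) f : ↥(intLattice p 2)) :
        CuspForm (Gamma0 p) 2) 1 = ((ψ t : ℤ) : ℂ))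
    (t : HeckeAlg) (k : ℕ)
    (ht : ∀ g : CuspForm (Gamma0 p) 2,
      qCoeff ((heckeEvalForms p 2 t : heckeAlgebra p 2 ∅).1 g) 1 = qCoeff g k) :
    qCoeff (f : CuspForm (Gamma0 p) 2) k = ((ψ (evL p t) : ℤ) : ℂ) := by
  rw [← hf (evL p t), evL_apply]
  exact (ht _).symm

end Exports

end Fermat.Agent.S16.Duality
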