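import Fermat.Agent.S16.Plan
import Fermat.Agent.S16.Duality

/-!
# S16, package U13 `Duality` in contract form (helper83)

`duality : DualityStmt p` (the contract of `S16/Plan.lean`), from `S16/Duality.lean`.
-/

set_option autoImplicit false

namespace Fermat.Agent.S16

open ModularCurve CuspForm CongruenceSubgroup ModularFormClass

/-- Contract U13, hypothesis-free. -/
theorem duality' (p : ℕ) [Fact p.Prime] : DualityStmt p :=
  fun ψ => Duality.exists_form_of_functional p ψ

/-- Contract U13 with the roster signature (the hypothesis is not needed). -/
theorem duality (p : ℕ) [Fact p.Prime] (_hC : CoeffPolyStmt p) : DualityStmt p :=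
  duality' p

/-- Contract U12 again, from `S16/Duality.lean` (independent second proof of `coeffPoly`). -/
theorem coeffPoly' (p : ℕ) [Fact p.Prime] : CoeffPolyStmt p :=
  fun k hk => Duality.exists_coeffPoly p k hk

end Fermat.Agent.S16
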