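import Fermat.Agent.S16.Plan

/-!
# S16, package U4: the trace–Sturm lemma (TS)

`traceSturm : PairAPI p → SturmLow → TraceSturmStmt p`.

If `F ∈ M_k(Γ₀(p))` has `F ≡ A₀(q)` and `F♭ ≡ A₀(q^p)` mod `ℓ` (`ℓ ≠ p` prime, `A₀ ∈ ℤ_(ℓ)[[q]]`)
and the coefficients `a_n(A₀)`, `12 n ≤ k`, vanish mod `ℓ`, then `A₀ ≡ 0 mod ℓ`.

Proof: `N = ℓ^w`, `w = v_ℓ(p+1)`, `p + 1 = N u`.  `Tr(F^N) = F^N + p U_p((F♭)^N)` is a level-one
form of weight `k N`, congruent to `(1+p) A₀^N` modulo `ℓ^(w+1)`; its coefficients of index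
`m` with `12 m ≤ k N` lie in `ℓ^(w+1) ℤ_(ℓ)`, hence all of them do (level-one Sturm), hence
`u A₀^N ≡ 0 mod ℓ`, hence `A₀ ≡ 0 mod ℓ` (`𝔽_ℓ[[q]]` is a domain).
-/

set_option autoImplicit false

noncomputable section

namespace Fermat.Agent.S16

open ModularCurve CuspForm UpperHalfPlane CongruenceSubgroup ModularFormClass
open scoped MatrixGroups ModularForm

namespace TraceSturm

/-! ### The subring `ℤ_(ℓ)` of `ℂ` -/

theorem isLInt_zero (ℓ : ℕ) (hℓ : ℓ.Prime) : IsLInt ℓ 0 :=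
  ⟨0, 1, hℓ.not_dvd_one, by simp⟩

theorem isLInt_one (ℓ : ℕ) (hℓ : ℓ.Prime) : IsLInt ℓ 1 :=
  ⟨1, 1, hℓ.not_dvd_one, by simp⟩

theorem isLInt_add {ℓ : ℕ} (hℓ : ℓ.Prime) {x y : ℂ} (hx : IsLInt ℓ x) (hy : IsLInt ℓ y) :
    IsLInt ℓ (x + y) := by
  obtain ⟨a, d, hd, hx⟩ := hx
  obtain ⟨b, e, he, hy⟩ := hy
  refine ⟨a * e + b * d, d * e, ?_, ?_⟩
  · exact fun h => (hℓ.dvd_mul.mp h).elim hd he
  · push_cast
    rw [← hx, ← hy]; ring

theorem isLInt_neg {ℓ : ℕ} {x : ℂ} (hx : IsLInt ℓ x) : IsLInt ℓ (-x) := by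
  obtain ⟨a, d, hd, hx⟩ := hx
  exact ⟨-a, d, hd, by push_cast; rw [← hx]; ring⟩

theorem isLInt_mul {ℓ : ℕ} (hℓ : ℓ.Prime) {x y : ℂ} (hx : IsLInt ℓ x) (hy : IsLInt ℓ y) :
    IsLInt ℓ (x * y) := by
  obtain ⟨a, d, hd, hx⟩ := hx
  obtain ⟨b, e, he, hy⟩ := hy
  refine ⟨a * b, d * e, ?_, ?_⟩
  · exact fun h => (hℓ.dvd_mul.mp h).elim hd he
  · push_cast
    rw [← hx, ← hy]; ring

/-- `ℤ_(ℓ)` as a subring of `ℂ`. -/
def Zl (ℓ : ℕ) (hℓ : ℓ.Prime) : Subring ℂ where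
  carrier := {x | IsLInt ℓ x}
  mul_mem' := fun hx hy => isLInt_mul hℓ hx hy
  one_mem' := isLInt_one ℓ hℓ
  add_mem' := fun hx hy => isLInt_add hℓ hx hy
  zero_mem' := isLInt_zero ℓ hℓ
  neg_mem' := fun hx => isLInt_neg hx

theorem mem_Zl {ℓ : ℕ} (hℓ : ℓ.Prime) (x : ℂ) : x ∈ Zl ℓ hℓ ↔ IsLInt ℓ x := Iff.rfl

/-- The ideal `ℓ ℤ_(ℓ)`. -/
def Il (ℓ : ℕ) (hℓ : ℓ.Prime) : Ideal (Zl ℓ hℓ) := Ideal.span {((ℓ : ℕ) : Zl ℓ hℓ)}

theorem mem_Il_iff {ℓ : ℕ} (hℓ : ℓ.Prime) (r : Zl ℓ hℓ) :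
    r ∈ Il ℓ hℓ ↔ IsLDiv ℓ 1 (r : ℂ) := by
  rw [Il, Ideal.mem_span_singleton]
  constructor
  · rintro ⟨s, rfl⟩
    exact ⟨(s : ℂ), s.2, by push_cast; ring⟩
  · rintro ⟨t, ht, h⟩
    refine ⟨⟨t, ht⟩, Subtype.ext ?_⟩
    push_cast
    rw [h]; ring

/-- If `x ∈ ℓ ℤ_(ℓ)` and `d x = a`, then `ℓ ∣ a`. -/
theorem num_dvd_of_mem {ℓ : ℕ} (hℓ : ℓ.Prime) {x : ℂ} (hx : IsLDiv ℓ 1 x) {a : ℤ} {d : ℕ}
    (h : (d : ℂ) * x = (a : ℂ)) : (ℓ : ℤ) ∣ a := by
  obtain ⟨t, ⟨b, e, he, ht⟩, rfl⟩ := hx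
  have h1 : ((a * e : ℤ) : ℂ) = ((ℓ * b * d : ℤ) : ℂ) := by
    push_cast
    rw [← h, ← ht]; ring
  have h2 : a * e = ℓ * b * d := by exact_mod_cast h1
  have h3 : (ℓ : ℤ) ∣ a * e := ⟨b * d, by rw [h2]; ring⟩
  have hℓ' : Prime (ℓ : ℤ) := Nat.prime_iff_prime_int.mp hℓ
  rcases hℓ'.dvd_or_dvd h3 with h4 | h4
  · exact h4
  · exact absurd (Int.natCast_dvd_natCast.mp h4) he

/-- If `d x = a` with `ℓ ∤ d` and `ℓ ∣ a`, then `x ∈ ℓ ℤ_(ℓ)`. -/
theorem mem_of_num_dvd {ℓ : ℕ} {x : ℂ} {a : ℤ} {d : ℕ}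
    (hd : ¬ ℓ ∣ d) (h : (d : ℂ) * x = (a : ℂ)) (ha : (ℓ : ℤ) ∣ a) : IsLDiv ℓ 1 x := by
  obtain ⟨a1, rfl⟩ := ha
  have hd0 : (d : ℂ) ≠ 0 := by
    intro h0
    have h00 : d = 0 := by exact_mod_cast h0
    exact hd (h00 ▸ dvd_zero ℓ)
  refine ⟨(a1 : ℂ) / d, ⟨a1, d, hd, by field_simp⟩, ?_⟩
  have : x = ((ℓ * a1 : ℤ) : ℂ) / d := by
    rw [← h]; field_simp
  rw [this]; push_cast; ring

theorem Il_isPrime (ℓ : ℕ) (hℓ : ℓ.Prime) : (Il ℓ hℓ).IsPrime := by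
  rw [Ideal.isPrime_iff]
  constructor
  · intro htop
    have h1 : (1 : Zl ℓ hℓ) ∈ Il ℓ hℓ := by rw [htop]; trivial
    have h2 := (mem_Il_iff hℓ 1).mp h1
    have h3 : (ℓ : ℤ) ∣ 1 := num_dvd_of_mem hℓ h2 (d := 1) (by simp)
    have h4 : ℓ ∣ 1 := by exact_mod_cast h3
    exact hℓ.not_dvd_one h4
  · intro x y hxy
    obtain ⟨a, d, hd, hx⟩ := x.2
    obtain ⟨b, e, he, hy⟩ := y.2
    have h2 := (mem_Il_iff hℓ (x * y)).mp hxy
    have h3 : (ℓ : ℤ) ∣ a * b := by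
      refine num_dvd_of_mem hℓ h2 (d := d * e) ?_
      push_cast
      rw [← hx, ← hy]; ring
    have hℓ' : Prime (ℓ : ℤ) := Nat.prime_iff_prime_int.mp hℓ
    rcases hℓ'.dvd_or_dvd h3 with h4 | h4
    · exact Or.inl ((mem_Il_iff hℓ x).mpr (mem_of_num_dvd hd hx h4))
    · exact Or.inr ((mem_Il_iff hℓ y).mpr (mem_of_num_dvd he hy h4))

/-! ### Power series over `ℤ_(ℓ)` -/

theorem psV_eq_expand (p : ℕ) (hp : p ≠ 0) (A : PowerSeries ℂ) :
    psV p A = PowerSeries.expand p hp A := by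
  ext n
  rw [psV, PowerSeries.coeff_mk, PowerSeries.coeff_expand]

theorem coeff_natCast_pow_mul {R : Type*} [CommRing R] (n j m : ℕ) (c : PowerSeries R) :
    PowerSeries.coeff m ((n : PowerSeries R) ^ j * c) = (n : R) ^ j * PowerSeries.coeff m c := by
  rw [← map_natCast (PowerSeries.C (R := R)) n, ← map_pow, PowerSeries.coeff_C_mul]

theorem coeff_natCast_mul {R : Type*} [CommRing R] (n m : ℕ) (c : PowerSeries R) :
    PowerSeries.coeff m ((n : PowerSeries R) * c) = (n : R) * PowerSeries.coeff m c := by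
  rw [← map_natCast (PowerSeries.C (R := R)) n, PowerSeries.coeff_C_mul]

/-- Powers of a pair. -/
theorem isPair_pow {p : ℕ} [NeZero p] (hT : PairAPI p) {k : ℤ} {A B : PowerSeries ℂ}
    (h : IsPair p k A B) : ∀ n : ℕ, 1 ≤ n → IsPair p ((n : ℤ) * k) (A ^ n) (B ^ n) := by
  intro n hn
  induction n, hn using Nat.le_induction with
  | base => simpa using h
  | succ n hn ih =>
    have h1 := hT.mul ih h
    have e : ((n : ℤ) * k + k) = ((n + 1 : ℕ) : ℤ) * k := by push_cast; ring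
    rw [e] at h1
    simpa [pow_succ] using h1

end TraceSturm

open TraceSturm in
/-- **U4** (TS): the trace–Sturm lemma. -/
theorem traceSturm (p : ℕ) [Fact p.Prime] (hT : PairAPI p) (hSt : SturmLow) :
    TraceSturmStmt p := by
  intro ℓ hℓ hℓp k A B A₀ hpair hA₀ hA hB hlow
  have hp : p ≠ 0 := (Fact.out : p.Prime).ne_zero
  -- the ring `R = ℤ_(ℓ)`, its prime ideal `I = ℓ R`
  let R : Subring ℂ := Zl ℓ hℓ
  let I : Ideal R := Il ℓ hℓ
  have hI : I.IsPrime := Il_isPrime ℓ hℓ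
  let ι : PowerSeries R →+* PowerSeries ℂ := PowerSeries.map R.subtype
  let ρ : PowerSeries R →+* PowerSeries (R ⧸ I) := PowerSeries.map (Ideal.Quotient.mk I)
  -- lifts of `A₀`, `A`, `B`
  choose tA htA1 htA2 using hA
  choose tB htB1 htB2 using hB
  let a₀ : PowerSeries R := PowerSeries.mk fun n => ⟨PowerSeries.coeff n A₀, hA₀ n⟩
  let eA : PowerSeries R := PowerSeries.mk fun n => ⟨tA n, htA1 n⟩
  let eB : PowerSeries R := PowerSeries.mk fun n => ⟨tB n, htB1 n⟩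
  let a : PowerSeries R := a₀ + (ℓ : PowerSeries R) * eA
  let b : PowerSeries R := PowerSeries.expand p hp a₀ + (ℓ : PowerSeries R) * eB
  have hιa : ι a = A := by
    ext n
    have h := htA2 n
    simp only [ι, a, a₀, eA, PowerSeries.coeff_map, map_add, coeff_natCast_mul,
      PowerSeries.coeff_mk, Subring.coe_subtype, Subring.coe_mul,
      Subring.coe_natCast]
    rw [pow_one] at h
    rw [← h]; ring
  have hιb : ι b = B := by
    ext n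
    have h := htB2 n
    rw [psV, PowerSeries.coeff_mk, pow_one] at h
    simp only [ι, b, a₀, eB, PowerSeries.coeff_map, map_add, coeff_natCast_mul,
      PowerSeries.coeff_mk, Subring.coe_subtype, Subring.coe_mul,
      Subring.coe_natCast, PowerSeries.coeff_expand]
    by_cases hpn : p ∣ n
    · rw [if_pos hpn] at h ⊢
      change PowerSeries.coeff (n / p) A₀ + (ℓ : ℂ) * tB n = PowerSeries.coeff n B
      rw [← h]; ring
    · rw [if_neg hpn] at h ⊢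
      change (0 : ℂ) + (ℓ : ℂ) * tB n = PowerSeries.coeff n B
      rw [← h]; ring
  -- `p + 1 = ℓ^w u`
  obtain ⟨w, u, hu, hpw⟩ := Nat.exists_eq_pow_mul_and_not_dvd (n := p + 1) (by omega) ℓ hℓ.ne_one
  set N : ℕ := ℓ ^ w with hN
  have hNpos : 0 < N := pow_pos hℓ.pos w
  -- Frobenius-type congruences
  obtain ⟨c1, hc1⟩ : ((ℓ : PowerSeries R)) ^ (w + 1) ∣ a ^ ℓ ^ w - a₀ ^ ℓ ^ w :=
    dvd_sub_pow_of_dvd_sub ⟨eA, by simp only [a]; ring⟩ w
  obtain ⟨c2, hc2⟩ : ((ℓ : PowerSeries R)) ^ (w + 1) ∣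
      b ^ ℓ ^ w - (PowerSeries.expand p hp a₀) ^ ℓ ^ w :=
    dvd_sub_pow_of_dvd_sub ⟨eB, by simp only [b]; ring⟩ w
  -- the trace
  obtain ⟨X, hX⟩ := hT.trace (isPair_pow hT hpair N hNpos)
  have hcoef : ∀ m : ℕ, PowerSeries.coeff m (qExpansion 1 X) =
      (((((p + 1 : ℕ) : R) * PowerSeries.coeff m (a₀ ^ N) + (ℓ : R) ^ (w + 1) *
        (PowerSeries.coeff m c1 + (p : R) * PowerSeries.coeff (p * m) c2) : R)) : ℂ) := by
    intro m
    have hAN : A ^ N = ι (a ^ N) := by rw [map_pow, hιa]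
    have hBN : B ^ N = ι (b ^ N) := by rw [map_pow, hιb]
    have ha : a ^ N = a₀ ^ N + (ℓ : PowerSeries R) ^ (w + 1) * c1 := by
      rw [← hc1]; ring
    have hb : b ^ N = PowerSeries.expand p hp (a₀ ^ N) + (ℓ : PowerSeries R) ^ (w + 1) * c2 := by
      rw [map_pow, ← hc2]; ring
    rw [hX, hAN, hBN, ha, hb]
    simp only [ι, psU, map_add, PowerSeries.coeff_map, PowerSeries.coeff_smul,
      PowerSeries.coeff_mk, coeff_natCast_pow_mul, PowerSeries.coeff_expand_mul,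
      Subring.coe_subtype, Subring.coe_add, Subring.coe_mul, Subring.coe_pow,
      Subring.coe_natCast, smul_eq_mul]
    push_cast
    ring
  -- low coefficients of `a₀ ^ N` vanish mod `ℓ`
  have hlowα : ∀ m : ℕ, m < (k / 12 + 1) * N → PowerSeries.coeff m (a₀ ^ N) ∈ I := by
    intro m hm
    have h1 : (PowerSeries.X : PowerSeries (R ⧸ I)) ^ (k / 12 + 1) ∣ ρ a₀ := by
      rw [PowerSeries.X_pow_dvd_iff]
      intro n hn
      rw [PowerSeries.coeff_map, Ideal.Quotient.eq_zero_iff_mem]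
      refine (mem_Il_iff hℓ _).mpr ?_
      have h12 : 12 * n ≤ k := by have := Nat.mul_div_le k 12; omega
      simpa [a₀] using hlow n h12
    have h2 : (PowerSeries.X : PowerSeries (R ⧸ I)) ^ ((k / 12 + 1) * N) ∣ ρ (a₀ ^ N) := by
      rw [map_pow, pow_mul]; exact pow_dvd_pow_of_dvd h1 N
    have h3 := (PowerSeries.X_pow_dvd_iff.mp h2) m hm
    rwa [PowerSeries.coeff_map, Ideal.Quotient.eq_zero_iff_mem] at h3
  -- the additive group `ℓ^(w+1) ℤ_(ℓ)`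
  let M : AddSubgroup ℂ := R.toAddSubgroup.map (AddMonoidHom.mulLeft ((ℓ : ℂ) ^ (w + 1)))
  have hpR : ((p + 1 : ℕ) : R) = (ℓ : R) ^ w * (u : R) := by
    rw [hpw, hN]; push_cast; ring
  have hall : ∀ m : ℕ, PowerSeries.coeff m (qExpansion 1 X) ∈ M := by
    refine hSt M _ X ?_
    intro m hm
    have hm' : 12 * m ≤ N * k := by exact_mod_cast hm
    have hk : k < 12 * (k / 12 + 1) := Nat.lt_mul_div_succ k (by norm_num)
    have hlt : m < (k / 12 + 1) * N := by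
      have h1 : N * k < N * (12 * (k / 12 + 1)) := Nat.mul_lt_mul_of_pos_left hk hNpos
      have h2 : N * (12 * (k / 12 + 1)) = 12 * ((k / 12 + 1) * N) := by ring
      omega
    obtain ⟨s, hs⟩ := Ideal.mem_span_singleton.mp (hlowα m hlt)
    refine ⟨(((u : R) * s + (PowerSeries.coeff m c1 + (p : R) * PowerSeries.coeff (p * m) c2) :
      R) : ℂ), Subtype.coe_prop _, ?_⟩
    rw [hcoef m, hs, hpR]
    simp only [AddMonoidHom.coe_mulLeft]
    push_cast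
    ring
  -- all coefficients of `a₀ ^ N` vanish mod `ℓ`
  have hℓR : (ℓ : R) ≠ 0 := by
    intro h0
    have : ((ℓ : R) : ℂ) = 0 := by rw [h0]; rfl
    rw [Subring.coe_natCast] at this
    exact hℓ.ne_zero (by exact_mod_cast this)
  have huI : (u : R) ∉ I := by
    intro h
    have h1 := (mem_Il_iff hℓ _).mp h
    have h2 : (ℓ : ℤ) ∣ (u : ℤ) :=
      num_dvd_of_mem hℓ h1 (d := 1) (by simp)
    exact hu (by exact_mod_cast h2)
  have hα : ∀ m : ℕ, PowerSeries.coeff m (a₀ ^ N) ∈ I := by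
    intro m
    obtain ⟨t, ht, hteq⟩ := hall m
    have hR : (ℓ : R) ^ w * ((u : R) * PowerSeries.coeff m (a₀ ^ N)) = (ℓ : R) ^ w * ((ℓ : R) *
        ((⟨t, ht⟩ : R) - (PowerSeries.coeff m c1 + (p : R) * PowerSeries.coeff (p * m) c2))) := by
      apply Subtype.ext
      have h1 := hcoef m
      rw [hpR] at h1
      simp only [AddMonoidHom.coe_mulLeft] at hteq
      rw [← hteq] at h1
      push_cast at h1 ⊢
      linear_combination -h1
    have h2 := mul_left_cancel₀ (pow_ne_zero w hℓR) hR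
    have h3 : (u : R) * PowerSeries.coeff m (a₀ ^ N) ∈ I := by
      rw [h2]; exact Ideal.mul_mem_right _ _ (Ideal.mem_span_singleton_self _)
    exact (hI.mem_or_mem h3).resolve_left huI
  -- conclusion: `ρ a₀ = 0`
  have hρ : ρ (a₀ ^ N) = 0 := by
    ext m
    rw [PowerSeries.coeff_map, Ideal.Quotient.eq_zero_iff_mem.mpr (hα m), map_zero]
  rw [map_pow] at hρ
  have hρ0 : ρ a₀ = 0 := by
    exact (pow_eq_zero_iff hNpos.ne').mp hρ
  intro n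
  have h1 : PowerSeries.coeff n (ρ a₀) = 0 := by rw [hρ0, map_zero]
  rw [PowerSeries.coeff_map, Ideal.Quotient.eq_zero_iff_mem] at h1
  have h2 := (mem_Il_iff hℓ _).mp h1
  simpa [a₀] using h2

end Fermat.Agent.S16
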