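import Mathlib
import Fermat.Agent.Lib.DeltaInt
import Fermat.Agent.Lib.LevelOneSturm

/-!
# S16, package (D): the case `ℓ = p` of CLAIM U, in hypothesis form

Let `A = ∑ cₙ qⁿ` be an integral power series with `p^a ∣ cₙ` for `n ≥ 1`, let `U` be the
operator `U_p` on power series and `B = -U A / p`.  Suppose that `A² + p U(B²)` and
`A³ + p U(B³)` are `q`-expansions of level one forms of weight `4` and `6` (this is what the
trace principle gives for `A` the `q`-expansion of a weight two form on `Γ₀(p)`).  Then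
`p ∣ c₀`, provided `p ≥ 5` and `a ≥ 1`, or `p = 3` and `a ≥ 2`, or `p = 2` and `a ≥ 4`.

Proof: with `H = U A`, the level one forms are `(1 + 1/p) c₀² E₄` and `(1 - 1/p²) c₀³ E₆`, so
`p A² + U(H²) = (p + 1) c₀² E₄` and `p² A³ - U(H³) = (p² - 1) c₀³ E₆`; compare the coefficients
of `q`: the left sides vanish mod `p^a`, the right sides are `240 (p + 1) c₀²` and
`-504 (p² - 1) c₀³`.
-/

set_option autoImplicit false

open UpperHalfPlane ModularForm ModularFormClass MatrixGroups EisensteinSeries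

namespace Fermat.Agent.S16.UAtPCore

open Fermat.Agent.Lib.DeltaInt

/-- A level one form of weight `< 12` is determined by its constant term. -/
theorem coeff_eq_of_lt_twelve {k : ℤ} (hk : k < 12) (X E : ModularForm 𝒮ℒ k)
    (hE : (qExpansion 1 E).coeff 0 = 1) (n : ℕ) :
    (qExpansion 1 X).coeff n = (qExpansion 1 X).coeff 0 * (qExpansion 1 E).coeff n := by
  set c : ℂ := (qExpansion 1 X).coeff 0 with hc
  have hq : qExpansion 1 ((X - c • E : ModularForm 𝒮ℒ k) : ℍ → ℂ) =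
      qExpansion 1 X - c • qExpansion 1 E := by
    have h1 : ((X - c • E : ModularForm 𝒮ℒ k) : ℍ → ℂ) =
        (X : ℍ → ℂ) - ((c • E : ModularForm 𝒮ℒ k) : ℍ → ℂ) := rfl
    rw [h1, ModularForm.qExpansion_sub one_pos one_mem_strictPeriods_SL X (c • E)]
    have h2' : ((c • E : ModularForm 𝒮ℒ k) : ℍ → ℂ) = c • (E : ℍ → ℂ) := rfl
    rw [h2', ModularForm.qExpansion_smul one_pos one_mem_strictPeriods_SL]
  have h := Fermat.Agent.Lib.LevelOneSturm.coeff_mem_of_le ⊥ k (X - c • E) (fun m hm => by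
    have hm0 : m = 0 := by omega
    subst hm0
    rw [hq, map_sub, PowerSeries.coeff_smul, hE, AddSubgroup.mem_bot]
    simp [hc]) n
  rw [hq, AddSubgroup.mem_bot, map_sub, PowerSeries.coeff_smul, sub_eq_zero] at h
  rw [h]; rfl

theorem coeff_zero_E₄ : (qExpansion 1 E₄).coeff 0 = 1 := by
  rw [qExpansion_E₄, PowerSeries.coeff_map]
  simp [PowerSeries.coeff_zero_eq_constantCoeff, sigmaSeries]

theorem coeff_one_E₄ : (qExpansion 1 E₄).coeff 1 = ((240 : ℤ) : ℂ) := by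
  have h240 : (240 : PowerSeries ℤ) = ((240 : ℤ) : PowerSeries ℤ) := by norm_num
  rw [qExpansion_E₄, PowerSeries.coeff_map, map_add, h240, coeff_intCast_mul,
    PowerSeries.coeff_one, coeff_sigmaSeries]
  simp

theorem coeff_zero_E₆ : (qExpansion 1 E₆).coeff 0 = 1 := by
  rw [qExpansion_E₆, PowerSeries.coeff_map]
  simp [PowerSeries.coeff_zero_eq_constantCoeff, sigmaSeries]

theorem coeff_one_E₆ : (qExpansion 1 E₆).coeff 1 = ((-504 : ℤ) : ℂ) := by
  have h504 : (504 : PowerSeries ℤ) = ((504 : ℤ) : PowerSeries ℤ) := by norm_num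
  rw [qExpansion_E₆, PowerSeries.coeff_map, map_sub, h504, coeff_intCast_mul,
    PowerSeries.coeff_one, coeff_sigmaSeries]
  simp

/-- If all higher coefficients of `Q` are divisible by `m`, so are those of `Q ^ r`. -/
theorem dvd_coeff_pow (m : ℤ) (Q : PowerSeries ℤ) (hQ : ∀ n, 1 ≤ n → m ∣ Q.coeff n) (r : ℕ) :
    ∀ n, 1 ≤ n → m ∣ (Q ^ r).coeff n := by
  induction r with
  | zero =>
    intro n hn
    rw [pow_zero, PowerSeries.coeff_one, if_neg (by omega)]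
    exact dvd_zero m
  | succ r ih =>
    intro n hn
    rw [pow_succ, PowerSeries.coeff_mul]
    refine Finset.dvd_sum fun ij hij => ?_
    have hij' : ij.1 + ij.2 = n := Finset.HasAntidiagonal.mem_antidiagonal.mp hij
    rcases Nat.eq_zero_or_pos ij.2 with h0 | h0
    · exact Dvd.dvd.mul_right (ih ij.1 (by omega)) _
    · exact Dvd.dvd.mul_left (hQ ij.2 h0) _

/-- The integer identity obtained from one trace (weight `2 r < 12`, `E` the normalised
level one form of that weight, `e` its coefficient of `q`). -/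
theorem int_identity (p : ℕ) (hp : p ≠ 0) (c : ℕ → ℤ) (A : PowerSeries ℂ)
    (hA : ∀ n, A.coeff n = (c n : ℂ))
    (U : PowerSeries ℂ → PowerSeries ℂ) (hU : ∀ F n, (U F).coeff n = F.coeff (p * n))
    (r : ℕ) (hr : 1 ≤ r) {k : ℤ} (hk : k < 12) (X E : ModularForm 𝒮ℒ k)
    (hE : (qExpansion 1 E).coeff 0 = 1) (e : ℤ) (he : (qExpansion 1 E).coeff 1 = (e : ℂ))
    (hX : qExpansion 1 X = A ^ r + (p : ℂ) • U (((-(p : ℂ)⁻¹) • U A) ^ r)) :
    (p : ℤ) ^ (r - 1) * ((PowerSeries.mk c) ^ r).coeff 1 +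
        (-1) ^ r * ((PowerSeries.mk fun n => c (p * n)) ^ r).coeff p =
      e * c 0 ^ r * ((p : ℤ) ^ (r - 1) + (-1) ^ r) := by
  have hAz : A = PowerSeries.map (Int.castRingHom ℂ) (PowerSeries.mk c) := by
    ext n; simp [hA]
  have hHz : U A = PowerSeries.map (Int.castRingHom ℂ) (PowerSeries.mk fun n => c (p * n)) := by
    ext n; simp [hU, hA]
  have hcoef : ∀ n, (qExpansion 1 X).coeff n = ((((PowerSeries.mk c) ^ r).coeff n : ℤ) : ℂ) +
      (p : ℂ) * ((-(p : ℂ)⁻¹) ^ r *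
        ((((PowerSeries.mk fun n => c (p * n)) ^ r).coeff (p * n) : ℤ) : ℂ)) := by
    intro n
    rw [hX, map_add, PowerSeries.coeff_smul, hU, smul_pow, PowerSeries.coeff_smul, hHz, hAz,
      ← map_pow, ← map_pow, PowerSeries.coeff_map, PowerSeries.coeff_map]
    simp
  have h1 := coeff_eq_of_lt_twelve hk X E hE 1
  rw [hcoef 1, hcoef 0, he, mul_one, mul_zero] at h1
  have hz0 : ((PowerSeries.mk c) ^ r).coeff 0 = c 0 ^ r := by
    simp [PowerSeries.coeff_zero_eq_constantCoeff]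
  have hh0 : ((PowerSeries.mk fun n => c (p * n)) ^ r).coeff 0 = c 0 ^ r := by
    simp [PowerSeries.coeff_zero_eq_constantCoeff]
  rw [hz0, hh0] at h1
  have hp0 : (p : ℂ) ≠ 0 := Nat.cast_ne_zero.mpr hp
  have hpr : (p : ℂ) ^ (r - 1) * ((p : ℂ) * (-(p : ℂ)⁻¹) ^ r) = (-1) ^ r := by
    obtain ⟨s, rfl⟩ : ∃ s, r = s + 1 := ⟨r - 1, by omega⟩
    rw [Nat.add_sub_cancel, neg_pow, inv_pow]
    field_simp
    ring
  apply Int.cast_injective (α := ℂ)
  push_cast at h1 ⊢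
  linear_combination (p : ℂ) ^ (r - 1) * h1 -
    (((((PowerSeries.mk fun n => c (p * n)) ^ r).coeff p : ℤ) : ℂ) - (e : ℂ) * (c 0 : ℂ) ^ r) * hpr

/-- **Package (D), hypothesis form.** -/
theorem dvd_of_traces (p : ℕ) [Fact p.Prime] (a : ℕ) (c : ℕ → ℤ) (A B : PowerSeries ℂ)
    (hA : ∀ n, A.coeff n = (c n : ℂ)) (hc : ∀ n, 1 ≤ n → (p : ℤ) ^ a ∣ c n)
    (U : PowerSeries ℂ → PowerSeries ℂ) (hU : ∀ F n, (U F).coeff n = F.coeff (p * n))
    (hB : B = (-(p : ℂ)⁻¹) • U A) {k4 k6 : ℤ} (hk4 : k4 = 4) (hk6 : k6 = 6)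
    (h4 : ∃ X : ModularForm 𝒮ℒ k4, qExpansion 1 X = A * A + (p : ℂ) • U (B * B))
    (h6 : ∃ X : ModularForm 𝒮ℒ k6, qExpansion 1 X = A * A * A + (p : ℂ) • U (B * B * B))
    (hpa : (5 ≤ p ∧ 1 ≤ a) ∨ (p = 3 ∧ 2 ≤ a) ∨ (p = 2 ∧ 4 ≤ a)) : (p : ℤ) ∣ c 0 := by
  have hp : p.Prime := Fact.out
  have hpI : Prime (p : ℤ) := Nat.prime_iff_prime_int.mp hp
  subst hk4 hk6 hB
  obtain ⟨X4, hX4⟩ := h4
  obtain ⟨X6, hX6⟩ := h6
  rw [← pow_two, ← pow_two] at hX4
  rw [← pow_two, ← pow_succ, ← pow_two, ← pow_succ] at hX6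
  have e4 := int_identity p hp.ne_zero c A hA U hU 2 (by norm_num) (by norm_num) X4 E₄
    coeff_zero_E₄ 240 coeff_one_E₄ hX4
  have e6 := int_identity p hp.ne_zero c A hA U hU 3 (by norm_num) (by norm_num) X6 E₆
    coeff_zero_E₆ (-504) coeff_one_E₆ hX6
  -- divisibility of the left hand sides
  have hAz : ∀ n, 1 ≤ n → (p : ℤ) ^ a ∣ (PowerSeries.mk c).coeff n := by
    intro n hn; rw [PowerSeries.coeff_mk]; exact hc n hn
  have hHz : ∀ n, 1 ≤ n → (p : ℤ) ^ a ∣ (PowerSeries.mk fun n => c (p * n)).coeff n := by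
    intro n hn; rw [PowerSeries.coeff_mk]
    exact hc _ (Nat.mul_pos hp.pos hn)
  have d4 : (p : ℤ) ^ a ∣ 240 * c 0 ^ 2 * ((p : ℤ) + 1) := by
    have h := dvd_add
      (Dvd.dvd.mul_left (dvd_coeff_pow _ _ hAz 2 1 le_rfl) ((p : ℤ) ^ (2 - 1)))
      (Dvd.dvd.mul_left (dvd_coeff_pow _ _ hHz 2 p hp.one_le) ((-1) ^ 2))
    rw [e4] at h
    have he : (240 : ℤ) * c 0 ^ 2 * ((p : ℤ) ^ (2 - 1) + (-1) ^ 2) =
        240 * c 0 ^ 2 * ((p : ℤ) + 1) := by
      rw [show (2 - 1 : ℕ) = 1 from rfl]; ring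
    rwa [he] at h
  have d6 : (p : ℤ) ^ a ∣ 504 * c 0 ^ 3 * ((p : ℤ) ^ 2 - 1) := by
    have h := dvd_add
      (Dvd.dvd.mul_left (dvd_coeff_pow _ _ hAz 3 1 le_rfl) ((p : ℤ) ^ (3 - 1)))
      (Dvd.dvd.mul_left (dvd_coeff_pow _ _ hHz 3 p hp.one_le) ((-1) ^ 3))
    rw [e6] at h
    have he : (-504 : ℤ) * c 0 ^ 3 * ((p : ℤ) ^ (3 - 1) + (-1) ^ 3) =
        -(504 * c 0 ^ 3 * ((p : ℤ) ^ 2 - 1)) := by
      rw [show (3 - 1 : ℕ) = 2 from rfl]; ring
    rw [he] at h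
    exact (dvd_neg.mp h)
  by_contra hc0
  have hc0' : ∀ r : ℕ, ¬ (p : ℤ) ∣ c 0 ^ r := fun r h => hc0 (hpI.dvd_of_dvd_pow h)
  rcases hpa with ⟨h5, ha⟩ | ⟨rfl, ha⟩ | ⟨rfl, ha⟩
  · -- `p ≥ 5`
    have hpd : (p : ℤ) ∣ (p : ℤ) ^ a := dvd_pow_self _ (by omega)
    have hp1 : ¬ (p : ℤ) ∣ (p : ℤ) + 1 := by
      intro h
      have h1 : (p : ℤ) ∣ 1 := by simpa using dvd_sub h (dvd_refl (p : ℤ))
      exact hpI.not_dvd_one h1
    have hp2 : ¬ (p : ℤ) ∣ (p : ℤ) ^ 2 - 1 := by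
      intro h
      have h1 : (p : ℤ) ∣ 1 := by
        have := dvd_sub (dvd_pow_self (p : ℤ) (two_ne_zero)) h
        simpa using this
      exact hpI.not_dvd_one h1
    have h240 : (p : ℤ) ∣ 240 := by
      rcases hpI.dvd_or_dvd (hpd.trans d4) with h | h
      · rcases hpI.dvd_or_dvd h with h | h
        · exact h
        · exact absurd h (hc0' 2)
      · exact absurd h hp1
    have h504 : (p : ℤ) ∣ 504 := by
      rcases hpI.dvd_or_dvd (hpd.trans d6) with h | h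
      · rcases hpI.dvd_or_dvd h with h | h
        · exact h
        · exact absurd h (hc0' 3)
      · exact absurd h hp2
    have h24 : (p : ℤ) ∣ 24 := by
      have := dvd_sub h504 (Dvd.dvd.mul_left h240 2)
      norm_num at this
      exact this
    have h24' : p ∣ 2 ^ 3 * 3 := by exact_mod_cast h24
    rcases (Nat.Prime.dvd_mul hp).mp h24' with h | h
    · have := Nat.le_of_dvd (by norm_num) (hp.dvd_of_dvd_pow h)
      omega
    · have := Nat.le_of_dvd (by norm_num) h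
      omega
  · -- `p = 3`
    have h9 : ((3 : ℕ) : ℤ) ^ 2 ∣ ((3 : ℕ) : ℤ) ^ a := pow_dvd_pow _ ha
    have h := h9.trans d4
    have h3 : (3 : ℤ) ∣ 320 * c 0 ^ 2 := by
      have h' : (3 : ℤ) * 3 ∣ 3 * (320 * c 0 ^ 2) := by
        have e1 : ((3 : ℕ) : ℤ) ^ 2 = 3 * 3 := by norm_num
        have e2 : (240 : ℤ) * c 0 ^ 2 * (((3 : ℕ) : ℤ) + 1) = 3 * (320 * c 0 ^ 2) := by
          push_cast; ring
        rwa [e1, e2] at h
      exact (mul_dvd_mul_iff_left (by norm_num)).mp h'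
    have hpI3 : Prime (3 : ℤ) := by exact_mod_cast hpI
    rcases hpI3.dvd_or_dvd h3 with h | h
    · norm_num at h
    · exact hc0' 2 (by exact_mod_cast h)
  · -- `p = 2`
    have h16 : ((2 : ℕ) : ℤ) ^ 4 ∣ ((2 : ℕ) : ℤ) ^ a := pow_dvd_pow _ ha
    have h := h16.trans d6
    have h2 : (2 : ℤ) ∣ 189 * c 0 ^ 3 := by
      have h' : (8 : ℤ) * 2 ∣ 8 * (189 * c 0 ^ 3) := by
        have e1 : ((2 : ℕ) : ℤ) ^ 4 = 8 * 2 := by norm_num
        have e2 : (504 : ℤ) * c 0 ^ 3 * (((2 : ℕ) : ℤ) ^ 2 - 1) = 8 * (189 * c 0 ^ 3) := by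
          push_cast; ring
        rwa [e1, e2] at h
      exact (mul_dvd_mul_iff_left (by norm_num)).mp h'
    have hpI2 : Prime (2 : ℤ) := by exact_mod_cast hpI
    rcases hpI2.dvd_or_dvd h2 with h | h
    · norm_num at h
    · exact hc0' 3 (by exact_mod_cast h)

end Fermat.Agent.S16.UAtPCore
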