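import Mathlib
import Fermat.Agent.S16.Plan
import Fermat.Agent.S16.UAtPCore

/-!
# S16, package U8 = (D): `ℓ = p`

`noCongOne_self`: no `G ∈ M₂(Γ₀(p))` with integral q-expansion, `p ∤ a₀(G)` and
`a_n(G) ≡ 0 mod p^a` for `n ≥ 1` (`a = 1` for `p ≥ 5`, `a = 2` for `p = 3`, `a = 4` for `p = 2`).
Wrapper of `UAtPCore.dvd_of_traces` over the `PairAPI` contract.
-/

set_option autoImplicit false

namespace Fermat.Agent.S16

open ModularCurve CuspForm UpperHalfPlane CongruenceSubgroup ModularFormClass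
open scoped MatrixGroups ModularForm

theorem noCongOne_self (p : ℕ) [Fact p.Prime] (hT : PairAPI p) (_hSt : SturmLow) :
    NoCongOne p p (if p = 2 then 4 else if p = 3 then 2 else 1) := by
  intro G c hG hc
  have h2 := hT.weightTwo G
  refine UAtPCore.dvd_of_traces p _ c _ _ hG hc (psU p) (fun F n => by simp [psU]) rfl
    (show ((2 : ℤ) + 2) = 4 by norm_num) (show ((2 : ℤ) + 2 + 2) = 6 by norm_num)
    (hT.trace (hT.mul h2 h2)) (hT.trace (hT.mul (hT.mul h2 h2) h2)) ?_
  have hp : p.Prime := Fact.out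
  by_cases h2' : p = 2
  · exact Or.inr (Or.inr ⟨h2', by simp [h2']⟩)
  by_cases h3 : p = 3
  · exact Or.inr (Or.inl ⟨h3, by simp [h3]⟩)
  · refine Or.inl ⟨?_, by simp [h2', h3]⟩
    have h2le := hp.two_le
    by_contra hlt
    have h4 : p = 4 := by omega
    rw [h4] at hp
    exact absurd hp (by decide)

end Fermat.Agent.S16
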