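import Mathlib
import Fermat.Agent.S16.Plan
import Fermat.Agent.Lib.DeltaInt

/-!
# S16, package U9 (case (E) of Claim U): the `Δ`-identity

`noCongOne_delta`: if `ℓ ≠ p` and `ℓ^a ∤ p + 1`, then no `G ∈ M₂(Γ₀(p))` with integral
`q`-expansion has `ℓ ∤ a₀(G)` and `a_n(G) ≡ 0 mod ℓ^a` for all `n ≥ 1`.

Proof (trace principle only; no separate Hecke theory for `Δ`).
* The pair `(Δ(pz), p⁻¹² Δ)` of weight `12`: its trace `V_pΔ + p⁻¹¹ U_pΔ` is a level-one form of
  weight `12` with `a₀ = 0`, hence `= p⁻¹¹ τ(p) Δ` (Sturm).  Coefficient of `q^p`: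
  `τ(p²) = τ(p)² - p¹¹`.
* The pair `(G · Δ(pz), -p⁻¹³ (U_pG) Δ)` of weight `14`: its trace is a level-one form of weight
  `14` with `a₀ = 0`, hence `0` (`S₁₄ = Δ · M₂ = 0`).  So `p¹² G · V_pΔ = U_p((U_pG) Δ)`.
  Coefficients of `q¹` and `q^p`, mod `ℓ^a`: `c₀ τ(p) ≡ 0` and `p¹² c₀ ≡ c₀ τ(p²)`.
* Hence `ℓ^a ∣ p¹¹ (p + 1)`.
-/

set_option autoImplicit false

noncomputable section

namespace Fermat.Agent.S16.UDelta

open UpperHalfPlane ModularForm ModularFormClass CongruenceSubgroup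
open scoped MatrixGroups ModularForm
open Fermat.Agent.Lib.DeltaInt Fermat.Agent.S16

local notation "ι" => PowerSeries.map (Int.castRingHom ℂ)

/-! ### Level-one facts -/

/-- A level-one form of weight `2` is zero. -/
theorem levelOne_eq_zero_of_weight_two (k : ℤ) (hk : k = 2) (f : ModularForm 𝒮ℒ k) : f = 0 := by
  subst hk
  exact rank_zero_iff_forall_zero.mp levelOne_weight_two_rank_zero f

/-- A level-one form of weight `14` with vanishing constant term has zero `q`-expansion. -/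
theorem qExpansion_eq_zero_of_weight_fourteen (k : ℤ) (hk : k = 14) (X : ModularForm 𝒮ℒ k)
    (h0 : (qExpansion 1 X).coeff 0 = 0) : qExpansion 1 X = 0 := by
  rw [qExpansion_eq_qExpansion_discriminant_mul X h0]
  have hz : CuspForm.discriminantEquiv (X.toCuspForm h0) = 0 :=
    levelOne_eq_zero_of_weight_two _ (by rw [hk]; norm_num) _
  rw [hz]
  rw [show ((0 : ModularForm 𝒮ℒ (k - 12)) : ℍ → ℂ) = 0 from rfl, UpperHalfPlane.qExpansion_zero,
    mul_zero]

/-- The discriminant as a level-one modular form. -/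
def D12 : ModularForm 𝒮ℒ 12 := CuspForm.toModularFormₗ CuspForm.discriminant

theorem qExpansion_D12 : qExpansion 1 D12 = ι DeltaZ := by
  have h : (D12 : ℍ → ℂ) = (CuspForm.discriminant : ℍ → ℂ) := rfl
  rw [h, qExpansion_cuspForm_discriminant_eq]

/-- A level-one form of weight `12` with vanishing constant term is `a₁ · Δ`. -/
theorem coeff_eq_of_weight_twelve (hSt : SturmLow) (X : ModularForm 𝒮ℒ 12)
    (h0 : (qExpansion 1 X).coeff 0 = 0) (n : ℕ) :
    (qExpansion 1 X).coeff n = (qExpansion 1 X).coeff 1 * ((DeltaZ.coeff n : ℤ) : ℂ) := by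
  set c : ℂ := (qExpansion 1 X).coeff 1 with hc
  have hq : qExpansion 1 ((X - c • D12 : ModularForm 𝒮ℒ 12) : ℍ → ℂ) =
      qExpansion 1 X - c • ι DeltaZ := by
    have h1 : ((X - c • D12 : ModularForm 𝒮ℒ 12) : ℍ → ℂ) =
        (X : ℍ → ℂ) - ((c • D12 : ModularForm 𝒮ℒ 12) : ℍ → ℂ) := rfl
    rw [h1, ModularForm.qExpansion_sub one_pos one_mem_strictPeriods_SL X (c • D12)]
    have h2 : ((c • D12 : ModularForm 𝒮ℒ 12) : ℍ → ℂ) = c • (D12 : ℍ → ℂ) := rfl
    rw [h2, ModularForm.qExpansion_smul one_pos one_mem_strictPeriods_SL, qExpansion_D12]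
  have hlow : ∀ m : ℕ, 12 * (m : ℤ) ≤ 12 →
      (qExpansion 1 ((X - c • D12 : ModularForm 𝒮ℒ 12) : ℍ → ℂ)).coeff m ∈ (⊥ : AddSubgroup ℂ) := by
    intro m hm
    rw [AddSubgroup.mem_bot, hq, map_sub, PowerSeries.coeff_smul, PowerSeries.coeff_map]
    have hm' : m = 0 ∨ m = 1 := by omega
    rcases hm' with rfl | rfl
    · rw [h0, DeltaZ_coeff_zero]; simp
    · rw [DeltaZ_coeff_one]; simp [hc]
  have hall := hSt ⊥ 12 (X - c • D12) hlow n
  rw [AddSubgroup.mem_bot, hq, map_sub, PowerSeries.coeff_smul, PowerSeries.coeff_map,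
    sub_eq_zero] at hall
  rw [hall]; simp

/-! ### `U_p`, `V_p` on integral `q`-series -/

/-- `U_p` on integral `q`-series. -/
def zU (p : ℕ) (A : PowerSeries ℤ) : PowerSeries ℤ :=
  PowerSeries.mk fun n => PowerSeries.coeff (p * n) A

/-- `V_p` on integral `q`-series. -/
def zV (p : ℕ) (A : PowerSeries ℤ) : PowerSeries ℤ :=
  PowerSeries.mk fun n => if p ∣ n then PowerSeries.coeff (n / p) A else 0

@[simp] theorem coeff_zU (p : ℕ) (A : PowerSeries ℤ) (n : ℕ) :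
    (zU p A).coeff n = A.coeff (p * n) := by
  simp [zU]

@[simp] theorem coeff_zV (p : ℕ) (A : PowerSeries ℤ) (n : ℕ) :
    (zV p A).coeff n = if p ∣ n then A.coeff (n / p) else 0 := by
  simp [zV]

theorem map_zU (p : ℕ) (A : PowerSeries ℤ) : ι (zU p A) = psU p (ι A) := by
  ext n
  simp [zU, psU]

theorem map_zV (p : ℕ) (A : PowerSeries ℤ) : ι (zV p A) = psV p (ι A) := by
  ext n
  simp only [zV, psV, PowerSeries.coeff_map, PowerSeries.coeff_mk]
  split_ifs <;> simp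

theorem psU_smul (p : ℕ) (c : ℂ) (A : PowerSeries ℂ) : psU p (c • A) = c • psU p A := by
  ext n
  simp [psU]

theorem coeff_psU (p : ℕ) (A : PowerSeries ℂ) (n : ℕ) :
    (psU p A).coeff n = A.coeff (p * n) := by
  simp [psU]

/-- Reduction: if `m ∣ A_i` for all `i ≥ 1`, then `(A * B)_n ≡ A_0 B_n mod m`. -/
theorem dvd_coeff_mul_sub (m : ℤ) (A B : PowerSeries ℤ) (hA : ∀ i, 1 ≤ i → m ∣ A.coeff i)
    (n : ℕ) : m ∣ (A * B).coeff n - A.coeff 0 * B.coeff n := by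
  rw [PowerSeries.coeff_mul]
  have hmem : ((0, n) : ℕ × ℕ) ∈ Finset.HasAntidiagonal.antidiagonal n := by simp
  rw [← Finset.add_sum_erase _ _ hmem]
  simp only [add_sub_cancel_left]
  apply Finset.dvd_sum
  intro x hx
  rw [Finset.mem_erase, Finset.HasAntidiagonal.mem_antidiagonal] at hx
  have hx1 : 1 ≤ x.1 := by
    by_contra h
    have h0 : x.1 = 0 := by omega
    apply hx.1
    ext
    · exact h0
    · simp only; omega
  exact Dvd.dvd.mul_right (hA _ hx1) _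

/-! ### The two trace identities -/

section Trace

variable (p : ℕ) [Fact p.Prime]

/-- The Hecke relation for `Δ` from the trace principle: `p¹¹ V_pΔ + U_pΔ = τ(p) Δ`. -/
theorem hecke_delta (hT : PairAPI p) (hSt : SturmLow) (n : ℕ) :
    (p : ℤ) ^ 11 * (zV p DeltaZ).coeff n + (zU p DeltaZ).coeff n =
      DeltaZ.coeff p * DeltaZ.coeff n := by
  have hp : p.Prime := Fact.out
  have hp0 : (p : ℂ) ≠ 0 := Nat.cast_ne_zero.mpr hp.ne_zero
  obtain ⟨Y, hY⟩ := hT.trace (hT.levelOneV D12)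
  rw [qExpansion_D12, psU_smul, ← map_zV, ← map_zU] at hY
  have hcoeff : ∀ m, (qExpansion 1 Y).coeff m = (((zV p DeltaZ).coeff m : ℤ) : ℂ) +
      (p : ℂ) * ((p : ℂ) ^ (-(12 : ℤ)) * (((zU p DeltaZ).coeff m : ℤ) : ℂ)) := by
    intro m
    rw [hY, map_add, PowerSeries.coeff_smul, PowerSeries.coeff_smul, PowerSeries.coeff_map,
      PowerSeries.coeff_map]
    simp
  have h0 : (qExpansion 1 Y).coeff 0 = 0 := by
    rw [hcoeff]
    simp [DeltaZ_coeff_zero]
  have h1 : (qExpansion 1 Y).coeff 1 =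
      (p : ℂ) * ((p : ℂ) ^ (-(12 : ℤ)) * ((DeltaZ.coeff p : ℤ) : ℂ)) := by
    rw [hcoeff]
    have hnd : ¬ p ∣ 1 := by rw [Nat.dvd_one]; exact hp.ne_one
    simp [hnd]
  have hn := coeff_eq_of_weight_twelve hSt Y h0 n
  rw [h1, hcoeff] at hn
  have hpow : (p : ℂ) ^ (-(12 : ℤ)) = ((p : ℂ) ^ 12)⁻¹ := by
    rw [zpow_neg]; norm_cast
  have hr : (p : ℂ) * (p : ℂ) ^ (-(12 : ℤ)) * (p : ℂ) ^ 11 = 1 := by
    rw [hpow]; field_simp
  have hfin : (p : ℂ) ^ 11 * (((zV p DeltaZ).coeff n : ℤ) : ℂ) + (((zU p DeltaZ).coeff n : ℤ) : ℂ)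
      = ((DeltaZ.coeff p : ℤ) : ℂ) * ((DeltaZ.coeff n : ℤ) : ℂ) := by
    linear_combination (p : ℂ) ^ 11 * hn -
      ((((zU p DeltaZ).coeff n : ℤ) : ℂ) -
        ((DeltaZ.coeff p : ℤ) : ℂ) * ((DeltaZ.coeff n : ℤ) : ℂ)) * hr
  exact_mod_cast hfin

/-- The weight `14` identity: `p¹² G · V_pΔ = U_p((U_pG) · Δ)`. -/
theorem main_identity (hT : PairAPI p) (G : ModularForm (Gamma0 p) 2) (g : PowerSeries ℤ)
    (hg : qExpansion 1 G = ι g) (n : ℕ) :
    (p : ℤ) ^ 12 * (g * zV p DeltaZ).coeff n = (zU p g * DeltaZ).coeff (p * n) := by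
  have hp : p.Prime := Fact.out
  have hp0 : (p : ℂ) ≠ 0 := Nat.cast_ne_zero.mpr hp.ne_zero
  obtain ⟨X, hX⟩ := hT.trace (hT.mul (hT.weightTwo G) (hT.levelOneV D12))
  rw [hg, qExpansion_D12, ← map_zU, ← map_zV, smul_mul_smul_comm, ← map_mul, ← map_mul,
    psU_smul, ← map_zU] at hX
  have hcoeff : ∀ m, (qExpansion 1 X).coeff m = (((g * zV p DeltaZ).coeff m : ℤ) : ℂ) +
      (p : ℂ) * ((-(p : ℂ)⁻¹ * (p : ℂ) ^ (-(12 : ℤ))) *
        (((zU p g * DeltaZ).coeff (p * m) : ℤ) : ℂ)) := by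
    intro m
    rw [hX, map_add, PowerSeries.coeff_smul, PowerSeries.coeff_smul, PowerSeries.coeff_map,
      PowerSeries.coeff_map, coeff_zU]
    simp
  have h0 : (qExpansion 1 X).coeff 0 = 0 := by
    rw [hcoeff]
    simp [PowerSeries.coeff_mul, DeltaZ_coeff_zero]
  have hX0 := qExpansion_eq_zero_of_weight_fourteen (2 + 12) (by norm_num) X h0
  have hn := hcoeff n
  rw [hX0] at hn
  simp only [map_zero] at hn
  have hpow : (p : ℂ) ^ (-(12 : ℤ)) = ((p : ℂ) ^ 12)⁻¹ := by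
    rw [zpow_neg]; norm_cast
  have hr : (p : ℂ) * (-(p : ℂ)⁻¹ * (p : ℂ) ^ (-(12 : ℤ))) * (p : ℂ) ^ 12 = -1 := by
    rw [hpow]; field_simp
  have hfin : (p : ℂ) ^ 12 * (((g * zV p DeltaZ).coeff n : ℤ) : ℂ) =
      (((zU p g * DeltaZ).coeff (p * n) : ℤ) : ℂ) := by
    linear_combination (-(p : ℂ) ^ 12) * hn - (((zU p g * DeltaZ).coeff (p * n) : ℤ) : ℂ) * hr
  exact_mod_cast hfin

end Trace

end Fermat.Agent.S16.UDelta

namespace Fermat.Agent.S16

open UpperHalfPlane ModularForm ModularFormClass CongruenceSubgroup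
open scoped MatrixGroups ModularForm
open Fermat.Agent.Lib.DeltaInt Fermat.Agent.S16.UDelta

/-- **Case (E) of Claim U** (package U9).  If `ℓ ≠ p` and `ℓ^a ∤ p + 1`, then no
`G ∈ M₂(Γ₀(p))` with integral `q`-expansion has `ℓ ∤ a₀(G)` and `a_n(G) ≡ 0 mod ℓ^a` for all
`n ≥ 1`. -/
theorem noCongOne_delta (p : ℕ) [Fact p.Prime] (hT : PairAPI p) (hSt : SturmLow) (l : ℕ)
    (hl : l.Prime) (hlp : l ≠ p) (a : ℕ) (ha : ¬ l ^ a ∣ p + 1) : NoCongOne p l a := by
  intro G c hc hdiv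
  by_contra hc0
  apply ha
  have hp : p.Prime := Fact.out
  set g : PowerSeries ℤ := PowerSeries.mk c with hg
  have hcoeffg : ∀ n, g.coeff n = c n := by
    intro n; rw [hg, PowerSeries.coeff_mk]
  have hgG : qExpansion 1 G = PowerSeries.map (Int.castRingHom ℂ) g := by
    ext n
    rw [hc, PowerSeries.coeff_map, hcoeffg]; rfl
  -- the Hecke relation at `n = p`
  have hH := hecke_delta p hT hSt p
  have hH' : DeltaZ.coeff (p * p) = DeltaZ.coeff p ^ 2 - (p : ℤ) ^ 11 := by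
    rw [coeff_zV, if_pos (dvd_refl p), Nat.div_self hp.pos, DeltaZ_coeff_one, coeff_zU] at hH
    linarith
  -- the main identity at `n = 1` and `n = p`
  have hM1 := main_identity p hT G g hgG 1
  have hMp := main_identity p hT G g hgG p
  have hL1 : (g * zV p DeltaZ).coeff 1 = 0 := by
    rw [PowerSeries.coeff_mul]
    apply Finset.sum_eq_zero
    intro x hx
    rw [Finset.HasAntidiagonal.mem_antidiagonal] at hx
    rw [coeff_zV]
    split_ifs with h
    · have hx2 : x.2 = 0 := by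
        rcases Nat.eq_zero_or_pos x.2 with h0 | h0
        · exact h0
        · have : x.2 = 1 := by omega
          rw [this, Nat.dvd_one] at h
          exact absurd h hp.ne_one
      rw [hx2, Nat.zero_div, DeltaZ_coeff_zero, mul_zero]
    · rw [mul_zero]
  have hLp : (g * zV p DeltaZ).coeff p = c 0 := by
    rw [PowerSeries.coeff_mul, Finset.sum_eq_single ((0, p) : ℕ × ℕ)]
    · rw [coeff_zV, if_pos (dvd_refl p), Nat.div_self hp.pos, DeltaZ_coeff_one, mul_one,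
        hcoeffg]
    · intro x hx hne
      rw [Finset.HasAntidiagonal.mem_antidiagonal] at hx
      rw [coeff_zV]
      split_ifs with h
      · have hx2 : x.2 = 0 := by
          rcases Nat.eq_zero_or_pos x.2 with h0 | h0
          · exact h0
          · have hle : p ≤ x.2 := Nat.le_of_dvd h0 h
            exfalso
            apply hne
            ext
            · simp only; omega
            · simp only; omega
        rw [hx2, Nat.zero_div, DeltaZ_coeff_zero, mul_zero]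
      · rw [mul_zero]
    · intro h
      exact absurd (by simp) h
  -- reduction modulo `ℓ^a`
  have hA : ∀ i, 1 ≤ i → ((l : ℤ) ^ a) ∣ (zU p g).coeff i := by
    intro i hi
    rw [coeff_zU, hcoeffg]
    exact hdiv _ (Nat.mul_pos hp.pos hi)
  have hU0 : (zU p g).coeff 0 = c 0 := by
    rw [coeff_zU, hcoeffg, Nat.mul_zero]
  have hR1 := dvd_coeff_mul_sub ((l : ℤ) ^ a) (zU p g) DeltaZ hA (p * 1)
  have hRp := dvd_coeff_mul_sub ((l : ℤ) ^ a) (zU p g) DeltaZ hA (p * p)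
  rw [← hM1, hL1, hU0, mul_zero, zero_sub, dvd_neg, Nat.mul_one] at hR1
  rw [← hMp, hLp, hU0, hH'] at hRp
  -- coprimality
  have hlprime : Prime (l : ℤ) := Nat.prime_iff_prime_int.mp hl
  have hcop0 : IsCoprime ((l : ℤ) ^ a) (c 0) :=
    (hlprime.coprime_iff_not_dvd.mpr hc0).pow_left
  have h1 : ((l : ℤ) ^ a) ∣ DeltaZ.coeff p := hcop0.dvd_of_dvd_mul_left hR1
  have h2 : ((l : ℤ) ^ a) ∣ c 0 * ((p : ℤ) ^ 11 * ((p : ℤ) + 1)) := by
    have e : c 0 * ((p : ℤ) ^ 11 * ((p : ℤ) + 1)) =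
        ((p : ℤ) ^ 12 * c 0 - c 0 * (DeltaZ.coeff p ^ 2 - (p : ℤ) ^ 11)) +
          c 0 * DeltaZ.coeff p * DeltaZ.coeff p := by ring
    rw [e]
    exact dvd_add hRp (Dvd.dvd.mul_left h1 _)
  have h3 : ((l : ℤ) ^ a) ∣ (p : ℤ) ^ 11 * ((p : ℤ) + 1) := hcop0.dvd_of_dvd_mul_left h2
  have hcopp : IsCoprime ((l : ℤ) ^ a) ((p : ℤ) ^ 11) := by
    have h : IsCoprime (l : ℤ) (p : ℤ) :=
      Nat.isCoprime_iff_coprime.mpr ((Nat.coprime_primes hl hp).mpr hlp)
    exact h.pow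
  have h4 : ((l : ℤ) ^ a) ∣ (p : ℤ) + 1 := hcopp.dvd_of_dvd_mul_left h3
  exact_mod_cast h4

end Fermat.Agent.S16

end
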