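import Mathlib
import Fermat.Agent.S16.Plan
import Fermat.Agent.Lib.DeltaInt

/-!
# S16, package U7: case (C'') of Claim U — a prime `ℓ ≥ 5`, `ℓ ≠ p`, `ℓ ∣ p + 1`

If `G ∈ M₂(Γ₀(p))` has integral `q`-expansion `c₀ + ℓ·(…)`, then `ℓ ∣ c₀`.

Proof: `Ψ := G·E₄ - c₀·E₆ ∈ M₆(Γ₀(p))` satisfies `Ψ ≡ A₀ := c₀·(E₄ - E₆)` and
`Ψ♭ = (-U_p G / p)·E₄(pz) - c₀·E₆(pz) ≡ A₀(q^p)` modulo `ℓ` (because `-1/p ≡ 1`).  The constant
coefficient of `A₀` is `0`, so the trace–Sturm lemma (weight `6`) gives `A₀ ≡ 0 mod ℓ`; its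
coefficients at `q` and `q²` are `744·c₀` and `18792·c₀`, and `24 = 4·18792 - 101·744`.
-/

set_option autoImplicit false

noncomputable section

namespace Fermat.Agent.S16

open UpperHalfPlane CongruenceSubgroup ModularFormClass ModularForm EisensteinSeries
open scoped MatrixGroups ArithmeticFunction.sigma

namespace ULarge

open Fermat.Agent.Lib.DeltaInt

/-! ### Private `ℓ`-integrality calculus -/

theorem isLInt_intCast {l : ℕ} (hl : l.Prime) (m : ℤ) : IsLInt l (m : ℂ) :=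
  ⟨m, 1, fun h => hl.one_lt.ne' (Nat.dvd_one.mp h), by simp⟩

theorem isLInt_mul {l : ℕ} (hl : l.Prime) {x y : ℂ} (hx : IsLInt l x) (hy : IsLInt l y) :
    IsLInt l (x * y) := by
  obtain ⟨a, d, hd, hx⟩ := hx
  obtain ⟨b, e, he, hy⟩ := hy
  refine ⟨a * b, d * e, fun h => ?_, ?_⟩
  · rcases (Nat.Prime.dvd_mul hl).mp h with h | h
    · exact hd h
    · exact he h
  · push_cast
    rw [← hx, ← hy]
    ring

theorem isLInt_add {l : ℕ} (hl : l.Prime) {x y : ℂ} (hx : IsLInt l x) (hy : IsLInt l y) :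
    IsLInt l (x + y) := by
  obtain ⟨a, d, hd, hx⟩ := hx
  obtain ⟨b, e, he, hy⟩ := hy
  refine ⟨a * e + b * d, d * e, fun h => ?_, ?_⟩
  · rcases (Nat.Prime.dvd_mul hl).mp h with h | h
    · exact hd h
    · exact he h
  · push_cast
    rw [← hx, ← hy]
    ring

theorem isLInt_inv_natCast {l q : ℕ} (hq : q ≠ 0) (h : ¬ l ∣ q) : IsLInt l ((q : ℂ)⁻¹) :=
  ⟨1, q, h, by rw [Int.cast_one]; exact mul_inv_cancel₀ (Nat.cast_ne_zero.mpr hq)⟩

theorem isLDiv_zero {l : ℕ} (hl : l.Prime) : IsLDiv l 1 0 :=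
  ⟨0, by simpa using isLInt_intCast hl 0, by simp⟩

theorem isLDiv_add {l : ℕ} (hl : l.Prime) {x y : ℂ} (hx : IsLDiv l 1 x) (hy : IsLDiv l 1 y) :
    IsLDiv l 1 (x + y) := by
  obtain ⟨s, hs, rfl⟩ := hx
  obtain ⟨t, ht, rfl⟩ := hy
  exact ⟨s + t, isLInt_add hl hs ht, by ring⟩

theorem isLDiv_sum {l : ℕ} (hl : l.Prime) {ι : Type*} (s : Finset ι) (f : ι → ℂ)
    (h : ∀ i ∈ s, IsLDiv l 1 (f i)) : IsLDiv l 1 (∑ i ∈ s, f i) := by
  classical
  induction s using Finset.induction_on with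
  | empty => simpa using isLDiv_zero hl
  | insert a s ha ih =>
    rw [Finset.sum_insert ha]
    exact isLDiv_add hl (h a (Finset.mem_insert_self a s))
      (ih fun i hi => h i (Finset.mem_insert_of_mem hi))

theorem isLDiv_mul_isLInt {l : ℕ} (hl : l.Prime) {x y : ℂ} (hx : IsLDiv l 1 x)
    (hy : IsLInt l y) : IsLDiv l 1 (x * y) := by
  obtain ⟨s, hs, rfl⟩ := hx
  exact ⟨s * y, isLInt_mul hl hs hy, by ring⟩

theorem isLDiv_isLInt_mul {l : ℕ} (hl : l.Prime) {x y : ℂ} (hx : IsLInt l x)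
    (hy : IsLDiv l 1 y) : IsLDiv l 1 (x * y) := by
  rw [mul_comm]
  exact isLDiv_mul_isLInt hl hy hx

theorem isLDiv_intCast_of_dvd {l : ℕ} (hl : l.Prime) {m : ℤ} (h : (l : ℤ) ∣ m) :
    IsLDiv l 1 (m : ℂ) := by
  obtain ⟨m', rfl⟩ := h
  exact ⟨m', isLInt_intCast hl m', by push_cast; ring⟩

theorem dvd_of_isLDiv_intCast {l : ℕ} (hl : l.Prime) {m : ℤ} (h : IsLDiv l 1 (m : ℂ)) :
    (l : ℤ) ∣ m := by
  obtain ⟨t, ⟨a, d, hd, hda⟩, ht⟩ := h
  have h1 : ((d : ℤ) * m : ℤ) = (l : ℤ) * a := by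
    apply Int.cast_injective (α := ℂ)
    push_cast
    rw [ht, ← hda]
    ring
  have h2 : (l : ℤ) ∣ (d : ℤ) * m := ⟨a, h1⟩
  rcases (Nat.prime_iff_prime_int.mp hl).dvd_or_dvd h2 with h3 | h3
  · exact absurd (Int.natCast_dvd_natCast.mp h3) hd
  · exact h3

/-- Product of a series with coefficients in `ℓ ℤ_(ℓ)` and a series with coefficients in
`ℤ_(ℓ)`. -/
theorem isLDiv_coeff_mul {l : ℕ} (hl : l.Prime) {X Y : PowerSeries ℂ}
    (hX : ∀ n, IsLDiv l 1 (PowerSeries.coeff n X)) (hY : ∀ n, IsLInt l (PowerSeries.coeff n Y))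
    (n : ℕ) : IsLDiv l 1 (PowerSeries.coeff n (X * Y)) := by
  rw [PowerSeries.coeff_mul]
  exact isLDiv_sum hl _ _ fun ij _ => isLDiv_mul_isLInt hl (hX ij.1) (hY ij.2)

/-! ### The integral series -/

/-- `E₄` as an integral series. -/
def e4 : PowerSeries ℤ := 1 + 240 * sigmaSeries 3

/-- `E₆` as an integral series. -/
def e6 : PowerSeries ℤ := 1 - 504 * sigmaSeries 5

theorem qExp_E4 : qExpansion 1 E₄ = PowerSeries.map (Int.castRingHom ℂ) e4 := qExpansion_E₄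

theorem qExp_E6 : qExpansion 1 E₆ = PowerSeries.map (Int.castRingHom ℂ) e6 := qExpansion_E₆

theorem coeff_e4 (n : ℕ) :
    PowerSeries.coeff n e4 = (if n = 0 then 1 else 0) + 240 * ((σ 3 n : ℕ) : ℤ) := by
  have h240 : (240 : PowerSeries ℤ) = ((240 : ℤ) : PowerSeries ℤ) := by norm_num
  rw [e4, map_add, h240, coeff_intCast_mul, PowerSeries.coeff_one, coeff_sigmaSeries]

theorem coeff_e6 (n : ℕ) :
    PowerSeries.coeff n e6 = (if n = 0 then 1 else 0) - 504 * ((σ 5 n : ℕ) : ℤ) := by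
  have h504 : (504 : PowerSeries ℤ) = ((504 : ℤ) : PowerSeries ℤ) := by norm_num
  rw [e6, map_sub, h504, coeff_intCast_mul, PowerSeries.coeff_one, coeff_sigmaSeries]

theorem coeff_zero_sub : PowerSeries.coeff 0 e4 - PowerSeries.coeff 0 e6 = 0 := by
  rw [coeff_e4, coeff_e6]
  simp

theorem coeff_one_sub : PowerSeries.coeff 1 e4 - PowerSeries.coeff 1 e6 = 744 := by
  rw [coeff_e4, coeff_e6, show (σ 3 1 : ℕ) = 1 by decide, show (σ 5 1 : ℕ) = 1 by decide]
  norm_num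

theorem coeff_two_sub : PowerSeries.coeff 2 e4 - PowerSeries.coeff 2 e6 = 18792 := by
  rw [coeff_e4, coeff_e6, show (σ 3 2 : ℕ) = 9 by decide, show (σ 5 2 : ℕ) = 33 by decide]
  norm_num

theorem coeff_map_int (X : PowerSeries ℤ) (n : ℕ) :
    PowerSeries.coeff n (PowerSeries.map (Int.castRingHom ℂ) X) = ((PowerSeries.coeff n X : ℤ) : ℂ) := by
  rw [PowerSeries.coeff_map]
  rfl

theorem coeff_psV (p : ℕ) (A : PowerSeries ℂ) (n : ℕ) :
    PowerSeries.coeff n (psV p A) = if p ∣ n then PowerSeries.coeff (n / p) A else 0 := by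
  rw [psV, PowerSeries.coeff_mk]

theorem coeff_psU (p : ℕ) (A : PowerSeries ℂ) (n : ℕ) :
    PowerSeries.coeff n (psU p A) = PowerSeries.coeff (p * n) A := by
  rw [psU, PowerSeries.coeff_mk]

end ULarge

open ULarge Fermat.Agent.Lib.DeltaInt in
/-- **Package U7** (case (C'') of Claim U): for a prime `ℓ ≥ 5`, `ℓ ≠ p`, `ℓ ∣ p + 1`, no
`G ∈ M₂(Γ₀(p))` with integral `q`-expansion is `≡ c₀ mod ℓ` with `ℓ ∤ c₀`. -/
theorem noCongOne_large (p : ℕ) [Fact p.Prime] (hT : PairAPI p) (hTS : TraceSturmStmt p)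
    (l : ℕ) (hl : l.Prime) (h5 : 5 ≤ l) (hlp : l ≠ p) (hdvd : l ∣ p + 1) : NoCongOne p l 1 := by
  intro G c hc hdiv
  have hp : p.Prime := Fact.out
  have hp0 : (p : ℂ) ≠ 0 := Nat.cast_ne_zero.mpr hp.ne_zero
  have hlp' : ¬ l ∣ p := fun h => hlp ((Nat.prime_dvd_prime_iff_eq hl hp).mp h)
  -- the pair in weight 6
  have h1 := hT.weightTwo G
  have h2 := hT.levelOne E₄
  have h3 := hT.mul h1 h2
  have h4 := hT.smul (-(c 0 : ℂ)) (hT.levelOne E₆)
  have h6 : (2 : ℤ) + 4 = ((6 : ℕ) : ℤ) := by norm_num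
  rw [h6] at h3
  have hpair := hT.add h3 (show IsPair p ((6 : ℕ) : ℤ) _ _ from h4)
  -- abbreviations
  set qG : PowerSeries ℂ := qExpansion 1 G with hqG
  set Y : PowerSeries ℂ := psV p (qExpansion 1 E₄) with hY
  set A₀ : PowerSeries ℂ := PowerSeries.map (Int.castRingHom ℂ) (PowerSeries.C (c 0) * (e4 - e6))
    with hA₀
  have hcoeffA₀ : ∀ n, PowerSeries.coeff n A₀ =
      (c 0 : ℂ) * ((PowerSeries.coeff n e4 : ℤ) - (PowerSeries.coeff n e6 : ℤ)) := by
    intro n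
    rw [hA₀, coeff_map_int, PowerSeries.coeff_C_mul, map_sub]
    push_cast
    ring
  have hE4 : ∀ n, PowerSeries.coeff n (qExpansion 1 E₄) = ((PowerSeries.coeff n e4 : ℤ) : ℂ) :=
    fun n => by rw [qExp_E4, coeff_map_int]
  have hE6 : ∀ n, PowerSeries.coeff n (qExpansion 1 E₆) = ((PowerSeries.coeff n e6 : ℤ) : ℂ) :=
    fun n => by rw [qExp_E6, coeff_map_int]
  -- integrality of `A₀`
  have hSInt : SInt l A₀ := fun n => by
    rw [hA₀, coeff_map_int]
    exact isLInt_intCast hl _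
  -- `A ≡ A₀`
  have hA : SCong l 1 (qG * qExpansion 1 E₄ + -(c 0 : ℂ) • qExpansion 1 E₆) A₀ := by
    intro n
    have key : PowerSeries.coeff n (qG * qExpansion 1 E₄ + -(c 0 : ℂ) • qExpansion 1 E₆) -
        PowerSeries.coeff n A₀ =
        PowerSeries.coeff n ((qG - PowerSeries.C (c 0 : ℂ)) * qExpansion 1 E₄) := by
      rw [sub_mul, map_add, map_sub, PowerSeries.coeff_C_mul, PowerSeries.coeff_smul, hcoeffA₀,
        hE4, hE6]
      simp only [smul_eq_mul]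
      ring
    rw [key]
    refine isLDiv_coeff_mul hl (fun m => ?_) (fun m => ?_) n
    · rw [map_sub, PowerSeries.coeff_C, hqG, hc m]
      split_ifs with hm
      · subst hm
        simpa using isLDiv_zero hl
      · rw [sub_zero]
        exact isLDiv_intCast_of_dvd hl (by simpa using hdiv m (Nat.one_le_iff_ne_zero.mpr hm))
    · rw [hE4]
      exact isLInt_intCast hl _
  -- `B ≡ V_p A₀`
  have hB : SCong l 1 ((-(p : ℂ)⁻¹) • psU p qG * Y + -(c 0 : ℂ) • psV p (qExpansion 1 E₆))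
      (psV p A₀) := by
    intro n
    have key : PowerSeries.coeff n ((-(p : ℂ)⁻¹) • psU p qG * Y +
          -(c 0 : ℂ) • psV p (qExpansion 1 E₆)) - PowerSeries.coeff n (psV p A₀) =
        PowerSeries.coeff n (((-(p : ℂ)⁻¹) • psU p qG - PowerSeries.C (c 0 : ℂ)) * Y) := by
      rw [sub_mul, map_add, map_sub, PowerSeries.coeff_C_mul, PowerSeries.coeff_smul, hY,
        coeff_psV p A₀, coeff_psV p (qExpansion 1 E₆), coeff_psV p (qExpansion 1 E₄)]
      split_ifs with hpn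
      · rw [hcoeffA₀, hE4, hE6]
        simp only [smul_eq_mul]
        ring
      · simp
    rw [key]
    refine isLDiv_coeff_mul hl (fun m => ?_) (fun m => ?_) n
    · rw [map_sub, PowerSeries.coeff_C, PowerSeries.coeff_smul, coeff_psU, hqG, hc (p * m)]
      have hinv : IsLInt l (-(p : ℂ)⁻¹) := by
        have := isLInt_mul hl (isLInt_intCast hl (-1)) (isLInt_inv_natCast hp.ne_zero hlp')
        simpa using this
      split_ifs with hm
      · subst hm
        obtain ⟨e, he⟩ := hdvd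
        have hval : -(p : ℂ)⁻¹ • ((c (p * 0) : ℤ) : ℂ) - ((c 0 : ℤ) : ℂ) =
            ((-(c 0) * ((l : ℤ) * (e : ℤ)) : ℤ) : ℂ) * (p : ℂ)⁻¹ := by
          have he' : ((p : ℂ) + 1) = (l : ℂ) * (e : ℂ) := by exact_mod_cast he
          rw [mul_zero, smul_eq_mul]
          push_cast
          rw [← he']
          field_simp
          ring
        rw [hval]
        exact isLDiv_mul_isLInt hl
          (isLDiv_intCast_of_dvd hl (Dvd.dvd.mul_left (Dvd.intro _ rfl) _))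
          (isLInt_inv_natCast hp.ne_zero hlp')
      · rw [sub_zero, smul_eq_mul]
        refine isLDiv_isLInt_mul hl hinv (isLDiv_intCast_of_dvd hl ?_)
        have hpm : 1 ≤ p * m := Nat.one_le_iff_ne_zero.mpr (Nat.mul_ne_zero hp.ne_zero hm)
        simpa using hdiv (p * m) hpm
    · rw [hY, coeff_psV]
      split_ifs
      · rw [hE4]
        exact isLInt_intCast hl _
      · simpa using isLInt_intCast hl 0
  -- low coefficients of `A₀`
  have hlow : ∀ n : ℕ, 12 * n ≤ 6 → IsLDiv l 1 (PowerSeries.coeff n A₀) := by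
    intro n hn
    have hn0 : n = 0 := by omega
    subst hn0
    rw [hcoeffA₀]
    have : ((PowerSeries.coeff 0 e4 : ℤ) : ℂ) - ((PowerSeries.coeff 0 e6 : ℤ) : ℂ) = 0 := by
      exact_mod_cast congrArg (Int.cast : ℤ → ℂ) coeff_zero_sub
    rw [this, mul_zero]
    exact isLDiv_zero hl
  -- conclusion of the trace–Sturm lemma
  have hall := hTS l hl hlp 6 _ _ A₀ hpair hSInt hA hB hlow
  have hc1 : (l : ℤ) ∣ c 0 * 744 := by
    apply dvd_of_isLDiv_intCast hl
    have := hall 1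
    rw [hcoeffA₀] at this
    have e : ((c 0 : ℤ) : ℂ) * (((PowerSeries.coeff 1 e4 : ℤ) : ℂ) -
        ((PowerSeries.coeff 1 e6 : ℤ) : ℂ)) = ((c 0 * 744 : ℤ) : ℂ) := by
      rw [← coeff_one_sub]
      push_cast
      ring
    rwa [e] at this
  have hc2 : (l : ℤ) ∣ c 0 * 18792 := by
    apply dvd_of_isLDiv_intCast hl
    have := hall 2
    rw [hcoeffA₀] at this
    have e : ((c 0 : ℤ) : ℂ) * (((PowerSeries.coeff 2 e4 : ℤ) : ℂ) -
        ((PowerSeries.coeff 2 e6 : ℤ) : ℂ)) = ((c 0 * 18792 : ℤ) : ℂ) := by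
      rw [← coeff_two_sub]
      push_cast
      ring
    rwa [e] at this
  have hc3 : (l : ℤ) ∣ c 0 * 24 := by
    have : c 0 * 24 = 4 * (c 0 * 18792) - 101 * (c 0 * 744) := by ring
    rw [this]
    exact dvd_sub (Dvd.dvd.mul_left hc2 _) (Dvd.dvd.mul_left hc1 _)
  rcases (Nat.prime_iff_prime_int.mp hl).dvd_or_dvd hc3 with h | h
  · exact h
  · exfalso
    have h24 : l ∣ 24 := by exact_mod_cast h
    have hle : l ≤ 24 := Nat.le_of_dvd (by norm_num) h24
    interval_cases l <;> first | omega | exact absurd hl (by norm_num)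

end Fermat.Agent.S16
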