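import Mathlib
import Fermat.Agent.S16.Plan

/-!
# S16, package U6: the resonant case `ℓ = 3`, `9 ∣ p + 1`

`noCongOne_three_res`: for a prime `p ≡ 8 mod 9` there is no `G ∈ M₂(Γ₀(p))` with integral
q-expansion, `a_n(G) ≡ 0 mod 9` for `n ≥ 1` and `3 ∤ a₀(G)`.

Proof (board #682 (B)), from the trace principle `PairAPI p` and the trace–Sturm lemma
`TraceSturmStmt p`, both taken as hypotheses.  With `c₀ = a₀(G)`, the weight 4 form
`ψ = (c₀² E₄ - G²) / 3` of level `p` has `ψ ≡ A₀ := 80 c₀² ∑ σ₃(n) qⁿ` and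
`ψ♭ = (c₀² E₄(pz) - (U_p G)² / p²) / 3 ≡ A₀(q^p)` modulo `3` (this uses `9 ∣ p² - 1`), and
`a₀(A₀) = 0`.  So (TS) in weight `4` gives `3 ∣ a₁(A₀) = 80 c₀²`, i.e. `3 ∣ c₀`.
-/

set_option autoImplicit false

noncomputable section

namespace Fermat.Agent.S16

open ModularCurve CuspForm UpperHalfPlane CongruenceSubgroup ModularFormClass
open scoped MatrixGroups ModularForm

namespace UThreeRes

/-- `3 · m` is divisible by `3` in `ℤ_(3)`. -/
theorem isLDiv_three_mul_int (m : ℤ) : IsLDiv 3 1 ((3 : ℂ) * (m : ℂ)) :=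
  ⟨(m : ℂ), ⟨m, 1, by norm_num, by simp⟩, by simp⟩

/-- `3 · m / p²` is divisible by `3` in `ℤ_(3)` when `3 ∤ p`. -/
theorem isLDiv_three_mul_div (p : ℕ) (hp : p.Prime) (hp3 : ¬ 3 ∣ p) (m : ℤ) :
    IsLDiv 3 1 ((3 : ℂ) * ((m : ℂ) / (p : ℂ) ^ 2)) := by
  refine ⟨(m : ℂ) / (p : ℂ) ^ 2, ⟨m, p ^ 2, ?_, ?_⟩, by simp⟩
  · intro h
    exact hp3 (Nat.prime_three.dvd_of_dvd_pow h)
  · have hp0 : (p : ℂ) ≠ 0 := Nat.cast_ne_zero.mpr hp.ne_zero
    push_cast
    field_simp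

/-- From divisibility by `3` in `ℤ_(3)` of an integer to divisibility in `ℤ`. -/
theorem int_dvd_of_isLDiv_three (m : ℤ) (h : IsLDiv 3 1 (m : ℂ)) : (3 : ℤ) ∣ m := by
  obtain ⟨t, ⟨a, d, hd, hda⟩, ht⟩ := h
  have h1 : ((d : ℤ) * m : ℤ) = 3 * a := by
    have : ((d : ℂ) * (m : ℂ)) = 3 * (a : ℂ) := by
      rw [ht, ← hda]
      push_cast
      ring
    exact_mod_cast this
  have h2 : (3 : ℤ) ∣ (d : ℤ) * m := ⟨a, h1⟩
  rcases (Int.prime_three.dvd_mul).mp h2 with h3 | h3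
  · exact absurd (by exact_mod_cast h3) hd
  · exact h3

/-- The square of an integral series which is constant modulo `9`. -/
theorem coeff_sq_of_int (Q : PowerSeries ℂ) (c : ℕ → ℤ)
    (hc : ∀ n, PowerSeries.coeff n Q = (c n : ℂ)) (hdiv : ∀ n, 1 ≤ n → (9 : ℤ) ∣ c n) :
    ∃ w : ℕ → ℤ, ∀ n, PowerSeries.coeff n (Q * Q) =
      (if n = 0 then ((c 0 : ℂ)) ^ 2 else 0) + 9 * (w n : ℂ) := by
  set cz : PowerSeries ℤ := PowerSeries.mk c with hcz
  set gz : PowerSeries ℤ := PowerSeries.mk (fun n => if n = 0 then 0 else c n / 9) with hgz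
  have h1 : cz = PowerSeries.C (c 0) + 9 * gz := by
    ext n
    have h9 : PowerSeries.coeff n ((9 : PowerSeries ℤ) * gz) = 9 * PowerSeries.coeff n gz := by
      have : (9 : PowerSeries ℤ) = PowerSeries.C (9 : ℤ) := by
        rw [map_ofNat]
      rw [this, PowerSeries.coeff_C_mul]
    rw [map_add, h9, hcz, hgz, PowerSeries.coeff_mk, PowerSeries.coeff_mk, PowerSeries.coeff_C]
    by_cases hn : n = 0
    · subst hn; simp
    · rw [if_neg hn, if_neg hn, zero_add]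
      exact (Int.mul_ediv_cancel' (hdiv n (Nat.one_le_iff_ne_zero.mpr hn))).symm
  set wz : PowerSeries ℤ := 2 * PowerSeries.C (c 0) * gz + 9 * gz ^ 2 with hwz
  have h2 : cz * cz = PowerSeries.C ((c 0) ^ 2) + 9 * wz := by
    rw [h1, hwz, map_pow]
    ring
  have h3 : Q = PowerSeries.map (Int.castRingHom ℂ) cz := by
    ext n
    rw [PowerSeries.coeff_map, hcz, PowerSeries.coeff_mk, hc n]
    rfl
  refine ⟨fun n => PowerSeries.coeff n wz, fun n => ?_⟩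
  have h9 : PowerSeries.coeff n ((9 : PowerSeries ℤ) * wz) = 9 * PowerSeries.coeff n wz := by
    have : (9 : PowerSeries ℤ) = PowerSeries.C (9 : ℤ) := by
      rw [map_ofNat]
    rw [this, PowerSeries.coeff_C_mul]
  rw [h3, ← map_mul, PowerSeries.coeff_map, h2, map_add, h9, PowerSeries.coeff_C]
  by_cases hn : n = 0
  · simp [hn]
  · simp [hn]

end UThreeRes

open UThreeRes ModularForm EisensteinSeries in
/-- **U6** (case (B) of Claim U): for `p ≡ 8 mod 9` no `G ∈ M₂(Γ₀(p))` with integral q-expansion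
is congruent to a `3`-unit constant modulo `9`. -/
theorem noCongOne_three_res (p : ℕ) [Fact p.Prime] (hT : PairAPI p) (hTS : TraceSturmStmt p)
    (h : p % 9 = 8) : NoCongOne p 3 2 := by
  intro G c hc hdiv
  have hp : p.Prime := Fact.out
  have hp0 : (p : ℂ) ≠ 0 := Nat.cast_ne_zero.mpr hp.ne_zero
  have h3p : (3 : ℕ) ≠ p := by
    rintro rfl
    omega
  have hp3 : ¬ 3 ∣ p := fun h3 => h3p ((Nat.prime_dvd_prime_iff_eq Nat.prime_three hp).mp h3)
  have hdiv9 : ∀ n, 1 ≤ n → (9 : ℤ) ∣ c n := by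
    intro n hn
    have := hdiv n hn
    norm_num at this
    exact this
  -- `p² = 1 + 9 m`
  obtain ⟨m, hm⟩ : ∃ m : ℤ, ((p : ℂ)) ^ 2 = 1 + 9 * (m : ℂ) := by
    obtain ⟨q, hq⟩ : ∃ q : ℕ, p = 9 * q + 8 := ⟨p / 9, by omega⟩
    refine ⟨9 * (q : ℤ) ^ 2 + 16 * q + 7, ?_⟩
    have : (p : ℂ) = 9 * (q : ℂ) + 8 := by exact_mod_cast hq
    rw [this]
    push_cast
    ring
  -- the q-expansions
  have hE : ∀ n, PowerSeries.coeff n (qExpansion 1 E₄) =
      if n = 0 then 1 else 240 * ((ArithmeticFunction.sigma 3 n : ℕ) : ℂ) := by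
    intro n
    have := E_qExpansion_coeff (k := 4) (by norm_num) ⟨2, rfl⟩ n
    rw [this]
    split_ifs
    · rfl
    · norm_num [show bernoulli 4 = -1 / 30 by decide +kernel]
  obtain ⟨w, hw⟩ := coeff_sq_of_int (qExpansion 1 G) c hc hdiv9
  have hc' : ∀ n, PowerSeries.coeff n (psU p (qExpansion 1 G)) = ((c (p * n) : ℤ) : ℂ) := by
    intro n
    rw [psU, PowerSeries.coeff_mk, hc]
  obtain ⟨w', hw'⟩ := coeff_sq_of_int (psU p (qExpansion 1 G)) (fun n => c (p * n)) hc'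
    (fun n hn => hdiv9 _ (Nat.mul_pos hp.pos hn))
  simp only [mul_zero] at hw'
  -- the pair `(ψ, ψ♭)`
  have P1 := hT.weightTwo G
  have P2 : IsPair p 4 _ _ := hT.mul P1 P1
  have P3 := hT.levelOne E₄
  have P4 := hT.add (hT.smul (((c 0 : ℂ)) ^ 2 / 3) P3) (hT.smul (-1 / 3 : ℂ) P2)
  set A₀ : PowerSeries ℂ := PowerSeries.mk
    (fun n => if n = 0 then (0 : ℂ) else
      80 * ((c 0 : ℂ)) ^ 2 * ((ArithmeticFunction.sigma 3 n : ℕ) : ℂ)) with hA₀
  have hA₀c : ∀ n, PowerSeries.coeff n A₀ = if n = 0 then (0 : ℂ) else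
      80 * ((c 0 : ℂ)) ^ 2 * ((ArithmeticFunction.sigma 3 n : ℕ) : ℂ) := by
    intro n
    rw [hA₀, PowerSeries.coeff_mk]
  have hSInt : SInt 3 A₀ := by
    intro n
    rw [hA₀c]
    split_ifs
    · exact ⟨0, 1, by norm_num, by simp⟩
    · exact ⟨80 * (c 0) ^ 2 * (ArithmeticFunction.sigma 3 n : ℕ), 1, by norm_num, by
        push_cast; ring⟩
  have hA : SCong 3 1
      ((((c 0 : ℂ)) ^ 2 / 3) • qExpansion 1 E₄ + (-1 / 3 : ℂ) • (qExpansion 1 G * qExpansion 1 G))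
      A₀ := by
    intro n
    rw [map_add, PowerSeries.coeff_smul, PowerSeries.coeff_smul, hE, hw, hA₀c, smul_eq_mul,
      smul_eq_mul]
    by_cases hn : n = 0
    · rw [if_pos hn, if_pos hn, if_pos hn]
      have : ((c 0 : ℂ)) ^ 2 / 3 * 1 + -1 / 3 * (((c 0 : ℂ)) ^ 2 + 9 * (w n : ℂ)) - 0 =
          (3 : ℂ) * ((-(w n) : ℤ) : ℂ) := by
        push_cast; ring
      rw [this]
      exact isLDiv_three_mul_int _
    · rw [if_neg hn, if_neg hn, if_neg hn]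
      have : ((c 0 : ℂ)) ^ 2 / 3 * (240 * ((ArithmeticFunction.sigma 3 n : ℕ) : ℂ)) +
            -1 / 3 * (0 + 9 * (w n : ℂ)) -
            80 * ((c 0 : ℂ)) ^ 2 * ((ArithmeticFunction.sigma 3 n : ℕ) : ℂ) =
          (3 : ℂ) * ((-(w n) : ℤ) : ℂ) := by
        push_cast; ring
      rw [this]
      exact isLDiv_three_mul_int _
  have hB : SCong 3 1
      ((((c 0 : ℂ)) ^ 2 / 3) • psV p (qExpansion 1 E₄) + (-1 / 3 : ℂ) •
        (((-(p : ℂ)⁻¹) • psU p (qExpansion 1 G)) * ((-(p : ℂ)⁻¹) • psU p (qExpansion 1 G))))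
      (psV p A₀) := by
    intro n
    have hmul : ((-(p : ℂ)⁻¹) • psU p (qExpansion 1 G)) * ((-(p : ℂ)⁻¹) • psU p (qExpansion 1 G))
        = (((p : ℂ)⁻¹) ^ 2) • (psU p (qExpansion 1 G) * psU p (qExpansion 1 G)) := by
      rw [smul_mul_smul_comm]
      congr 1
      ring
    rw [hmul, map_add, PowerSeries.coeff_smul, PowerSeries.coeff_smul, PowerSeries.coeff_smul,
      hw', smul_eq_mul, smul_eq_mul, smul_eq_mul]
    simp only [psV, PowerSeries.coeff_mk]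
    by_cases hn : n = 0
    · subst hn
      rw [if_pos (dvd_zero p), if_pos (dvd_zero p), Nat.zero_div, hE, hA₀c, if_pos rfl, if_pos rfl,
        if_pos rfl]
      have : ((c 0 : ℂ)) ^ 2 / 3 * 1 + -1 / 3 * (((p : ℂ)⁻¹) ^ 2 *
            (((c 0 : ℂ)) ^ 2 + 9 * (w' 0 : ℂ))) - 0 =
          (3 : ℂ) * ((((c 0) ^ 2 * m - w' 0 : ℤ) : ℂ) / (p : ℂ) ^ 2) := by
        push_cast
        field_simp
        linear_combination ((c 0 : ℂ)) ^ 2 * hm
      rw [this]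
      exact isLDiv_three_mul_div p hp hp3 _
    · rw [if_neg hn]
      by_cases hpn : p ∣ n
      · have hnp : n / p ≠ 0 := by
          intro h0
          rcases (Nat.div_eq_zero_iff).mp h0 with h1 | h1
          · exact hp.ne_zero h1
          · exact hn (Nat.eq_zero_of_dvd_of_lt hpn h1)
        rw [if_pos hpn, if_pos hpn, hE, hA₀c, if_neg hnp, if_neg hnp]
        have : ((c 0 : ℂ)) ^ 2 / 3 * (240 * ((ArithmeticFunction.sigma 3 (n / p) : ℕ) : ℂ)) +
              -1 / 3 * (((p : ℂ)⁻¹) ^ 2 * (0 + 9 * (w' n : ℂ))) -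
              80 * ((c 0 : ℂ)) ^ 2 * ((ArithmeticFunction.sigma 3 (n / p) : ℕ) : ℂ) =
            (3 : ℂ) * (((-(w' n) : ℤ) : ℂ) / (p : ℂ) ^ 2) := by
          push_cast
          field_simp
          ring
        rw [this]
        exact isLDiv_three_mul_div p hp hp3 _
      · rw [if_neg hpn, if_neg hpn]
        have : ((c 0 : ℂ)) ^ 2 / 3 * 0 + -1 / 3 * (((p : ℂ)⁻¹) ^ 2 * (0 + 9 * (w' n : ℂ))) - 0 =
            (3 : ℂ) * (((-(w' n) : ℤ) : ℂ) / (p : ℂ) ^ 2) := by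
          push_cast
          field_simp
          ring
        rw [this]
        exact isLDiv_three_mul_div p hp hp3 _
  have hlow : ∀ n : ℕ, 12 * n ≤ 4 → IsLDiv 3 1 (PowerSeries.coeff n A₀) := by
    intro n hn
    have hn0 : n = 0 := by omega
    rw [hA₀c, if_pos hn0]
    exact ⟨0, ⟨0, 1, by norm_num, by simp⟩, by simp⟩
  have key := hTS 3 Nat.prime_three h3p 4 _ _ A₀ P4 hSInt hA hB hlow 1
  rw [hA₀c, if_neg one_ne_zero] at key
  have h80 : (80 * ((c 0 : ℂ)) ^ 2 * ((ArithmeticFunction.sigma 3 1 : ℕ) : ℂ)) =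
      ((80 * (c 0) ^ 2 : ℤ) : ℂ) := by
    simp [ArithmeticFunction.sigma_apply]
  rw [h80] at key
  have h3 : (3 : ℤ) ∣ 80 * (c 0) ^ 2 := int_dvd_of_isLDiv_three _ key
  have h4 : (3 : ℤ) ∣ (c 0) ^ 2 := by
    rcases (Int.prime_three.dvd_mul).mp h3 with h5 | h5
    · norm_num at h5
    · exact h5
  exact_mod_cast Int.prime_three.dvd_of_dvd_pow h4

end Fermat.Agent.S16
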