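import Fermat.Agent.S16.Upper
import Fermat.Agent.S16.ClaimU
import Fermat.Agent.S16.CoeffPoly
import Fermat.Agent.S16.DualityStmt
import Fermat.Agent.S16.EisForm
import Fermat.Agent.S16.TraceSturm
import Fermat.Agent.S16.UThreeRes
import Fermat.Agent.S16.ULarge
import Fermat.Agent.S16.UAtP
import Fermat.Agent.S16.UDelta
import Fermat.Agent.Lib.LevelOneSturm

/-!
# S16/UpperAll: the upper bound `#𝕋/I ∣ n` from the trace principle

Assembly of the landed packages: everything except the trace principle `PairAPI p` (U1) and the
2-adic resonant case (A) (U5), which enter as hypotheses.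
-/

set_option autoImplicit false

namespace Fermat.Agent.S16

open ModularCurve CuspForm CongruenceSubgroup

/-- (St): level-one Sturm for additive subgroups (`Lib/LevelOneSturm`). -/
theorem sturmLow : SturmLow :=
  fun M k g h => Fermat.Agent.Lib.LevelOneSturm.coeff_mem_of_le M k g h

/-- Claim U from the trace principle and case (A). -/
theorem claimU_of_pairAPI (p : ℕ) [Fact p.Prime] (hT : PairAPI p)
    (hA : p % 8 = 7 → NoCongOne p 2 3) : ClaimU p :=
  claimU_of_cases p hA (noCongOne_three_res p hT (traceSturm p hT sturmLow))
    (fun l hl h5 hlp hdvd => noCongOne_large p hT (traceSturm p hT sturmLow) l hl h5 hlp hdvd)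
    (noCongOne_self p hT sturmLow)
    (fun l hl hlp a ha => noCongOne_delta p hT sturmLow l hl hlp a ha)

/-- The upper bound from the trace principle and case (A). -/
theorem upperBound_of_pairAPI (p : ℕ) [Fact p.Prime] (hT : PairAPI p)
    (hA : p % 8 = 7 → NoCongOne p 2 3) : UpperBound p :=
  upper p (duality' p) (coeffPoly p) (eisForm p) (claimU_of_pairAPI p hT hA)

end Fermat.Agent.S16
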