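import Fermat.Agent.S16.Upper
import Fermat.Agent.S16.CoeffPoly
import Fermat.Agent.Lib.IntLatticeCongr

/-!
# S16: glue between "a cusp form congruent to `∑ σ'(k) qᵏ`" and the bounds of `S16/Plan`

Write `CongSigma p M` for: there is `f ∈ S₂(Γ₀(p))` with `a_k(f) ≡ σ'(k) mod M` for all `k ≥ 1`
(stated inline below, with the `sigmaP` of `S16/Plan`).

* `dvd_of_congSigma` (g1): Claim U and the Eisenstein series give `CongSigma p M → M ∣ n`.
* `lowerBound_of_congSigma` (g2a): `CongSigma p n → LowerBound p`  (no duality needed).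
* `congSigma_of_lowerBound` (g2b): `LowerBound p → CongSigma p n`  (duality + the polynomials
  `t_k`).
-/

set_option autoImplicit false
set_option linter.unusedSectionVars false

noncomputable section

namespace Fermat.Agent.S16

open ModularCurve CuspForm CongruenceSubgroup ModularFormClass UpperHalfPlane

namespace Glue

open Fermat.Agent.Lib.IntLatticeCongr Fermat.Agent.Lib.CoeffLattice CoeffPolyAux

theorem sigmaP_one {p : ℕ} (hp : p.Prime) : sigmaP p 1 = 1 := by
  have : (Nat.divisors 1).filter (fun d => ¬ p ∣ d) = {1} := by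
    rw [Nat.divisors_one]
    ext d
    simp only [Finset.mem_filter, Finset.mem_singleton]
    constructor
    · exact fun h => h.1
    · rintro rfl
      exact ⟨rfl, hp.one_lt.ne' ∘ Nat.dvd_one.mp⟩
  rw [sigmaP, this, Finset.sum_singleton]

variable {p : ℕ} [Fact p.Prime]

theorem qCoeff_zero_cusp (f : CuspForm (Gamma0 p) 2) : qCoeff f 0 = 0 :=
  coeffLin_zero_index p 2 f

/-- A cusp form whose coefficients of index `≥ 1` are integers lies in the lattice. -/
theorem mem_intLattice_of_pos (f : CuspForm (Gamma0 p) 2)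
    (h : ∀ k : ℕ, 1 ≤ k → ∃ m : ℤ, qCoeff f k = (m : ℂ)) : f ∈ intLattice p 2 := by
  rw [mem_intLattice_iff]
  intro k
  rcases Nat.eq_zero_or_pos k with rfl | hk
  · exact ⟨0, by rw [qCoeff_zero_cusp]; simp⟩
  · exact h k hk

theorem qCoeff_heckeT (q : Nat.Primes) (h : ¬ (q : ℕ) ∣ p) (f : CuspForm (Gamma0 p) 2)
    (k : ℕ) :
    qCoeff (heckeTLin 2 q.2 h f) k =
      qCoeff f (k * q) + if (q : ℕ) ∣ k then (q : ℂ) * qCoeff f (k / q) else 0 := by
  have := coeffLin_heckeT p 2 q.2 h k f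
  simp only [← qCoeff_eq] at this
  rw [this]
  norm_num

theorem qCoeff_heckeU (q : Nat.Primes) (h : (q : ℕ) ∣ p) (f : CuspForm (Gamma0 p) 2) (k : ℕ) :
    qCoeff (heckeULin 2 h f) k = qCoeff f (k * q) := by
  have := coeffLin_heckeU p 2 q.2 h k f
  simpa only [← qCoeff_eq] using this

/-- The action of a Hecke polynomial on cusp forms. -/
def act (p : ℕ) [NeZero p] (P : HeckeAlg) : Module.End ℂ (CuspForm (Gamma0 p) 2) :=
  (heckeEvalForms p 2 P : heckeAlgebra p 2 ∅).1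

theorem act_mem (P : HeckeAlg) {g : CuspForm (Gamma0 p) 2} (hg : g ∈ intLattice p 2) :
    act p P g ∈ intLattice p 2 :=
  mem_intLattice_of_mem_heckeAlgebra one_le_two (heckeEvalForms p 2 P).2 hg

theorem act_add (P Q : HeckeAlg) (f : CuspForm (Gamma0 p) 2) :
    act p (P + Q) f = act p P f + act p Q f := by
  unfold act
  rw [map_add]
  rfl

theorem act_mul (P Q : HeckeAlg) (f : CuspForm (Gamma0 p) 2) :
    act p (P * Q) f = act p P (act p Q f) := by
  unfold act
  rw [map_mul]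
  rfl

theorem act_C (a : ℤ) (f : CuspForm (Gamma0 p) 2) : act p (MvPolynomial.C a) f = a • f := by
  unfold act
  rw [heckeEvalForms_C]
  simp

theorem act_X_of_not_dvd (q : Nat.Primes) (h : ¬ (q : ℕ) ∣ p) (f : CuspForm (Gamma0 p) 2) :
    act p (MvPolynomial.X q) f = heckeTLin 2 q.2 h f := by
  unfold act
  have := heckeEvalForms_heckeGen_of_not_dvd (N := p) (k := 2) h
  rw [show (MvPolynomial.X q : HeckeAlg) = heckeGen q from rfl, this]
  rfl

theorem act_X_of_dvd (q : Nat.Primes) (h : (q : ℕ) ∣ p) (f : CuspForm (Gamma0 p) 2) :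
    act p (MvPolynomial.X q) f = heckeULin 2 h f := by
  unfold act
  have := heckeEvalForms_heckeGen_of_dvd (N := p) (k := 2) h
  rw [show (MvPolynomial.X q : HeckeAlg) = heckeGen q from rfl, this]
  rfl

theorem chiE_X_of_not_dvd (q : Nat.Primes) (h : ¬ (q : ℕ) ∣ p) :
    chiE p (MvPolynomial.X q) = 1 + (q : ℤ) := by
  simp [chiE, eisensteinSystem_of_not_dvd h]

theorem chiE_X_of_dvd (q : Nat.Primes) (h : (q : ℕ) ∣ p) :
    chiE p (MvPolynomial.X q) = 1 := by
  simp [chiE, eisensteinSystem_of_dvd h]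

/-- The integral coefficient data of a form congruent to `∑ σ'(k) qᵏ` modulo `n`. -/
structure CongData (p n : ℕ) (f : CuspForm (Gamma0 p) 2) (A : ℕ → ℤ) : Prop where
  coeff : ∀ k, qCoeff f k = (A k : ℂ)
  zero : A 0 = 0
  cong : ∀ k, 1 ≤ k → (n : ℤ) ∣ A k - (sigmaP p k : ℤ)

theorem exists_congData (n : ℕ) (f : CuspForm (Gamma0 p) 2)
    (hf : ∀ k : ℕ, 1 ≤ k → ∃ c : ℤ, qCoeff (⇑f) k = (sigmaP p k : ℂ) + (n : ℂ) * (c : ℂ)) :
    ∃ A : ℕ → ℤ, CongData p n f A := by
  choose! c hc using hf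
  refine ⟨fun k => if k = 0 then 0 else (sigmaP p k : ℤ) + (n : ℤ) * c k, ?_, ?_, ?_⟩
  · intro k
    by_cases hk : k = 0
    · subst hk
      rw [qCoeff_zero_cusp]
      simp
    · rw [if_neg hk, hc k (Nat.one_le_iff_ne_zero.mpr hk)]
      push_cast
      ring
  · simp
  · intro k hk
    rw [if_neg (Nat.one_le_iff_ne_zero.mp hk)]
    exact ⟨c k, by ring⟩

theorem CongData.mem {n : ℕ} {f : CuspForm (Gamma0 p) 2} {A : ℕ → ℤ} (h : CongData p n f A) :
    f ∈ intLattice p 2 :=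
  mem_intLattice_of_pos f fun k _ => ⟨A k, h.coeff k⟩

/-- `f` is an eigenvector modulo `n` of the generators, with the Eisenstein eigenvalues. -/
theorem exists_eigen {n : ℕ} (hn : n ≠ 0) {f : CuspForm (Gamma0 p) 2} {A : ℕ → ℤ}
    (h : CongData p n f A) (q : Nat.Primes) :
    ∃ g ∈ intLattice p 2, act p (MvPolynomial.X q) f - chiE p (MvPolynomial.X q) • f =
      (n : ℤ) • g := by
  have hp : p.Prime := Fact.out
  have hn' : (n : ℤ) ≠ 0 := by exact_mod_cast hn
  apply exists_zsmul_of_dvd_qCoeff hn'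
  intro k
  by_cases hq : (q : ℕ) ∣ p
  · -- `U_p`
    have hqp : (q : ℕ) = p := (Nat.prime_dvd_prime_iff_eq q.2 hp).mp hq
    rw [act_X_of_dvd q hq, chiE_X_of_dvd q hq, qCoeff_sub, qCoeff_zsmul, qCoeff_heckeU q hq,
      h.coeff, h.coeff]
    have hdvd : (n : ℤ) ∣ A (k * q) - 1 * A k := by
      rcases Nat.eq_zero_or_pos k with rfl | hk
      · simp
      · have h1 := h.cong (k * q) (Nat.mul_pos hk q.2.pos)
        have h2 := h.cong k hk
        rw [hqp, sigmaP_mul_self hp hk.ne'] at h1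
        have : A (k * p) - 1 * A k = (A (k * p) - (sigmaP p k : ℤ)) - (A k - (sigmaP p k : ℤ)) := by
          ring
        rw [hqp, this]
        exact dvd_sub h1 h2
    obtain ⟨m, hm⟩ := hdvd
    refine ⟨m, ?_⟩
    have : ((A (k * q) : ℤ) : ℂ) - ((1 : ℤ) : ℂ) * ((A k : ℤ) : ℂ) = ((A (k * q) - 1 * A k : ℤ) : ℂ) := by
      push_cast; ring
    rw [this, hm]
    push_cast
    ring
  · -- `T_ℓ`
    rw [act_X_of_not_dvd q hq, chiE_X_of_not_dvd q hq, qCoeff_sub, qCoeff_zsmul,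
      qCoeff_heckeT q hq]
    simp only [h.coeff]
    have hdvd : (n : ℤ) ∣ A (k * q) + (if (q : ℕ) ∣ k then (q : ℤ) * A (k / q) else 0) -
        (1 + (q : ℤ)) * A k := by
      rcases Nat.eq_zero_or_pos k with rfl | hk
      · simp [h.zero]
      · have h1 := h.cong (k * q) (Nat.mul_pos hk q.2.pos)
        have h2 := h.cong k hk
        have hs := sigmaP_mul_prime hp q.2 hq hk.ne'
        by_cases hqk : (q : ℕ) ∣ k
        · have h3 := h.cong (k / q) (Nat.div_pos (Nat.le_of_dvd hk hqk) q.2.pos)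
          rw [if_pos hqk] at hs ⊢
          have hs' : ((sigmaP p (k * q) : ℕ) : ℤ) + (q : ℤ) * (sigmaP p (k / q) : ℤ) =
              (1 + (q : ℤ)) * (sigmaP p k : ℤ) := by exact_mod_cast hs
          have : A (k * q) + (q : ℤ) * A (k / q) - (1 + (q : ℤ)) * A k =
              (A (k * q) - (sigmaP p (k * q) : ℤ)) + (q : ℤ) * (A (k / q) - (sigmaP p (k / q) : ℤ))
                - (1 + (q : ℤ)) * (A k - (sigmaP p k : ℤ)) := by
            linear_combination hs'
          rw [this]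
          exact dvd_sub (dvd_add h1 (Dvd.dvd.mul_left h3 _)) (Dvd.dvd.mul_left h2 _)
        · rw [if_neg hqk] at hs ⊢
          have hs' : ((sigmaP p (k * q) : ℕ) : ℤ) + 0 = (1 + (q : ℤ)) * (sigmaP p k : ℤ) := by
            exact_mod_cast hs
          have : A (k * q) + 0 - (1 + (q : ℤ)) * A k =
              (A (k * q) - (sigmaP p (k * q) : ℤ)) - (1 + (q : ℤ)) * (A k - (sigmaP p k : ℤ)) := by
            linear_combination hs'
          rw [this]
          exact dvd_sub h1 (Dvd.dvd.mul_left h2 _)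
    obtain ⟨m, hm⟩ := hdvd
    refine ⟨m, ?_⟩
    have : ((A (k * q) : ℤ) : ℂ) + (if (q : ℕ) ∣ k then (q : ℂ) * ((A (k / q) : ℤ) : ℂ) else 0) -
        ((1 + (q : ℤ) : ℤ) : ℂ) * ((A k : ℤ) : ℂ) =
        ((A (k * q) + (if (q : ℕ) ∣ k then (q : ℤ) * A (k / q) else 0) - (1 + (q : ℤ)) * A k : ℤ) : ℂ) := by
      split_ifs <;> push_cast <;> ring
    rw [this, hm]
    push_cast
    ring

/-- Every Hecke polynomial acts on `f` through the Eisenstein character, modulo `n`. -/
theorem exists_act_sub {n : ℕ} (hn : n ≠ 0) {f : CuspForm (Gamma0 p) 2} {A : ℕ → ℤ}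
    (h : CongData p n f A) (P : HeckeAlg) :
    ∃ g ∈ intLattice p 2, act p P f - chiE p P • f = (n : ℤ) • g := by
  induction P using MvPolynomial.induction_on with
  | C a =>
    refine ⟨0, Submodule.zero_mem _, ?_⟩
    rw [act_C, chiE_C, sub_self, smul_zero]
  | add P Q hP hQ =>
    obtain ⟨g₁, hg₁, e₁⟩ := hP
    obtain ⟨g₂, hg₂, e₂⟩ := hQ
    refine ⟨g₁ + g₂, Submodule.add_mem _ hg₁ hg₂, ?_⟩
    rw [act_add, map_add, add_smul, smul_add, ← e₁, ← e₂]
    abel
  | mul_X P q hP =>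
    obtain ⟨g, hg, e⟩ := hP
    obtain ⟨gq, hgq, eq⟩ := exists_eigen hn h q
    refine ⟨chiE p (MvPolynomial.X q) • g + act p P gq,
      Submodule.add_mem _ (Submodule.smul_mem _ _ hg) (act_mem P hgq), ?_⟩
    have e1 : act p (MvPolynomial.X q) f = chiE p (MvPolynomial.X q) • f + (n : ℤ) • gq := by
      rw [← eq]; abel
    have e2 : act p P f = chiE p P • f + (n : ℤ) • g := by
      rw [← e]; abel
    rw [act_mul, e1, map_add, map_zsmul, map_zsmul, e2, map_mul]
    simp only [smul_add, mul_smul]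
    rw [smul_comm (chiE p (MvPolynomial.X q)) (n : ℤ) g,
      smul_comm (chiE p (MvPolynomial.X q)) (chiE p P) f]
    abel

end Glue

open Glue Fermat.Agent.Lib.IntLatticeCongr in
/-- **(g2a)** A cusp form congruent to `∑ σ'(k) qᵏ` modulo `n = eisensteinNumerator p` gives the
lower bound. -/
theorem lowerBound_of_congSigma (p : ℕ) [Fact p.Prime] (f : CuspForm (Gamma0 p) 2)
    (hf : ∀ k : ℕ, 1 ≤ k → ∃ c : ℤ,
      qCoeff (⇑f) k = (sigmaP p k : ℂ) + (eisensteinNumerator p : ℂ) * (c : ℂ)) :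
    LowerBound p := by
  have hp : p.Prime := Fact.out
  set n := eisensteinNumerator p with hn
  have hn0 : n ≠ 0 := by
    rw [hn, eisensteinNumerator]
    have h1 : 0 < p - 1 := Nat.sub_pos_of_lt hp.one_lt
    exact (Nat.div_pos (Nat.le_of_dvd h1 (Nat.gcd_dvd_left _ _)) (Nat.gcd_pos_of_pos_left _ h1)).ne'
  obtain ⟨A, hA⟩ := exists_congData n f hf
  intro P hP
  obtain ⟨g, hg, e⟩ := exists_act_sub hn0 hA P
  -- `ev p P = 0` kills `f`
  have hzero : act p P f = 0 := by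
    have h1 := ev_apply_coe p P ⟨f, hA.mem⟩
    rw [hP] at h1
    exact h1.symm
  rw [hzero, zero_sub] at e
  -- compare the coefficients of `q`
  obtain ⟨m, hm⟩ := (mem_intLattice_iff g).mp hg 1
  have h1 : qCoeff (⇑(-(chiE p P • f))) 1 = qCoeff (⇑((n : ℤ) • g)) 1 := by rw [e]
  rw [← neg_zsmul, qCoeff_zsmul, qCoeff_zsmul, hA.coeff, hm] at h1
  have h2 : -(chiE p P) * A 1 = (n : ℤ) * m := by exact_mod_cast h1
  obtain ⟨c, hc⟩ := hA.cong 1 le_rfl
  rw [sigmaP_one hp] at hc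
  have h3 : A 1 = 1 + (n : ℤ) * c := by push_cast at hc; linarith
  rw [h3] at h2
  exact ⟨-m - chiE p P * c, by linarith⟩

open Glue Fermat.Agent.Lib.IntLatticeCongr in
/-- **(g2b)** Conversely, the lower bound produces (by duality) a cusp form congruent to
`∑ σ'(k) qᵏ` modulo `n = eisensteinNumerator p`. -/
theorem congSigma_of_lowerBound (p : ℕ) [Fact p.Prime] (hD : DualityStmt p)
    (hC : CoeffPolyStmt p) (hLB : LowerBound p) :
    ∃ f : CuspForm (Gamma0 p) 2, ∀ k : ℕ, 1 ≤ k → ∃ c : ℤ,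
      qCoeff (⇑f) k = (sigmaP p k : ℂ) + (eisensteinNumerator p : ℂ) * (c : ℂ) := by
  -- a `ℤ`-linear section of `ev`
  obtain ⟨s, hs⟩ := Module.projective_lifting_property
    (ev p).toAddMonoidHom.toIntLinearMap
    (LinearMap.id : ↥(heckeLatticeAlgebra p ∅) →ₗ[ℤ] ↥(heckeLatticeAlgebra p ∅))
    (ev_surjective p)
  have hs' : ∀ t : ↥(heckeLatticeAlgebra p ∅), ev p (s t) = t := fun t =>
    LinearMap.congr_fun hs t
  let ψ : ↥(heckeLatticeAlgebra p ∅) →ₗ[ℤ] ℤ := (chiE p).toAddMonoidHom.toIntLinearMap ∘ₗ s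
  obtain ⟨F, hF⟩ := hD ψ
  refine ⟨(F : CuspForm (Gamma0 p) 2), fun k hk => ?_⟩
  obtain ⟨t, ht, htf⟩ := hC k hk
  have h1 := hF (ev p t)
  rw [ev_apply_coe] at h1
  have h2 : qCoeff (⇑(F : CuspForm (Gamma0 p) 2)) k = ((ψ (ev p t) : ℤ) : ℂ) := by
    rw [← htf (F : CuspForm (Gamma0 p) 2), h1]
  have h3 : ev p (s (ev p t) - t) = 0 := by rw [map_sub, hs', sub_self]
  obtain ⟨c, hc⟩ := hLB _ h3
  rw [map_sub, ht] at hc
  refine ⟨c, ?_⟩
  have h4 : ψ (ev p t) = (sigmaP p k : ℤ) + (eisensteinNumerator p : ℤ) * c := by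
    have : ψ (ev p t) = chiE p (s (ev p t)) := rfl
    rw [this]
    linarith
  rw [h2, h4]
  push_cast
  ring

/-- **(g1)** Claim U and the Eisenstein series: a cusp form congruent to `∑ σ'(k) qᵏ` modulo `M`
forces `M ∣ eisensteinNumerator p`. -/
theorem dvd_of_congSigma (p : ℕ) [Fact p.Prime] (hE : EisFormStmt p) (hU : ClaimU p) (M : ℕ)
    (f : CuspForm (Gamma0 p) 2)
    (hf : ∀ k : ℕ, 1 ≤ k → ∃ c : ℤ, qCoeff (⇑f) k = (sigmaP p k : ℂ) + (M : ℂ) * (c : ℂ)) :
    M ∣ eisensteinNumerator p := by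
  obtain ⟨E, hE0, hEn⟩ := hE
  have hΓ := CongruenceSubgroup.one_mem_strictPeriods_Gamma0 p
  let G : ModularForm (Gamma0 p) 2 := E - CuspForm.toModularFormₗ f
  have hGq : qExpansion 1 G = qExpansion 1 E - qExpansion 1 f := by
    have h1 : (⇑G : ℍ → ℂ) = ⇑E - ⇑f := rfl
    rw [h1]
    exact ModularForm.qExpansion_sub one_pos hΓ E f
  choose! c hc using hf
  refine hU G M (fun k => -c k) ?_ ?_
  · rw [hGq, map_sub, hE0, CuspFormClass.qExpansion_coeff_zero f one_pos hΓ, sub_zero]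
  · intro k hk
    have := hc k hk
    rw [qCoeff] at this
    rw [hGq, map_sub, hEn k hk, this]
    push_cast
    ring

end Fermat.Agent.S16
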