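import Mathlib
import Fermat.Prelude.Def_CuspForm_HeckeLocal
import Fermat.Prelude.Def_CuspForm_HeckeEvalForms
import Fermat.Prelude.Def_HeckeGalois_EichlerShimura
import Fermat.Agent.S49.QCoeff

/-!
# S16: reduction of the Eisenstein index to two `q`-expansion statements

`natCard_quotient_eq`: for a prime `p` and `n ≠ 0`, the cardinality of the Hecke ring of the
integral lattice of weight-2 cusp forms of level `p` modulo the Eisenstein ideal equals `n`,
provided

* (lower bound) some cusp form is congruent to `∑ σ'(k) q^k` modulo `n`, and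
* (upper bound) whenever a cusp form is congruent to `∑ σ'(k) q^k` modulo `M`, `M ∣ n`.

Here `σ'(k) = sigmaP p k` is the sum of the divisors of `k` prime to `p`.
-/

set_option autoImplicit false
set_option linter.unusedSectionVars false

namespace Fermat.Agent.S16.Reduction

open ModularCurve CuspForm ModularFormClass CongruenceSubgroup
open Fermat.Agent.S49.QCoeff

/-- `σ'(k)`: the sum of the divisors of `k` prime to `p`. -/
def sigmaP (p k : ℕ) : ℕ := ∑ d ∈ k.divisors with ¬ p ∣ d, d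

theorem sigmaP_eq_sum_ite (p k : ℕ) :
    sigmaP p k = ∑ d ∈ k.divisors, if p ∣ d then 0 else d := by
  unfold sigmaP
  rw [Finset.sum_filter]
  refine Finset.sum_congr rfl fun d _ => ?_
  by_cases h : p ∣ d <;> simp [h]

theorem sigmaP_zero (p : ℕ) : sigmaP p 0 = 0 := by
  simp [sigmaP]

theorem sigmaP_one (p : ℕ) (hp : p.Prime) : sigmaP p 1 = 1 := by
  rw [sigmaP_eq_sum_ite]
  simp [hp.one_lt.ne']

/-- divisors of `ℓ * k` for `ℓ` prime. -/
theorem divisors_prime_mul {ℓ k : ℕ} (hℓ : ℓ.Prime) (hk : k ≠ 0) :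
    (ℓ * k).divisors = k.divisors ∪ k.divisors.image (ℓ * ·) := by
  ext d
  simp only [Nat.mem_divisors, Finset.mem_union, Finset.mem_image]
  constructor
  · rintro ⟨hd, -⟩
    by_cases hℓd : ℓ ∣ d
    · obtain ⟨d', rfl⟩ := hℓd
      exact Or.inr ⟨d', ⟨(Nat.mul_dvd_mul_iff_left hℓ.pos).mp hd, hk⟩, rfl⟩
    · have hcop : Nat.Coprime d ℓ := (Nat.Prime.coprime_iff_not_dvd hℓ).mpr hℓd |>.symm
      exact Or.inl ⟨hcop.dvd_of_dvd_mul_left hd, hk⟩
  · rintro (⟨hd, -⟩ | ⟨d', ⟨hd', -⟩, rfl⟩)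
    · exact ⟨dvd_mul_of_dvd_right hd ℓ, mul_ne_zero hℓ.ne_zero hk⟩
    · exact ⟨Nat.mul_dvd_mul_left ℓ hd', mul_ne_zero hℓ.ne_zero hk⟩

theorem divisors_inter_image {ℓ k : ℕ} (hℓ : ℓ.Prime) (hk : k ≠ 0) :
    k.divisors ∩ k.divisors.image (ℓ * ·) =
      if ℓ ∣ k then (k / ℓ).divisors.image (ℓ * ·) else ∅ := by
  ext d
  simp only [Finset.mem_inter, Nat.mem_divisors, Finset.mem_image]
  split_ifs with h
  · simp only [Finset.mem_image, Nat.mem_divisors]
    constructor
    · rintro ⟨⟨hd, -⟩, d', -, rfl⟩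
      refine ⟨d', ⟨?_, ?_⟩, rfl⟩
      · exact (Nat.dvd_div_iff_mul_dvd h).mpr hd
      · exact (Nat.div_pos (Nat.le_of_dvd (Nat.pos_of_ne_zero hk) h) hℓ.pos).ne'
    · rintro ⟨d', ⟨hd', -⟩, rfl⟩
      have h1 : ℓ * d' ∣ k := (Nat.dvd_div_iff_mul_dvd h).mp hd'
      exact ⟨⟨h1, hk⟩, d', ⟨dvd_trans (dvd_mul_left d' ℓ) h1, hk⟩, rfl⟩
  · simp only [Finset.notMem_empty, iff_false]
    rintro ⟨⟨hd, -⟩, d', -, rfl⟩
    exact h (dvd_trans (dvd_mul_right ℓ d') hd)

theorem sum_image_prime_mul {ℓ : ℕ} (hℓ : ℓ.Prime) (s : Finset ℕ) (g : ℕ → ℕ) :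
    ∑ d ∈ s.image (ℓ * ·), g d = ∑ d ∈ s, g (ℓ * d) :=
  Finset.sum_image fun _ _ _ _ h => Nat.eq_of_mul_eq_mul_left hℓ.pos h

/-- Hecke relation at a prime `ℓ ≠ p`. -/
theorem sigmaP_prime_mul {p ℓ k : ℕ} (hp : p.Prime) (hℓ : ℓ.Prime) (hℓp : ℓ ≠ p) (hk : k ≠ 0) :
    sigmaP p (ℓ * k) + (if ℓ ∣ k then ℓ * sigmaP p (k / ℓ) else 0) = (1 + ℓ) * sigmaP p k := by
  have hg : ∀ d : ℕ, (if p ∣ ℓ * d then 0 else ℓ * d) = ℓ * (if p ∣ d then 0 else d) := by
    intro d
    have : p ∣ ℓ * d ↔ p ∣ d := by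
      constructor
      · intro h
        rcases (Nat.Prime.dvd_mul hp).mp h with h | h
        · exact absurd ((Nat.prime_dvd_prime_iff_eq hp hℓ).mp h).symm hℓp
        · exact h
      · exact fun h => dvd_mul_of_dvd_right h ℓ
    by_cases h : p ∣ d <;> simp [this, h]
  have key := Finset.sum_union_inter (s₁ := k.divisors) (s₂ := k.divisors.image (ℓ * ·))
    (f := fun d => if p ∣ d then 0 else d)
  rw [← divisors_prime_mul hℓ hk, divisors_inter_image hℓ hk, sum_image_prime_mul hℓ] at key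
  simp only [hg, ← Finset.mul_sum, ← sigmaP_eq_sum_ite] at key
  split_ifs at key ⊢ with h
  · rw [sum_image_prime_mul hℓ] at key
    simp only [hg, ← Finset.mul_sum, ← sigmaP_eq_sum_ite] at key
    rw [key]; ring
  · simp only [Finset.sum_empty] at key
    rw [key]; ring

/-- `U_p` relation. -/
theorem sigmaP_self_mul {p k : ℕ} (hp : p.Prime) (hk : k ≠ 0) :
    sigmaP p (p * k) = sigmaP p k := by
  have hg : ∀ d : ℕ, (if p ∣ p * d then 0 else p * d) = 0 := by
    intro d; simp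
  have key := Finset.sum_union_inter (s₁ := k.divisors) (s₂ := k.divisors.image (p * ·))
    (f := fun d => if p ∣ d then 0 else d)
  rw [← divisors_prime_mul hp hk, sum_image_prime_mul hp] at key
  simp only [hg, Finset.sum_const_zero, add_zero, ← sigmaP_eq_sum_ite] at key
  have h0 : ∑ d ∈ k.divisors ∩ k.divisors.image (p * ·), (if p ∣ d then 0 else d) = 0 := by
    refine Finset.sum_eq_zero fun d hd => ?_
    obtain ⟨d', -, rfl⟩ := Finset.mem_image.mp (Finset.mem_inter.mp hd).2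
    simp
  rw [h0, add_zero] at key
  exact key

/-- There is a cusp form of weight 2 and level `p` congruent to `∑ σ'(k) q^k` modulo `M`. -/
def CongSigma (p M : ℕ) : Prop :=
  ∃ f : CuspForm (CongruenceSubgroup.Gamma0 p) 2, ∀ k : ℕ, 1 ≤ k → ∃ c : ℤ,
    ModularFormClass.qCoeff (⇑f) k = (sigmaP p k : ℂ) + (M : ℂ) * (c : ℂ)

/-! ### A general lemma on quotients generated by the integers -/

theorem exists_natCard_quotient {R : Type*} [CommRing R] (J : Ideal R)
    (hJ : ∀ t : R, ∃ a : ℤ, t - (a : R) ∈ J) :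
    ∃ m : ℕ, Nat.card (R ⧸ J) = m ∧ ∀ a : ℤ, ((a : R) ∈ J ↔ (m : ℤ) ∣ a) := by
  set f : ℤ →+* R ⧸ J := Int.castRingHom (R ⧸ J) with hf
  have hsurj : Function.Surjective f := by
    intro x
    obtain ⟨t, rfl⟩ := Ideal.Quotient.mk_surjective x
    obtain ⟨a, ha⟩ := hJ t
    refine ⟨a, ?_⟩
    rw [hf, eq_intCast, ← map_intCast (Ideal.Quotient.mk J)]
    exact (Ideal.Quotient.eq.mpr ha).symm
  set m : ℕ := (Submodule.IsPrincipal.generator (RingHom.ker f)).natAbs with hm
  have hK : RingHom.ker f = Ideal.span {(m : ℤ)} := by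
    rw [hm, Int.span_natAbs]
    exact (Submodule.IsPrincipal.span_singleton_generator (RingHom.ker f)).symm
  refine ⟨m, ?_, fun a => ?_⟩
  · have e1 := RingHom.quotientKerEquivOfSurjective hsurj
    rw [← Nat.card_congr e1.toEquiv, hK,
      Nat.card_congr (Int.quotientSpanEquivZMod (m : ℤ)).toEquiv, Int.natAbs_natCast,
      Nat.card_zmod]
  · rw [← Ideal.mem_span_singleton, ← hK, RingHom.mem_ker, hf, eq_intCast,
      ← map_intCast (Ideal.Quotient.mk J), Ideal.Quotient.eq_zero_iff_mem]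

theorem exists_lift_of_surj {R : Type*} [CommRing R] [Module.Free ℤ R] (J : Ideal R)
    (hJ : ∀ t : R, ∃ a : ℤ, t - (a : R) ∈ J) :
    ∃ lam : R →ₗ[ℤ] ℤ, ∀ t : R, t - ((lam t : ℤ) : R) ∈ J := by
  have hsurj : Function.Surjective (Algebra.linearMap ℤ (R ⧸ J)) := by
    intro x
    obtain ⟨t, rfl⟩ := Ideal.Quotient.mk_surjective x
    obtain ⟨a, ha⟩ := hJ t
    refine ⟨a, ?_⟩
    rw [Algebra.linearMap_apply, eq_intCast, ← map_intCast (Ideal.Quotient.mk J)]
    exact (Ideal.Quotient.eq.mpr ha).symm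
  obtain ⟨lam, hlam⟩ := Module.projective_lifting_property (Algebra.linearMap ℤ (R ⧸ J))
    ((Ideal.Quotient.mkₐ ℤ J).toLinearMap) hsurj
  refine ⟨lam, fun t => ?_⟩
  have h := LinearMap.congr_fun hlam t
  rw [LinearMap.comp_apply, Algebra.linearMap_apply, eq_intCast,
    ← map_intCast (Ideal.Quotient.mk J)] at h
  exact Ideal.Quotient.eq.mp h.symm

variable (p : ℕ) [Fact p.Prime]

/-- the lattice of cusp forms with integral `q`-expansion -/
abbrev Lat : Type := ↥(CuspForm.intLattice p 2)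

/-- the Hecke ring acting on the lattice -/
abbrev Hk : Type := ↥(CuspForm.heckeLatticeAlgebra p ∅)

/-- Hecke polynomials acting on complex cusp forms. -/
noncomputable def opC : HeckeAlg →+* Module.End ℂ (CuspForm (Gamma0 p) 2) :=
  ((CuspForm.heckeAlgebra p 2 ∅).val : ↥(CuspForm.heckeAlgebra p 2 ∅) →+* _).comp
    (CuspForm.heckeEvalForms p 2)

theorem opC_apply (P : HeckeAlg) :
    opC p P = ((CuspForm.heckeEvalForms p 2 P : ↥(CuspForm.heckeAlgebra p 2 ∅)) :
      Module.End ℂ (CuspForm (Gamma0 p) 2)) := rfl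

theorem opC_mem (P : HeckeAlg) : opC p P ∈ CuspForm.heckeAlgebra p 2 ∅ :=
  (CuspForm.heckeEvalForms p 2 P).2

theorem opC_heckeGen_of_dvd {q : Nat.Primes} (h : (q : ℕ) ∣ p) :
    opC p (heckeGen q) = CuspForm.heckeULin 2 h := by
  rw [opC_apply, CuspForm.heckeEvalForms_heckeGen_of_dvd h, CuspForm.heckeAlgebra.coe_U]

theorem opC_heckeGen_of_not_dvd {ℓ : Nat.Primes} (h : ¬ (ℓ : ℕ) ∣ p) :
    opC p (heckeGen ℓ) = CuspForm.heckeTLin 2 ℓ.2 h := by
  rw [opC_apply, CuspForm.heckeEvalForms_heckeGen_of_not_dvd h, CuspForm.heckeAlgebra.coe_T]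

theorem opC_C (a : ℤ) (g : CuspForm (Gamma0 p) 2) : opC p (MvPolynomial.C a) g = a • g := by
  rw [opC_apply, CuspForm.heckeEvalForms_C]
  simp

theorem qCoeff_zsmul' (c : ℤ) (f : CuspForm (Gamma0 p) 2) (n : ℕ) :
    qCoeff (⇑(c • f)) n = c * qCoeff f n := by
  rw [← Int.cast_smul_eq_zsmul ℂ c f, qCoeff_smul]

theorem qCoeff_sub' (f g : CuspForm (Gamma0 p) 2) (n : ℕ) :
    qCoeff (⇑(f - g)) n = qCoeff f n - qCoeff g n :=
  (qCoeffLin (N := p) n).map_sub f g

/-- The Hecke operators `T_k` as polynomials, with their Eisenstein eigenvalue `σ'(k)`. -/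
theorem exists_heckePoly : ∀ k : ℕ, 1 ≤ k → ∃ P : HeckeAlg,
    (∀ g : CuspForm (Gamma0 p) 2, qCoeff ⇑(opC p P g) 1 = qCoeff ⇑g k) ∧
      MvPolynomial.aeval (eisensteinSystem p) P = (sigmaP p k : ℤ) := by
  have hp : p.Prime := Fact.out
  intro k
  induction k using Nat.strong_induction_on with
  | _ k ih =>
    intro hk
    rcases Nat.lt_or_ge k 2 with h2 | h2
    · have h1 : k = 1 := by omega
      subst h1
      refine ⟨1, fun g => ?_, ?_⟩
      · rw [map_one]; rfl
      · rw [map_one, sigmaP_one p hp]; rfl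
    · have hℓ : (k.minFac).Prime := Nat.minFac_prime (by omega)
      set ℓ := k.minFac with hℓdef
      obtain ⟨j, hj⟩ := Nat.minFac_dvd k
      rw [← hℓdef] at hj
      have hj1 : 1 ≤ j := by
        rcases Nat.eq_zero_or_pos j with rfl | hpos
        · simp at hj; omega
        · exact hpos
      have hjk : j < k := by
        have := hℓ.one_lt
        nlinarith
      obtain ⟨Pj, hPj, hPj'⟩ := ih j hjk hj1
      let q : Nat.Primes := ⟨ℓ, hℓ⟩
      by_cases hℓp : ℓ ∣ p
      · have hℓeq : ℓ = p := (Nat.prime_dvd_prime_iff_eq hℓ hp).mp hℓp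
        refine ⟨Pj * heckeGen q, fun g => ?_, ?_⟩
        · rw [map_mul, Module.End.mul_apply, hPj, opC_heckeGen_of_dvd p (q := q) hℓp,
            qCoeff_heckeULin hℓ hℓp g, ← hj]
        · rw [map_mul, hPj', aeval_heckeGen, eisensteinSystem_of_dvd (ℓ := q) hℓp, mul_one,
            hj, hℓeq, sigmaP_self_mul hp (by omega)]
      · have hℓne : ℓ ≠ p := fun h => hℓp (h ▸ dvd_rfl)
        have hrel := sigmaP_prime_mul hp hℓ hℓne (k := j) (by omega)
        by_cases hd : ℓ ∣ j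
        · have hq1 : 1 ≤ j / ℓ := Nat.div_pos (Nat.le_of_dvd hj1 hd) hℓ.pos
          have hq2 : j / ℓ < k := lt_of_le_of_lt (Nat.div_le_self _ _) hjk
          obtain ⟨Pq, hPq, hPq'⟩ := ih (j / ℓ) hq2 hq1
          rw [if_pos hd] at hrel
          refine ⟨Pj * heckeGen q - MvPolynomial.C (ℓ : ℤ) * Pq, fun g => ?_, ?_⟩
          · rw [map_sub, map_mul, map_mul, LinearMap.sub_apply, Module.End.mul_apply,
              Module.End.mul_apply, qCoeff_sub', hPj, opC_C, qCoeff_zsmul', hPq,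
              opC_heckeGen_of_not_dvd p (ℓ := q) hℓp, qCoeff_heckeTLin hℓ hℓp g,
              if_pos hd, ← hj]
            push_cast
            ring
          · rw [map_sub, map_mul, map_mul, hPj', hPq', aeval_heckeGen, MvPolynomial.aeval_C,
              eisensteinSystem_of_not_dvd (ℓ := q) hℓp, hj]
            simp only [Algebra.algebraMap_self, RingHom.id_apply]
            have : (sigmaP p (ℓ * j) : ℤ) + ℓ * sigmaP p (j / ℓ) = (1 + ℓ) * sigmaP p j := by
              exact_mod_cast hrel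
            show (sigmaP p j : ℤ) * (1 + (ℓ : ℤ)) - (ℓ : ℤ) * sigmaP p (j / ℓ) = sigmaP p (ℓ * j)
            linarith
        · rw [if_neg hd, add_zero] at hrel
          refine ⟨Pj * heckeGen q, fun g => ?_, ?_⟩
          · rw [map_mul, Module.End.mul_apply, hPj,
              opC_heckeGen_of_not_dvd p (ℓ := q) hℓp, qCoeff_heckeTLin hℓ hℓp g,
              if_neg hd, add_zero, ← hj]
          · rw [map_mul, hPj', aeval_heckeGen,
              eisensteinSystem_of_not_dvd (ℓ := q) hℓp, hj, hrel]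
            show (sigmaP p j : ℤ) * (1 + (ℓ : ℤ)) = ((1 + ℓ) * sigmaP p j : ℕ)
            push_cast
            ring

/-! ### The lattice -/

/-- integer coefficient functionals on the lattice -/
noncomputable def coeffZ (k : ℕ) : Lat p →ₗ[ℤ] ℤ where
  toFun g := Classical.choose (qCoeff_int_of_mem_intLattice g.2 k)
  map_add' g h := by
    apply Int.cast_injective (α := ℂ)
    rw [← Classical.choose_spec (qCoeff_int_of_mem_intLattice (g + h).2 k)]
    push_cast
    rw [← Classical.choose_spec (qCoeff_int_of_mem_intLattice g.2 k),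
      ← Classical.choose_spec (qCoeff_int_of_mem_intLattice h.2 k)]
    exact qCoeff_add _ _ k
  map_smul' c g := by
    apply Int.cast_injective (α := ℂ)
    rw [← Classical.choose_spec (qCoeff_int_of_mem_intLattice (c • g).2 k),
      RingHom.id_apply, smul_eq_mul, Int.cast_mul,
      ← Classical.choose_spec (qCoeff_int_of_mem_intLattice g.2 k), Submodule.coe_smul,
      ← Int.cast_smul_eq_zsmul ℂ c (g : CuspForm (Gamma0 p) 2), qCoeff_smul]

theorem coeffZ_spec (k : ℕ) (g : Lat p) :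
    ((coeffZ p k g : ℤ) : ℂ) = qCoeff ⇑(g : CuspForm (Gamma0 p) 2) k :=
  (Classical.choose_spec (qCoeff_int_of_mem_intLattice g.2 k)).symm

theorem coeffZ_zero_eq (g : Lat p) : coeffZ p 0 g = 0 := by
  apply Int.cast_injective (α := ℂ)
  rw [coeffZ_spec, qCoeff_zero_eq]; simp

theorem lat_eq_zero (g : Lat p) (h : ∀ k, 1 ≤ k → coeffZ p k g = 0) : g = 0 := by
  apply Subtype.ext
  refine eq_zero_of_qCoeff _ fun n => ?_
  rcases Nat.eq_zero_or_pos n with rfl | hn
  · exact qCoeff_zero_eq _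
  · rw [← coeffZ_spec, h n hn]; simp

theorem exists_eq_zsmul (a : ℤ) (ha : a ≠ 0) (g : Lat p)
    (h : ∀ k, 1 ≤ k → a ∣ coeffZ p k g) : ∃ g' : Lat p, g = a • g' := by
  have ha' : (a : ℂ) ≠ 0 := by exact_mod_cast ha
  have hmem : (a : ℂ)⁻¹ • (g : CuspForm (Gamma0 p) 2) ∈ CuspForm.intLattice p 2 := by
    refine mem_intLattice_of_qCoeff_int fun n => ?_
    rcases Nat.eq_zero_or_pos n with rfl | hn
    · exact ⟨0, by rw [qCoeff_zero_eq]; simp⟩
    · obtain ⟨c, hc⟩ := h n hn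
      refine ⟨c, ?_⟩
      rw [qCoeff_smul, ← coeffZ_spec, hc]
      push_cast
      field_simp
  refine ⟨⟨_, hmem⟩, Subtype.ext ?_⟩
  rw [Submodule.coe_smul, ← Int.cast_smul_eq_zsmul ℂ a, smul_smul, mul_inv_cancel₀ ha', one_smul]

/-- the map from Hecke polynomials to the Hecke ring of the lattice -/
noncomputable def phi : HeckeAlg →+* Hk p :=
  (CuspForm.latticeRestrictHom p ∅).toRingHom.comp (CuspForm.heckeEvalForms p 2)

theorem phi_apply_coe (P : HeckeAlg) (g : Lat p) :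
    (((phi p P : Hk p) : Module.End ℤ (Lat p)) g : CuspForm (Gamma0 p) 2) =
      opC p P (g : CuspForm (Gamma0 p) 2) := rfl

theorem coe_mul_apply (s t : Hk p) (g : Lat p) :
    ((s * t : Hk p) : Module.End ℤ (Lat p)) g =
      (s : Module.End ℤ (Lat p)) ((t : Module.End ℤ (Lat p)) g) := rfl

theorem coe_intCast_apply (a : ℤ) (g : Lat p) :
    (((a : ℤ) : Hk p) : Module.End ℤ (Lat p)) g = a • g := by
  have h : (((a : ℤ) : Hk p) : Module.End ℤ (Lat p)) = (a : Module.End ℤ (Lat p)) :=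
    SubringClass.coe_intCast (CuspForm.heckeLatticeAlgebra p ∅) a
  rw [h, Module.End.intCast_apply]

theorem hk_comm_apply (s t : Hk p) (g : Lat p) :
    (s : Module.End ℤ (Lat p)) ((t : Module.End ℤ (Lat p)) g) =
      (t : Module.End ℤ (Lat p)) ((s : Module.End ℤ (Lat p)) g) := by
  rw [← coe_mul_apply, ← coe_mul_apply, mul_comm]

theorem phi_surjective : Function.Surjective (phi p) := by
  have hp : p.Prime := Fact.out
  have h1 : Function.Surjective (CuspForm.heckeEvalForms p 2) := by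
    rintro ⟨t, ht⟩
    have : ∃ P : HeckeAlg, opC p P = t := by
      refine Algebra.adjoin_induction (p := fun t _ => ∃ P : HeckeAlg, opC p P = t)
        ?_ ?_ ?_ ?_ ht
      · rintro x (⟨ℓ, hℓ, hℓN, -, rfl⟩ | ⟨q, hqN, hq, -, rfl⟩)
        · refine ⟨heckeGen ⟨ℓ, hℓ⟩, ?_⟩
          rw [opC_apply, CuspForm.heckeEvalForms_heckeGen_of_not_dvd (ℓ := ⟨ℓ, hℓ⟩) hℓN,
            CuspForm.heckeAlgebra.coe_T]
        · refine ⟨heckeGen ⟨q, hq⟩, ?_⟩
          rw [opC_apply, CuspForm.heckeEvalForms_heckeGen_of_dvd (q := ⟨q, hq⟩) hqN,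
            CuspForm.heckeAlgebra.coe_U]
      · intro r
        exact ⟨MvPolynomial.C r, by rw [opC_apply, CuspForm.heckeEvalForms_C]; rfl⟩
      · rintro x y _ _ ⟨P, rfl⟩ ⟨Q, rfl⟩
        exact ⟨P + Q, map_add _ _ _⟩
      · rintro x y _ _ ⟨P, rfl⟩ ⟨Q, rfl⟩
        exact ⟨P * Q, map_mul _ _ _⟩
    obtain ⟨P, hP⟩ := this
    exact ⟨P, Subtype.ext hP⟩
  exact (CuspForm.latticeRestrictHom_surjective p ∅).comp h1

/-- `T_k` on the lattice. -/
theorem exists_heckePoly_lat (k : ℕ) (hk : 1 ≤ k) : ∃ P : HeckeAlg,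
    (∀ g : Lat p, coeffZ p 1 (((phi p P : Hk p) : Module.End ℤ (Lat p)) g) = coeffZ p k g) ∧
      MvPolynomial.aeval (eisensteinSystem p) P = (sigmaP p k : ℤ) := by
  obtain ⟨P, hP, hP'⟩ := exists_heckePoly p k hk
  refine ⟨P, fun g => ?_, hP'⟩
  apply Int.cast_injective (α := ℂ)
  rw [coeffZ_spec, coeffZ_spec, phi_apply_coe, hP]


theorem coeffZ_phi_gen_of_dvd {q : Nat.Primes} (h : (q : ℕ) ∣ p) (g : Lat p) (k : ℕ) :
    coeffZ p k (((phi p (heckeGen q) : Hk p) : Module.End ℤ (Lat p)) g) =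
      coeffZ p ((q : ℕ) * k) g := by
  apply Int.cast_injective (α := ℂ)
  rw [coeffZ_spec, coeffZ_spec, phi_apply_coe, opC_apply,
    CuspForm.heckeEvalForms_heckeGen_of_dvd h, CuspForm.heckeAlgebra.coe_U,
    qCoeff_heckeULin q.2 h]

theorem coeffZ_phi_gen_of_not_dvd {ℓ : Nat.Primes} (h : ¬ (ℓ : ℕ) ∣ p) (g : Lat p) (k : ℕ) :
    coeffZ p k (((phi p (heckeGen ℓ) : Hk p) : Module.End ℤ (Lat p)) g) =
      coeffZ p ((ℓ : ℕ) * k) g +
        if (ℓ : ℕ) ∣ k then ((ℓ : ℕ) : ℤ) * coeffZ p (k / (ℓ : ℕ)) g else 0 := by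
  apply Int.cast_injective (α := ℂ)
  rw [coeffZ_spec, phi_apply_coe, opC_apply,
    CuspForm.heckeEvalForms_heckeGen_of_not_dvd h, CuspForm.heckeAlgebra.coe_T,
    qCoeff_heckeTLin ℓ.2 h]
  split_ifs with hd
  · push_cast
    rw [coeffZ_spec, coeffZ_spec]
  · push_cast
    rw [coeffZ_spec]

/-- the pairing `(g, t) ↦ a_1(t g)` -/
noncomputable def beta : Lat p →ₗ[ℤ] (Hk p →ₗ[ℤ] ℤ) where
  toFun g :=
    { toFun := fun t => coeffZ p 1 ((t : Module.End ℤ (Lat p)) g)
      map_add' := fun s t => by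
        rw [show ((s + t : Hk p) : Module.End ℤ (Lat p)) =
          (s : Module.End ℤ (Lat p)) + (t : Module.End ℤ (Lat p)) from rfl,
          LinearMap.add_apply, map_add]
      map_smul' := fun c t => by
        rw [show ((c • t : Hk p) : Module.End ℤ (Lat p)) =
          c • (t : Module.End ℤ (Lat p)) from rfl, LinearMap.smul_apply, map_smul]
        rfl }
  map_add' g h := by
    ext t
    simp
  map_smul' c g := by
    ext t
    simp

theorem beta_apply (g : Lat p) (t : Hk p) :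
    beta p g t = coeffZ p 1 ((t : Module.End ℤ (Lat p)) g) := rfl

theorem beta_injective : Function.Injective (beta p) := by
  rw [injective_iff_map_eq_zero]
  intro g hg
  refine lat_eq_zero p g fun k hk => ?_
  obtain ⟨P, hP, -⟩ := exists_heckePoly_lat p k hk
  rw [← hP g, ← beta_apply, hg]
  rfl

theorem alpha_injective : Function.Injective (beta p).flip := by
  rw [injective_iff_map_eq_zero]
  intro t ht
  refine Subtype.ext (LinearMap.ext fun g => ?_)
  refine lat_eq_zero p _ fun k hk => ?_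
  obtain ⟨P, hP, -⟩ := exists_heckePoly_lat p k hk
  rw [← hP, hk_comm_apply, ← beta_apply, ← LinearMap.flip_apply, ht]
  rfl

/-- perfectness of the pairing: every functional on the Hecke ring comes from a form. -/
theorem exists_form_of_functional (lam : Hk p →ₗ[ℤ] ℤ) : ∃ g : Lat p, beta p g = lam := by
  have := CuspForm.intLattice.moduleFinite p
  have := CuspForm.intLattice.moduleFree p
  have h1 : Module.finrank ℤ (Lat p) ≤ Module.finrank ℤ (Hk p →ₗ[ℤ] ℤ) :=
    LinearMap.finrank_le_finrank_of_injective (beta_injective p)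
  have h2 : Module.finrank ℤ (Hk p) ≤ Module.finrank ℤ (Lat p →ₗ[ℤ] ℤ) :=
    LinearMap.finrank_le_finrank_of_injective (alpha_injective p)
  rw [Module.finrank_linearMap_self] at h1 h2
  have h3 : Module.finrank ℤ (LinearMap.range (beta p)) = Module.finrank ℤ (Lat p) :=
    LinearMap.finrank_range_of_inj (beta_injective p)
  have h4 := Submodule.finrank_quotient_add_finrank (LinearMap.range (beta p))
  rw [h3, Module.finrank_linearMap_self] at h4
  have h5 : Module.finrank ℤ ((Hk p →ₗ[ℤ] ℤ) ⧸ LinearMap.range (beta p)) = 0 := by omega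
  have h6 := Module.finrank_eq_zero_iff_isTorsion.mp h5
  obtain ⟨a, ha⟩ := @h6 (Submodule.Quotient.mk lam)
  have ha0 : (a : ℤ) ≠ 0 := nonZeroDivisors.coe_ne_zero a
  have hmem : (a : ℤ) • lam ∈ LinearMap.range (beta p) := by
    rw [← Submodule.Quotient.mk_eq_zero, Submodule.Quotient.mk_smul]
    exact ha
  obtain ⟨g₁, hg₁⟩ := hmem
  obtain ⟨g, rfl⟩ := exists_eq_zsmul p (a : ℤ) ha0 g₁ fun k hk => by
    obtain ⟨P, hP, -⟩ := exists_heckePoly_lat p k hk
    rw [← hP g₁, ← beta_apply, hg₁]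
    exact ⟨_, rfl⟩
  refine ⟨g, ?_⟩
  rw [map_smul] at hg₁
  exact smul_right_injective _ ha0 hg₁


/-! ### The main reduction -/

theorem phi_sub_aeval_mem (P : HeckeAlg) :
    phi p P - ((MvPolynomial.aeval (eisensteinSystem p) P : ℤ) : Hk p) ∈
      Ideal.map (phi p) (eisensteinIdeal p) := by
  have h : P - MvPolynomial.C (MvPolynomial.aeval (eisensteinSystem p) P) ∈ eisensteinIdeal p := by
    rw [eisensteinIdeal, mem_eigenIdeal_iff, map_sub, MvPolynomial.aeval_C]
    simp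
  have h2 := Ideal.mem_map_of_mem (phi p) h
  rwa [map_sub, eq_intCast (MvPolynomial.C : ℤ →+* HeckeAlg), map_intCast] at h2

/-- lower bound: a congruence modulo `n` forces `n ∣ a` whenever `a ∈ J`. -/
theorem dvd_of_intCast_mem (n : ℕ) (hn : n ≠ 0) (hL : CongSigma p n) (a : ℤ)
    (ha : ((a : ℤ) : Hk p) ∈ Ideal.map (phi p) (eisensteinIdeal p)) : (n : ℤ) ∣ a := by
  have hp : p.Prime := Fact.out
  have hn' : (n : ℤ) ≠ 0 := by exact_mod_cast hn
  obtain ⟨f, hf⟩ := hL
  have hfmem : f ∈ CuspForm.intLattice p 2 := by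
    refine mem_intLattice_of_qCoeff_int fun k => ?_
    rcases Nat.eq_zero_or_pos k with rfl | hk
    · exact ⟨0, by rw [qCoeff_zero_eq]; simp⟩
    · obtain ⟨c, hc⟩ := hf k hk
      exact ⟨(sigmaP p k : ℤ) + n * c, by rw [hc]; push_cast; ring⟩
  set f₀ : Lat p := ⟨f, hfmem⟩ with hf₀
  have hcoef : ∀ k, 1 ≤ k → ∃ c : ℤ, coeffZ p k f₀ = (sigmaP p k : ℤ) + n * c := by
    intro k hk
    obtain ⟨c, hc⟩ := hf k hk
    refine ⟨c, ?_⟩
    apply Int.cast_injective (α := ℂ)
    rw [coeffZ_spec]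
    push_cast
    exact hc
  -- generators act on `f₀` by the Eisenstein eigenvalue modulo `n`
  have hgen : ∀ i : Nat.Primes, ∃ g : Lat p,
      ((phi p (heckeGen i) : Hk p) : Module.End ℤ (Lat p)) f₀ =
        eisensteinSystem p i • f₀ + (n : ℤ) • g := by
    intro i
    have hdiv : ∀ k, 1 ≤ k → (n : ℤ) ∣ coeffZ p k
        (((phi p (heckeGen i) : Hk p) : Module.End ℤ (Lat p)) f₀ - eisensteinSystem p i • f₀) := by
      intro k hk
      rw [map_sub, map_smul, smul_eq_mul]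
      obtain ⟨c₃, hc₃⟩ := hcoef k hk
      obtain ⟨c₁, hc₁⟩ := hcoef ((i : ℕ) * k) (Nat.mul_pos i.2.pos hk)
      by_cases hi : (i : ℕ) ∣ p
      · have hieq : (i : ℕ) = p := (Nat.prime_dvd_prime_iff_eq i.2 hp).mp hi
        rw [coeffZ_phi_gen_of_dvd p hi, eisensteinSystem_of_dvd hi, hc₁, hc₃, hieq,
          sigmaP_self_mul hp (by omega)]
        exact ⟨c₁ - c₃, by ring⟩
      · have hine : (i : ℕ) ≠ p := fun h => hi (h ▸ dvd_rfl)
        have hrel := sigmaP_prime_mul hp i.2 hine (k := k) (by omega)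
        rw [coeffZ_phi_gen_of_not_dvd p hi, eisensteinSystem_of_not_dvd hi, hc₁, hc₃]
        by_cases hd : (i : ℕ) ∣ k
        · obtain ⟨c₂, hc₂⟩ := hcoef (k / (i : ℕ))
            (Nat.div_pos (Nat.le_of_dvd hk hd) i.2.pos)
          rw [if_pos hd] at hrel ⊢
          have hrel' : (sigmaP p ((i : ℕ) * k) : ℤ) + (i : ℕ) * sigmaP p (k / (i : ℕ)) =
              (1 + (i : ℕ)) * sigmaP p k := by exact_mod_cast hrel
          rw [hc₂]
          exact ⟨c₁ + (i : ℕ) * c₂ - (1 + (i : ℕ)) * c₃, by linear_combination hrel'⟩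
        · rw [if_neg hd, add_zero] at hrel ⊢
          have hrel' : (sigmaP p ((i : ℕ) * k) : ℤ) = (1 + (i : ℕ)) * sigmaP p k := by
            exact_mod_cast hrel
          exact ⟨c₁ - (1 + (i : ℕ)) * c₃, by linear_combination hrel'⟩
    obtain ⟨g, hg⟩ := exists_eq_zsmul p (n : ℤ) hn' _ hdiv
    exact ⟨g, by rw [← hg]; abel⟩
  -- all Hecke polynomials act on `f₀` through the Eisenstein character modulo `n`
  have hall : ∀ P : HeckeAlg, ∃ g : Lat p,
      ((phi p P : Hk p) : Module.End ℤ (Lat p)) f₀ =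
        (MvPolynomial.aeval (eisensteinSystem p) P : ℤ) • f₀ + (n : ℤ) • g := by
    intro P
    induction P using MvPolynomial.induction_on with
    | C a =>
      refine ⟨0, ?_⟩
      rw [eq_intCast (MvPolynomial.C : ℤ →+* HeckeAlg), map_intCast, coe_intCast_apply,
        map_intCast, smul_zero, add_zero]
      rfl
    | add P Q hP hQ =>
      obtain ⟨g₁, hg₁⟩ := hP
      obtain ⟨g₂, hg₂⟩ := hQ
      refine ⟨g₁ + g₂, ?_⟩
      rw [map_add, map_add, show ((phi p P + phi p Q : Hk p) : Module.End ℤ (Lat p)) =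
        ((phi p P : Hk p) : Module.End ℤ (Lat p)) + ((phi p Q : Hk p) : Module.End ℤ (Lat p))
        from rfl, LinearMap.add_apply, hg₁, hg₂, add_smul, smul_add]
      abel
    | mul_X P i hP =>
      obtain ⟨g₁, hg₁⟩ := hP
      obtain ⟨g₂, hg₂⟩ := hgen i
      refine ⟨eisensteinSystem p i • g₁ + ((phi p P : Hk p) : Module.End ℤ (Lat p)) g₂, ?_⟩
      rw [map_mul, map_mul, coe_mul_apply]
      change ((phi p P : Hk p) : Module.End ℤ (Lat p))
        (((phi p (heckeGen i) : Hk p) : Module.End ℤ (Lat p)) f₀) = _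
      rw [hg₂, map_add, map_smul, map_smul, hg₁, MvPolynomial.aeval_X, smul_add, smul_add,
        smul_smul, smul_smul, smul_smul, mul_comm (eisensteinSystem p i) (n : ℤ),
        mul_comm (eisensteinSystem p i)]
      abel
  -- the functional `t ↦ a_1(t f₀)` is divisible by `n` on `J`
  have hJ : ∀ x ∈ Ideal.map (phi p) (eisensteinIdeal p), ∀ t : Hk p,
      (n : ℤ) ∣ coeffZ p 1 (((t * x : Hk p) : Module.End ℤ (Lat p)) f₀) := by
    intro x hx
    refine Submodule.span_induction (p := fun x _ => ∀ t : Hk p,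
      (n : ℤ) ∣ coeffZ p 1 (((t * x : Hk p) : Module.End ℤ (Lat p)) f₀)) ?_ ?_ ?_ ?_ hx
    · rintro _ ⟨P, hP, rfl⟩ t
      obtain ⟨g, hg⟩ := hall P
      have h0 : MvPolynomial.aeval (eisensteinSystem p) P = 0 := (mem_eigenIdeal_iff _ _).mp hP
      rw [coe_mul_apply]
      change (n : ℤ) ∣ coeffZ p 1 ((t : Module.End ℤ (Lat p))
        (((phi p P : Hk p) : Module.End ℤ (Lat p)) f₀))
      rw [hg, h0, zero_smul, zero_add, map_smul, map_smul]
      exact ⟨_, rfl⟩
    · intro t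
      rw [mul_zero]
      change (n : ℤ) ∣ coeffZ p 1 ((0 : Module.End ℤ (Lat p)) f₀)
      rw [LinearMap.zero_apply, map_zero]
      exact dvd_zero _
    · intro x y _ _ hx hy t
      rw [mul_add]
      change (n : ℤ) ∣ coeffZ p 1 ((((t * x : Hk p) : Module.End ℤ (Lat p)) +
        ((t * y : Hk p) : Module.End ℤ (Lat p))) f₀)
      rw [LinearMap.add_apply, map_add]
      exact dvd_add (hx t) (hy t)
    · intro a x _ hx t
      rw [smul_eq_mul, ← mul_assoc]
      exact hx (t * a)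
  have h1 := hJ _ ha 1
  rw [one_mul, coe_intCast_apply, map_smul, smul_eq_mul] at h1
  obtain ⟨c, hc⟩ := hcoef 1 le_rfl
  rw [hc, sigmaP_one p hp] at h1
  have h2 : (n : ℤ) ∣ a * ((1 : ℕ) + n * c) - n * (a * c) := dvd_sub h1 (dvd_mul_right _ _)
  have h3 : a * (((1 : ℕ) : ℤ) + n * c) - n * (a * c) = a := by push_cast; ring
  rwa [h3] at h2

/-- upper bound: the index `m` of the Eisenstein ideal is realised by a congruence. -/
theorem congSigma_of_index (m : ℕ)
    (hm : ∀ a : ℤ, ((a : ℤ) : Hk p) ∈ Ideal.map (phi p) (eisensteinIdeal p) → (m : ℤ) ∣ a)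
    (hJ : ∀ t : Hk p, ∃ a : ℤ, t - ((a : ℤ) : Hk p) ∈ Ideal.map (phi p) (eisensteinIdeal p)) :
    CongSigma p m := by
  obtain ⟨lam, hlam⟩ := exists_lift_of_surj (Ideal.map (phi p) (eisensteinIdeal p)) hJ
  obtain ⟨f, hf⟩ := exists_form_of_functional p lam
  refine ⟨(f : CuspForm (Gamma0 p) 2), fun k hk => ?_⟩
  obtain ⟨P, hP, hP'⟩ := exists_heckePoly_lat p k hk
  have h1 : coeffZ p k f = lam (phi p P) := by
    rw [← hP f, ← beta_apply, hf]
  have h2 := Ideal.sub_mem _ (phi_sub_aeval_mem p P) (hlam (phi p P))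
  have h3 : phi p P - ((MvPolynomial.aeval (eisensteinSystem p) P : ℤ) : Hk p) -
      (phi p P - ((lam (phi p P) : ℤ) : Hk p)) =
      ((lam (phi p P) - MvPolynomial.aeval (eisensteinSystem p) P : ℤ) : Hk p) := by
    push_cast
    ring
  rw [h3] at h2
  obtain ⟨c, hc⟩ := hm _ h2
  refine ⟨c, ?_⟩
  rw [← coeffZ_spec, h1]
  have h4 : lam (phi p P) = (sigmaP p k : ℤ) + m * c := by
    rw [← hP', ← hc]; ring
  rw [h4]
  push_cast
  ring

/-- **Reduction of S16.** -/
theorem natCard_quotient_eq (n : ℕ) (hn : n ≠ 0) (hL : CongSigma p n)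
    (hU : ∀ M : ℕ, CongSigma p M → M ∣ n) :
    Nat.card (↥(heckeLatticeAlgebra p ∅) ⧸
        Ideal.map ((latticeRestrictHom p ∅).toRingHom.comp (heckeEvalForms p 2))
          (eisensteinIdeal p)) = n := by
  have hJ : ∀ t : Hk p, ∃ a : ℤ,
      t - ((a : ℤ) : Hk p) ∈ Ideal.map (phi p) (eisensteinIdeal p) := by
    intro t
    obtain ⟨P, rfl⟩ := phi_surjective p t
    exact ⟨_, phi_sub_aeval_mem p P⟩
  obtain ⟨m, hcard, hm⟩ := exists_natCard_quotient (Ideal.map (phi p) (eisensteinIdeal p)) hJ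
  have h1 : n ∣ m := by
    have := dvd_of_intCast_mem p n hn hL (m : ℤ) ((hm _).mpr dvd_rfl)
    exact_mod_cast this
  have h2 : m ∣ n := hU m (congSigma_of_index p m (fun a ha => (hm a).mp ha) hJ)
  rw [Nat.dvd_antisymm h1 h2]
  exact hcard

end Fermat.Agent.S16.Reduction
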