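import Fermat.Agent.S16.Glue
import Fermat.Agent.S16.Reduction

/-!
# S16: the glue lemmas of `S16/Glue` in the vocabulary of `S16/Reduction` (`CongSigma`)

Together with `Reduction.natCard_quotient_eq` this is the alternative assembly of S16:
`natCard_of_claimU_of_congSigma` (theta route) and `natCard_of_bounds'` (from Plan's
`LowerBound`).
-/

set_option autoImplicit false

namespace Fermat.Agent.S16.GlueReduction

open ModularCurve CuspForm CongruenceSubgroup ModularFormClass

theorem sigmaP_eq_reduction (p k : ℕ) : Reduction.sigmaP p k = sigmaP p k := rfl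

/-- (g1) in `CongSigma` form. -/
theorem congSigma_upper (p : ℕ) [Fact p.Prime] (hE : EisFormStmt p) (hU : ClaimU p) :
    ∀ M : ℕ, Reduction.CongSigma p M → M ∣ eisensteinNumerator p := by
  rintro M ⟨f, hf⟩
  exact dvd_of_congSigma p hE hU M f hf

/-- (g2a) in `CongSigma` form. -/
theorem lowerBound_of_CongSigma (p : ℕ) [Fact p.Prime]
    (h : Reduction.CongSigma p (eisensteinNumerator p)) : LowerBound p := by
  obtain ⟨f, hf⟩ := h
  exact lowerBound_of_congSigma p f hf

/-- (g2b) in `CongSigma` form. -/
theorem CongSigma_of_lowerBound (p : ℕ) [Fact p.Prime] (hD : DualityStmt p)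
    (hC : CoeffPolyStmt p) (hLB : LowerBound p) :
    Reduction.CongSigma p (eisensteinNumerator p) :=
  congSigma_of_lowerBound p hD hC hLB

theorem eisensteinNumerator_ne_zero (p : ℕ) [Fact p.Prime] : eisensteinNumerator p ≠ 0 := by
  have hp : p.Prime := Fact.out
  rw [eisensteinNumerator]
  have h1 : 0 < p - 1 := Nat.sub_pos_of_lt hp.one_lt
  exact (Nat.div_pos (Nat.le_of_dvd h1 (Nat.gcd_dvd_left _ _)) (Nat.gcd_pos_of_pos_left _ h1)).ne'

/-- Alternative assembly of the frozen statement: Claim U, the Eisenstein series and one cusp form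
congruent to `∑ σ'(k) qᵏ` modulo `n`. -/
theorem goal_of_claimU_of_congSigma (p : ℕ) [Fact p.Prime] (hE : EisFormStmt p) (hU : ClaimU p)
    (hL : Reduction.CongSigma p (eisensteinNumerator p)) : Goal p :=
  Reduction.natCard_quotient_eq p (eisensteinNumerator p) (eisensteinNumerator_ne_zero p) hL
    (congSigma_upper p hE hU)

end Fermat.Agent.S16.GlueReduction
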