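import Mathlib
import Fermat.Agent.S16.LowerS21.Plan
import Fermat.Agent.S16.LowerS21.Assembly
import Fermat.Agent.Lib.ShimuraChar

/-!
# S16 lower bound through the Shimura character (route "L-chi", board #852)

Let `χ = chi p : Γ₀(p) → ℤ/n`, `n = (p - 1) / gcd (p - 1, 12)`, be the Shimura character
(`Lib/ShimuraChar`).  Suppose

* `ChiLiftStmt p`: `χ` lifts to an integral parabolic class `φ : Γ₀(p) → ℤ`;
* `HeckeHomChiStmt p`: the Hecke operators `Θ_ℓ` on `Hom(Γ₀(p), ℂ)` (as in `HeckeHomStmt`)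
  map an integral class `≡ u χ` to an integral class `≡ eisEig · u χ` modulo `n`;
* `PrimHeckeStmt p` (landed) and `EvZeroStmt p`.

Then `LowerBound p`: if the Hecke polynomial `P` kills `S₂(Γ₀(p))`, then `Θ_P` kills the parabolic
classes (Eichler–Shimura, landed S21), in particular `Θ_P φ = 0`; but `Θ_P φ ≡ χ_E(P) χ mod n`
and `χ` is surjective, so `n ∣ χ_E(P)`.

No Eisenstein series, no crossing class, no modular units.
-/

set_option autoImplicit false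

noncomputable section

namespace Fermat.Agent.S16.LowerChi

open ModularCurve CuspForm UpperHalfPlane CongruenceSubgroup ModularCurve.Period
open scoped MatrixGroups ModularForm Real
open Fermat.Agent.S16 Fermat.Agent.S16.LowerS21 Fermat.Agent.Lib.ShimuraChar

/-- The modulus `n = (p - 1) / gcd (p - 1, 12)` (`= eisensteinNumerator p`). -/
abbrev num (p : ℕ) : ℕ := (p - 1) / Nat.gcd (p - 1) 12

theorem num_eq (p : ℕ) : num p = eisensteinNumerator p := rfl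

set_option linter.unusedSectionVars false

variable (p : ℕ) [Fact p.Prime]

/-! ## Contracts -/

/-- Contract of the lift (`Lib/ParabolicLift`): the Shimura character lifts to an integral
parabolic class. -/
def ChiLiftStmt : Prop :=
  ∃ φZ : Hm p ℤ, toC p φZ ∈ parabolicHoms ℂ (Gamma0 p) ℂ ∧
    ∀ γ : Additive (Gamma0 p), ((φZ γ : ℤ) : ZMod (num p)) = chi p γ

/-- Bridge from the shape of `Lib/ParabolicLift.exists_parabolic_lift` (board #919) applied to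
the Shimura character, `A = ZMod n`, `π = Int.castAddHom _`. -/
theorem chiLiftStmt_of_exists_lift
    (hlift : ∀ χ : Additive (Gamma0 p) →+ ZMod (num p),
      (∀ γ : Gamma0 p, ((γ : SL(2, ℤ)) : Matrix (Fin 2) (Fin 2) ℤ).trace = 0 →
        χ (Additive.ofMul γ) = 0) →
      (∀ γ : Gamma0 p, ((γ : SL(2, ℤ)) : Matrix (Fin 2) (Fin 2) ℤ).trace ^ 2 = 1 →
        χ (Additive.ofMul γ) = 0) →
      (∀ γ : Gamma0 p, ((γ : SL(2, ℤ)) : Matrix (Fin 2) (Fin 2) ℤ).trace ^ 2 = 4 →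
        χ (Additive.ofMul γ) = 0) →
      ∃ φZ : Additive (Gamma0 p) →+ ℤ,
        (Int.castAddHom ℂ).comp φZ ∈ parabolicHoms ℂ (Gamma0 p) ℂ ∧
          ∀ γ, Int.castAddHom (ZMod (num p)) (φZ γ) = χ γ) : ChiLiftStmt p := by
  obtain ⟨φZ, h1, h2⟩ := hlift (chi p) (chi_eq_zero_of_trace_zero p)
    (chi_eq_zero_of_trace_sq_eq_one p) (chi_eq_zero_of_trace_sq_eq_four p)
  exact ⟨φZ, h1, h2⟩

/-- An integral class is congruent to `u • χ` modulo `n`. -/
def CongChi (u : ZMod (num p)) (φ : Hm p ℤ) : Prop :=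
  ∀ γ : Additive (Gamma0 p), ((φ γ : ℤ) : ZMod (num p)) = u * chi p γ

/-- Contract: `HeckeHomStmt p` with one more clause in (a): the integral image of a class
`≡ u χ` is `≡ eisEig · u χ` modulo `n`. -/
def HeckeHomChiStmt : Prop :=
  ∀ ℓ : ℕ, ℓ.Prime → ∃ Θ : Hm p ℂ →+ Hm p ℂ,
    (∀ φ : Hm p ℤ, ∃ φ' : Hm p ℤ, Θ (toC p φ) = toC p φ' ∧
      ∀ u : ZMod (num p), CongChi p u φ → CongChi p ((eisEig p ℓ : ZMod (num p)) * u) φ') ∧
    (∀ φ : Hm p ℂ, Θ (charInvolution p ℂ ℂ φ) = charInvolution p ℂ ℂ (Θ φ)) ∧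
    (∀ (F : ℍ → ℂ) (hF : IsEquivariantPrimitive (Gamma0 p) F),
      ∃ hF' : IsEquivariantPrimitive (Gamma0 p) (primHecke p ℓ F),
        hF'.periodHom = Θ hF.periodHom)

/-- The contract `HeckeHomChiStmt` contains `HeckeHomStmt`. -/
theorem heckeHomStmt_of_chi (h : HeckeHomChiStmt p) : HeckeHomStmt p := by
  intro ℓ hℓ
  obtain ⟨Θ, h1, h2, h3⟩ := h ℓ hℓ
  refine ⟨Θ, fun φ => ?_, h2, h3⟩
  obtain ⟨φ', hφ', -⟩ := h1 φ
  exact ⟨φ', hφ'⟩

/-- Explicit form of the Hecke operators: `Θ` is the transfer along integral upper triangular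
representatives `δ i` (`δ i * γ = κ i * δ (σ i)`), whose number is `≡ eisEig` modulo `n`. -/
def HeckeTransferStmt : Prop :=
  ∀ ℓ : ℕ, ℓ.Prime → ∃ Θ : Hm p ℂ →+ Hm p ℂ,
    (∀ φ : Hm p ℤ, ∃ φ' : Hm p ℤ, Θ (toC p φ) = toC p φ') ∧
    (∀ φ : Hm p ℂ, Θ (charInvolution p ℂ ℂ φ) = charInvolution p ℂ ℂ (Θ φ)) ∧
    (∀ (F : ℍ → ℂ) (hF : IsEquivariantPrimitive (Gamma0 p) F),
      ∃ hF' : IsEquivariantPrimitive (Gamma0 p) (primHecke p ℓ F),
        hF'.periodHom = Θ hF.periodHom) ∧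
    ∃ (ι : Type) (_ : Fintype ι) (δ : ι → Matrix (Fin 2) (Fin 2) ℤ),
      (∀ i, δ i 1 0 = 0) ∧ (∀ i, ¬ (p : ℤ) ∣ δ i 0 0) ∧
      ((Fintype.card ι : ℕ) : ZMod (num p)) = (eisEig p ℓ : ZMod (num p)) ∧
      ∀ γ : Gamma0 p, ∃ (σ : Equiv.Perm ι) (κ : ι → Gamma0 p),
        (∀ i, δ i * ((γ : SL(2, ℤ)) : Matrix (Fin 2) (Fin 2) ℤ) =
          ((κ i : SL(2, ℤ)) : Matrix (Fin 2) (Fin 2) ℤ) * δ (σ i)) ∧
        ∀ φ : Hm p ℂ, Θ φ (Additive.ofMul γ) = ∑ i, φ (Additive.ofMul (κ i))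

theorem toC_injective : Function.Injective (toC p) := by
  intro φ ψ h
  refine AddMonoidHom.ext fun γ => ?_
  have := congrArg (fun f : Hm p ℂ => f γ) h
  simp only [toC_apply] at this
  exact_mod_cast this

/-- The explicit transfer form implies the congruence form. -/
theorem heckeHomChi_of_transfer (h : HeckeTransferStmt p) : HeckeHomChiStmt p := by
  intro ℓ hℓ
  obtain ⟨Θ, h1, h2, h3, ι, hι, δ, h10, h00, hcard, hκ⟩ := h ℓ hℓ
  refine ⟨Θ, fun φ => ?_, h2, h3⟩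
  obtain ⟨φ', hφ'⟩ := h1 φ
  refine ⟨φ', hφ', fun u hu γ => ?_⟩
  obtain ⟨γ, rfl⟩ := Additive.ofMul.surjective γ
  obtain ⟨σ, κ, hrel, hsum⟩ := hκ γ
  have e1 : ((φ' (Additive.ofMul γ) : ℤ) : ℂ) = ∑ i, ((φ (Additive.ofMul (κ i)) : ℤ) : ℂ) := by
    rw [← toC_apply, ← hφ', hsum]
    rfl
  have e2 : φ' (Additive.ofMul γ) = ∑ i, φ (Additive.ofMul (κ i)) := by
    have : ((φ' (Additive.ofMul γ) : ℤ) : ℂ) = ((∑ i, φ (Additive.ofMul (κ i)) : ℤ) : ℂ) := by
      rw [e1]; push_cast; rfl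
    exact_mod_cast this
  rw [e2]
  push_cast
  rw [Finset.sum_congr rfl fun i _ => hu (Additive.ofMul (κ i)), ← Finset.mul_sum,
    sum_chi_eq_of_matrix p δ h10 h00 σ γ κ hrel, nsmul_eq_mul, hcard]
  ring

/-! ## The operator attached to a Hecke polynomial -/

/-- The properties of the operator on `Hom(Γ₀(p), ℂ)` attached to a Hecke polynomial `P`. -/
structure ChiOp (P : HeckeAlg) (Θ : Hm p ℂ →+ Hm p ℂ) : Prop where
  int : ∀ φ : Hm p ℤ, ∃ φ' : Hm p ℤ, Θ (toC p φ) = toC p φ' ∧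
    ∀ u : ZMod (num p), CongChi p u φ → CongChi p ((chiE p P : ZMod (num p)) * u) φ'
  inv : ∀ φ : Hm p ℂ, Θ (charInvolution p ℂ ℂ φ) = charInvolution p ℂ ℂ (Θ φ)
  cusp : ∀ f : CuspForm (Gamma0 p) 2, Θ (periodMap p f) =
    periodMap p (((heckeEvalForms p 2 P : heckeAlgebra p 2 ∅) :
      Module.End ℂ (CuspForm (Gamma0 p) 2)) f)

theorem exists_chiOp (hH : HeckeHomChiStmt p) (hP : PrimHeckeStmt p) (P : HeckeAlg) :
    ∃ Θ : Hm p ℂ →+ Hm p ℂ, ChiOp p P Θ := by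
  induction P using MvPolynomial.induction_on with
  | C a =>
    refine ⟨a • AddMonoidHom.id _, ⟨?_, ?_, ?_⟩⟩
    · intro φ
      refine ⟨a • φ, by rw [toC_zsmul]; rfl, fun u hu γ => ?_⟩
      have hc : chiE p (MvPolynomial.C a) = a := by
        show MvPolynomial.aeval (eisensteinSystem p) (MvPolynomial.C a) = a
        rw [MvPolynomial.aeval_C]
        rfl
      rw [hc, AddMonoidHom.smul_apply, zsmul_eq_mul]
      push_cast
      rw [hu γ, mul_assoc]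
    · intro φ
      show a • charInvolution p ℂ ℂ φ = charInvolution p ℂ ℂ (a • φ)
      rw [map_zsmul]
    · intro f
      show a • periodMap p f = _
      rw [heckeEvalForms_C, ← periodMap_zsmul]
      congr 1
  | add P Q hP' hQ' =>
    obtain ⟨Θ₁, h₁⟩ := hP'
    obtain ⟨Θ₂, h₂⟩ := hQ'
    refine ⟨Θ₁ + Θ₂, ⟨?_, ?_, ?_⟩⟩
    · intro φ
      obtain ⟨φ₁, e₁, c₁⟩ := h₁.int φ
      obtain ⟨φ₂, e₂, c₂⟩ := h₂.int φ
      refine ⟨φ₁ + φ₂, by rw [AddMonoidHom.add_apply, e₁, e₂, toC_add], fun u hu γ => ?_⟩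
      rw [AddMonoidHom.add_apply]
      push_cast
      rw [c₁ u hu γ, c₂ u hu γ, map_add]
      push_cast
      ring
    · intro φ
      rw [AddMonoidHom.add_apply, AddMonoidHom.add_apply, h₁.inv, h₂.inv, map_add]
    · intro f
      rw [AddMonoidHom.add_apply, h₁.cusp, h₂.cusp, map_add,
        ← Fermat.Agent.S21.periodMap_add]
      rfl
  | mul_X P ℓ hP' =>
    obtain ⟨Θ₁, h₁⟩ := hP'
    obtain ⟨Θ, hΘint, hΘinv, hΘper⟩ := hH ℓ ℓ.2
    refine ⟨Θ₁.comp Θ, ⟨?_, ?_, ?_⟩⟩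
    · intro φ
      obtain ⟨φ₁, e₁, c₁⟩ := hΘint φ
      obtain ⟨φ₂, e₂, c₂⟩ := h₁.int φ₁
      refine ⟨φ₂, by rw [AddMonoidHom.comp_apply, e₁, e₂], fun u hu γ => ?_⟩
      rw [c₂ _ (c₁ u hu) γ, map_mul, chiE_X]
      push_cast
      ring
    · intro φ
      rw [AddMonoidHom.comp_apply, AddMonoidHom.comp_apply, hΘinv, h₁.inv]
    · intro f
      have e : heckeEvalForms p 2 (MvPolynomial.X ℓ) = heckeFormsGen p 2 ℓ :=
        MvPolynomial.aeval_X _ ℓ
      rw [AddMonoidHom.comp_apply, theta_periodMap p hP ℓ hΘper f, h₁.cusp, map_mul, e]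
      rfl

/-- `Θ_P` kills the parabolic classes when `P` kills `S₂(Γ₀(p))` (Eichler–Shimura). -/
theorem chiOp_parabolic {P : HeckeAlg} {Θ : Hm p ℂ →+ Hm p ℂ} (hΘ : ChiOp p P Θ)
    (h0 : ((heckeEvalForms p 2 P : heckeAlgebra p 2 ∅) :
      Module.End ℂ (CuspForm (Gamma0 p) 2)) = 0)
    {ψ : Hm p ℂ} (hψ : ψ ∈ parabolicHoms ℂ (Gamma0 p) ℂ) : Θ ψ = 0 := by
  rw [← es_range p] at hψ
  obtain ⟨⟨f, g⟩, rfl⟩ := hψ
  have key : ∀ f : CuspForm (Gamma0 p) 2, Θ (periodMap p f) = 0 := by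
    intro f
    rw [hΘ.cusp, h0]
    exact map_zero (Fermat.Agent.S21.periodMapLin p)
  rw [Fermat.Agent.S21.periodHomPair_eq]
  simp only [LinearMap.coprod_apply, LinearMap.comp_apply, LinearMap.add_apply,
    LinearMap.sub_apply, LinearMap.id_apply, Fermat.Agent.S21.periodMapLin_apply]
  rw [map_add, map_add, map_sub, hΘ.inv, hΘ.inv, key, key]
  simp

/-- **Lower bound of S16 through the Shimura character.** -/
theorem lowerBound_of_chi (hEv : EvZeroStmt p) (hH : HeckeHomChiStmt p)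
    (hP : PrimHeckeStmt p) (hL : ChiLiftStmt p) : LowerBound p := by
  intro P hPz
  have h0 := (hEv P).mp hPz
  obtain ⟨Θ, hΘ⟩ := exists_chiOp p hH hP P
  obtain ⟨φZ, hpar, hcong⟩ := hL
  have hkill := chiOp_parabolic p hΘ h0 hpar
  obtain ⟨φ', hφ', hc⟩ := hΘ.int φZ
  have hφ'0 : φ' = 0 := by
    apply toC_injective p
    rw [← hφ', hkill]
    refine AddMonoidHom.ext fun γ => ?_
    simp [toC]
  have hcong' : CongChi p 1 φZ := fun γ => by rw [hcong γ, one_mul]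
  have h1 := hc 1 hcong'
  have h2 : ∀ γ : Gamma0 p, chiE p P • chi p (Additive.ofMul γ) = 0 := by
    intro γ
    have := h1 (Additive.ofMul γ)
    rw [hφ'0] at this
    simp only [AddMonoidHom.zero_apply, Int.cast_zero, mul_one] at this
    rw [zsmul_eq_mul]
    exact this.symm
  exact dvd_of_smul_chi_eq_zero p (chiE p P) h2

end Fermat.Agent.S16.LowerChi
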