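import Mathlib
import Fermat.Agent.S16.LowerChi
import Fermat.Agent.S16.EvZero
import Fermat.Agent.S16.LowerS21.PrimHecke
import Fermat.Agent.S16.LowerS21.HeckeTransfer
import Fermat.Agent.Lib.ParabolicLift

/-!
# S16 lower bound through the Shimura character: the lift and the final wiring

* `chiLift` : the Shimura character `χ : Γ₀(p) → ℤ/n` lifts to an integral parabolic class
  (`Lib/ParabolicLift.exists_parabolic_lift` applied to `Lib/ShimuraChar.chi`);
* `lowerBound` : `LowerBound p` for every prime `p`, by `LowerChi.lowerBound_of_chi`.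
-/

set_option autoImplicit false

namespace Fermat.Agent.S16.LowerChiLift

open CongruenceSubgroup
open scoped MatrixGroups
open Fermat.Agent.S16 Fermat.Agent.S16.LowerS21 Fermat.Agent.S16.LowerChi

/-- The Shimura character lifts to an integral parabolic class. -/
theorem chiLift (p : ℕ) [Fact p.Prime] : ChiLiftStmt p :=
  chiLiftStmt_of_exists_lift p fun χ h0 h1 h4 =>
    Fermat.Agent.Lib.ParabolicLift.exists_parabolic_lift p (Int.castAddHom _)
      ZMod.intCast_surjective χ h0 h1 h4

/-- **The lower bound of S16**: every Hecke polynomial killing `S₂(Γ₀(p))` has Eisenstein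
eigenvalue divisible by `n = (p - 1) / gcd (p - 1, 12)`. -/
theorem lowerBound (p : ℕ) [Fact p.Prime] : LowerBound p :=
  lowerBound_of_chi p (evZero p)
    (fun ℓ hℓ => Fermat.Agent.S16.LowerS21.HeckeTransfer.heckeHomChi p ℓ hℓ)
    (primHecke_isPrim p) (chiLift p)

end Fermat.Agent.S16.LowerChiLift
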