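import Mathlib
import Fermat.Agent.S16.Plan
import Fermat.Agent.S16.PairFricke

/-!
# S16: the level-one fields of `PairAPI` (second implementation)

For a level one form `X` of weight `w`: `X♭ = X(p z)` with `q`-expansion `psV p`, and
`(X(p ·))♭ = p^(-w) X`.
-/

set_option autoImplicit false

noncomputable section

namespace Fermat.Agent.S16.PairLevelOneB

open ModularCurve CuspForm UpperHalfPlane CongruenceSubgroup ModularFormClass
open scoped MatrixGroups ModularForm Real
open Fermat.Agent.S16 Fermat.Agent.S23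
open Function.Periodic (qParam)

/-- The point `p z`. -/
def mulPt (p : ℕ) [NeZero p] (z : ℍ) : ℍ :=
  ⟨(p : ℂ) * z, by
    have hp : (0 : ℝ) < p := Nat.cast_pos.mpr (NeZero.pos p)
    have h1 : ((p : ℂ) * (z : ℂ)).im = p * z.im := by simp
    rw [h1]
    exact mul_pos hp z.im_pos⟩

theorem coe_mulPt (p : ℕ) [NeZero p] (z : ℍ) : (mulPt p z : ℂ) = (p : ℂ) * z := rfl

theorem frickePt_eq (p : ℕ) [NeZero p] (z : ℍ) :
    frickePt p z = ModularGroup.S • mulPt p z := by
  apply UpperHalfPlane.ext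
  rw [coe_frickePt, UpperHalfPlane.modular_S_smul]
  show -1 / ((p : ℂ) * z) = (-(mulPt p z : ℂ))⁻¹
  rw [coe_mulPt, neg_div, one_div, neg_inv]

/-- A level one form at `-1/(p z)`. -/
theorem levelOne_frickePt (p : ℕ) [NeZero p] {w : ℤ} (X : ModularForm 𝒮ℒ w) (z : ℍ) :
    X (frickePt p z) = ((p : ℂ) * z) ^ w * X (mulPt p z) := by
  have h := SlashInvariantForm.slash_action_eqn'' (Γ := 𝒮ℒ) X
    (γ := Matrix.SpecialLinearGroup.mapGL ℝ ModularGroup.S)
    (MonoidHom.mem_range.mpr ⟨ModularGroup.S, rfl⟩) (mulPt p z)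
  rw [frickePt_eq]
  have hd : denom (Matrix.SpecialLinearGroup.mapGL ℝ ModularGroup.S) (mulPt p z) =
      (p : ℂ) * z := by
    have := ModularGroup.denom_S (mulPt p z)
    rw [coe_mulPt] at this
    exact this
  rw [hd] at h
  exact h

theorem qParam_mulPt (p : ℕ) [NeZero p] (z : ℍ) :
    qParam 1 (mulPt p z : ℂ) = qParam 1 (z : ℂ) ^ p := by
  rw [Function.Periodic.qParam, Function.Periodic.qParam, ← Complex.exp_nat_mul, coe_mulPt]
  congr 1
  simp only [Complex.ofReal_one, div_one]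
  ring

theorem coeff_psV (p : ℕ) (A : PowerSeries ℂ) (n : ℕ) :
    PowerSeries.coeff n (psV p A) = if p ∣ n then PowerSeries.coeff (n / p) A else 0 := by
  simp [psV]

/-- The field `PairAPI.levelOne`. -/
theorem levelOne (p : ℕ) [Fact p.Prime] {w : ℤ} (X : ModularForm 𝒮ℒ w) :
    IsPair p w (qExpansion 1 X) (psV p (qExpansion 1 X)) := by
  have hp := (Fact.out : p.Prime)
  have hp0 : (p : ℂ) ≠ 0 := Nat.cast_ne_zero.mpr hp.ne_zero
  obtain ⟨F, hF⟩ : IsMF (G0 p) w (X : ℍ → ℂ) :=
    (IsMF.coe X).mono (Subgroup.map_le_range _ _)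
  obtain ⟨F', hF'⟩ := PairFricke.exists_flat p F
  have hval : ∀ z : ℍ, F' z = X (mulPt p z) := by
    intro z
    have hne : (p : ℂ) * (z : ℂ) ≠ 0 := mul_ne_zero hp0 z.ne_zero
    rw [hF' z, hF, levelOne_frickePt, ← mul_assoc, ← zpow_add₀ hne]
    simp
  refine ⟨F, F', hF', by rw [hF], ?_⟩
  ext n
  rw [coeff_psV]
  have hΓ := CongruenceSubgroup.one_mem_strictPeriods_Gamma0 p
  refine (ModularFormClass.qExpansion_coeff_unique one_pos hΓ (f := F')
    (c := fun n => if p ∣ n then PowerSeries.coeff (n / p) (qExpansion 1 X) else 0)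
    (fun τ => ?_) n).symm
  have h1 : HasSum (fun m : ℕ => (qExpansion 1 X).coeff m * qParam 1 (mulPt p τ : ℂ) ^ m)
      (X (mulPt p τ)) :=
    ModularForm.hasSum_qExpansion (f := X) one_pos _root_.one_mem_strictPeriods_SL (mulPt p τ)
  rw [hval τ]
  have hinj : Function.Injective (fun m : ℕ => p * m) := fun a b hab =>
    Nat.eq_of_mul_eq_mul_left hp.pos hab
  rw [← hinj.hasSum_iff]
  · convert h1 using 1
    funext m
    simp only [Function.comp_apply, dvd_mul_right, if_true, smul_eq_mul,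
      Nat.mul_div_cancel_left m hp.pos]
    rw [qParam_mulPt, pow_mul]
  · intro n hn
    have : ¬ p ∣ n := fun ⟨c, hc⟩ => hn ⟨c, hc.symm⟩
    simp [this]

/-- The field `PairAPI.levelOneV`. -/
theorem levelOneV (p : ℕ) [Fact p.Prime] {w : ℤ} (X : ModularForm 𝒮ℒ w) :
    IsPair p w (psV p (qExpansion 1 X)) (((p : ℂ) ^ (-w)) • qExpansion 1 X) := by
  have h := PairFricke.isPair_symm (levelOne p X)
  rcases Int.even_or_odd w with hev | hodd
  · rw [hev.neg_one_zpow, one_mul] at h
    exact h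
  · have hX : X = 0 := ModularForm.levelOne_odd_weight_eq_zero hodd X
    have h0 : qExpansion 1 (X : ℍ → ℂ) = 0 := by
      rw [hX, FunLike.coe_zero, qExpansion_zero]
    rw [h0] at h ⊢
    simpa using h

end Fermat.Agent.S16.PairLevelOneB
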