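import Mathlib
import Fermat.Prelude.Thm_CongruenceSubgroup_one_mem_strictPeriods_Gamma0
import Fermat.Agent.Lib.JLevelOne

/-!
# The trace principle at prime level, by the direct method

For `F ∈ M_k(Γ₀(p))` and `F♭(z) = (p z)^(-k) F(-1/(p z))` the function
`F(z) + ∑_{j<p} F♭((z+j)/p)` is a level one form of weight `k`, with `q`-expansion
`a_n(F) + p · a_{pn}(F♭)`.
-/

set_option autoImplicit false

open UpperHalfPlane CongruenceSubgroup ModularFormClass Filter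
open scoped MatrixGroups ModularForm Manifold

namespace Fermat.Agent.S16.TraceDirect

/-- The matrix `S T^j = [[0,-1],[1,j]]`. -/
def cj (j : ℤ) : SL(2, ℤ) := ⟨!![0, -1; 1, j], by rw [Matrix.det_fin_two_of]; ring⟩

/-- `[[1,0],[n,1]]`. -/
def lowerMat (n : ℤ) : SL(2, ℤ) := ⟨!![1, 0; n, 1], by rw [Matrix.det_fin_two_of]; ring⟩

/-- `[[-j',-1],[j j'+1, j]]`. -/
def swapMat (j j' : ℤ) : SL(2, ℤ) :=
  ⟨!![-j', -1; j * j' + 1, j], by rw [Matrix.det_fin_two_of]; ring⟩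

/-- `-1`. -/
def negOne : SL(2, ℤ) := ⟨!![-1, 0; 0, -1], by rw [Matrix.det_fin_two_of]; ring⟩

theorem cj_eq (j j' : ℤ) : cj j = lowerMat (j' - j) * cj j' := by
  ext a b
  rw [Matrix.SpecialLinearGroup.coe_mul]
  fin_cases a <;> fin_cases b <;>
    simp [cj, lowerMat, Matrix.mul_apply, Fin.sum_univ_two]

theorem cj_mul_T (j : ℤ) : cj j * ModularGroup.T = cj (j + 1) := by
  ext a b
  rw [Matrix.SpecialLinearGroup.coe_mul]
  fin_cases a <;> fin_cases b <;>
    simp [cj, ModularGroup.T, Matrix.mul_apply, Fin.sum_univ_two]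
  ring

theorem cj_mul_S (j j' : ℤ) : cj j * ModularGroup.S = swapMat j j' * cj j' := by
  ext a b
  rw [Matrix.SpecialLinearGroup.coe_mul, Matrix.SpecialLinearGroup.coe_mul]
  fin_cases a <;> fin_cases b <;>
    simp [cj, swapMat, ModularGroup.S, Matrix.mul_apply, Fin.sum_univ_two]

theorem cj_zero : cj 0 = ModularGroup.S := by
  ext a b
  fin_cases a <;> fin_cases b <;> simp [cj, ModularGroup.S]

theorem cj_zero_mul_S : cj 0 * ModularGroup.S = negOne := by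
  ext a b
  rw [Matrix.SpecialLinearGroup.coe_mul]
  fin_cases a <;> fin_cases b <;>
    simp [cj, negOne, ModularGroup.S, Matrix.mul_apply, Fin.sum_univ_two]

theorem mem_Gamma0_of_dvd {p : ℕ} {γ : SL(2, ℤ)} (h : (p : ℤ) ∣ γ 1 0) : γ ∈ Gamma0 p := by
  rw [Gamma0_mem]
  exact (ZMod.intCast_zmod_eq_zero_iff_dvd _ _).mpr h

theorem lowerMat_mem {p : ℕ} {n : ℤ} (h : (p : ℤ) ∣ n) : lowerMat n ∈ Gamma0 p :=
  mem_Gamma0_of_dvd (by simpa [lowerMat] using h)

theorem swapMat_mem {p : ℕ} {j j' : ℤ} (h : (p : ℤ) ∣ j * j' + 1) : swapMat j j' ∈ Gamma0 p :=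
  mem_Gamma0_of_dvd (by simpa [swapMat] using h)

theorem negOne_mem (p : ℕ) : negOne ∈ Gamma0 p :=
  mem_Gamma0_of_dvd (by simp [negOne])

section Slash

variable {p : ℕ} {k : ℤ} (F : ModularForm (Gamma0 p) k)

theorem slash_mem {γ : SL(2, ℤ)} (hγ : γ ∈ Gamma0 p) : (F : ℍ → ℂ) ∣[k] γ = F := by
  have h := SlashInvariantFormClass.slash_action_eq F (Matrix.SpecialLinearGroup.mapGL ℝ γ)
    (Subgroup.mem_map_of_mem _ hγ)
  exact h

theorem slash_mem_mul {γ : SL(2, ℤ)} (hγ : γ ∈ Gamma0 p) (δ : SL(2, ℤ)) :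
    (F : ℍ → ℂ) ∣[k] (γ * δ) = (F : ℍ → ℂ) ∣[k] δ := by
  rw [SlashAction.slash_mul, slash_mem F hγ]

/-- Lemma B: the coset term only depends on `j` mod `p`. -/
theorem slash_cj_congr {j j' : ℤ} (h : (p : ℤ) ∣ j' - j) :
    (F : ℍ → ℂ) ∣[k] cj j = (F : ℍ → ℂ) ∣[k] cj j' := by
  rw [cj_eq j j', slash_mem_mul F (lowerMat_mem h)]

/-- Lemma A: `S` permutes the nonzero cosets. -/
theorem slash_cj_S {j j' : ℤ} (h : (p : ℤ) ∣ j * j' + 1) :
    ((F : ℍ → ℂ) ∣[k] cj j) ∣[k] ModularGroup.S = (F : ℍ → ℂ) ∣[k] cj j' := by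
  rw [← SlashAction.slash_mul, cj_mul_S j j', slash_mem_mul F (swapMat_mem h)]

theorem slash_cj_T (j : ℤ) :
    ((F : ℍ → ℂ) ∣[k] cj j) ∣[k] ModularGroup.T = (F : ℍ → ℂ) ∣[k] cj (j + 1) := by
  rw [← SlashAction.slash_mul, cj_mul_T]

theorem slash_cj_zero_S :
    ((F : ℍ → ℂ) ∣[k] cj 0) ∣[k] ModularGroup.S = F := by
  rw [← SlashAction.slash_mul, cj_zero_mul_S, slash_mem F (negOne_mem p)]

theorem mdiff_slash (γ : SL(2, ℤ)) : MDiff ((F : ℍ → ℂ) ∣[k] γ) := by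
  have h := (ModularForm.translate F (Matrix.SpecialLinearGroup.mapGL ℝ γ)).holo'
  exact h

end Slash

section Trace

variable {p : ℕ} [Fact p.Prime] {k : ℤ} (F : ModularForm (Gamma0 p) k)

/-- The trace function `F + ∑_{a mod p} F|S T^a`. -/
noncomputable def trFun : ℍ → ℂ :=
  (F : ℍ → ℂ) + ∑ a : ZMod p, (F : ℍ → ℂ) ∣[k] cj (a.val : ℤ)

theorem T_mem_Gamma0 (p : ℕ) : ModularGroup.T ∈ Gamma0 p :=
  mem_Gamma0_of_dvd (by simp [ModularGroup.T])

theorem trFun_slash_T : trFun F ∣[k] ModularGroup.T = trFun F := by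
  unfold trFun
  rw [SlashAction.add_slash, SlashAction.sum_slash, slash_mem F (T_mem_Gamma0 p)]
  congr 1
  simp_rw [slash_cj_T]
  rw [← Equiv.sum_comp (Equiv.addRight (1 : ZMod p))
    (fun a : ZMod p => (F : ℍ → ℂ) ∣[k] cj (a.val : ℤ))]
  refine Finset.sum_congr rfl fun a _ => ?_
  apply slash_cj_congr
  apply (ZMod.intCast_zmod_eq_zero_iff_dvd _ p).mp
  push_cast
  simp

theorem trFun_slash_S : trFun F ∣[k] ModularGroup.S = trFun F := by
  unfold trFun
  rw [SlashAction.add_slash, SlashAction.sum_slash]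
  have h0 : (F : ℍ → ℂ) ∣[k] ModularGroup.S =
      (F : ℍ → ℂ) ∣[k] cj (((0 : ZMod p).val : ℕ) : ℤ) := by
    rw [ZMod.val_zero, Nat.cast_zero, cj_zero]
  have h1 : ((F : ℍ → ℂ) ∣[k] cj (((0 : ZMod p).val : ℕ) : ℤ)) ∣[k] ModularGroup.S = F := by
    rw [ZMod.val_zero, Nat.cast_zero, slash_cj_zero_S]
  have h2 : ∑ a ∈ Finset.univ.erase (0 : ZMod p),
      ((F : ℍ → ℂ) ∣[k] cj (a.val : ℤ)) ∣[k] ModularGroup.S =
      ∑ a ∈ Finset.univ.erase (0 : ZMod p), (F : ℍ → ℂ) ∣[k] cj (a.val : ℤ) := by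
    have hterm : ∀ a ∈ Finset.univ.erase (0 : ZMod p),
        ((F : ℍ → ℂ) ∣[k] cj (a.val : ℤ)) ∣[k] ModularGroup.S =
          (F : ℍ → ℂ) ∣[k] cj (((-a⁻¹ : ZMod p).val : ℕ) : ℤ) := by
      intro a ha
      have ha0 : a ≠ 0 := Finset.ne_of_mem_erase ha
      apply slash_cj_S
      apply (ZMod.intCast_zmod_eq_zero_iff_dvd _ p).mp
      push_cast
      rw [ZMod.natCast_zmod_val, ZMod.natCast_zmod_val, mul_neg, mul_inv_cancel₀ ha0]
      ring
    rw [Finset.sum_congr rfl hterm]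
    refine Finset.sum_nbij' (fun a => -a⁻¹) (fun a => -a⁻¹) ?_ ?_ ?_ ?_ ?_
    · intro a ha
      have ha0 : a ≠ 0 := Finset.ne_of_mem_erase ha
      simp [ha0]
    · intro a ha
      have ha0 : a ≠ 0 := Finset.ne_of_mem_erase ha
      simp [ha0]
    · intro a _
      simp
    · intro a _
      simp
    · intro a _
      rfl
  rw [← Finset.add_sum_erase Finset.univ _ (Finset.mem_univ (0 : ZMod p)),
    ← Finset.add_sum_erase Finset.univ (fun a : ZMod p => (F : ℍ → ℂ) ∣[k] cj (a.val : ℤ))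
      (Finset.mem_univ (0 : ZMod p)), h0, h1, h2]
  abel

theorem trFun_slash (γ : SL(2, ℤ)) : trFun F ∣[k] γ = trFun F :=
  SlashInvariantForm.slash_action_generators_SL2Z (trFun_slash_S F) (trFun_slash_T F) γ

theorem bdd_slash (γ : SL(2, ℤ)) : IsBoundedAtImInfty ((F : ℍ → ℂ) ∣[k] γ) := by
  have hc : IsCusp ((Matrix.SpecialLinearGroup.mapGL ℝ γ) • (OnePoint.infty : OnePoint ℝ))
      ((Gamma0 p : Subgroup SL(2, ℤ)) : Subgroup (GL (Fin 2) ℝ)) := by
    rw [Subgroup.IsArithmetic.isCusp_iff_isCusp_SL2Z, isCusp_SL2Z_iff']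
    exact ⟨γ, rfl⟩
  have h := F.bdd_at_cusps' hc
  rw [OnePoint.isBoundedAt_iff (g := Matrix.SpecialLinearGroup.mapGL ℝ γ) rfl] at h
  exact h

theorem mdiff_trFun : MDiff (trFun F) := by
  unfold trFun
  exact (ModularFormClass.holo F).add (MDifferentiable.sum fun a _ => mdiff_slash F _)

theorem bdd_trFun : IsBoundedAtImInfty (trFun F) := by
  unfold trFun
  refine Filter.BoundedAtFilter.add (ModularFormClass.bdd_at_infty F) ?_
  exact Asymptotics.IsBigO.sum fun a _ => bdd_slash F _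

/-- The trace, as a level one modular form. -/
noncomputable def trForm : ModularForm 𝒮ℒ k :=
  Fermat.Agent.Lib.JLevelOne.mkLevelOne k (trFun F) (mdiff_trFun F) (trFun_slash F) (bdd_trFun F)

theorem trForm_apply (z : ℍ) :
    trForm F z = F z + ∑ a : ZMod p, ((F : ℍ → ℂ) ∣[k] cj (a.val : ℤ)) z := by
  show trFun F z = _
  simp [trFun]

end Trace

/-! ### Pointwise form of the coset terms -/

/-- The point `(z + j)/p`. -/
noncomputable def shiftPt (p : ℕ) [NeZero p] (j : ℤ) (z : ℍ) : ℍ :=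
  ⟨((z : ℂ) + j) / p, by
    have hp : (0 : ℝ) < p := Nat.cast_pos.mpr (NeZero.pos p)
    have h1 : (((z : ℂ) + j) / p).im = z.im / p := by
      rw [show ((p : ℕ) : ℂ) = ((p : ℝ) : ℂ) by norm_cast, Complex.div_ofReal_im]
      simp
    rw [h1]
    exact div_pos z.im_pos hp⟩

theorem coe_shiftPt (p : ℕ) [NeZero p] (j : ℤ) (z : ℍ) :
    (shiftPt p j z : ℂ) = ((z : ℂ) + j) / p := rfl

theorem denom_cj (j : ℤ) (z : ℍ) : denom (cj j) z = (z : ℂ) + j := by
  rw [ModularGroup.denom_apply]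
  simp [cj]

theorem coe_cj_smul (j : ℤ) (z : ℍ) : ((cj j • z : ℍ) : ℂ) = -1 / ((z : ℂ) + j) := by
  rw [UpperHalfPlane.coe_specialLinearGroup_apply]
  simp [cj]

theorem slash_cj_apply {p : ℕ} [NeZero p] {k : ℤ} (F F' : ModularForm (Gamma0 p) k)
    (h : ∀ z w : ℍ, (w : ℂ) = -1 / ((p : ℂ) * z) → F' z = ((p : ℂ) * z) ^ (-k) * F w)
    (j : ℤ) (z : ℍ) : ((F : ℍ → ℂ) ∣[k] cj j) z = F' (shiftPt p j z) := by
  have hp : (p : ℂ) ≠ 0 := Nat.cast_ne_zero.mpr (NeZero.ne p)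
  have hmul : (p : ℂ) * (shiftPt p j z : ℂ) = (z : ℂ) + j := by
    rw [coe_shiftPt]; field_simp
  rw [ModularForm.SL_slash_apply, denom_cj,
    h (shiftPt p j z) (cj j • z) (by rw [coe_cj_smul, hmul]), hmul, mul_comm]

/-! ### The `q`-expansion of the trace -/

section QExp

open Function.Periodic (qParam)
open scoped Real

theorem sum_zmod_val {M : Type*} [AddCommMonoid M] (p : ℕ) [NeZero p] (g : ℕ → M) :
    ∑ a : ZMod p, g a.val = ∑ j ∈ Finset.range p, g j := by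
  refine Finset.sum_nbij' (fun a => a.val) (fun j => (j : ZMod p)) ?_ ?_ ?_ ?_ ?_
  · intro a _; exact Finset.mem_range.mpr (ZMod.val_lt a)
  · intro j _; exact Finset.mem_univ _
  · intro a _; exact ZMod.natCast_zmod_val a
  · intro j hj; exact ZMod.val_natCast_of_lt (Finset.mem_range.mp hj)
  · intro a _; rfl

theorem geom_sum_root (p : ℕ) [Fact p.Prime] (m : ℕ) :
    ∑ j ∈ Finset.range p, (Complex.exp (2 * π * Complex.I / p) ^ m) ^ j =
      if p ∣ m then (p : ℂ) else 0 := by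
  have hp := (Fact.out : p.Prime)
  have hζ := Complex.isPrimitiveRoot_exp p hp.ne_zero
  split_ifs with h
  · obtain ⟨c, rfl⟩ := h
    rw [pow_mul, hζ.pow_eq_one, one_pow]
    simp
  · have hcop : m.Coprime p := ((Nat.Prime.coprime_iff_not_dvd hp).mpr h).symm
    exact (hζ.pow_of_coprime m hcop).geom_sum_eq_zero hp.one_lt

theorem qParam_shiftPt (p : ℕ) [NeZero p] (j : ℕ) (z : ℍ) :
    qParam 1 (shiftPt p (j : ℤ) z : ℂ) =
      Complex.exp (2 * π * Complex.I * z / p) * Complex.exp (2 * π * Complex.I / p) ^ j := by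
  have hp : (p : ℂ) ≠ 0 := Nat.cast_ne_zero.mpr (NeZero.ne p)
  rw [Function.Periodic.qParam, ← Complex.exp_nat_mul, ← Complex.exp_add]
  congr 1
  rw [coe_shiftPt]
  push_cast
  field_simp

theorem exp_pow_eq_qParam (p : ℕ) [NeZero p] (z : ℍ) :
    Complex.exp (2 * π * Complex.I * z / p) ^ p = qParam 1 (z : ℂ) := by
  have hp : (p : ℂ) ≠ 0 := Nat.cast_ne_zero.mpr (NeZero.ne p)
  rw [← Complex.exp_nat_mul]
  congr 1
  simp only [Complex.ofReal_one, div_one]
  field_simp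

theorem hasSum_trForm {p : ℕ} [Fact p.Prime] {k : ℤ} (F F' : ModularForm (Gamma0 p) k)
    (h : ∀ z w : ℍ, (w : ℂ) = -1 / ((p : ℂ) * z) → F' z = ((p : ℂ) * z) ^ (-k) * F w)
    (z : ℍ) :
    HasSum (fun m : ℕ => ((qExpansion 1 F).coeff m +
      (p : ℂ) * (qExpansion 1 F').coeff (p * m)) • qParam 1 (z : ℂ) ^ m) (trForm F z) := by
  have hΓ := CongruenceSubgroup.one_mem_strictPeriods_Gamma0 p
  have hp := (Fact.out : p.Prime)
  set ω : ℂ := Complex.exp (2 * π * Complex.I * z / p) with hω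
  set ζ : ℂ := Complex.exp (2 * π * Complex.I / p) with hζ
  -- the value
  have hval : trForm F z = F z + ∑ j ∈ Finset.range p, F' (shiftPt p (j : ℤ) z) := by
    rw [trForm_apply]
    congr 1
    rw [← sum_zmod_val p (fun j : ℕ => F' (shiftPt p (j : ℤ) z))]
    refine Finset.sum_congr rfl fun a _ => ?_
    exact slash_cj_apply F F' h _ z
  rw [hval]
  have h1 : HasSum (fun m : ℕ => (qExpansion 1 F).coeff m * qParam 1 (z : ℂ) ^ m) (F z) :=
    ModularForm.hasSum_qExpansion (f := F) one_pos hΓ z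
  have h2 : ∀ j ∈ Finset.range p, HasSum (fun m : ℕ => (qExpansion 1 F').coeff m *
      (ω * ζ ^ j) ^ m) (F' (shiftPt p (j : ℤ) z)) := by
    intro j _
    have := ModularForm.hasSum_qExpansion (f := F') one_pos hΓ (shiftPt p (j : ℤ) z)
    rwa [qParam_shiftPt] at this
  have h3 := hasSum_sum h2
  have h4 : (fun m : ℕ => ∑ j ∈ Finset.range p, (qExpansion 1 F').coeff m * (ω * ζ ^ j) ^ m) =
      fun m : ℕ => (qExpansion 1 F').coeff m * ω ^ m * (if p ∣ m then (p : ℂ) else 0) := by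
    funext m
    rw [← geom_sum_root p m, Finset.mul_sum]
    refine Finset.sum_congr rfl fun j _ => ?_
    rw [mul_pow, ← pow_mul, ← pow_mul, mul_comm j m, mul_assoc]
  rw [h4] at h3
  have hinj : Function.Injective (fun m : ℕ => p * m) := fun a b hab =>
    Nat.eq_of_mul_eq_mul_left hp.pos hab
  have h5 : HasSum ((fun m : ℕ => (qExpansion 1 F').coeff m * ω ^ m *
      (if p ∣ m then (p : ℂ) else 0)) ∘ fun m : ℕ => p * m)
      (∑ j ∈ Finset.range p, F' (shiftPt p (j : ℤ) z)) := by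
    rw [hinj.hasSum_iff]
    · exact h3
    · intro n hn
      have : ¬ p ∣ n := fun ⟨c, hc⟩ => hn ⟨c, hc.symm⟩
      simp [this]
  have h6 := h1.add h5
  convert h6 using 1
  funext m
  simp only [Function.comp_apply, dvd_mul_right, if_true, smul_eq_mul]
  rw [pow_mul, hω, exp_pow_eq_qParam]
  ring

/-- **The trace principle.** -/
theorem exists_trace (p : ℕ) [Fact p.Prime] {k : ℤ} (F F' : ModularForm (Gamma0 p) k)
    (h : ∀ z w : ℍ, (w : ℂ) = -1 / ((p : ℂ) * z) → F' z = ((p : ℂ) * z) ^ (-k) * F w) :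
    ∃ X : ModularForm 𝒮ℒ k, ∀ n : ℕ, (qExpansion 1 X).coeff n =
      (qExpansion 1 F).coeff n + (p : ℂ) * (qExpansion 1 F').coeff (p * n) := by
  refine ⟨trForm F, fun n => ?_⟩
  exact (ModularFormClass.qExpansion_coeff_unique one_pos _root_.one_mem_strictPeriods_SL
    (f := trForm F) (fun τ => hasSum_trForm F F' h τ) n).symm

end QExp

end Fermat.Agent.S16.TraceDirect
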