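import Mathlib
import Fermat.Agent.Lib.LevelOneSturm
import Fermat.Agent.S16.Plan

/-!
# S16 : the "trace + Sturm" lemma (TS), integer form

Pure `q`-series statement used for the resonant cases of the upper bound of S16
(`ℓ = 3`, `9 ∣ p + 1`;  `ℓ ≥ 5`, `ℓ ∣ p + 1`;  also usable for `ℓ = 2`, `8 ∣ p + 1`).

Let `(A, B)` be the pair of `q`-expansions of a form `F` on `Γ₀(p)` of weight `k` and of its
Fricke transform `F♭`; the only thing used about the pair is the *trace principle*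
"`A ^ N + p U_p (B ^ N)` is the `q`-expansion of a level one form of weight `k N`" (hypothesis
`htr`).  If `A ≡ a` and `p ^ m B ≡ e · a(q ^ p)` modulo `ℓ`, with `a` an integral series whose
reduction modulo `ℓ` has `q`-order `n₀ > k / 12`, `p ^ m ≡ e` and `ℓ ∤ e`, we get a contradiction:
with `p + 1 = ℓ ^ w u`, `ℓ ∤ u`, `N = ℓ ^ w`, the level one form `p ^ (m N) (A ^ N + p U_p (B ^ N))`
is `≡ ℓ ^ w e ^ N u a ^ N` modulo `ℓ ^ (w + 1)`, which violates the level one Sturm bound.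
-/

set_option autoImplicit false

open UpperHalfPlane ModularForm ModularFormClass MatrixGroups

namespace Fermat.Agent.S16.TraceSturmInt

/-- `U_p` on power series. -/
noncomputable def Uop {R : Type*} [Semiring R] (p : ℕ) (A : PowerSeries R) : PowerSeries R :=
  PowerSeries.mk fun n => PowerSeries.coeff (p * n) A

section Uop

variable {R : Type*} [CommRing R] (p : ℕ)

@[simp]
theorem coeff_Uop (A : PowerSeries R) (n : ℕ) : (Uop p A).coeff n = A.coeff (p * n) := by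
  simp [Uop]

theorem Uop_add (A B : PowerSeries R) : Uop p (A + B) = Uop p A + Uop p B := by
  ext n; simp

theorem Uop_sub (A B : PowerSeries R) : Uop p (A - B) = Uop p A - Uop p B := by
  ext n; simp

theorem Uop_smul (c : R) (A : PowerSeries R) : Uop p (c • A) = c • Uop p A := by
  ext n; simp

theorem Uop_C_mul (c : R) (A : PowerSeries R) :
    Uop p (PowerSeries.C c * A) = PowerSeries.C c * Uop p A := by
  ext n; simp

theorem Uop_map {S : Type*} [CommRing S] (f : R →+* S) (A : PowerSeries R) :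
    Uop p (PowerSeries.map f A) = PowerSeries.map f (Uop p A) := by
  ext n; simp

theorem Uop_expand (hp : p ≠ 0) (A : PowerSeries R) :
    Uop p (PowerSeries.expand p hp A) = A := by
  ext n; simp

end Uop

/-- Divisibility of an integral power series by an integer constant is coefficientwise. -/
theorem C_dvd_iff (d : ℤ) (x : PowerSeries ℤ) :
    PowerSeries.C d ∣ x ↔ ∀ k, d ∣ x.coeff k := by
  constructor
  · rintro ⟨r, rfl⟩ k
    exact ⟨r.coeff k, by rw [PowerSeries.coeff_C_mul]⟩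
  · intro h
    choose r hr using h
    refine ⟨PowerSeries.mk r, ?_⟩
    ext k
    rw [PowerSeries.coeff_C_mul, PowerSeries.coeff_mk, hr k]

theorem natCast_eq_C (n : ℕ) : (n : PowerSeries ℤ) = PowerSeries.C (n : ℤ) := by
  simp

/-- Low coefficients of a power: if `a ≡ q ^ n₀ · (…)` modulo `ℓ` then `a ^ N` has `q`-order
`≥ n₀ N` modulo `ℓ`, with leading coefficient `(a_{n₀}) ^ N`. -/
theorem coeff_pow_low (ℓ : ℕ) (a : PowerSeries ℤ) (n₀ : ℕ)
    (hlow : ∀ n < n₀, (ℓ : ℤ) ∣ a.coeff n) (N : ℕ) :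
    (∀ n < n₀ * N, (ℓ : ℤ) ∣ (a ^ N).coeff n) ∧
      (ℓ : ℤ) ∣ (a ^ N).coeff (n₀ * N) - (a.coeff n₀) ^ N := by
  set φ := PowerSeries.map (Int.castRingHom (ZMod ℓ)) with hφ
  have hdvd : (PowerSeries.X : PowerSeries (ZMod ℓ)) ^ n₀ ∣ φ a := by
    rw [PowerSeries.X_pow_dvd_iff]
    intro d hd
    rw [hφ, PowerSeries.coeff_map]
    simpa using (ZMod.intCast_zmod_eq_zero_iff_dvd _ ℓ).2 (hlow d hd)
  obtain ⟨v, hv⟩ := hdvd
  have hpow : φ (a ^ N) = PowerSeries.X ^ (n₀ * N) * v ^ N := by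
    rw [map_pow, hv, mul_pow, ← pow_mul]
  have hcoeff : ∀ n, ((a ^ N).coeff n : ZMod ℓ) =
      if n₀ * N ≤ n then (v ^ N).coeff (n - n₀ * N) else 0 := by
    intro n
    have h1 : (φ (a ^ N)).coeff n = ((a ^ N).coeff n : ZMod ℓ) := by
      rw [hφ, PowerSeries.coeff_map]; simp
    rw [← h1, hpow, PowerSeries.coeff_X_pow_mul']
  have hv0 : (v.coeff 0 : ZMod ℓ) = (a.coeff n₀ : ZMod ℓ) := by
    have h1 : (φ a).coeff n₀ = (a.coeff n₀ : ZMod ℓ) := by
      rw [hφ, PowerSeries.coeff_map]; simp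
    rw [← h1, hv]
    have := PowerSeries.coeff_X_pow_mul v n₀ 0
    rw [zero_add] at this
    rw [this]
  constructor
  · intro n hn
    rw [← ZMod.intCast_zmod_eq_zero_iff_dvd, hcoeff n, if_neg (by omega)]
  · rw [← ZMod.intCast_zmod_eq_zero_iff_dvd]
    push_cast
    rw [hcoeff (n₀ * N), if_pos le_rfl, Nat.sub_self, PowerSeries.coeff_zero_eq_constantCoeff_apply,
      map_pow, ← PowerSeries.coeff_zero_eq_constantCoeff_apply, hv0, sub_self]

/-- **(TS)**: trace principle + level one Sturm bound.  See the module docstring. -/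
theorem false_of_trace (p ℓ : ℕ) (hp : p.Prime) (hℓ : ℓ.Prime) (k m : ℕ) (e : ℤ)
    (A B : PowerSeries ℂ) (a a' b' : PowerSeries ℤ)
    (hA : A = PowerSeries.map (Int.castRingHom ℂ) a')
    (hB : ((p : ℂ) ^ m) • B = PowerSeries.map (Int.castRingHom ℂ) b')
    (ha' : ∀ n, (ℓ : ℤ) ∣ (a' - a).coeff n)
    (hb' : ∀ n, (ℓ : ℤ) ∣ (b' - PowerSeries.C e * PowerSeries.expand p hp.ne_zero a).coeff n)
    (hpe : (ℓ : ℤ) ∣ (p : ℤ) ^ m - e) (he : ¬ (ℓ : ℤ) ∣ e)
    (n₀ : ℕ) (hn₀ : k < 12 * n₀) (hlow : ∀ n < n₀, (ℓ : ℤ) ∣ a.coeff n)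
    (hlead : ¬ (ℓ : ℤ) ∣ a.coeff n₀)
    (htr : ∀ N : ℕ, ∃ X : ModularForm 𝒮ℒ ((k : ℤ) * N),
      qExpansion 1 X = A ^ N + (p : ℂ) • Uop p (B ^ N)) : False := by
  obtain ⟨w, u, hu, hpu⟩ :=
    Nat.exists_eq_pow_mul_and_not_dvd (n := p + 1) (by omega) ℓ hℓ.ne_one
  set N := ℓ ^ w with hN
  have hNpos : 0 < N := pow_pos hℓ.pos w
  obtain ⟨X, hX⟩ := htr N
  have hℓZ : Prime (ℓ : ℤ) := Nat.prime_iff_prime_int.mp hℓ
  -- the integral `q`-expansion of `p ^ (m N) X`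
  set z : PowerSeries ℤ :=
    PowerSeries.C ((p : ℤ) ^ (m * N)) * a' ^ N + PowerSeries.C (p : ℤ) * Uop p (b' ^ N) with hz
  have hXz : ((p : ℂ) ^ (m * N)) • qExpansion 1 X = PowerSeries.map (Int.castRingHom ℂ) z := by
    have h1 : ((p : ℂ) ^ (m * N)) • ((p : ℂ) • Uop p (B ^ N)) =
        (p : ℂ) • Uop p ((((p : ℂ) ^ m) • B) ^ N) := by
      rw [smul_pow, ← pow_mul, Uop_smul, smul_comm]
    rw [hX, smul_add, h1, hB, hA, hz, map_add, map_mul, map_mul, PowerSeries.map_C,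
      PowerSeries.map_C, ← map_pow, ← map_pow, Uop_map, PowerSeries.smul_eq_C_mul,
      PowerSeries.smul_eq_C_mul]
    simp
  -- the congruence `z ≡ e ^ N (p + 1) a ^ N` modulo `ℓ ^ (w + 1)`
  have hcong : ∀ n, ((ℓ : ℤ) ^ (w + 1)) ∣
      z.coeff n - e ^ N * ((p : ℤ) + 1) * (a ^ N).coeff n := by
    have h1 : PowerSeries.C ((ℓ : ℤ) ^ (w + 1)) ∣ a' ^ N - a ^ N := by
      have := dvd_sub_pow_of_dvd_sub (R := PowerSeries ℤ) (p := ℓ) (a := a') (b := a)
        (by rw [natCast_eq_C, C_dvd_iff]; exact ha') w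
      rwa [natCast_eq_C, ← map_pow] at this
    have h2 : PowerSeries.C ((ℓ : ℤ) ^ (w + 1)) ∣
        b' ^ N - (PowerSeries.C e * PowerSeries.expand p hp.ne_zero a) ^ N := by
      have := dvd_sub_pow_of_dvd_sub (R := PowerSeries ℤ) (p := ℓ) (a := b')
        (b := PowerSeries.C e * PowerSeries.expand p hp.ne_zero a)
        (by rw [natCast_eq_C, C_dvd_iff]; exact hb') w
      rwa [natCast_eq_C, ← map_pow] at this
    have h3 : ((ℓ : ℤ) ^ (w + 1)) ∣ ((p : ℤ) ^ m) ^ N - e ^ N :=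
      dvd_sub_pow_of_dvd_sub (R := ℤ) (p := ℓ) (by exact_mod_cast hpe) w
    have key : Uop p ((PowerSeries.C e * PowerSeries.expand p hp.ne_zero a) ^ N) =
        PowerSeries.C (e ^ N) * a ^ N := by
      rw [mul_pow, ← map_pow, ← map_pow, Uop_C_mul, Uop_expand]
    have h2' : PowerSeries.C ((ℓ : ℤ) ^ (w + 1)) ∣
        Uop p (b' ^ N) - PowerSeries.C (e ^ N) * a ^ N := by
      rw [← key, ← Uop_sub, C_dvd_iff]
      intro n
      rw [coeff_Uop]
      exact (C_dvd_iff _ _).1 h2 _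
    have h3' : PowerSeries.C ((ℓ : ℤ) ^ (w + 1)) ∣
        PowerSeries.C (((p : ℤ) ^ m) ^ N - e ^ N) * a ^ N :=
      Dvd.dvd.mul_right ((map_dvd PowerSeries.C h3)) _
    have hsum : PowerSeries.C ((ℓ : ℤ) ^ (w + 1)) ∣
        z - PowerSeries.C (e ^ N * ((p : ℤ) + 1)) * a ^ N := by
      have : z - PowerSeries.C (e ^ N * ((p : ℤ) + 1)) * a ^ N =
          PowerSeries.C ((p : ℤ) ^ (m * N)) * (a' ^ N - a ^ N) +
            PowerSeries.C (((p : ℤ) ^ m) ^ N - e ^ N) * a ^ N +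
              PowerSeries.C (p : ℤ) * (Uop p (b' ^ N) - PowerSeries.C (e ^ N) * a ^ N) := by
        rw [hz, pow_mul]
        simp only [map_sub, map_mul, map_add, map_pow, map_one]
        ring
      rw [this]
      exact dvd_add (dvd_add (Dvd.dvd.mul_left h1 _) h3') (Dvd.dvd.mul_left h2' _)
    intro n
    have := (C_dvd_iff _ _).1 hsum n
    rwa [map_sub, PowerSeries.coeff_C_mul] at this
  have hpu' : ((p : ℤ) + 1) = (ℓ : ℤ) ^ w * (u : ℤ) := by exact_mod_cast hpu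
  obtain ⟨hlowN, hleadN⟩ := coeff_pow_low ℓ a n₀ hlow N
  -- Sturm
  let M : AddSubgroup ℂ :=
    (AddSubgroup.zmultiples (((ℓ : ℤ) ^ (w + 1) : ℤ) : ℂ)).comap
      (AddMonoidHom.mulLeft ((p : ℂ) ^ (m * N)))
  have hmem : ∀ n : ℕ, (qExpansion 1 X).coeff n ∈ M ↔ ((ℓ : ℤ) ^ (w + 1)) ∣ z.coeff n := by
    intro n
    have h1 : (p : ℂ) ^ (m * N) * (qExpansion 1 X).coeff n = ((z.coeff n : ℤ) : ℂ) := by
      have := congrArg (PowerSeries.coeff n) hXz
      rw [PowerSeries.coeff_smul, PowerSeries.coeff_map] at this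
      simpa using this
    show (AddMonoidHom.mulLeft ((p : ℂ) ^ (m * N))) ((qExpansion 1 X).coeff n) ∈
      AddSubgroup.zmultiples (((ℓ : ℤ) ^ (w + 1) : ℤ) : ℂ) ↔ _
    rw [AddMonoidHom.coe_mulLeft, h1, AddSubgroup.mem_zmultiples_iff]
    constructor
    · rintro ⟨j, hj⟩
      refine ⟨j, ?_⟩
      have : ((j * (ℓ : ℤ) ^ (w + 1) : ℤ) : ℂ) = ((z.coeff n : ℤ) : ℂ) := by
        rw [← hj]; push_cast; simp
      have := Int.cast_injective this
      rw [← this]; ring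
    · rintro ⟨j, hj⟩
      refine ⟨j, ?_⟩
      rw [hj]; push_cast; simp [mul_comm]
  have hall : ∀ n : ℕ, (qExpansion 1 X).coeff n ∈ M := by
    refine Fermat.Agent.Lib.LevelOneSturm.coeff_mem_of_le M _ X ?_
    intro n hn
    rw [hmem]
    have hn' : n < n₀ * N := by
      have h1 : 12 * n ≤ k * N := by exact_mod_cast hn
      have h2 : k * N < 12 * n₀ * N := Nat.mul_lt_mul_of_pos_right hn₀ hNpos
      nlinarith
    have h1 := hcong n
    have h2 : ((ℓ : ℤ) ^ (w + 1)) ∣ e ^ N * ((p : ℤ) + 1) * (a ^ N).coeff n := by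
      obtain ⟨t, ht⟩ := hlowN n hn'
      rw [hpu', ht]
      exact ⟨e ^ N * u * t, by ring⟩
    have := dvd_add h1 h2
    rwa [sub_add_cancel] at this
  -- contradiction at `n₀ N`
  have h1 := (hmem (n₀ * N)).1 (hall (n₀ * N))
  have h2 := hcong (n₀ * N)
  have h3 : ((ℓ : ℤ) ^ (w + 1)) ∣ e ^ N * ((p : ℤ) + 1) * (a ^ N).coeff (n₀ * N) := by
    have := dvd_sub h1 h2
    rwa [sub_sub_cancel] at this
  rw [hpu'] at h3
  have h4 : (ℓ : ℤ) ∣ e ^ N * (u : ℤ) * (a ^ N).coeff (n₀ * N) := by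
    have h5 : (ℓ : ℤ) ^ w * (ℓ : ℤ) ∣ (ℓ : ℤ) ^ w * (e ^ N * (u : ℤ) * (a ^ N).coeff (n₀ * N)) := by
      rw [← pow_succ]
      convert h3 using 1
      ring
    exact (mul_dvd_mul_iff_left (pow_ne_zero w hℓZ.ne_zero)).1 h5
  rcases hℓZ.dvd_or_dvd h4 with h5 | h5
  · rcases hℓZ.dvd_or_dvd h5 with h6 | h6
    · exact he (hℓZ.dvd_of_dvd_pow h6)
    · exact hu (by exact_mod_cast h6)
  · have h6 : (ℓ : ℤ) ∣ (a.coeff n₀) ^ N := by
      have := dvd_sub h5 hleadN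
      rwa [sub_sub_cancel] at this
    exact hlead (hℓZ.dvd_of_dvd_pow h6)

/-! ## Wrappers in the vocabulary of `S16/Plan` -/

section Plan

open Fermat.Agent.S16

/-- Plan's `psU` is `Uop`. -/
theorem psU_eq_Uop (p : ℕ) (A : PowerSeries ℂ) : psU p A = Uop p A := rfl

/-- Plan's `psV` is Mathlib's `PowerSeries.expand`. -/
theorem psV_eq_expand (p : ℕ) (hp : p ≠ 0) (A : PowerSeries ℂ) :
    psV p A = PowerSeries.expand p hp A := by
  ext n
  simp [psV, PowerSeries.coeff_expand]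

/-- `psV` of an integral series. -/
theorem psV_map (p : ℕ) (hp : p ≠ 0) (a : PowerSeries ℤ) :
    psV p (PowerSeries.map (Int.castRingHom ℂ) a) =
      PowerSeries.map (Int.castRingHom ℂ) (PowerSeries.expand p hp a) := by
  rw [psV_eq_expand p hp, PowerSeries.map_expand]

/-- `psU` of an integral series. -/
theorem psU_map (p : ℕ) (a : PowerSeries ℤ) :
    psU p (PowerSeries.map (Int.castRingHom ℂ) a) =
      PowerSeries.map (Int.castRingHom ℂ) (Uop p a) := by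
  rw [psU_eq_Uop, Uop_map]

/-- The pair `(1, 1)` in weight `0`. -/
theorem isPair_one {p : ℕ} [NeZero p] (hT : PairAPI p) : IsPair p 0 1 1 := by
  have h1 := hT.levelOne (1 : ModularForm 𝒮ℒ 0)
  have h2 : qExpansion 1 ((1 : ModularForm 𝒮ℒ 0) : ℍ → ℂ) = 1 := ModularForm.qExpansion_one
  rw [h2, psV_eq_expand p (NeZero.ne p), map_one] at h1
  exact h1

/-- Powers of a pair. -/
theorem isPair_pow {p : ℕ} [NeZero p] (hT : PairAPI p) {k : ℤ} {A B : PowerSeries ℂ}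
    (h : IsPair p k A B) (N : ℕ) : IsPair p (k * N) (A ^ N) (B ^ N) := by
  induction N with
  | zero => simpa using isPair_one hT
  | succ N ih =>
    have h1 := hT.mul ih h
    have h2 : k * ((N + 1 : ℕ) : ℤ) = k * (N : ℤ) + k := by push_cast; ring
    rw [pow_succ, pow_succ, h2]
    exact h1

/-- The trace principle for powers of a pair. -/
theorem exists_trace_pow {p : ℕ} [NeZero p] (hT : PairAPI p) {k : ℤ} {A B : PowerSeries ℂ}
    (h : IsPair p k A B) (N : ℕ) :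
    ∃ X : ModularForm 𝒮ℒ (k * N), qExpansion 1 X = A ^ N + (p : ℂ) • Uop p (B ^ N) :=
  hT.trace (isPair_pow hT h N)

/-- **(TS)** for a pair, given the pair calculus. -/
theorem false_of_isPair (p ℓ : ℕ) [NeZero p] (hT : PairAPI p) (hp : p.Prime) (hℓ : ℓ.Prime)
    (k m : ℕ) (e : ℤ) (A B : PowerSeries ℂ) (h : IsPair p (k : ℤ) A B) (a a' b' : PowerSeries ℤ)
    (hA : A = PowerSeries.map (Int.castRingHom ℂ) a')
    (hB : ((p : ℂ) ^ m) • B = PowerSeries.map (Int.castRingHom ℂ) b')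
    (ha' : ∀ n, (ℓ : ℤ) ∣ (a' - a).coeff n)
    (hb' : ∀ n, (ℓ : ℤ) ∣ (b' - PowerSeries.C e * PowerSeries.expand p hp.ne_zero a).coeff n)
    (hpe : (ℓ : ℤ) ∣ (p : ℤ) ^ m - e) (he : ¬ (ℓ : ℤ) ∣ e)
    (n₀ : ℕ) (hn₀ : k < 12 * n₀) (hlow : ∀ n < n₀, (ℓ : ℤ) ∣ a.coeff n)
    (hlead : ¬ (ℓ : ℤ) ∣ a.coeff n₀) : False :=
  false_of_trace p ℓ hp hℓ k m e A B a a' b' hA hB ha' hb' hpe he n₀ hn₀ hlow hlead
    (fun N => exists_trace_pow hT h N)

end Plan

end Fermat.Agent.S16.TraceSturmInt
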