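import Fermat.Agent.S16.Plan
import Fermat.Agent.Lib.DeltaInt

/-!
# S16, package (E): the `Δ`-identity

`G ∈ M₂(Γ₀(p))` with integral `q`-expansion, `ℓ ∤ a₀(G)` and `a_n(G) ≡ 0 mod ℓ^a` for `n ≥ 1`
forces `ℓ^a ∣ p + 1` (`ℓ ≠ p`).  Everything comes from the trace principle:

* the pair `(V_p Δ, p⁻¹² Δ)` has trace in `M₁₂(SL₂ℤ)` with `a₀ = 0`, hence
  `p¹¹ V_p Δ + U_p Δ = τ(p) Δ`; the `q^p`-coefficient gives `τ(p²) = τ(p)² - p¹¹`;
* the pair of `G · Δ(p z)` has trace a level one cusp form of weight `14`, which is `0`, hence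
  `p¹² G · V_p Δ = U_p (U_p G · Δ)`; the `q¹`- and `q^p`-coefficients give
  `ℓ^a ∣ τ(p)` and `ℓ^a ∣ p¹² - τ(p²)`.
-/

set_option autoImplicit false

noncomputable section

namespace Fermat.Agent.S16.UDeltaTrace

open ModularCurve CuspForm UpperHalfPlane CongruenceSubgroup ModularFormClass
open scoped MatrixGroups ModularForm

/-! ## The arithmetic core (integers only) -/

/-- Splitting off the term `(0, m)` of a convolution sum whose other terms are divisible. -/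
theorem conv_sum_congr (M : ℤ) (p m : ℕ) (c τ : ℕ → ℤ)
    (hc : ∀ n, 1 ≤ n → M ∣ c n) (hp : 0 < p) :
    M ∣ (∑ x ∈ Finset.HasAntidiagonal.antidiagonal m, c (p * x.1) * τ x.2) - c 0 * τ m := by
  have hmem : ((0, m) : ℕ × ℕ) ∈ Finset.HasAntidiagonal.antidiagonal m := by simp
  rw [← Finset.add_sum_erase _ _ hmem]
  simp only [Nat.mul_zero, add_sub_cancel_left]
  refine Finset.dvd_sum fun x hx => ?_
  rw [Finset.mem_erase, Finset.HasAntidiagonal.mem_antidiagonal] at hx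
  have hx1 : x.1 ≠ 0 := by
    intro h0
    apply hx.1
    have : x.2 = m := by have := hx.2; omega
    exact Prod.ext h0 this
  exact Dvd.dvd.mul_right (hc _ (Nat.mul_pos hp (Nat.pos_of_ne_zero hx1))) _

theorem sumV_one (p : ℕ) (hp : p.Prime) (c τ : ℕ → ℤ) (hτ0 : τ 0 = 0) :
    ∑ x ∈ Finset.HasAntidiagonal.antidiagonal 1, c x.1 * (if p ∣ x.2 then τ (x.2 / p) else 0) = 0 := by
  refine Finset.sum_eq_zero fun x hx => ?_
  rw [Finset.HasAntidiagonal.mem_antidiagonal] at hx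
  by_cases h2 : x.2 = 0
  · simp [h2, hτ0]
  · have h21 : x.2 = 1 := by omega
    have : ¬ p ∣ 1 := hp.one_lt.ne' ∘ Nat.dvd_one.mp
    simp [h21, this]

theorem sumV_self (p : ℕ) (hp : p.Prime) (c τ : ℕ → ℤ) (hτ0 : τ 0 = 0) (hτ1 : τ 1 = 1) :
    ∑ x ∈ Finset.HasAntidiagonal.antidiagonal p, c x.1 * (if p ∣ x.2 then τ (x.2 / p) else 0) = c 0 := by
  rw [Finset.sum_eq_single ((0, p) : ℕ × ℕ)]
  · simp [Nat.div_self hp.pos, hτ1]
  · intro x hx hne
    rw [Finset.HasAntidiagonal.mem_antidiagonal] at hx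
    have hx1 : x.1 ≠ 0 := by
      intro h0
      apply hne
      have : x.2 = p := by omega
      exact Prod.ext h0 this
    by_cases hd : p ∣ x.2
    · have h2 : x.2 = 0 := Nat.eq_zero_of_dvd_of_lt hd (by omega)
      simp [h2, hτ0]
    · simp [hd]
  · intro h; exact absurd (by simp) h

/-- The arithmetic core of the `Δ`-identity. -/
theorem dvd_succ_of_sums (p ℓ a : ℕ) (hp : p.Prime) (hℓ : ℓ.Prime) (hne : ℓ ≠ p)
    (c τ : ℕ → ℤ) (hτ0 : τ 0 = 0) (hτ1 : τ 1 = 1)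
    (hc : ∀ n, 1 ≤ n → (ℓ : ℤ) ^ a ∣ c n) (hc0 : ¬ (ℓ : ℤ) ∣ c 0)
    (h12 : (p : ℤ) ^ 11 + τ (p * p) = τ p * τ p)
    (h14 : ∀ n, (p : ℤ) ^ 12 *
        (∑ x ∈ Finset.HasAntidiagonal.antidiagonal n, c x.1 * (if p ∣ x.2 then τ (x.2 / p) else 0)) =
          ∑ x ∈ Finset.HasAntidiagonal.antidiagonal (p * n), c (p * x.1) * τ x.2) :
    (ℓ : ℤ) ^ a ∣ (p : ℤ) + 1 := by
  have hℓ' : Prime (ℓ : ℤ) := Nat.prime_iff_prime_int.mp hℓ
  have hcop0 : IsCoprime ((ℓ : ℤ) ^ a) (c 0) :=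
    ((Prime.coprime_iff_not_dvd hℓ').mpr hc0).pow_left
  have hcopp : IsCoprime ((ℓ : ℤ) ^ a) ((p : ℤ) ^ 11) := by
    have : IsCoprime (ℓ : ℤ) (p : ℤ) := by
      rw [Nat.isCoprime_iff_coprime]
      exact (Nat.coprime_primes hℓ hp).mpr hne
    exact this.pow
  -- `n = 1`
  have e1 := h14 1
  rw [sumV_one p hp c τ hτ0, mul_zero, mul_one] at e1
  have d1 := conv_sum_congr ((ℓ : ℤ) ^ a) p p c τ hc hp.pos
  rw [← e1, zero_sub, dvd_neg] at d1
  have hτp : (ℓ : ℤ) ^ a ∣ τ p := hcop0.dvd_of_dvd_mul_left d1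
  -- `n = p`
  have e2 := h14 p
  rw [sumV_self p hp c τ hτ0 hτ1] at e2
  have d2 := conv_sum_congr ((ℓ : ℤ) ^ a) p (p * p) c τ hc hp.pos
  rw [← e2] at d2
  have d3 : (ℓ : ℤ) ^ a ∣ c 0 * ((p : ℤ) ^ 12 - τ (p * p)) := by
    have : c 0 * ((p : ℤ) ^ 12 - τ (p * p)) = (p : ℤ) ^ 12 * c 0 - c 0 * τ (p * p) := by ring
    rw [this]; exact d2
  have d4 : (ℓ : ℤ) ^ a ∣ (p : ℤ) ^ 12 - τ (p * p) := hcop0.dvd_of_dvd_mul_left d3
  have d5 : (ℓ : ℤ) ^ a ∣ (p : ℤ) ^ 11 * ((p : ℤ) + 1) := by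
    have : (p : ℤ) ^ 11 * ((p : ℤ) + 1) = ((p : ℤ) ^ 12 - τ (p * p)) + τ p * τ p := by
      linear_combination h12
    rw [this]
    exact dvd_add d4 (Dvd.dvd.mul_right hτp _)
  exact hcopp.dvd_of_dvd_mul_left d5


/-! ## The analytic input: two applications of the trace principle -/

open Fermat.Agent.Lib.DeltaInt in
/-- `Δ` as a level one modular form of weight `12`. -/
def discMF : ModularForm 𝒮ℒ 12 := CuspForm.toModularFormₗ CuspForm.discriminant

theorem coeff_qExpansion_discMF (n : ℕ) :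
    (qExpansion 1 discMF).coeff n = ((Fermat.Agent.Lib.DeltaInt.DeltaZ.coeff n : ℤ) : ℂ) :=
  Fermat.Agent.Lib.DeltaInt.coeff_qExpansion_discriminant n

theorem coeff_psU (p : ℕ) (A : PowerSeries ℂ) (n : ℕ) :
    (psU p A).coeff n = A.coeff (p * n) := by
  simp [psU]

theorem coeff_psV (p : ℕ) (A : PowerSeries ℂ) (n : ℕ) :
    (psV p A).coeff n = if p ∣ n then A.coeff (n / p) else 0 := by
  simp [psV]

theorem constantCoeff_psU (p : ℕ) (A : PowerSeries ℂ) :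
    PowerSeries.constantCoeff (psU p A) = PowerSeries.constantCoeff A := by
  rw [← PowerSeries.coeff_zero_eq_constantCoeff_apply, coeff_psU, Nat.mul_zero,
    PowerSeries.coeff_zero_eq_constantCoeff_apply]

theorem constantCoeff_psV (p : ℕ) (A : PowerSeries ℂ) :
    PowerSeries.constantCoeff (psV p A) = PowerSeries.constantCoeff A := by
  rw [← PowerSeries.coeff_zero_eq_constantCoeff_apply, coeff_psV, if_pos (dvd_zero p),
    Nat.zero_div, PowerSeries.coeff_zero_eq_constantCoeff_apply]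

theorem constantCoeff_discMF : PowerSeries.constantCoeff (qExpansion 1 discMF) = 0 := by
  rw [← PowerSeries.coeff_zero_eq_constantCoeff_apply, coeff_qExpansion_discMF,
    Fermat.Agent.Lib.DeltaInt.DeltaZ_coeff_zero, Int.cast_zero]

theorem levelOne_weight_two_eq_zero (k : ℤ) (hk : k = 2) (h : ModularForm 𝒮ℒ k) : h = 0 := by
  subst hk
  exact rank_zero_iff_forall_zero.mp ModularForm.levelOne_weight_two_rank_zero h

/-- A level one form of weight `14` with vanishing constant term has zero `q`-expansion. -/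
theorem qExpansion_eq_zero_of_weight_fourteen (X : ModularForm 𝒮ℒ (2 + 12))
    (h0 : (qExpansion 1 X).coeff 0 = 0) : qExpansion 1 X = 0 := by
  rw [ModularForm.qExpansion_eq_qExpansion_discriminant_mul X h0,
    levelOne_weight_two_eq_zero _ (by norm_num)
      (CuspForm.discriminantEquiv (ModularForm.toCuspForm X h0))]
  rw [FunLike.coe_zero, qExpansion_zero, mul_zero]

section
variable (p : ℕ) [Fact p.Prime]

local notation "τ" => fun n : ℕ => (Fermat.Agent.Lib.DeltaInt.DeltaZ.coeff n : ℤ)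

/-- `τ(p²) = τ(p)² - p¹¹`, from the trace principle for `Δ(p z)`. -/
theorem tau_sq (hT : PairAPI p) (hSt : SturmLow) :
    (p : ℤ) ^ 11 + τ (p * p) = τ p * τ p := by
  have hp : p.Prime := Fact.out
  have hp0 : (p : ℂ) ≠ 0 := Nat.cast_ne_zero.mpr hp.ne_zero
  obtain ⟨X, hX⟩ := hT.trace (hT.levelOneV discMF)
  have hSL : (1 : ℝ) ∈ (𝒮ℒ).strictPeriods := _root_.one_mem_strictPeriods_SL
  have hXc : ∀ n, (qExpansion 1 X).coeff n =
      (if p ∣ n then ((τ (n / p) : ℤ) : ℂ) else 0) +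
        (p : ℂ) * ((p : ℂ) ^ (-(12 : ℤ)) * ((τ (p * n) : ℤ) : ℂ)) := by
    intro n
    rw [hX]
    simp only [map_add, PowerSeries.coeff_smul, coeff_psU, coeff_psV, coeff_qExpansion_discMF,
      smul_eq_mul]
  set t : ℂ := (p : ℂ) * ((p : ℂ) ^ (-(12 : ℤ)) * ((τ p : ℤ) : ℂ)) with ht
  have hY : ∀ n, (qExpansion 1 ((X - t • discMF : ModularForm 𝒮ℒ 12) : ℍ → ℂ)).coeff n =
      (qExpansion 1 X).coeff n - t * ((τ n : ℤ) : ℂ) := by
    intro n
    have h1 : qExpansion 1 ((X - t • discMF : ModularForm 𝒮ℒ 12) : ℍ → ℂ) =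
        qExpansion 1 X - t • qExpansion 1 discMF := by
      rw [FunLike.coe_sub, ModularForm.qExpansion_sub one_pos hSL X (t • discMF),
        FunLike.coe_smul, ModularForm.qExpansion_smul one_pos hSL t discMF]
    rw [h1]
    simp only [map_sub, PowerSeries.coeff_smul, coeff_qExpansion_discMF, smul_eq_mul]
  have hall := hSt (⊥ : AddSubgroup ℂ) 12
    (X - t • discMF) (by
      intro n hn
      rw [AddSubgroup.mem_bot, hY, hXc]
      have hn1 : n = 0 ∨ n = 1 := by omega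
      rcases hn1 with rfl | rfl
      · simp [Fermat.Agent.Lib.DeltaInt.DeltaZ_coeff_zero]
      · have : ¬ p ∣ 1 := hp.one_lt.ne' ∘ Nat.dvd_one.mp
        simp [this, Fermat.Agent.Lib.DeltaInt.DeltaZ_coeff_one, ht])
  have hpp := hall p
  rw [AddSubgroup.mem_bot, hY, hXc] at hpp
  simp only [dvd_refl, if_true, Nat.div_self hp.pos,
    Fermat.Agent.Lib.DeltaInt.DeltaZ_coeff_one, ht] at hpp
  have h12 : (p : ℂ) ^ (-(12 : ℤ)) = ((p : ℂ) ^ 12)⁻¹ := by
    rw [zpow_neg]; norm_cast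
  rw [h12] at hpp
  have key : ((p : ℂ) ^ 11 + ((τ (p * p) : ℤ) : ℂ)) = ((τ p : ℤ) : ℂ) * ((τ p : ℤ) : ℂ) := by
    field_simp at hpp
    linear_combination hpp
  exact_mod_cast key

/-- The weight-`14` identity `p¹² G · V_p Δ = U_p (U_p G · Δ)` on integer coefficients. -/
theorem weight_fourteen (hT : PairAPI p) (G : ModularForm (Gamma0 p) 2) (c : ℕ → ℤ)
    (hc : ∀ n, (qExpansion 1 G).coeff n = (c n : ℂ)) (n : ℕ) :
    (p : ℤ) ^ 12 *
        (∑ x ∈ Finset.HasAntidiagonal.antidiagonal n,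
          c x.1 * (if p ∣ x.2 then τ (x.2 / p) else 0)) =
      ∑ x ∈ Finset.HasAntidiagonal.antidiagonal (p * n), c (p * x.1) * τ x.2 := by
  have hp : p.Prime := Fact.out
  have hp0 : (p : ℂ) ≠ 0 := Nat.cast_ne_zero.mpr hp.ne_zero
  obtain ⟨X, hX⟩ := hT.trace (hT.mul (hT.weightTwo G) (hT.levelOneV discMF))
  have h0 : (qExpansion 1 X).coeff 0 = 0 := by
    rw [hX]
    simp [constantCoeff_psU, constantCoeff_psV, constantCoeff_discMF]
  have hX0 := qExpansion_eq_zero_of_weight_fourteen X h0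
  rw [hX] at hX0
  have hn := congrArg (PowerSeries.coeff n) hX0
  have hS1 : (qExpansion 1 G * psV p (qExpansion 1 discMF)).coeff n =
      ((∑ x ∈ Finset.HasAntidiagonal.antidiagonal n,
          c x.1 * (if p ∣ x.2 then τ (x.2 / p) else 0) : ℤ) : ℂ) := by
    rw [PowerSeries.coeff_mul]
    push_cast
    refine Finset.sum_congr rfl fun x _ => ?_
    rw [hc, coeff_psV]
    split_ifs <;> simp [coeff_qExpansion_discMF]
  have hS2 : (((-(p : ℂ)⁻¹) • psU p (qExpansion 1 G)) *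
        (((p : ℂ) ^ (-(12 : ℤ))) • qExpansion 1 discMF)).coeff (p * n) =
      (-(p : ℂ)⁻¹ * (p : ℂ) ^ (-(12 : ℤ))) *
        ((∑ x ∈ Finset.HasAntidiagonal.antidiagonal (p * n), c (p * x.1) * τ x.2 : ℤ) : ℂ) := by
    rw [PowerSeries.coeff_mul]
    push_cast
    rw [Finset.mul_sum]
    refine Finset.sum_congr rfl fun x _ => ?_
    simp only [PowerSeries.coeff_smul, coeff_psU, smul_eq_mul, hc, coeff_qExpansion_discMF]
    ring
  rw [map_add, PowerSeries.coeff_smul, coeff_psU, hS1, hS2, map_zero, smul_eq_mul] at hn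
  have h12 : (p : ℂ) ^ (-(12 : ℤ)) = ((p : ℂ) ^ 12)⁻¹ := by
    rw [zpow_neg]; norm_cast
  rw [h12] at hn
  have key : ((p : ℂ) ^ 12) *
      ((∑ x ∈ Finset.HasAntidiagonal.antidiagonal n,
          c x.1 * (if p ∣ x.2 then τ (x.2 / p) else 0) : ℤ) : ℂ) =
      ((∑ x ∈ Finset.HasAntidiagonal.antidiagonal (p * n), c (p * x.1) * τ x.2 : ℤ) : ℂ) := by
    field_simp at hn
    linear_combination hn
  exact_mod_cast key

/-- **Package (E)** (contract of roster item U9). `G ≡ c₀ mod ℓ^a` with `ℓ ∤ c₀` forces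
`ℓ^a ∣ p + 1` (`ℓ ≠ p`). -/
theorem noCongOne_delta (hT : PairAPI p) (hSt : SturmLow) (l : ℕ) (hl : l.Prime) (hlp : l ≠ p)
    (a : ℕ) (ha : ¬ l ^ a ∣ p + 1) : NoCongOne p l a := by
  intro G c hc hdiv
  by_contra h0
  apply ha
  have h := dvd_succ_of_sums p l a Fact.out hl hlp c (fun n => τ n)
    Fermat.Agent.Lib.DeltaInt.DeltaZ_coeff_zero Fermat.Agent.Lib.DeltaInt.DeltaZ_coeff_one
    hdiv h0 (tau_sq p hT hSt) (weight_fourteen p hT G c hc)
  exact_mod_cast h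

end

end Fermat.Agent.S16.UDeltaTrace
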