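import Mathlib
import Fermat.Agent.S16.Plan
import Fermat.Agent.Lib.DeltaInt

/-!
# S16, package U5: the 2-adic resonance `p ≡ 7 mod 8`

`noCongOne_two_res`: for a prime `p ≡ 7 mod 8` there is no `G ∈ M₂(Γ₀(p))` with integral
q-expansion, odd constant term and `a_n(G) ≡ 0 mod 8` for all `n ≥ 1`.

Proof (board #682 (A)).  Normalise `a := G / a₀(G) = 1 + 8 g` (`g` is `2`-integral).  Put
`N := 4 (E₄² + E₄ a² - 2 a E₆) + (E₄ - a²)²`, a form of weight `8` and level `p`.  The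
polynomial identity `E₄ · (N - 256 Δ) = 512 W'` (a consequence of `E₄³ - E₆² = 1728 Δ`) and the
fact that `E₄` is a unit of `ℤ_(2)[[q]]` give `Ξ := N / 256 ≡ Δ mod 2`.  At the other cusp the
same computation applies to `a♭ = -U_p a / p = 1 + 8 g'` (this uses `p ≡ -1 mod 8`) and
`E₄(q^p)`, `E₆(q^p)`, `Δ(q^p)`.  The trace–Sturm lemma (weight `8 < 12`) then forces
`Δ ≡ 0 mod 2`, which is absurd since `a₁(Δ) = 1`.
-/

set_option autoImplicit false

noncomputable section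

namespace Fermat.Agent.S16

open ModularCurve CuspForm UpperHalfPlane CongruenceSubgroup ModularFormClass
open scoped MatrixGroups ModularForm

namespace UTwoRes

/-! ### The subring `ℤ_(ℓ) ⊆ ℂ` and power series with coefficients in a subring -/

/-- `ℤ_(ℓ)` as a subring of `ℂ` (its elements are the `x` with `IsLInt ℓ x`). -/
def zl (ℓ : ℕ) (hℓ : ℓ.Prime) : Subring ℂ where
  carrier := {x | IsLInt ℓ x}
  mul_mem' := by
    rintro x y ⟨a₁, d₁, hd₁, h₁⟩ ⟨a₂, d₂, hd₂, h₂⟩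
    refine ⟨a₁ * a₂, d₁ * d₂, ?_, ?_⟩
    · intro h
      rcases (Nat.Prime.dvd_mul hℓ).mp h with h | h
      · exact hd₁ h
      · exact hd₂ h
    · push_cast
      linear_combination ((d₂ : ℂ) * y) * h₁ + (a₁ : ℂ) * h₂
  one_mem' := ⟨1, 1, fun h => hℓ.one_lt.ne' (Nat.dvd_one.mp h), by simp⟩
  add_mem' := by
    rintro x y ⟨a₁, d₁, hd₁, h₁⟩ ⟨a₂, d₂, hd₂, h₂⟩
    refine ⟨a₁ * d₂ + a₂ * d₁, d₁ * d₂, ?_, ?_⟩
    · intro h
      rcases (Nat.Prime.dvd_mul hℓ).mp h with h | h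
      · exact hd₁ h
      · exact hd₂ h
    · push_cast
      linear_combination (d₂ : ℂ) * h₁ + (d₁ : ℂ) * h₂
  zero_mem' := ⟨0, 1, fun h => hℓ.one_lt.ne' (Nat.dvd_one.mp h), by simp⟩
  neg_mem' := by
    rintro x ⟨a, d, hd, h⟩
    refine ⟨-a, d, hd, ?_⟩
    push_cast
    linear_combination -h

theorem mem_zl_iff (ℓ : ℕ) (hℓ : ℓ.Prime) (x : ℂ) : x ∈ zl ℓ hℓ ↔ IsLInt ℓ x := Iff.rfl

/-- The inverse of an integer prime to `ℓ` lies in `ℤ_(ℓ)`. -/
theorem inv_int_mem_zl (ℓ : ℕ) (hℓ : ℓ.Prime) (u : ℤ) (hu : ¬ (ℓ : ℤ) ∣ u) :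
    ((u : ℂ))⁻¹ ∈ zl ℓ hℓ := by
  have hu0 : (u : ℂ) ≠ 0 := by
    intro h
    apply hu
    have : u = 0 := by exact_mod_cast h
    rw [this]; exact dvd_zero _
  refine ⟨u, u.natAbs * u.natAbs, ?_, ?_⟩
  · intro h
    have h' : ℓ ∣ u.natAbs := by
      rcases (Nat.Prime.dvd_mul hℓ).mp h with h | h <;> exact h
    exact hu (Int.natCast_dvd.mpr h')
  · have h3 : (u.natAbs : ℤ) * (u.natAbs : ℤ) = u * u := Int.natAbs_mul_self' u
    have h2 : ((u.natAbs * u.natAbs : ℕ) : ℂ) = (u : ℂ) * (u : ℂ) := by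
      rw [Nat.cast_mul, ← Int.cast_natCast (R := ℂ) u.natAbs, ← Int.cast_mul, h3, Int.cast_mul]
    rw [h2, mul_assoc, mul_inv_cancel₀ hu0, mul_one]

/-- The inverse of a natural number prime to `ℓ` lies in `ℤ_(ℓ)`. -/
theorem inv_nat_mem_zl (ℓ : ℕ) (hℓ : ℓ.Prime) (d : ℕ) (hd : ¬ ℓ ∣ d) :
    ((d : ℂ))⁻¹ ∈ zl ℓ hℓ := by
  have hd0 : (d : ℂ) ≠ 0 := by
    intro h
    apply hd
    have : d = 0 := by exact_mod_cast h
    rw [this]; exact dvd_zero _
  exact ⟨1, d, hd, by rw [mul_inv_cancel₀ hd0]; simp⟩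

/-- Power series over `ℂ` all of whose coefficients lie in the subring `S`. -/
def psSub (S : Subring ℂ) : Subring (PowerSeries ℂ) := (PowerSeries.map S.subtype).range

theorem mem_psSub_iff (S : Subring ℂ) (A : PowerSeries ℂ) :
    A ∈ psSub S ↔ ∀ n, PowerSeries.coeff n A ∈ S := by
  constructor
  · rintro ⟨A', rfl⟩ n
    rw [PowerSeries.coeff_map]
    exact (PowerSeries.coeff n A').2
  · intro h
    refine ⟨PowerSeries.mk fun n => ⟨PowerSeries.coeff n A, h n⟩, ?_⟩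
    ext n
    simp

/-- Integral power series lie in `psSub S`. -/
theorem map_int_mem_psSub (S : Subring ℂ) (Q : PowerSeries ℤ) :
    PowerSeries.map (Int.castRingHom ℂ) Q ∈ psSub S := by
  rw [mem_psSub_iff]
  intro n
  rw [PowerSeries.coeff_map]
  exact intCast_mem S _

/-- Division by a series with constant term `1` inside `psSub S`. -/
theorem mem_psSub_of_mul_mem (S : Subring ℂ) {e W : PowerSeries ℂ} (he : e ∈ psSub S)
    (he0 : PowerSeries.constantCoeff e = 1) (h : e * W ∈ psSub S) : W ∈ psSub S := by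
  obtain ⟨e', rfl⟩ := he
  have h1 : PowerSeries.constantCoeff e' = 1 := by
    apply Subtype.ext
    have h0 := he0
    rw [← PowerSeries.coeff_zero_eq_constantCoeff_apply, PowerSeries.coeff_map] at h0
    simpa using h0
  have hu : IsUnit e' := PowerSeries.isUnit_iff_constantCoeff.mpr (h1 ▸ isUnit_one)
  obtain ⟨v, hv⟩ := hu.exists_right_inv
  have h2 : PowerSeries.map S.subtype e' * PowerSeries.map S.subtype v = 1 := by
    rw [← map_mul, hv, map_one]
  have h3 : W = PowerSeries.map S.subtype v * (PowerSeries.map S.subtype e' * W) := by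
    rw [← mul_assoc, mul_comm (PowerSeries.map S.subtype v), h2, one_mul]
  rw [h3]
  exact Subring.mul_mem _ ⟨v, rfl⟩ h

/-! ### The weight-8 combination -/

/-- `N(x, y, z) = 4 (x² + x y² - 2 y z) + (x - y²)²`, written with the operations of `PairAPI`
(`x ↔ E₄`, `y ↔ G`, `z ↔ E₆`). -/
def nExpr (x y z : PowerSeries ℂ) : PowerSeries ℂ :=
  (4 : ℂ) • (x * x + x * (y * y) + (-2 : ℂ) • (y * z)) +
    (x + (-1 : ℂ) • (y * y)) * (x + (-1 : ℂ) • (y * y))

theorem nExpr_eq (x y z : PowerSeries ℂ) :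
    nExpr x y z = 4 * (x * x + x * (y * y) - 2 * (y * z)) + (x - y * y) * (x - y * y) := by
  unfold nExpr
  simp only [PowerSeries.smul_eq_C_mul, map_neg, map_ofNat, map_one]
  ring

/-- The algebraic heart: `N = 256 D + 512 W` with `W` integral, whenever `a = 1 + 8 g`,
`e₄ = 1 + 240 s`, `e₆ = 1 - 504 (s - 2 t)` and `e₄³ - e₆² = 1728 D`. -/
theorem exists_nExpr_eq (S : Subring ℂ) (g s t D a e4 e6 : PowerSeries ℂ)
    (hg : g ∈ psSub S) (hs : s ∈ psSub S) (ht : t ∈ psSub S) (hD : D ∈ psSub S)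
    (hs0 : PowerSeries.constantCoeff s = 0)
    (ha : a = 1 + 8 * g) (he4 : e4 = 1 + 240 * s) (he6 : e6 = 1 - 504 * (s - 2 * t))
    (hrel : e4 ^ 3 - e6 ^ 2 = 1728 * D) :
    ∃ W ∈ psSub S, nExpr e4 a e6 = 256 * D + 512 * W := by
  set W' : PowerSeries ℂ := 13 * D + 7938 * t ^ 2 - 120 * s * D - 11718 * s * t + 4437 * s ^ 2
    - 126 * g * t + 78 * g * s + g ^ 2 + 27000 * s ^ 3 - 30240 * g * s * t + 18720 * g * s ^ 2
    + 300 * g ^ 2 * s + 4 * g ^ 3 + 14400 * g ^ 2 * s ^ 2 + 960 * g ^ 3 * s + 8 * g ^ 4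
    + 1920 * g ^ 4 * s with hW'
  have hW'mem : W' ∈ psSub S := by
    rw [hW']
    have h2 : ∀ (k : ℕ) [k.AtLeastTwo], (OfNat.ofNat k : PowerSeries ℂ) ∈ psSub S :=
      fun k _ => ofNat_mem (psSub S) k
    repeat' first
      | apply Subring.add_mem
      | apply Subring.sub_mem
      | apply Subring.pow_mem
      | apply Subring.mul_mem
      | exact hg
      | exact hs
      | exact ht
      | exact hD
      | exact h2 _
  have key : e4 * (nExpr e4 a e6 - 256 * D) = 512 * W' := by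
    rw [nExpr_eq, hW']
    subst ha he4 he6
    linear_combination 4 * hrel
  have hc : PowerSeries.C (1 / 512 : ℂ) * 512 = 1 := by
    rw [show (512 : PowerSeries ℂ) = PowerSeries.C (512 : ℂ) from (map_ofNat _ _).symm, ← map_mul]
    norm_num
  set W : PowerSeries ℂ := PowerSeries.C (1 / 512 : ℂ) * (nExpr e4 a e6 - 256 * D) with hW
  have he4mem : e4 ∈ psSub S := by
    rw [he4]
    exact Subring.add_mem _ (Subring.one_mem _) (Subring.mul_mem _ (ofNat_mem (psSub S) 240) hs)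
  have he40 : PowerSeries.constantCoeff e4 = 1 := by
    rw [he4, map_add, map_mul, hs0, map_one, mul_zero, add_zero]
  have hmul : e4 * W = W' := by
    rw [hW]
    calc e4 * (PowerSeries.C (1 / 512 : ℂ) * (nExpr e4 a e6 - 256 * D))
        = PowerSeries.C (1 / 512 : ℂ) * (e4 * (nExpr e4 a e6 - 256 * D)) := by ring
      _ = PowerSeries.C (1 / 512 : ℂ) * 512 * W' := by rw [key]; ring
      _ = W' := by rw [hc, one_mul]
  refine ⟨W, mem_psSub_of_mul_mem S he4mem he40 (hmul ▸ hW'mem), ?_⟩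
  have : 512 * W = nExpr e4 a e6 - 256 * D := by
    rw [hW]
    calc 512 * (PowerSeries.C (1 / 512 : ℂ) * (nExpr e4 a e6 - 256 * D))
        = PowerSeries.C (1 / 512 : ℂ) * 512 * (nExpr e4 a e6 - 256 * D) := by ring
      _ = nExpr e4 a e6 - 256 * D := by rw [hc, one_mul]
  rw [this]; ring

/-- Consequence for congruences: `N / 256 ≡ D mod ℓ` when `ℓ = 2`. -/
theorem sCong_of_nExpr_eq (h2 : (2 : ℕ).Prime) {N D W : PowerSeries ℂ}
    (hW : W ∈ psSub (zl 2 h2)) (h : N = 256 * D + 512 * W) :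
    SCong 2 1 ((1 / 256 : ℂ) • N) D := by
  intro n
  refine ⟨PowerSeries.coeff n W, (mem_psSub_iff _ _).mp hW n, ?_⟩
  rw [PowerSeries.coeff_smul, h, map_add,
    show (256 : PowerSeries ℂ) = PowerSeries.C (256 : ℂ) from (map_ofNat _ _).symm,
    show (512 : PowerSeries ℂ) = PowerSeries.C (512 : ℂ) from (map_ofNat _ _).symm,
    PowerSeries.coeff_C_mul, PowerSeries.coeff_C_mul]
  push_cast
  ring

/-! ### Building the pair -/

/-- The pair `(N(E₄, G, E₆)/256, N(E₄♭, G♭, E₆♭)/256)` of weight `8`. -/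
theorem isPair_nExpr {p : ℕ} [NeZero p] (hT : PairAPI p) {a b e4 e4' e6 e6' : PowerSeries ℂ}
    (ha : IsPair p 2 a b) (h4 : IsPair p 4 e4 e4') (h6 : IsPair p 6 e6 e6') :
    IsPair p 8 ((1 / 256 : ℂ) • nExpr e4 a e6) ((1 / 256 : ℂ) • nExpr e4' b e6') := by
  have e22 : (2 : ℤ) + 2 = 4 := by norm_num
  have e44 : (4 : ℤ) + 4 = 8 := by norm_num
  have e26 : (2 : ℤ) + 6 = 8 := by norm_num
  have haa : IsPair p 4 (a * a) (b * b) := by
    have h := hT.mul ha ha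
    rwa [e22] at h
  have h44 : IsPair p 8 (e4 * e4) (e4' * e4') := by
    have h := hT.mul h4 h4
    rwa [e44] at h
  have h4aa : IsPair p 8 (e4 * (a * a)) (e4' * (b * b)) := by
    have h := hT.mul h4 haa
    rwa [e44] at h
  have ha6 : IsPair p 8 (a * e6) (b * e6') := by
    have h := hT.mul ha h6
    rwa [e26] at h
  have hd : IsPair p 4 (e4 + (-1 : ℂ) • (a * a)) (e4' + (-1 : ℂ) • (b * b)) :=
    hT.add h4 (hT.smul (-1) haa)
  have hdd : IsPair p 8 ((e4 + (-1 : ℂ) • (a * a)) * (e4 + (-1 : ℂ) • (a * a)))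
      ((e4' + (-1 : ℂ) • (b * b)) * (e4' + (-1 : ℂ) • (b * b))) := by
    have h := hT.mul hd hd
    rwa [e44] at h
  exact hT.smul (1 / 256)
    (hT.add (hT.smul 4 (hT.add (hT.add h44 h4aa) (hT.smul (-2) ha6))) hdd)

/-! ### Level-one data: `E₄ = 1 + 240 s`, `E₆ = 1 - 504 (s - 2 t)`, `E₄³ - E₆² = 1728 Δ` -/

open Fermat.Agent.Lib.DeltaInt
open scoped ArithmeticFunction.sigma

theorem two_dvd_pow_sub (d : ℕ) : (2 : ℤ) ∣ (d : ℤ) ^ 3 - (d : ℤ) ^ 5 := by
  have h : (((d : ℤ) ^ 3 - (d : ℤ) ^ 5 : ℤ) : ZMod 2) = 0 := by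
    push_cast
    generalize ((d : ℕ) : ZMod 2) = x
    revert x
    decide
  exact_mod_cast (ZMod.intCast_zmod_eq_zero_iff_dvd _ 2).mp h

theorem two_dvd_sigma_sub (n : ℕ) : (2 : ℤ) ∣ ((σ 3 n : ℕ) : ℤ) - ((σ 5 n : ℕ) : ℤ) := by
  rw [ArithmeticFunction.sigma_apply, ArithmeticFunction.sigma_apply]
  push_cast
  rw [← Finset.sum_sub_distrib]
  exact Finset.dvd_sum fun d _ => two_dvd_pow_sub d

/-- `(σ₃(n) - σ₅(n)) / 2` as an integral power series. -/
def tSeries : PowerSeries ℤ :=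
  PowerSeries.mk fun n => (((σ 3 n : ℕ) : ℤ) - ((σ 5 n : ℕ) : ℤ)) / 2

theorem sigmaSeries_five : sigmaSeries 5 = sigmaSeries 3 - 2 * tSeries := by
  ext n
  have h2 : (2 : PowerSeries ℤ) = ((2 : ℤ) : PowerSeries ℤ) := by norm_num
  rw [map_sub, h2, coeff_intCast_mul]
  simp only [tSeries, PowerSeries.coeff_mk, coeff_sigmaSeries]
  rw [Int.mul_ediv_cancel' (two_dvd_sigma_sub n)]
  ring

/-- `Σ σ₃(n) qⁿ` over `ℂ`. -/
def sC : PowerSeries ℂ := PowerSeries.map (Int.castRingHom ℂ) (sigmaSeries 3)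

/-- `Σ (σ₃(n) - σ₅(n))/2 qⁿ` over `ℂ`. -/
def tC : PowerSeries ℂ := PowerSeries.map (Int.castRingHom ℂ) tSeries

/-- The q-expansion of `Δ`. -/
def dC : PowerSeries ℂ := PowerSeries.map (Int.castRingHom ℂ) DeltaZ

theorem constantCoeff_sC : PowerSeries.constantCoeff sC = 0 := by
  rw [← PowerSeries.coeff_zero_eq_constantCoeff_apply, sC, PowerSeries.coeff_map,
    coeff_sigmaSeries]
  simp

theorem qExpansion_E₄_eq : qExpansion 1 ModularForm.E₄ = 1 + 240 * sC := by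
  rw [qExpansion_E₄, sC, map_add, map_one, map_mul, map_ofNat]

theorem qExpansion_E₆_eq : qExpansion 1 ModularForm.E₆ = 1 - 504 * (sC - 2 * tC) := by
  rw [qExpansion_E₆, sigmaSeries_five, sC, tC, map_sub, map_one, map_mul, map_ofNat, map_sub,
    map_mul, map_ofNat]

theorem qExpansion_rel :
    qExpansion 1 ModularForm.E₄ ^ 3 - qExpansion 1 ModularForm.E₆ ^ 2 = 1728 * dC := by
  rw [← qExpansion_discriminant_smul, qExpansion_discriminant_eq, dC, PowerSeries.smul_eq_C_mul,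
    map_ofNat]

theorem coeff_zero_dC : PowerSeries.coeff 0 dC = 0 := by
  rw [dC, PowerSeries.coeff_map, DeltaZ_coeff_zero]; simp

theorem coeff_one_dC : PowerSeries.coeff 1 dC = 1 := by
  rw [dC, PowerSeries.coeff_map, DeltaZ_coeff_one]; simp

/-! ### `V_p` as `PowerSeries.expand` -/

theorem psV_eq_expand (p : ℕ) (hp : p ≠ 0) (A : PowerSeries ℂ) :
    psV p A = PowerSeries.expand p hp A := by
  ext n
  rw [PowerSeries.coeff_expand]
  simp [psV]

theorem expand_mem_psSub (S : Subring ℂ) (p : ℕ) (hp : p ≠ 0) {A : PowerSeries ℂ}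
    (hA : A ∈ psSub S) : PowerSeries.expand p hp A ∈ psSub S := by
  rw [mem_psSub_iff] at hA ⊢
  intro n
  rw [PowerSeries.coeff_expand]
  split_ifs
  · exact hA _
  · exact S.zero_mem

end UTwoRes

open UTwoRes in
/-- **(A), the 2-adic resonance.**  For `p ≡ 7 mod 8` no `G ∈ M₂(Γ₀(p))` with integral
q-expansion has odd constant term and all higher coefficients divisible by `8`. -/
theorem noCongOne_two_res (p : ℕ) [Fact p.Prime] (hT : PairAPI p) (hTS : TraceSturmStmt p)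
    (h : p % 8 = 7) : NoCongOne p 2 3 := by
  intro G c hc h8
  by_contra hodd
  have hp : p.Prime := Fact.out
  have hp0 : p ≠ 0 := hp.ne_zero
  have h2 : (2 : ℕ).Prime := Nat.prime_two
  have hpodd : ¬ 2 ∣ p := by omega
  have huinv : ((c 0 : ℂ))⁻¹ ∈ zl 2 h2 := inv_int_mem_zl 2 h2 (c 0) hodd
  have hpinv : ((p : ℂ))⁻¹ ∈ zl 2 h2 := inv_nat_mem_zl 2 h2 p hpodd
  have hu0 : (c 0 : ℂ) ≠ 0 := by
    intro h0
    apply hodd
    have : c 0 = 0 := by exact_mod_cast h0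
    rw [this]; exact dvd_zero _
  have hp0' : (p : ℂ) ≠ 0 := Nat.cast_ne_zero.mpr hp0
  have h8' : ∀ n, 1 ≤ n → c n = 8 * (c n / 8) := by
    intro n hn
    have h1 := h8 n hn
    have h88 : (((2 : ℕ) : ℤ)) ^ 3 = 8 := by norm_num
    rw [h88] at h1
    exact (Int.mul_ediv_cancel' h1).symm
  -- the pair of weight 8
  have hab := hT.smul ((c 0 : ℂ))⁻¹ (hT.weightTwo G)
  have hpair := isPair_nExpr hT hab (hT.levelOne ModularForm.E₄) (hT.levelOne ModularForm.E₆)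
  -- the cusp `∞`: `G / c₀ = 1 + 8 g`
  set g : PowerSeries ℂ := PowerSeries.mk fun n =>
    if n = 0 then 0 else ((c n / 8 : ℤ) : ℂ) * ((c 0 : ℂ))⁻¹ with hg
  have hgmem : g ∈ psSub (zl 2 h2) := by
    rw [mem_psSub_iff]
    intro n
    rw [hg, PowerSeries.coeff_mk]
    split_ifs
    · exact Subring.zero_mem _
    · exact Subring.mul_mem _ (intCast_mem _ _) huinv
  have hag : ((c 0 : ℂ))⁻¹ • qExpansion 1 G = 1 + 8 * g := by
    ext n
    rw [PowerSeries.coeff_smul, hc, map_add,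
      show (8 : PowerSeries ℂ) = PowerSeries.C (8 : ℂ) from (map_ofNat _ _).symm,
      PowerSeries.coeff_C_mul, hg, PowerSeries.coeff_mk, PowerSeries.coeff_one]
    simp only [smul_eq_mul]
    by_cases hn : n = 0
    · subst hn
      simp [hu0]
    · rw [if_neg hn, if_neg hn, zero_add]
      have h1 := h8' n (Nat.one_le_iff_ne_zero.mpr hn)
      have h3 : (c n : ℂ) = 8 * ((c n / 8 : ℤ) : ℂ) := by exact_mod_cast h1
      rw [h3]
      ring
  obtain ⟨W, hW, hWeq⟩ := exists_nExpr_eq (zl 2 h2) g sC tC dC _ _ _ hgmem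
    (map_int_mem_psSub _ _) (map_int_mem_psSub _ _) (map_int_mem_psSub _ _) constantCoeff_sC
    hag qExpansion_E₄_eq qExpansion_E₆_eq qExpansion_rel
  have hA := sCong_of_nExpr_eq h2 hW hWeq
  -- the cusp `0`: `G♭ / c₀ = -U_p G / (p c₀) = 1 + 8 g'` (uses `p ≡ -1 mod 8`)
  obtain ⟨m, hm⟩ : ∃ m : ℕ, p + 1 = 8 * m := ⟨(p + 1) / 8, by omega⟩
  have hm' : (8 : ℂ) * (m : ℂ) = (p : ℂ) + 1 := by exact_mod_cast hm.symm
  set g' : PowerSeries ℂ := PowerSeries.mk fun n =>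
    if n = 0 then -(m : ℂ) * ((p : ℂ))⁻¹
    else -((c (p * n) / 8 : ℤ) : ℂ) * ((p : ℂ))⁻¹ * ((c 0 : ℂ))⁻¹ with hg'
  have hg'mem : g' ∈ psSub (zl 2 h2) := by
    rw [mem_psSub_iff]
    intro n
    rw [hg', PowerSeries.coeff_mk]
    split_ifs
    · exact Subring.mul_mem _ (Subring.neg_mem _ (natCast_mem _ _)) hpinv
    · exact Subring.mul_mem _
        (Subring.mul_mem _ (Subring.neg_mem _ (intCast_mem _ _)) hpinv) huinv
  have hbg : ((c 0 : ℂ))⁻¹ • ((-(p : ℂ)⁻¹) • psU p (qExpansion 1 G)) = 1 + 8 * g' := by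
    ext n
    rw [PowerSeries.coeff_smul, PowerSeries.coeff_smul, psU, PowerSeries.coeff_mk, hc, map_add,
      show (8 : PowerSeries ℂ) = PowerSeries.C (8 : ℂ) from (map_ofNat _ _).symm,
      PowerSeries.coeff_C_mul, hg', PowerSeries.coeff_mk, PowerSeries.coeff_one]
    simp only [smul_eq_mul]
    by_cases hn : n = 0
    · subst hn
      rw [if_pos rfl, if_pos rfl, mul_zero]
      have e1 : ((c 0 : ℂ))⁻¹ * (-(p : ℂ)⁻¹ * (c 0 : ℂ)) = -(p : ℂ)⁻¹ := by
        field_simp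
      have e2 : 1 + 8 * (-(m : ℂ) * ((p : ℂ))⁻¹) = -(p : ℂ)⁻¹ := by
        calc 1 + 8 * (-(m : ℂ) * ((p : ℂ))⁻¹) = 1 - (8 * (m : ℂ)) * ((p : ℂ))⁻¹ := by ring
          _ = 1 - ((p : ℂ) + 1) * ((p : ℂ))⁻¹ := by rw [hm']
          _ = 1 - ((p : ℂ) * ((p : ℂ))⁻¹ + ((p : ℂ))⁻¹) := by ring
          _ = -(p : ℂ)⁻¹ := by rw [mul_inv_cancel₀ hp0']; ring
      rw [e1, e2]
    · rw [if_neg hn, if_neg hn, zero_add]
      have h1 := h8' (p * n) (Nat.one_le_iff_ne_zero.mpr (Nat.mul_ne_zero hp0 hn))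
      have h3 : (c (p * n) : ℂ) = 8 * ((c (p * n) / 8 : ℤ) : ℂ) := by exact_mod_cast h1
      rw [h3]
      ring
  have hE4' : psV p (qExpansion 1 ModularForm.E₄) = 1 + 240 * PowerSeries.expand p hp0 sC := by
    rw [psV_eq_expand p hp0, qExpansion_E₄_eq, map_add, map_one, map_mul, map_ofNat]
  have hE6' : psV p (qExpansion 1 ModularForm.E₆) =
      1 - 504 * (PowerSeries.expand p hp0 sC - 2 * PowerSeries.expand p hp0 tC) := by
    rw [psV_eq_expand p hp0, qExpansion_E₆_eq, map_sub, map_one, map_mul, map_ofNat, map_sub,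
      map_mul, map_ofNat]
  have hrel' : psV p (qExpansion 1 ModularForm.E₄) ^ 3 -
      psV p (qExpansion 1 ModularForm.E₆) ^ 2 = 1728 * PowerSeries.expand p hp0 dC := by
    rw [psV_eq_expand p hp0, psV_eq_expand p hp0, ← map_pow, ← map_pow, ← map_sub,
      qExpansion_rel, map_mul, map_ofNat]
  have hs0' : PowerSeries.constantCoeff (PowerSeries.expand p hp0 sC) = 0 := by
    rw [PowerSeries.constantCoeff_expand, constantCoeff_sC]
  obtain ⟨W', hW', hWeq'⟩ := exists_nExpr_eq (zl 2 h2) g' _ _ _ _ _ _ hg'mem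
    (expand_mem_psSub _ p hp0 (map_int_mem_psSub _ _))
    (expand_mem_psSub _ p hp0 (map_int_mem_psSub _ _))
    (expand_mem_psSub _ p hp0 (map_int_mem_psSub _ _)) hs0' hbg hE4' hE6' hrel'
  have hB := sCong_of_nExpr_eq h2 hW' hWeq'
  rw [← psV_eq_expand p hp0] at hB
  -- trace–Sturm in weight `8 < 12`
  have hD : SInt 2 dC := fun n =>
    (mem_psSub_iff _ _).mp (map_int_mem_psSub (zl 2 h2) Fermat.Agent.Lib.DeltaInt.DeltaZ) n
  have hlow : ∀ n : ℕ, 12 * n ≤ 8 → IsLDiv 2 1 (PowerSeries.coeff n dC) := by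
    intro n hn
    have hn0 : n = 0 := by omega
    subst hn0
    rw [coeff_zero_dC]
    exact ⟨0, Subring.zero_mem (zl 2 h2), by simp⟩
  have hfin := hTS 2 h2 (by omega) 8 _ _ dC hpair hD hA hB hlow 1
  rw [coeff_one_dC] at hfin
  obtain ⟨t, ⟨a, d, hd, hda⟩, ht⟩ := hfin
  apply hd
  have h3 : ((d : ℤ) : ℂ) = ((2 * a : ℤ) : ℂ) := by
    push_cast
    push_cast at ht
    linear_combination (d : ℂ) * ht + 2 * hda
  have h4 : (d : ℤ) = 2 * a := by exact_mod_cast h3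
  omega

end Fermat.Agent.S16
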