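import Fermat.Agent.S16.Reduce
import Fermat.Prelude.Thm_CongruenceSubgroup_one_mem_strictPeriods_Gamma0

/-!
# S16/Upper: the upper bound `#𝕋/I ∣ n` from duality, the Eisenstein series and Claim U

Let `χ(ker ev) = mℤ`.  The ring homomorphism `𝕋 → ℤ/m` induced by `χ` lifts to a `ℤ`-linear
functional `ψ : 𝕋 → ℤ` (`𝕋` is free), which is `t ↦ a₁(t f)` for an integral cusp form `f`
(duality).  Then `G := E - f` has `a₀ = (p-1)/24` and `a_k ∈ mℤ` for `k ≥ 1`, so `m ∣ n` by Claim U.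
-/

set_option autoImplicit false

noncomputable section

namespace Fermat.Agent.S16

open ModularCurve CuspForm CongruenceSubgroup ModularFormClass UpperHalfPlane

/-- The action of `ev p P` on an element of the lattice is the action of `heckeEvalForms p 2 P`
on the underlying cusp form. -/
theorem ev_apply_coe (p : ℕ) [NeZero p] (P : HeckeAlg) (f : ↥(intLattice p 2)) :
    ((((ev p P : ↥(heckeLatticeAlgebra p ∅)) : Module.End ℤ ↥(intLattice p 2)) f :
        ↥(intLattice p 2)) : CuspForm (Gamma0 p) 2) =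
      (heckeEvalForms p 2 P : heckeAlgebra p 2 ∅).1 (f : CuspForm (Gamma0 p) 2) := rfl

/-- The set of Eisenstein eigenvalues of the Hecke polynomials killing `S₂(Γ₀(p))` is an ideal. -/
def eigIdeal (p : ℕ) [NeZero p] : Ideal ℤ where
  carrier := {a | ∃ P : HeckeAlg, ev p P = 0 ∧ chiE p P = a}
  add_mem' := by
    rintro a b ⟨P, hP, rfl⟩ ⟨Q, hQ, rfl⟩
    exact ⟨P + Q, by rw [map_add, hP, hQ, add_zero], map_add _ _ _⟩
  zero_mem' := ⟨0, map_zero _, map_zero _⟩
  smul_mem' := by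
    rintro c a ⟨P, hP, rfl⟩
    refine ⟨MvPolynomial.C c * P, by rw [map_mul, hP, mul_zero], ?_⟩
    rw [map_mul, chiE_C, smul_eq_mul]

theorem mem_eigIdeal (p : ℕ) [NeZero p] (a : ℤ) :
    a ∈ eigIdeal p ↔ ∃ P : HeckeAlg, ev p P = 0 ∧ chiE p P = a := Iff.rfl

/-- `S16/Upper`. -/
theorem upper (p : ℕ) [NeZero p] (hD : DualityStmt p) (hC : CoeffPolyStmt p)
    (hE : EisFormStmt p) (hU : ClaimU p) : UpperBound p := by
  -- the generator `m` of the ideal of eigenvalues
  obtain ⟨m, hm⟩ : ∃ m : ℕ, eigIdeal p = Ideal.span {(m : ℤ)} := by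
    refine ⟨(Submodule.IsPrincipal.generator (eigIdeal p)).natAbs, ?_⟩
    rw [Int.span_natAbs, Ideal.span_singleton_generator]
  suffices hmn : m ∣ eisensteinNumerator p by
    have : ((eisensteinNumerator p : ℕ) : ℤ) ∈ eigIdeal p := by
      rw [hm, Ideal.mem_span_singleton]
      exact_mod_cast hmn
    exact (mem_eigIdeal p _).mp this
  -- the ring homomorphism `𝕋 → ZMod m`
  let g : HeckeAlg →+* ZMod m := (Int.castRingHom (ZMod m)).comp (chiE p)
  have hg : RingHom.ker (ev p) ≤ RingHom.ker g := by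
    intro P hP
    rw [RingHom.mem_ker] at hP ⊢
    have h1 : chiE p P ∈ eigIdeal p := ⟨P, hP, rfl⟩
    rw [hm, Ideal.mem_span_singleton] at h1
    show ((chiE p P : ℤ) : ZMod m) = 0
    exact (ZMod.intCast_zmod_eq_zero_iff_dvd _ _).mpr h1
  let θ : ↥(heckeLatticeAlgebra p ∅) →+* ZMod m :=
    RingHom.liftOfSurjective (ev p) (ev_surjective p) ⟨g, hg⟩
  have hθ : ∀ P : HeckeAlg, θ (ev p P) = ((chiE p P : ℤ) : ZMod m) := fun P =>
    RingHom.liftOfRightInverse_comp_apply _ _ _ ⟨g, hg⟩ P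
  -- lift to a `ℤ`-linear functional
  obtain ⟨ψ, hψ⟩ := Module.projective_lifting_property
    (Int.castAddHom (ZMod m)).toIntLinearMap θ.toAddMonoidHom.toIntLinearMap
    (ZMod.intCast_surjective)
  have hψ' : ∀ t : ↥(heckeLatticeAlgebra p ∅), ((ψ t : ℤ) : ZMod m) = θ t := fun t =>
    LinearMap.congr_fun hψ t
  -- the integral cusp form and the Eisenstein series
  obtain ⟨f, hf⟩ := hD ψ
  obtain ⟨E, hE0, hEn⟩ := hE
  have hΓ := CongruenceSubgroup.one_mem_strictPeriods_Gamma0 p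
  set f' : CuspForm (Gamma0 p) 2 := (f : CuspForm (Gamma0 p) 2) with hf'
  let G : ModularForm (Gamma0 p) 2 := E - CuspForm.toModularFormₗ f'
  have hGq : qExpansion 1 G = qExpansion 1 E - qExpansion 1 f' := by
    have h1 : (⇑G : ℍ → ℂ) = ⇑E - ⇑f' := rfl
    rw [h1]
    exact ModularForm.qExpansion_sub one_pos hΓ E f'
  -- coefficients of `f`
  have hfk : ∀ k : ℕ, 1 ≤ k → ∃ c : ℤ,
      (qExpansion 1 f').coeff k = (sigmaP p k : ℂ) - (m : ℂ) * (c : ℂ) := by
    intro k hk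
    obtain ⟨t, ht, htf⟩ := hC k hk
    have h1 := hf (ev p t)
    rw [ev_apply_coe] at h1
    have h2 : qCoeff (⇑f') k = ((ψ (ev p t) : ℤ) : ℂ) := by
      rw [← htf f', h1]
    have h3 : ((ψ (ev p t) : ℤ) : ZMod m) = ((sigmaP p k : ℤ) : ZMod m) := by
      rw [hψ', hθ, ht]
    have h4 : (m : ℤ) ∣ (sigmaP p k : ℤ) - ψ (ev p t) := by
      rw [← ZMod.intCast_zmod_eq_zero_iff_dvd]
      push_cast
      rw [h3]
      simp
    obtain ⟨c, hc⟩ := h4
    refine ⟨c, ?_⟩
    have h5 : (ψ (ev p t) : ℤ) = (sigmaP p k : ℤ) - (m : ℤ) * c := by linarith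
    show qCoeff (⇑f') k = _
    rw [h2, h5]
    push_cast
    ring
  -- apply Claim U
  choose! c hc using hfk
  refine hU G m c ?_ ?_
  · rw [hGq, map_sub, hE0, CuspFormClass.qExpansion_coeff_zero f' one_pos hΓ, sub_zero]
  · intro n hn
    rw [hGq, map_sub, hEn n hn, hc n hn]
    ring

end Fermat.Agent.S16
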